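import Fermat.Agent.LanglandsTunnell.AdelicUnits
import Fermat.Agent.LanglandsTunnell.Geom.Orbits

/-!
# Hecke neighbours and functions invariant under the unipotent group

`nbrs_mk` lists the neighbours of a coset by `q + 1` integral representatives (`heckeRep`);
`exists_upper_mul_intGL` is the Iwasawa decomposition over the finite adeles. Consequently
(`finsum_nbrs_of_unip`) the Hecke operator on a function invariant under unipotent elements is
`q c(diag(π) v) + c(diag(π⁻¹) v)`.
-/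

set_option autoImplicit false

noncomputable section

open NumberField Matrix
open FLTAgent.LanglandsTunnell.Geom (exists_level_decomp)

namespace FLTAgent.LanglandsTunnell.Killing

attribute [local instance 2000] MulAction.quotient MulAction.toSemigroupAction
  SemigroupAction.toSMul

variable {F : Type} [Field F] [NumberField F] {n w : Ideal (𝓞 F)}

/-- Integral invertible matrices inside `GL(2)` of the finite adeles. -/
def intGL : GL (Fin 2) (OH F) →* GL (Fin 2) (AF F) :=
  Matrix.GeneralLinearGroup.map (intHom F).toRingHom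

omit [NumberField F] in
theorem intGL_apply (k : GL (Fin 2) (OH F)) (i j : Fin 2) :
    (intGL k).val i j = intHom F (k.val i j) := rfl

/-- Entrywise congruence to `1`. -/
def IsOne (n : Ideal (𝓞 F)) (M : Matrix (Fin 2) (Fin 2) (OH F)) : Prop :=
  ∀ i j, (M - 1) i j ∈ idealOH n

omit [NumberField F] in
theorem IsOne.inv {k : GL (Fin 2) (OH F)} (h : IsOne n k.val) : IsOne n (k⁻¹).val := fun i j => by
  have e : (k⁻¹).val - 1 = -((k⁻¹).val * (k.val - 1)) := by
    rw [Matrix.mul_sub, ← Units.val_mul, inv_mul_cancel, Units.val_one, Matrix.mul_one]; abel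
  rw [e, Matrix.neg_apply, Matrix.mul_apply]
  exact neg_mem (sum_mem fun l _ => Ideal.mul_mem_left _ _ (h l j))

omit [NumberField F] in
theorem isOne_fin_two {a b c d : OH F} (ha : a - 1 ∈ idealOH n) (hb : b ∈ idealOH n)
    (hc : c ∈ idealOH n) (hd : d - 1 ∈ idealOH n) : IsOne n !![a, b; c, d] := by
  intro i j
  fin_cases i <;> fin_cases j <;> simp [ha, hb, hc, hd]

omit [NumberField F] in
theorem intGL_mem_principalSubgroup {k : GL (Fin 2) (OH F)} (h : IsOne n k.val) :
    intGL k ∈ principalSubgroup n := by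
  have key : ∀ {k : GL (Fin 2) (OH F)}, IsOne n k.val → CongrOne n (intGL k).val := by
    intro k h i j
    refine ⟨(k.val - 1) i j, h i j, ?_⟩
    show intHom F ((k.val - 1) i j) = _
    rw [Matrix.sub_apply, Matrix.sub_apply, map_sub, intGL_apply, Matrix.one_apply,
      Matrix.one_apply]
    split_ifs <;> simp
  exact ⟨key h, by rw [← map_inv]; exact key h.inv⟩

theorem exists_of_mem_principalSubgroup {k : GL (Fin 2) (AF F)} (hk : k ∈ principalSubgroup n) :
    ∃ k₀ : GL (Fin 2) (OH F), intGL k₀ = k ∧ IsOne n k₀.val := by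
  have key : ∀ {k : Matrix (Fin 2) (Fin 2) (AF F)}, CongrOne n k →
      ∃ M : Matrix (Fin 2) (Fin 2) (OH F), M.map (intHom F) = k ∧ IsOne n M := by
    intro k hk
    choose y hy hyk using hk
    refine ⟨fun i j => y i j + (1 : Matrix (Fin 2) (Fin 2) (OH F)) i j, ?_, fun i j => ?_⟩
    · ext i j
      have : intHom F (y i j) = (k - 1) i j := hyk i j
      show intHom F (y i j + (1 : Matrix (Fin 2) (Fin 2) (OH F)) i j) = _
      rw [map_add, this, Matrix.sub_apply, Matrix.one_apply, Matrix.one_apply]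
      split_ifs <;> simp
    · have : y i j + (1 : Matrix (Fin 2) (Fin 2) (OH F)) i j -
        (1 : Matrix (Fin 2) (Fin 2) (OH F)) i j
          ∈ idealOH n := by rw [add_sub_cancel_right]; exact hy i j
      exact this
  obtain ⟨M, hM, hM1⟩ := key hk.1
  obtain ⟨M', hM', -⟩ := key hk.2
  have hinj : Function.Injective fun A : Matrix (Fin 2) (Fin 2) (OH F) => A.map (intHom F) :=
    Matrix.map_injective intHom_injective
  refine ⟨⟨M, M', hinj ?_, hinj ?_⟩, Units.ext hM, hM1⟩ <;> dsimp only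
  · rw [Matrix.map_mul, hM, hM', ← Units.val_mul, mul_inv_cancel, Units.val_one,
      Matrix.map_one _ (map_zero _) (map_one _)]
  · rw [Matrix.map_mul, hM, hM', ← Units.val_mul, inv_mul_cancel, Units.val_one,
      Matrix.map_one _ (map_zero _) (map_one _)]

omit [NumberField F] in
/-- Scalars do not change cosets. -/
theorem mk_mul_scalar (g : GL (Fin 2) (AF F)) (z : (AF F)ˣ) :
    ((g * GeneralLinearGroup.scalar (Fin 2) z : GL (Fin 2) (AF F)) : FinPt F n) = g := by
  rw [eq_comm, QuotientGroup.eq, inv_mul_cancel_left]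
  refine Subgroup.mem_sup_right ?_
  rw [GeneralLinearGroup.center_eq_range_scalar]
  exact ⟨z, rfl⟩

omit [NumberField F] in
theorem scalar_comm (g : GL (Fin 2) (AF F)) (z : (AF F)ˣ) :
    GeneralLinearGroup.scalar (Fin 2) z * g = g * GeneralLinearGroup.scalar (Fin 2) z :=
  (Subgroup.mem_center_iff.mp (by
    rw [GeneralLinearGroup.center_eq_range_scalar]; exact ⟨z, rfl⟩) g).symm

omit [NumberField F] in
/-- Right multiplication by the level group fixes a point. -/
theorem mk_mul_congr {k : GL (Fin 2) (AF F)} (hk : k ∈ principalSubgroup n)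
    (g : GL (Fin 2) (AF F)) : ((g * k : GL (Fin 2) (AF F)) : FinPt F n) = g := by
  rw [eq_comm, QuotientGroup.eq, inv_mul_cancel_left]
  exact Subgroup.mem_sup_left hk

/-- `diag(1, π)`. -/
def lowUnit {R : Type} [CommRing R] (π : Rˣ) : GL (Fin 2) R where
  val := !![1, 0; 0, (π : R)]
  inv := !![1, 0; 0, ((π⁻¹ : Rˣ) : R)]
  val_inv := by ext i j; fin_cases i <;> fin_cases j <;> simp
  inv_val := by ext i j; fin_cases i <;> fin_cases j <;> simp

omit [NumberField F] in
theorem lowUnit_eq (π : (AF F)ˣ) :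
    lowUnit π = diagUnit π⁻¹ * GeneralLinearGroup.scalar (Fin 2) π := by
  refine Units.ext ?_
  show !![1, 0; 0, (π : AF F)] =
    !![((π⁻¹ : (AF F)ˣ) : AF F), 0; 0, 1] * Matrix.scalar (Fin 2) (π : AF F)
  rw [Matrix.scalar_apply, Matrix.eta_fin_two (Matrix.diagonal fun _ : Fin 2 => (π : AF F)),
    Matrix.diagonal_apply_eq, Matrix.diagonal_apply_eq, Matrix.diagonal_apply_ne _ Fin.zero_ne_one,
    Matrix.diagonal_apply_ne _ Fin.zero_ne_one.symm, Matrix.mul_fin_two]
  simp only [one_mul, mul_zero, zero_mul, add_zero, zero_add, Units.inv_mul]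

/-- If an integral matrix factors through another one with the same determinant up to a unit, the
quotient lies in the congruence subgroup. -/
theorem exists_mul_of_factor {A R : GL (Fin 2) (AF F)} {A₀ R₀ B₀ : Matrix (Fin 2) (Fin 2) (OH F)}
    (hA : A.val = A₀.map (intHom F)) (hR : R.val = R₀.map (intHom F)) (e : A₀ = R₀ * B₀)
    (hA1 : IsOne n A₀) (hR1 : IsOne n R₀) {u : OH F} (hu : IsUnit u)
    (hdet : intHom F A₀.det = intHom F R₀.det * intHom F u) :
    ∃ k ∈ principalSubgroup n, A = R * k := by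
  have hB : IsUnit B₀.det := by
    have h1 : IsUnit (intHom F R₀.det) := by
      rw [AlgHom.map_det, AlgHom.mapMatrix_apply, ← hR]
      exact (Matrix.isUnit_iff_isUnit_det _).mp R.isUnit
    have h2 : B₀.det = u := intHom_injective (h1.mul_left_cancel (by
      rw [← map_mul, ← Matrix.det_mul, ← e, hdet]))
    rwa [h2]
  have hB1 : IsOne n B₀ := fun i j => by
    have e1 : B₀ - 1 = (A₀ - 1) - (R₀ - 1) * B₀ := by rw [e, Matrix.sub_mul, Matrix.one_mul]; abel
    rw [e1, Matrix.sub_apply, Matrix.mul_apply]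
    exact sub_mem (hA1 i j) (sum_mem fun l _ => Ideal.mul_mem_right _ _ (hR1 i l))
  refine ⟨intGL (Matrix.nonsingInvUnit B₀ hB), intGL_mem_principalSubgroup hB1, Units.ext ?_⟩
  rw [Units.val_mul, hA, hR, e, Matrix.map_mul]
  rfl

section Reps

variable (hw : w.IsPrime) (hw0 : w ≠ ⊥) (hwn : ¬ w ∣ n)

/-- An element of `n` congruent to `1` modulo `w`. -/
theorem exists_mem_sub_one_mem : ∃ t : 𝓞 F, w.IsPrime → w ≠ ⊥ → ¬ w ∣ n → t ∈ n ∧ t - 1 ∈ w := by
  by_cases h : w.IsPrime ∧ w ≠ ⊥ ∧ ¬ w ∣ n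
  · obtain ⟨hw, hw0, hwn⟩ := h
    have hc : w ⊔ n = ⊤ := (hw.isMaximal hw0).out.2 _
      (lt_of_le_not_ge le_sup_left fun h => hwn (Ideal.dvd_iff_le.mpr (le_sup_right.trans h)))
    obtain ⟨a, ha, b, hb, hab⟩ := Submodule.mem_sup.1 (hc ▸ Submodule.mem_top : (1 : 𝓞 F) ∈ _)
    exact ⟨b, fun _ _ _ => ⟨hb, by
      rw [show b - 1 = -a by linear_combination hab]; exact w.neg_mem ha⟩⟩
  · exact ⟨0, fun a b c => absurd ⟨a, b, c⟩ h⟩

/-- The representative in `n` of a residue modulo `w`. -/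
def resRep (n w : Ideal (𝓞 F)) (r : 𝓞 F ⧸ w) : 𝓞 F :=
  (exists_mem_sub_one_mem (n := n) (w := w)).choose * Quotient.out r

include hw hw0 hwn

theorem resRep_mem (r : 𝓞 F ⧸ w) : resRep n w r ∈ n :=
  n.mul_mem_right _ ((exists_mem_sub_one_mem (n := n) (w := w)).choose_spec hw hw0 hwn).1

theorem mk_resRep (r : 𝓞 F ⧸ w) : Ideal.Quotient.mk w (resRep n w r) = r := by
  have h := ((exists_mem_sub_one_mem (n := n) (w := w)).choose_spec hw hw0 hwn).2
  rw [← Ideal.Quotient.eq, map_one] at h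
  rw [resRep, map_mul, h, one_mul, Ideal.Quotient.mk_out]

end Reps

/-- The `q + 1` representatives. -/
def heckeRep (n : Ideal (𝓞 F)) {w : Ideal (𝓞 F)} (π : (AF F)ˣ) :
    Option (𝓞 F ⧸ w) → GL (Fin 2) (AF F)
  | none => lowUnit π
  | some r => upperUnip (toAF F (resRep n w r : F)) * diagUnit π

theorem heckeRep_some_val (π : (AF F)ˣ) (r : 𝓞 F ⧸ w) :
    (heckeRep n π (some r)).val = !![(π : AF F), toAF F (resRep n w r : F); 0, 1] := by
  show !![1, toAF F (resRep n w r : F); 0, 1] * !![(π : AF F), 0; 0, 1] = _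
  rw [Matrix.mul_fin_two]
  simp only [mul_one, one_mul, mul_zero, zero_mul, add_zero, zero_add]

section Neighbours

variable (hw : w.IsPrime) (hw0 : w ≠ ⊥) (hwn : ¬ w ∣ n) {π : (AF F)ˣ} (hπ : IsUniformizerAt n w π)

include hw hw0 hwn hπ

/-- An integral matrix congruent to `1` modulo `n` with determinant a uniformizer lies in one of the
classes. -/
theorem exists_heckeRep_mul {A : GL (Fin 2) (AF F)} {A₀ : Matrix (Fin 2) (Fin 2) (OH F)}
    (hA : A.val = A₀.map (intHom F)) (hA1 : IsOne n A₀) {u : OH F} (hu : IsUnit u)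
    (hdet : intHom F A₀.det = π * intHom F u) :
    ∃ i : Option (𝓞 F ⧸ w), ∃ k ∈ principalSubgroup n, A = heckeRep n π i * k := by
  classical
  obtain ⟨π₀, hπ₀, hπ1, hspan⟩ := isUniformizerAt_iff.mp hπ
  have : NeZero (Ideal.absNorm w) := ⟨absNorm_ne_zero hw0⟩
  have : w.IsMaximal := hw.isMaximal hw0
  let := Ideal.Quotient.field w
  set red : OH F →ₐ[ℤ] 𝓞 F ⧸ w := residueOH w (Ideal.absNorm w) (Ideal.absNorm_mem w) with hred
  have hker : ∀ {x : OH F}, red x = 0 → ∃ y, x = π₀ * y := fun {x} hx => by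
    have h : x ∈ idealOH w := by rw [← ker_residueOH w _ (Ideal.absNorm_mem w)]; exact hx
    rw [hspan] at h
    exact Ideal.mem_span_singleton.mp h
  have hredπ : red π₀ = 0 := by
    have h : π₀ ∈ idealOH w := hspan.symm ▸ Ideal.mem_span_singleton_self π₀
    rwa [← ker_residueOH w _ (Ideal.absNorm_mem w)] at h
  have hredA : red (A₀ 0 0) * red (A₀ 1 1) = red (A₀ 0 1) * red (A₀ 1 0) := by
    rw [← sub_eq_zero, ← map_mul, ← map_mul, ← map_sub, ← Matrix.det_fin_two]
    have e : A₀.det = π₀ * u := intHom_injective (by rw [map_mul, hπ₀, hdet])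
    rw [e, map_mul, hredπ, zero_mul]
  have finish : ∀ (i : Option (𝓞 F ⧸ w)) (R₀ B₀ : Matrix (Fin 2) (Fin 2) (OH F)),
      (heckeRep n π i).val = R₀.map (intHom F) → R₀.det = π₀ → IsOne n R₀ → A₀ = R₀ * B₀ →
      ∃ j : Option (𝓞 F ⧸ w), ∃ k ∈ principalSubgroup n, A = heckeRep n π j * k :=
    fun i R₀ B₀ hR hRdet hR1 e =>
      ⟨i, exists_mul_of_factor hA hR e hA1 hR1 hu (by rw [hdet, hRdet, hπ₀])⟩
  have hx1 : ∀ (x : OH F), x ∈ idealOH n → IsOne n !![π₀, x; 0, 1] := by
    intro x hx i j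
    fin_cases i <;> fin_cases j <;> simp [hπ1, hx]
  by_cases hrow : red (A₀ 1 0) = 0 ∧ red (A₀ 1 1) = 0
  · obtain ⟨y0, hy0⟩ := hker hrow.1
    obtain ⟨y1, hy1⟩ := hker hrow.2
    refine finish none !![1, 0; 0, π₀] !![A₀ 0 0, A₀ 0 1; y0, y1] ?_ (by simp [Matrix.det_fin_two])
      ?_ ?_
    · ext i j; fin_cases i <;> fin_cases j <;> simp [heckeRep, lowUnit, hπ₀]
    · intro i j; fin_cases i <;> fin_cases j <;> simp [hπ1]
    · ext i j; fin_cases i <;> fin_cases j <;> simp [Matrix.mul_apply, ← hy0, ← hy1]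
  · obtain ⟨r, hr0, hr1⟩ : ∃ r, red (A₀ 0 0) = r * red (A₀ 1 0) ∧ red (A₀ 0 1) =
      r * red (A₀ 1 1) := by
      by_cases h10 : red (A₀ 1 0) = 0
      · have h11 : red (A₀ 1 1) ≠ 0 := fun h => hrow ⟨h10, h⟩
        refine ⟨red (A₀ 0 1) / red (A₀ 1 1), ?_, by rw [div_mul_cancel₀ _ h11]⟩
        rw [h10, mul_zero] at hredA ⊢
        exact (mul_eq_zero.mp hredA).resolve_right h11
      · refine ⟨red (A₀ 0 0) / red (A₀ 1 0), by rw [div_mul_cancel₀ _ h10], ?_⟩
        field_simp
        linear_combination -hredA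
    set x : OH F := resRep n w r ⊗ₜ[ℤ] (1 : Zhat) with hx
    have hredx : red x = r := by rw [hred, hx, residueOH_tmul_one, mk_resRep hw hw0 hwn]
    obtain ⟨b0, hb0⟩ := hker (x := A₀ 0 0 - x * A₀ 1 0)
        (by rw [map_sub, map_mul, hredx, hr0, sub_self])
    obtain ⟨b1, hb1⟩ := hker (x := A₀ 0 1 - x * A₀ 1 1)
        (by rw [map_sub, map_mul, hredx, hr1, sub_self])
    refine finish (some r) !![π₀, x; 0, 1] !![b0, b1; A₀ 1 0, A₀ 1 1] ?_
      (by simp [Matrix.det_fin_two]) (hx1 x (tmul_one_mem_idealOH (resRep_mem hw hw0 hwn r))) ?_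
    · rw [heckeRep_some_val]
      ext i j
      fin_cases i <;> fin_cases j <;> simp [hπ₀, hx, intHom_tmul_one]
    · ext i j
      fin_cases i <;> fin_cases j <;> simp [Matrix.mul_apply, ← hb0, ← hb1]

theorem heckeRep_integral (i : Option (𝓞 F ⧸ w)) :
    ∃ R₀ : Matrix (Fin 2) (Fin 2) (OH F), (heckeRep n π i).val = R₀.map (intHom F) ∧
      IsOne n R₀ ∧ intHom F R₀.det = π := by
  obtain ⟨π₀, hπ₀, hπ1, -⟩ := isUniformizerAt_iff.mp hπ
  rcases i with _ | r
  · refine ⟨!![1, 0; 0, π₀], ?_, ?_, by simp [Matrix.det_fin_two, hπ₀]⟩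
    · ext i j; fin_cases i <;> fin_cases j <;> simp [heckeRep, lowUnit, hπ₀]
    · intro i j; fin_cases i <;> fin_cases j <;> simp [hπ1]
  · have hx := tmul_one_mem_idealOH (resRep_mem hw hw0 hwn r)
    refine ⟨!![π₀, resRep n w r ⊗ₜ[ℤ] (1 : Zhat); 0, 1], ?_, ?_,
      by simp [Matrix.det_fin_two, hπ₀]⟩
    · rw [heckeRep_some_val]
      ext i j
      fin_cases i <;> fin_cases j <;> simp [hπ₀, intHom_tmul_one]
    · intro i j; fin_cases i <;> fin_cases j <;> simp [hπ1, hx]

/-- Distinct representatives give distinct cosets. -/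
theorem heckeRep_injective (g : GL (Fin 2) (AF F)) :
    Function.Injective fun i : Option (𝓞 F ⧸ w) =>
      ((g * heckeRep n π i : GL (Fin 2) (AF F)) : FinPt F n) := by
  classical
  obtain ⟨π₀, hπ₀, hπ1, hspan⟩ := isUniformizerAt_iff.mp hπ
  have hnotunit : ¬ IsUnit π₀ := fun hu => by
    have htop : (1 : OH F) ∈ idealOH w := by
      rw [hspan, Ideal.span_singleton_eq_top.mpr hu]; exact Submodule.mem_top
    rw [Algebra.TensorProduct.one_def] at htop
    exact hw.ne_top ((Ideal.eq_top_iff_one _).mpr ((tmul_one_mem_idealOH_iff hw0).mp htop))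
  intro i j hij
  dsimp only at hij
  obtain ⟨k, hk, z, hz⟩ := exists_level_decomp hij
  rw [mul_assoc, mul_assoc, mul_right_inj] at hz
  obtain ⟨k₀, rfl, hk1⟩ := exists_of_mem_principalSubgroup hk
  have hdetk : IsUnit (k₀.val).det := (Matrix.isUnit_iff_isUnit_det _).mp k₀.isUnit
  have entry : ∀ a b, (heckeRep n π j).val a b
      = (z : AF F) * ∑ l, (heckeRep n π i).val a l * intHom F (k₀.val l b) := by
    intro a b
    rw [hz, ← mul_assoc, Units.val_mul, GeneralLinearGroup.scalar]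
    fin_cases b <;> simp [Matrix.mul_apply, intGL_apply, mul_comm]
  have hnone : (heckeRep n π (none : Option (𝓞 F ⧸ w))).val = !![1, 0; 0, (π : AF F)] := rfl
  rcases i with _ | r <;> rcases j with _ | r'
  · rfl
  · exfalso
    have h00 := entry 0 0
    have h11 := entry 1 1
    have h10 := entry 1 0
    simp [heckeRep_some_val, hnone] at h00 h11 h10
    have h10' : k₀.val 1 0 = 0 := intHom_injective (by
      rw [map_zero]; exact π.isUnit.mul_right_eq_zero.mp (z.isUnit.mul_right_eq_zero.mp h10.symm))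
    refine hnotunit ?_
    have e : k₀.val 0 0 = π₀ * π₀ * k₀.val 1 1 := intHom_injective (by
      rw [map_mul, map_mul, hπ₀]
      linear_combination (intHom F (k₀.val 0 0)) * h11 -
        (π : AF F) * (intHom F (k₀.val 1 1)) * h00)
    rw [Matrix.det_fin_two, h10', mul_zero, sub_zero, e] at hdetk
    exact isUnit_of_mul_isUnit_left (isUnit_of_mul_isUnit_left (isUnit_of_mul_isUnit_left hdetk))
  · exfalso
    have h00 := entry 0 0
    have h11 := entry 1 1
    have h10 := entry 1 0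
    simp [heckeRep_some_val, hnone] at h00 h11 h10
    have h10' : k₀.val 1 0 = 0 := intHom_injective (by
      rw [map_zero]; exact z.isUnit.mul_right_eq_zero.mp h10.symm)
    refine hnotunit ?_
    rw [h10', map_zero, mul_zero, add_zero] at h00
    have e : k₀.val 1 1 = π₀ * π₀ * k₀.val 0 0 := intHom_injective (by
      rw [map_mul, map_mul, hπ₀]
      linear_combination (intHom F (k₀.val 1 1)) * h00 -
        (π : AF F) * (intHom F (k₀.val 0 0)) * h11)
    rw [Matrix.det_fin_two, h10', mul_zero, sub_zero, e] at hdetk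
    exact isUnit_of_mul_isUnit_left (isUnit_of_mul_isUnit_left (isUnit_of_mul_isUnit_right hdetk))
  · have h00 := entry 0 0
    have h11 := entry 1 1
    have h10 := entry 1 0
    have h01 := entry 0 1
    simp [heckeRep_some_val] at h00 h11 h10 h01
    have h10' : k₀.val 1 0 = 0 := intHom_injective (by
      rw [map_zero]; exact z.isUnit.mul_right_eq_zero.mp h10.symm)
    rw [h10', map_zero, mul_zero, add_zero] at h00
    have hzk : (z : AF F) * intHom F (k₀.val 0 0) = 1 := by
      refine π.isUnit.mul_left_cancel ?_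
      rw [mul_one]; linear_combination -h00
    have e : k₀.val 0 0 = k₀.val 1 1 := intHom_injective (z.isUnit.mul_left_cancel (hzk.trans h11))
    rw [Matrix.det_fin_two, h10', mul_zero, sub_zero] at hdetk
    obtain ⟨c, hc⟩ := (isUnit_of_mul_isUnit_left hdetk).exists_right_inv
    have hz0 : (z : AF F) = intHom F c := by
      refine ((isUnit_of_mul_isUnit_left hdetk).map (intHom F)).mul_right_cancel ?_
      rw [hzk, ← map_mul, mul_comm c, hc, map_one]
    have hmem : (resRep n w r' - resRep n w r) ⊗ₜ[ℤ] (1 : Zhat) ∈ idealOH w := by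
      rw [hspan, Ideal.mem_span_singleton]
      refine ⟨c * k₀.val 0 1, intHom_injective ?_⟩
      rw [TensorProduct.sub_tmul, map_sub, intHom_tmul_one, intHom_tmul_one, map_mul, map_mul, hπ₀,
        ← hz0]
      linear_combination h01 - (toAF F (resRep n w r : F)) * h11
    rw [tmul_one_mem_idealOH_iff hw0, ← Ideal.Quotient.eq, mk_resRep hw hw0 hwn,
      mk_resRep hw hw0 hwn] at hmem
    rw [hmem]

/-- The exceptional representative is reached from the congruence subgroup. -/
theorem exists_lowUnit_eq : ∃ k₁ ∈ principalSubgroup n, ∃ k ∈ principalSubgroup n,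
    k₁ * diagUnit π = lowUnit π * k := by
  obtain ⟨π₀, hπ₀, hπ1, hspan⟩ := isUniformizerAt_iff.mp hπ
  set t : 𝓞 F := (exists_mem_sub_one_mem (n := n) (w := w)).choose
  obtain ⟨htn, htw⟩ := (exists_mem_sub_one_mem (n := n) (w := w)).choose_spec hw hw0 hwn
  obtain ⟨x, hxn, hxw⟩ : ∃ x : OH F, x ∈ idealOH n ∧ x - 1 ∈ idealOH w := by
    refine ⟨t ⊗ₜ[ℤ] (1 : Zhat), tmul_one_mem_idealOH htn, ?_⟩
    have := tmul_one_mem_idealOH htw
    rwa [TensorProduct.sub_tmul, ← Algebra.TensorProduct.one_def] at this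
  obtain ⟨y, hy⟩ : π₀ ∣ 1 - x * x := by
    have h2 : 1 - x * x ∈ idealOH w := by
      rw [show 1 - x * x = -(x + 1) * (x - 1) by ring]; exact Ideal.mul_mem_left _ _ hxw
    rw [hspan] at h2
    exact Ideal.mem_span_singleton.mp h2
  obtain ⟨b, hb, hbn⟩ : ∃ b, b = 2 * x - x * x * x ∧ b ∈ idealOH n :=
    ⟨_, rfl, sub_mem (Ideal.mul_mem_left _ 2 hxn) (Ideal.mul_mem_left _ (x * x) hxn)⟩
  obtain ⟨d, hd, hdn⟩ : ∃ d, d = 1 - x * x ∧ d - 1 ∈ idealOH n :=
    ⟨_, rfl, by rw [show 1 - x * x - 1 = -x * x by ring]; exact Ideal.mul_mem_left _ _ hxn⟩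
  have hdet : d * d - b * (-x) = 1 := by rw [hb, hd]; ring
  set U : GL (Fin 2) (OH F) := Matrix.nonsingInvUnit !![d, b; -x, d]
    (by rw [Matrix.det_fin_two_of, hdet]; exact isUnit_one) with hU
  have hdπ : d * π₀ - 1 ∈ idealOH n := by
    rw [show d * π₀ - 1 = d * (π₀ - 1) + (d - 1) by ring]
    exact add_mem (Ideal.mul_mem_left _ _ hπ1) hdn
  refine ⟨intGL U, intGL_mem_principalSubgroup (isOne_fin_two hdn hbn (neg_mem hxn) hdn),
    exists_mul_of_factor (A₀ := !![d * π₀, b; -x * π₀, d]) (R₀ := !![1, 0; 0, π₀])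
      (B₀ := !![d * π₀, b; -x, y]) ?_ ?_ ?_
      (isOne_fin_two hdπ hbn (Ideal.mul_mem_right _ _ (neg_mem hxn)) hdn)
      (isOne_fin_two (by simp) (zero_mem _) (zero_mem _) hπ1) isUnit_one ?_⟩
  · rw [Units.val_mul]
    show (!![d, b; -x, d] : Matrix (Fin 2) (Fin 2) (OH F)).map (intHom F) * (diagUnit π).val = _
    ext i j; fin_cases i <;> fin_cases j <;> simp [diagUnit, Matrix.mul_apply, hπ₀]
  · ext i j; fin_cases i <;> fin_cases j <;> simp [lowUnit, hπ₀]
  · rw [← hd] at hy
    ext i j; fin_cases i <;> fin_cases j <;> simp [Matrix.mul_apply, ← hy, mul_comm π₀]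
  · rw [← map_mul, Matrix.det_fin_two_of, Matrix.det_fin_two_of]
    congr 1
    linear_combination π₀ * hdet

theorem nbrs_mk (g : GL (Fin 2) (AF F)) :
    nbrs n w (g : FinPt F n)
      = Set.range fun i : Option (𝓞 F ⧸ w) =>
          ((g * heckeRep n π i : GL (Fin 2) (AF F)) : FinPt F n) := by
  ext v'
  constructor
  · rintro ⟨g', k, π', hg, hk, hπ', rfl⟩
    obtain ⟨k₁, hk₁, z, rfl⟩ := exists_level_decomp hg.symm
    obtain ⟨u, rfl, hu, hu', hu1, hu1'⟩ := hπ.exists_mul_eq hπ'
    obtain ⟨K₀, hK, hK1⟩ := exists_of_mem_principalSubgroup (mul_mem hk₁ hk)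
    obtain ⟨π₀, hπ₀, hπ1, -⟩ := isUniformizerAt_iff.mp hπ
    have hD : IsOne n !![π₀, 0; 0, 1] := by intro i j; fin_cases i <;> fin_cases j <;> simp [hπ1]
    obtain ⟨i, k', hk', he⟩ := exists_heckeRep_mul hw hw0 hwn hπ (A := intGL K₀ * diagUnit π)
      (A₀ := K₀.val * !![π₀, 0; 0, 1]) (by
        rw [Units.val_mul, Matrix.map_mul]
        congr 1
        ext i j; fin_cases i <;> fin_cases j <;> simp [diagUnit, hπ₀])
      (fun i j => by
        rw [show K₀.val * !![π₀, 0; 0, 1] - 1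
          = K₀.val * (!![π₀, 0; 0, 1] - 1) + (K₀.val - 1) by
            rw [Matrix.mul_sub, Matrix.mul_one]; abel, Matrix.add_apply, Matrix.mul_apply]
        exact add_mem (sum_mem fun l _ => Ideal.mul_mem_left _ _ (hD l j)) (hK1 i j))
      ((Matrix.isUnit_iff_isUnit_det _).mp K₀.isUnit)
      (by rw [Matrix.det_mul, map_mul, mul_comm]; simp [Matrix.det_fin_two, hπ₀])
    refine ⟨i, ?_⟩
    have hdu : diagUnit u ∈ principalSubgroup n := by
      constructor <;> intro i j <;> fin_cases i <;> fin_cases j <;>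
        simp [diagUnit, hu1, hu1']
    show _ = ((g * k₁ * GeneralLinearGroup.scalar (Fin 2) z * k * diagUnit (π * u) :
      GL (Fin 2) (AF F)) : FinPt F n)
    have e : g * k₁ * GeneralLinearGroup.scalar (Fin 2) z * k * diagUnit (π * u)
        = g * heckeRep n π i * (k' * diagUnit u) * GeneralLinearGroup.scalar (Fin 2) z := by
      have e1 : diagUnit (π * u) = diagUnit π * diagUnit u := by
        refine Units.ext ?_
        show !![((π * u : (AF F)ˣ) : AF F), 0; 0, 1] =
          !![(π : AF F), 0; 0, 1] * !![(u : AF F), 0; 0, 1]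
        rw [Matrix.mul_fin_two, Units.val_mul]
        simp only [mul_one, mul_zero, zero_mul, add_zero, zero_add]
      rw [hK] at he
      calc g * k₁ * GeneralLinearGroup.scalar (Fin 2) z * k * diagUnit (π * u)
          = g * k₁ * (GeneralLinearGroup.scalar (Fin 2) z * (k * diagUnit (π * u))) := by
            simp only [mul_assoc]
        _ = g * (k₁ * k * diagUnit π) * diagUnit u * GeneralLinearGroup.scalar (Fin 2) z := by
            rw [scalar_comm, e1]; simp only [mul_assoc]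
        _ = _ := by rw [he]; simp only [mul_assoc]
    rw [e, mk_mul_scalar, mk_mul_congr (mul_mem hk' hdu)]
  · rintro ⟨i, rfl⟩
    rcases i with _ | r
    · obtain ⟨k₁, hk₁, k, hk, he⟩ := exists_lowUnit_eq hw hw0 hwn hπ
      exact ⟨g, k₁, π, rfl, hk₁, hπ, by
        show _ = ((g * lowUnit π : GL (Fin 2) (AF F)) : FinPt F n)
        rw [mul_assoc, he, ← mul_assoc, mk_mul_congr hk]⟩
    · refine ⟨g, upperUnip (toAF F (resRep n w r : F)), π, rfl, ?_, hπ, ?_⟩
      · refine ⟨fun i j => ?_, fun i j => ?_⟩ <;> fin_cases i <;> fin_cases j <;>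
          simp [upperUnip, toAF_mem_idealAF (resRep_mem hw hw0 hwn r)]
      · show ((g * upperUnip _ * diagUnit π : GL (Fin 2) (AF F)) : FinPt F n)
          = ((g * (upperUnip _ * diagUnit π) : GL (Fin 2) (AF F)) : FinPt F n)
        rw [mul_assoc]

end Neighbours

/-! ### Left translation by the unipotent group -/

theorem conj_intGL_mem {k : GL (Fin 2) (AF F)} (hk : k ∈ principalSubgroup n)
    (κ : GL (Fin 2) (OH F)) : intGL κ * k * (intGL κ)⁻¹ ∈ principalSubgroup n := by
  obtain ⟨k₀, rfl, h1⟩ := exists_of_mem_principalSubgroup hk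
  rw [← map_mul, ← map_inv, ← map_mul]
  refine intGL_mem_principalSubgroup fun i j => ?_
  have e : (κ * k₀ * κ⁻¹).val - 1 = κ.val * (k₀.val - 1) * (κ⁻¹).val := by
    rw [Units.val_mul, Units.val_mul, Matrix.mul_sub, Matrix.sub_mul, Matrix.mul_one,
      ← Units.val_mul κ κ⁻¹, mul_inv_cancel, Units.val_one]
  rw [e, Matrix.mul_apply]
  refine sum_mem fun l _ => Ideal.mul_mem_right _ _ ?_
  rw [Matrix.mul_apply]
  exact sum_mem fun m _ => Ideal.mul_mem_left _ _ (h1 m l)

/-- Right multiplication by an integral matrix is well defined on cosets. -/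
theorem mk_mul_intGL {g g' : GL (Fin 2) (AF F)} (h : (g : FinPt F n) = g')
    (κ : GL (Fin 2) (OH F)) :
    ((g * intGL κ : GL (Fin 2) (AF F)) : FinPt F n) = (g' * intGL κ : GL (Fin 2) (AF F)) := by
  obtain ⟨k, hk, z, rfl⟩ := exists_level_decomp h
  have e : g * k * GeneralLinearGroup.scalar (Fin 2) z * intGL κ
      = g * intGL κ * (intGL κ⁻¹ * k * (intGL κ⁻¹)⁻¹) * GeneralLinearGroup.scalar (Fin 2) z := by
    rw [map_inv, inv_inv, mul_assoc, scalar_comm]
    simp only [← mul_assoc, mul_inv_cancel_right]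
  rw [e, mk_mul_scalar, mk_mul_congr (conj_intGL_mem hk _)]

/-- Iwasawa decomposition. -/
theorem exists_upper_mul_intGL (g : GL (Fin 2) (AF F)) :
    ∃ (T : GL (Fin 2) (AF F)) (κ : GL (Fin 2) (OH F)), T.val 1 0 = 0 ∧ g = T * intGL κ := by
  obtain ⟨N₁, hN₁, c, hc⟩ := exists_natCast_mul_mem_intAF (g.val 1 0)
  obtain ⟨N₂, hN₂, d, hd⟩ := exists_natCast_mul_mem_intAF (g.val 1 1)
  obtain ⟨N₃, hN₃, a, ha⟩ := exists_natCast_mul_mem_intAF ((g⁻¹).val 0 1)
  obtain ⟨N₄, hN₄, b, hb⟩ := exists_natCast_mul_mem_intAF ((g⁻¹).val 1 1)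
  replace hc : intHom F c = _ := hc
  replace hd : intHom F d = _ := hd
  replace ha : intHom F a = _ := ha
  replace hb : intHom F b = _ := hb
  set c' : OH F := N₂ * c with hc'
  set d' : OH F := N₁ * d with hd'
  have hone : g.val 1 0 * (g⁻¹).val 0 1 + g.val 1 1 * (g⁻¹).val 1 1 = 1 := by
    have h := congrFun (congrFun (show g.val * (g⁻¹).val = 1 by
      rw [← Units.val_mul, mul_inv_cancel, Units.val_one]) 1) 1
    rw [Matrix.mul_apply, Fin.sum_univ_two, Matrix.one_apply_eq] at h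
    exact h
  set M := N₁ * N₂ * N₃ * N₄ with hM
  have hM0 : M ≠ 0 := by positivity
  have hMmem : (M : OH F) ∈ Ideal.span {c', d'} := by
    refine Ideal.mem_span_pair.mpr ⟨(N₄ : OH F) * a, (N₃ : OH F) * b, intHom_injective ?_⟩
    simp only [hc', hd', hM, map_add, map_mul, map_natCast, Nat.cast_mul, hc, hd, ha, hb]
    linear_combination ((N₁ : AF F) * N₂ * N₃ * N₄) * hone
  set I : Ideal (OH F) := Ideal.span {c', d'} with hI
  set J : Ideal (𝓞 F) := I.comap Algebra.TensorProduct.includeLeftRingHom with hJ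
  have hJI : idealOH J = I := idealOH_comap hM0 hMmem
  have hJ0 : J ≠ ⊥ := by
    intro h
    rw [h, idealOH, Ideal.map_bot] at hJI
    have h2 : (M : OH F) = 0 := by rw [← hJI] at hMmem; exact hMmem
    have h3 : (M : AF F) = 0 := by rw [← map_natCast (intHom F) M, h2, map_zero]
    exact (isUnit_natCast_AF (F := F) hM0).ne_zero h3
  obtain ⟨y, hy, hspan⟩ := exists_idealOH_eq_span hJ0
  rw [hJI] at hspan
  have hmem : y ∈ I ∧ c' ∈ Ideal.span {y} ∧ d' ∈ Ideal.span {y} := by
    rw [← hspan]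
    exact ⟨hspan ▸ Ideal.mem_span_singleton_self y, Ideal.subset_span (Set.mem_insert c' _),
      Ideal.subset_span (Set.mem_insert_of_mem c' (Set.mem_singleton d'))⟩
  obtain ⟨p, q, hpq⟩ := Ideal.mem_span_pair.mp hmem.1
  obtain ⟨c₁, hc₁⟩ := Ideal.mem_span_singleton.mp hmem.2.1
  obtain ⟨d₁, hd₁⟩ := Ideal.mem_span_singleton.mp hmem.2.2
  have hbez : p * c₁ + q * d₁ = 1 := intHom_injective (hy.mul_left_cancel (by
    rw [← map_mul, ← map_mul, mul_one]
    congr 1
    conv_rhs => rw [← hpq, hc₁, hd₁]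
    ring))
  set κ : GL (Fin 2) (OH F) := Matrix.nonsingInvUnit !![d₁, p; -c₁, q]
    (by rw [Matrix.det_fin_two_of,
      show d₁ * q - p * -c₁ = p * c₁ + q * d₁ by ring, hbez]; exact isUnit_one) with hκ
  refine ⟨g * intGL κ, κ⁻¹, ?_, by rw [map_inv, mul_inv_cancel_right]⟩
  have hzero : intHom F y * (g.val 1 0 * intHom F d₁ - g.val 1 1 * intHom F c₁) = 0 := by
    have h1 : intHom F c' = intHom F y * intHom F c₁ := by rw [← map_mul, ← hc₁]
    have h2 : intHom F d' = intHom F y * intHom F d₁ := by rw [← map_mul, ← hd₁]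
    rw [hc', map_mul, map_natCast, hc] at h1
    rw [hd', map_mul, map_natCast, hd] at h2
    linear_combination (g.val 1 1) * h1 - (g.val 1 0) * h2
  have hz := hy.mul_right_eq_zero.mp hzero
  rw [Units.val_mul, Matrix.mul_apply, Fin.sum_univ_two, intGL_apply, intGL_apply]
  show g.val 1 0 * intHom F d₁ + g.val 1 1 * intHom F (-c₁) = 0
  rw [map_neg]; linear_combination hz

omit [NumberField F] in
theorem isUnit_upper {T : GL (Fin 2) (AF F)} (hT : T.val 1 0 = 0) : IsUnit (T.val 1 1) := by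
  have h := (Matrix.isUnit_iff_isUnit_det _).mp T.isUnit
  rw [Matrix.det_fin_two, hT, mul_zero, sub_zero] at h
  exact isUnit_of_mul_isUnit_right h

omit [NumberField F] in
/-- An upper triangular matrix commutes with a diagonal one up to a unipotent one. -/
theorem exists_upperUnip_comm {T D : GL (Fin 2) (AF F)} (hT : T.val 1 0 = 0)
    (hD : D.val 1 0 = 0 ∧ D.val 0 1 = 0) :
    ∃ y, T * D = upperUnip y * D * T := by
  have hd := isUnit_upper hT
  have hD' : IsUnit (D.val 1 1) := by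
    have h := (Matrix.isUnit_iff_isUnit_det _).mp D.isUnit
    rw [Matrix.det_fin_two, hD.1, mul_zero, sub_zero] at h
    exact isUnit_of_mul_isUnit_right h
  obtain ⟨e, he⟩ := (hD'.mul hd).exists_left_inv
  refine ⟨e * (T.val 0 1 * D.val 1 1 - D.val 0 0 * T.val 0 1), Units.ext ?_⟩
  rw [Units.val_mul, Units.val_mul, Units.val_mul, Matrix.eta_fin_two T.val,
    Matrix.eta_fin_two D.val, hT, hD.1, hD.2]
  show _ = !![1, e * (T.val 0 1 * D.val 1 1 - D.val 0 0 * T.val 0 1); 0, 1] *
    !![D.val 0 0, 0; 0, D.val 1 1] * !![T.val 0 0, T.val 0 1; 0, T.val 1 1]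
  rw [Matrix.mul_fin_two, Matrix.mul_fin_two, Matrix.mul_fin_two]
  have twoCongr : ∀ {a b c d a' b' c' d' : AF F}, a = a' → b = b' → c = c' → d = d' →
      !![a, b; c, d] = !![a', b'; c', d'] := fun h1 h2 h3 h4 => by rw [h1, h2, h3, h4]
  refine twoCongr ?_ ?_ ?_ ?_
  · ring
  · linear_combination -(T.val 0 1 * D.val 1 1 - D.val 0 0 * T.val 0 1) * he
  · ring
  · ring

/-- The Hecke operator on functions invariant under the unipotent group. -/
theorem finsum_nbrs_of_unip (hw : w.IsPrime) (hw0 : w ≠ ⊥) (hwn : ¬ w ∣ n) {π : (AF F)ˣ}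
    (hπ : IsUniformizerAt n w π) {c : FinPt F n → ℂ}
    (hc : ∀ (b : AF F) v, c (upperUnip b • v) = c v) (v : FinPt F n) :
    ∑ᶠ u ∈ nbrs n w v, c u
      = (Ideal.absNorm w : ℂ) * c (diagUnit π • v) + c (diagUnit π⁻¹ • v) := by
  classical
  have : Finite (𝓞 F ⧸ w) := Ideal.finiteQuotientOfFreeOfNeBot w hw0
  have : Fintype (𝓞 F ⧸ w) := Fintype.ofFinite _
  obtain ⟨g, rfl⟩ := QuotientGroup.mk_surjective v
  obtain ⟨T, κ, hT, rfl⟩ := exists_upper_mul_intGL g
  set f : Option (𝓞 F ⧸ w) → FinPt F n := fun i =>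
    ((T * heckeRep n π i * intGL κ : GL (Fin 2) (AF F)) : FinPt F n) with hf
  have hconj : ∀ (κ : GL (Fin 2) (OH F)) (i : Option (𝓞 F ⧸ w)),
      ∃ j : Option (𝓞 F ⧸ w), ∃ k ∈ principalSubgroup n,
        intGL κ * heckeRep n π i * intGL κ⁻¹ = heckeRep n π j * k := by
    intro κ i
    obtain ⟨R₀, hR, hR1, hRdet⟩ := heckeRep_integral hw hw0 hwn hπ i
    refine exists_heckeRep_mul hw hw0 hwn hπ (A₀ := κ.val * R₀ * (κ⁻¹).val) ?_ ?_ isUnit_one ?_
    · rw [Units.val_mul, Units.val_mul, hR, Matrix.map_mul, Matrix.map_mul]; rfl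
    · intro a b
      have e : κ.val * R₀ * (κ⁻¹).val - 1 = κ.val * (R₀ - 1) * (κ⁻¹).val := by
        rw [Matrix.mul_sub, Matrix.sub_mul, Matrix.mul_one, ← Units.val_mul κ κ⁻¹, mul_inv_cancel,
          Units.val_one]
      rw [e, Matrix.mul_apply]
      refine sum_mem fun l _ => Ideal.mul_mem_right _ _ ?_
      rw [Matrix.mul_apply]
      exact sum_mem fun m _ => Ideal.mul_mem_left _ _ (hR1 m l)
    · rw [Matrix.det_mul, Matrix.det_mul, mul_right_comm, ← Matrix.det_mul, ← Units.val_mul,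
        mul_inv_cancel, Units.val_one, Matrix.det_one, one_mul, hRdet, map_one, mul_one]
  have hinj : Function.Injective f := by
    intro i j hij
    refine heckeRep_injective hw hw0 hwn hπ T ?_
    have h := mk_mul_intGL (κ := κ⁻¹) hij
    simpa only [map_inv, mul_inv_cancel_right] using h
  have hrange : nbrs n w ((T * intGL κ : GL (Fin 2) (AF F)) : FinPt F n) = Set.range f := by
    rw [nbrs_mk hw hw0 hwn hπ]
    ext u
    constructor
    · rintro ⟨i, rfl⟩
      obtain ⟨j, k, hk, he⟩ := hconj κ i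
      refine ⟨j, ?_⟩
      have e : T * intGL κ * heckeRep n π i
          = T * heckeRep n π j * intGL κ * (intGL κ⁻¹ * k * (intGL κ⁻¹)⁻¹) := by
        have he' : intGL κ * heckeRep n π i = heckeRep n π j * k * intGL κ := by
          rw [← he, map_inv, inv_mul_cancel_right]
        rw [mul_assoc, he', map_inv, inv_inv]
        simp only [← mul_assoc, mul_inv_cancel_right]
      show ((T * heckeRep n π j * intGL κ : GL (Fin 2) (AF F)) : FinPt F n)
        = ((T * intGL κ * heckeRep n π i : GL (Fin 2) (AF F)) : FinPt F n)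
      rw [e, mk_mul_congr (conj_intGL_mem hk _)]
    · rintro ⟨i, rfl⟩
      obtain ⟨j, k, hk, he⟩ := hconj κ⁻¹ i
      refine ⟨j, ?_⟩
      have e : T * heckeRep n π i * intGL κ = T * intGL κ * heckeRep n π j * k := by
        rw [mul_assoc (T * intGL κ), ← he, inv_inv, map_inv]
        simp only [← mul_assoc, mul_inv_cancel_right]
      show ((T * intGL κ * heckeRep n π j : GL (Fin 2) (AF F)) : FinPt F n) = _
      rw [hf]; dsimp only
      rw [e, mk_mul_congr hk]
  have hmove : ∀ {D : GL (Fin 2) (AF F)}, D.val 1 0 = 0 ∧ D.val 0 1 = 0 →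
      c ((T * D * intGL κ : GL (Fin 2) (AF F)) : FinPt F n)
        = c (D • ((T * intGL κ : GL (Fin 2) (AF F)) : FinPt F n)) := by
    intro D hD
    obtain ⟨y, hy⟩ := exists_upperUnip_comm hT hD
    rw [hy, show upperUnip y * D * T * intGL κ = upperUnip y * (D * (T * intGL κ)) by
      simp only [mul_assoc]]
    exact hc y ((D * (T * intGL κ) : GL (Fin 2) (AF F)) : FinPt F n)
  rw [hrange, finsum_mem_range hinj, finsum_eq_sum_of_fintype, Fintype.sum_option, add_comm]
  congr 1
  · rw [Finset.sum_congr rfl fun r _ => ?_, Finset.sum_const, nsmul_eq_mul, Finset.card_univ,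
      ← Nat.card_eq_fintype_card]
    · rfl
    · show c ((T * (upperUnip _ * diagUnit π) * intGL κ : GL (Fin 2) (AF F)) : FinPt F n) = _
      rw [← hmove (D := diagUnit π) (by simp [diagUnit])]
      have e : ∀ x, T * (upperUnip x * diagUnit π) * intGL κ
          = upperUnip (x * (T.val 0 0) * ↑((isUnit_upper hT).unit⁻¹)) *
            (T * diagUnit π * intGL κ) := by
        intro x
        simp only [← mul_assoc]
        congr 2
        apply Units.ext
        ext i j
        fin_cases i <;> fin_cases j <;>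
          simp [upperUnip, Matrix.mul_apply, Fin.sum_univ_two, hT]
        rw [mul_assoc, IsUnit.val_inv_mul, mul_one, mul_comm, add_comm]
      rw [e]; exact hc _ ((T * diagUnit π * intGL κ : GL (Fin 2) (AF F)) : FinPt F n)
  · show c ((T * lowUnit π * intGL κ : GL (Fin 2) (AF F)) : FinPt F n) = _
    rw [hmove (by simp [lowUnit])]
    congr 1
    show ((lowUnit π * (T * intGL κ) : GL (Fin 2) (AF F)) : FinPt F n)
      = ((diagUnit π⁻¹ * (T * intGL κ) : GL (Fin 2) (AF F)) : FinPt F n)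
    rw [lowUnit_eq, mul_assoc, scalar_comm, ← mul_assoc, mk_mul_scalar]

end FLTAgent.LanglandsTunnell.Killing
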