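import Fermat.Agent.LanglandsTunnell.Trace.H3Compact

/-!
# Operators of point pair invariants on products of hyperbolic spaces

`infKer` is a product of point pair invariants with continuous compactly supported weights
(`WeightsOK`) and `infOp` the operator it defines. These operators preserve continuity, and
`infOp_infOp` composes two of them by the convolution `cconv` of the weights.
-/

set_option autoImplicit false

noncomputable section

open MeasureTheory Set Filter
open scoped Topology ComplexConjugate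

namespace FLTAgent.LanglandsTunnell.Killing

open FLTAgent.LanglandsTunnell.Trace (integral_coshDist continuous_coshDist exists_radius
  continuousOn_h3conv exists_bound_h3conv h3conv_comm h3conv_assoc integrable_pair)

instance instSigmaFiniteVolH3 : SigmaFinite H3.volH3 := H3.sigmaFinite_volH3

/-- A cutoff which is `1` on `[0, ∞)` and `0` on `(-∞, -1]`. -/
def cutoff (c : ℝ) : ℝ := max 0 (min 1 (c + 1))

theorem cutoff_of_nonneg {c : ℝ} (hc : 0 ≤ c) : cutoff c = 1 := by
  rw [cutoff, min_eq_left (by linarith), max_eq_right zero_le_one]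

/-- The convolution of two point pair invariants, extended continuously below `1`. -/
def cconv (k l : ℝ → ℂ) (c : ℝ) : ℂ := (cutoff c : ℂ) * h3conv k l (max c 1)

theorem cconv_eq (k l : ℝ → ℂ) {c : ℝ} (hc : 1 ≤ c) : cconv k l c = h3conv k l c := by
  rw [cconv, cutoff_of_nonneg (zero_le_one.trans hc), max_eq_left hc]
  simp

theorem cconv_coshDist (k l : ℝ → ℂ) (x y : H3) :
    cconv k l (H3.coshDist x y) = ∫ Q, k (H3.coshDist x Q) * l (H3.coshDist Q y) ∂H3.volH3 := by
  rw [cconv_eq k l (H3.one_le_coshDist x y), integral_coshDist]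

/-- The convolution only sees the values on `[1, ∞)`. -/
theorem h3conv_congr {k k' l l' : ℝ → ℂ} (hk : ∀ c, 1 ≤ c → k c = k' c)
    (hl : ∀ c, 1 ≤ c → l c = l' c) : h3conv k l = h3conv k' l' := by
  funext c
  refine congrArg ((unitClamp c : ℂ) * ·) ?_
  refine integral_congr_ae (Eventually.of_forall fun Q => ?_)
  simp only
  rw [hk _ (H3.one_le_coshDist _ _), hl _ (H3.one_le_coshDist _ _)]

theorem continuous_cconv {k l : ℝ → ℂ} (hk : Continuous k) (hks : HasCompactSupport k)
    (hl : Continuous l) : Continuous (cconv k l) := by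
  refine Continuous.mul ?_ ((continuousOn_h3conv hk hks hl).comp_continuous
    (continuous_id.max continuous_const) fun c => le_max_right c 1)
  exact Complex.continuous_ofReal.comp
    (continuous_const.max (continuous_const.min (continuous_id.add continuous_const)))

theorem hasCompactSupport_cconv {k l : ℝ → ℂ} (hks : HasCompactSupport k)
    (hls : HasCompactSupport l) : HasCompactSupport (cconv k l) := by
  obtain ⟨B, hB⟩ := exists_bound_h3conv hks hls
  refine HasCompactSupport.intro (isCompact_Icc (a := -1) (b := max B 1)) fun c hc => ?_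
  rw [mem_Icc, not_and_or, not_le, not_le] at hc
  rcases hc with hc | hc
  · rw [cconv, cutoff, min_eq_right (by linarith), max_eq_left (by linarith)]
    simp
  · rw [cconv, max_eq_left (le_trans (le_max_right B 1) hc.le)]
    have : h3conv k l c = 0 := by
      by_contra h
      exact absurd (hB c (le_trans (le_max_right B 1) hc.le) h)
        (not_le.mpr (lt_of_le_of_lt (le_max_left B 1) hc))
    rw [this, mul_zero]

theorem conj_h3conv (k l : ℝ → ℂ) (c : ℝ) :
    conj (h3conv k l c) = h3conv (fun x => conj (k x)) (fun x => conj (l x)) c := by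
  rw [h3conv, map_mul, Complex.conj_ofReal, ← integral_conj]
  simp only [map_mul]
  rfl

/-! ### Boxes -/

theorem coshDist_bounds {P Q : H3} {B : ℝ} (h : H3.coshDist P Q ≤ B) :
    Q.t ≤ 2 * B * P.t ∧ P.t ≤ 2 * B * Q.t ∧ ‖Q.z - P.z‖ ≤ 2 * B * P.t ∧ 1 ≤ B := by
  have hB : 1 ≤ B := (H3.one_le_coshDist P Q).trans h
  have hP := P.t_pos
  have hQ := Q.t_pos
  rw [H3.coshDist, div_le_iff₀ (by positivity)] at h
  have h1 : Q.t ≤ 2 * B * P.t :=
    le_of_mul_le_mul_right (by nlinarith [norm_nonneg (P.z - Q.z)]) hQ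
  have h2 : P.t ≤ 2 * B * Q.t :=
    le_of_mul_le_mul_right (by nlinarith [norm_nonneg (P.z - Q.z)]) hP
  refine ⟨h1, h2, ?_, hB⟩
  rw [norm_sub_rev]
  refine (pow_le_pow_iff_left₀ (norm_nonneg _) (by positivity) two_ne_zero).mp ?_
  nlinarith [mul_le_mul_of_nonneg_left h1 (by positivity : (0 : ℝ) ≤ 2 * B * P.t)]

theorem isCompact_box (C : ℝ) {a : ℝ} (ha : 0 < a) (b : ℝ) :
    IsCompact {Q : H3 | ‖Q.z‖ ≤ C ∧ a ≤ Q.t ∧ Q.t ≤ b} := by
  have he : {Q : H3 | ‖Q.z‖ ≤ C ∧ a ≤ Q.t ∧ Q.t ≤ b}
      = H3.coords ⁻¹' (Metric.closedBall 0 C ×ˢ Icc a b) := by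
    ext Q
    simp [H3.coords]
  rw [he]
  refine H3.isOpenEmbedding_coords.isInducing.isCompact_preimage'
    ((isCompact_closedBall _ _).prod isCompact_Icc) fun x hx => ?_
  rw [H3.range_coords]
  exact lt_of_lt_of_le ha hx.2.1

/-- Points at bounded distance from a compact set form a relatively compact set. -/
theorem exists_compact_near {A : Set H3} (hA : IsCompact A) (B : ℝ) :
    ∃ K : Set H3, IsCompact K ∧ ∀ P ∈ A, ∀ Q, H3.coshDist P Q ≤ B → Q ∈ K := by
  obtain ⟨T, hT⟩ := hA.bddAbove_image H3.continuous_t.continuousOn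
  obtain ⟨S, hS⟩ := hA.bddAbove_image (H3.continuous_t.inv₀ fun P => P.t_ne_zero).continuousOn
  obtain ⟨Z, hZ⟩ := hA.bddAbove_image H3.continuous_z.norm.continuousOn
  refine ⟨_, isCompact_box (Z + 2 * |B| * |T|) (a := (2 * (|B| + 1) * (|S| + 1))⁻¹) (by positivity)
    (2 * |B| * |T|), fun P hP Q h => ?_⟩
  obtain ⟨h1, h2, h3, hB⟩ := coshDist_bounds h
  have hB' : |B| = B := abs_of_nonneg (zero_le_one.trans hB)
  have hT' : P.t ≤ |T| := (hT ⟨P, hP, rfl⟩).trans (le_abs_self _)
  refine ⟨?_, ?_, ?_⟩
  · calc ‖Q.z‖ ≤ ‖P.z‖ + ‖Q.z - P.z‖ := norm_le_norm_add_norm_sub' _ _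
      _ ≤ Z + 2 * |B| * |T| := add_le_add (hZ ⟨P, hP, rfl⟩)
          (h3.trans (by rw [hB']; gcongr))
  · rw [inv_le_iff_one_le_mul₀ (by positivity)]
    have hS' : P.t⁻¹ ≤ |S| + 1 :=
      (hS ⟨P, hP, rfl⟩).trans ((le_abs_self _).trans (le_add_of_nonneg_right zero_le_one))
    have h4 : 1 ≤ (|S| + 1) * P.t := by
      rwa [← inv_le_iff_one_le_mul₀ P.t_pos]
    rw [hB']
    have h5 : (|S| + 1) * P.t ≤ (|S| + 1) * (2 * B * Q.t) :=
      mul_le_mul_of_nonneg_left h2 (by positivity)
    nlinarith [mul_nonneg (by positivity : (0 : ℝ) ≤ |S| + 1) Q.t_pos.le]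
  · exact h1.trans (by rw [hB']; gcongr)

/-! ### Operators -/

variable {ι : Type} [Fintype ι]

/-- The product of point pair invariants. -/
def infKer (g : ι → ℝ → ℂ) (P Q : ι → H3) : ℂ := ∏ i, g i (H3.coshDist (P i) (Q i))

/-- The measure on the product. -/
abbrev volPi (ι : Type) [Fintype ι] : Measure (ι → H3) := Measure.pi fun _ : ι => H3.volH3

/-- The operator. -/
def infOp (g : ι → ℝ → ℂ) (f : (ι → H3) → ℂ) (P : ι → H3) : ℂ :=
  ∫ Q, infKer g P Q * f Q ∂volPi ι

/-- Continuous compactly supported weights. -/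
def WeightsOK (g : ι → ℝ → ℂ) : Prop := ∀ i, Continuous (g i) ∧ HasCompactSupport (g i)

omit [Fintype ι] in
theorem WeightsOK.cconv {g g' : ι → ℝ → ℂ} (h : WeightsOK g) (h' : WeightsOK g') :
    WeightsOK fun i => Killing.cconv (g i) (g' i) := fun i =>
  ⟨continuous_cconv (h i).1 (h i).2 (h' i).1, hasCompactSupport_cconv (h i).2 (h' i).2⟩

variable {g g' : ι → ℝ → ℂ}

theorem continuous_infKer (hg : ∀ i, Continuous (g i)) :
    Continuous fun p : (ι → H3) × (ι → H3) => infKer g p.1 p.2 :=
  continuous_finsetProd _ fun i _ => (hg i).comp (continuous_coshDist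
    (f := fun p : (ι → H3) × (ι → H3) => p.1 i) (g := fun p => p.2 i)
    ((continuous_apply i).comp continuous_fst) ((continuous_apply i).comp continuous_snd))

theorem exists_radii (hg : ∀ i, HasCompactSupport (g i)) :
    ∃ B : ℝ, ∀ P Q, infKer g P Q ≠ 0 → ∀ i, H3.coshDist (P i) (Q i) ≤ B := by
  choose B hB using fun i => exists_radius (hg i)
  refine ⟨∑ i, |B i|, fun P Q h i => ?_⟩
  exact (hB i _ _ (Finset.prod_ne_zero_iff.mp h i (Finset.mem_univ i))).trans
    ((le_abs_self _).trans (Finset.single_le_sum (f := fun j => |B j|) (fun j _ => abs_nonneg _)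
      (Finset.mem_univ i)))

theorem exists_support (hg : ∀ i, HasCompactSupport (g i)) {A : Set (ι → H3)} (hA : IsCompact A) :
    ∃ K : Set (ι → H3), IsCompact K ∧ ∀ P ∈ A, ∀ Q, Q ∉ K → infKer g P Q = 0 := by
  obtain ⟨B, hB⟩ := exists_radii hg
  choose K hK hKmem using fun i => exists_compact_near (hA.image (continuous_apply i)) B
  refine ⟨univ.pi K, isCompact_univ_pi hK, fun P hP Q hQ => ?_⟩
  by_contra h
  exact hQ fun i _ => hKmem i _ ⟨P, hP, rfl⟩ _ (hB P Q h i)

theorem exists_bound_infKer (hg : WeightsOK g) : ∃ C : ℝ, ∀ P Q, ‖infKer g P Q‖ ≤ C := by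
  choose C hC using fun i => (hg i).1.bounded_above_of_compact_support (hg i).2
  refine ⟨∏ i, C i, fun P Q => ?_⟩
  rw [infKer, norm_prod]
  exact Finset.prod_le_prod (fun i _ => norm_nonneg _) fun i _ => hC i _

theorem integrable_infKer_mul (hg : WeightsOK g) {f : (ι → H3) → ℂ}
    (hf : LocallyIntegrable f (volPi ι)) (P : ι → H3) :
    Integrable (fun Q => infKer g P Q * f Q) (volPi ι) := by
  obtain ⟨K, hK, h0⟩ := exists_support (fun i => (hg i).2) (isCompact_singleton (x := P))
  obtain ⟨C, hC⟩ := exists_bound_infKer hg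
  have h1 : IntegrableOn (fun Q => infKer g P Q * f Q) K (volPi ι) := by
    refine Integrable.bdd_mul (c := C) (hf.integrableOn_isCompact hK) ?_
      (Eventually.of_forall fun Q => hC P Q)
    exact ((continuous_infKer fun i => (hg i).1).comp
      (Continuous.prodMk_right P)).aestronglyMeasurable
  refine (integrableOn_iff_integrable_of_support_subset fun Q hQ => ?_).mp h1
  by_contra h
  exact hQ (by simp [h0 P rfl Q h])

theorem continuous_infOp (hg : WeightsOK g) {f : (ι → H3) → ℂ}
    (hf : LocallyIntegrable f (volPi ι)) : Continuous (infOp g f) := by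
  refine continuous_iff_continuousAt.mpr fun P => ?_
  obtain ⟨A, hA, hAP⟩ := exists_compact_mem_nhds P
  obtain ⟨K, hK, h0⟩ := exists_support (fun i => (hg i).2) hA
  refine ContinuousOn.continuousAt ?_ hAP
  have h := continuousOn_integral_bilinear_of_locally_integrable_of_compact_support
    (ContinuousLinearMap.mul ℝ ℂ) (f := fun P Q => infKer g P Q) (g := f) (s := A) hK
    (continuous_infKer fun i => (hg i).1).continuousOn (fun P Q hP hQ => h0 P hP Q hQ)
    (hf.integrableOn_isCompact hK)
  refine h.congr fun P _ => ?_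
  simp only [infOp, ContinuousLinearMap.mul_apply']
  exact integral_congr_ae (Eventually.of_forall fun Q => mul_comm _ _)

theorem infKer_conv (g g' : ι → ℝ → ℂ) (P R : ι → H3) :
    ∫ Q, infKer g P Q * infKer g' Q R ∂volPi ι = infKer (fun i => cconv (g i) (g' i)) P R := by
  simp only [infKer, ← Finset.prod_mul_distrib]
  rw [integral_fintype_prod_eq_prod (μ := fun _ : ι => H3.volH3)
    (fun i Q => g i (H3.coshDist (P i) Q) * g' i (H3.coshDist Q (R i)))]
  exact Finset.prod_congr rfl fun i _ => (cconv_coshDist _ _ _ _).symm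

/-- Composition of operators. -/
theorem infOp_infOp (hg : WeightsOK g) (hg' : WeightsOK g') {f : (ι → H3) → ℂ}
    (hf : LocallyIntegrable f (volPi ι)) (P : ι → H3) :
    infOp g (infOp g' f) P = infOp (fun i => cconv (g i) (g' i)) f P := by
  obtain ⟨K, hK, h0⟩ := exists_support (fun i => (hg i).2) (isCompact_singleton (x := P))
  obtain ⟨K', hK', h0'⟩ := exists_support (fun i => (hg' i).2) hK
  obtain ⟨C, hC⟩ := exists_bound_infKer hg
  obtain ⟨C', hC'⟩ := exists_bound_infKer hg'
  have hint : Integrable (Function.uncurry fun Q R => infKer g P Q * (infKer g' Q R * f R))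
      ((volPi ι).prod (volPi ι)) := by
    have h1 : Integrable (fun x : (ι → H3) × (ι → H3) => (1 : ℂ) * f x.2)
        (((volPi ι).restrict K).prod ((volPi ι).restrict K')) := by
      have : IsFiniteMeasure ((volPi ι).restrict K) :=
        isFiniteMeasure_restrict.mpr hK.measure_lt_top.ne
      exact (integrable_const (1 : ℂ)).mul_prod (hf.integrableOn_isCompact hK')
    have h2 := h1.bdd_mul (c := C * C')
      (f := fun x : (ι → H3) × (ι → H3) => infKer g P x.1 * infKer g' x.1 x.2)
      (((continuous_infKer fun i => (hg i).1).comp (continuous_const.prodMk continuous_fst)).mul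
        (continuous_infKer fun i => (hg' i).1)).aestronglyMeasurable
      (Eventually.of_forall fun x => by
        rw [norm_mul]
        exact mul_le_mul (hC _ _) (hC' _ _) (norm_nonneg _) ((norm_nonneg _).trans (hC P P)))
    rw [Measure.prod_restrict] at h2
    refine ((integrableOn_iff_integrable_of_support_subset fun x hx => ?_).mp h2).congr
      (Eventually.of_forall fun x => by simp [Function.uncurry, mul_assoc])
    by_contra h
    rcases not_and_or.mp h with h | h
    · exact hx (by simp [h0 P rfl x.1 h])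
    · by_cases hK1 : x.1 ∈ K
      · exact hx (by simp [h0' x.1 hK1 x.2 h])
      · exact hx (by simp [h0 P rfl x.1 hK1])
  simp only [infOp]
  calc ∫ Q, infKer g P Q * ∫ R, infKer g' Q R * f R ∂volPi ι ∂volPi ι
      = ∫ Q, ∫ R, infKer g P Q * (infKer g' Q R * f R) ∂volPi ι ∂volPi ι := by
        simp only [integral_const_mul]
    _ = ∫ R, ∫ Q, infKer g P Q * (infKer g' Q R * f R) ∂volPi ι ∂volPi ι :=
        integral_integral_swap hint
    _ = ∫ R, infKer (fun i => cconv (g i) (g' i)) P R * f R ∂volPi ι := by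
        refine integral_congr_ae (Eventually.of_forall fun R => ?_)
        simp only [← mul_assoc, integral_mul_const, infKer_conv]

end FLTAgent.LanglandsTunnell.Killing
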