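import Fermat.Agent.LanglandsTunnell.Geom.Action
import Fermat.Agent.LanglandsTunnell.Killing.InfOps
import Fermat.Agent.LanglandsTunnell.Killing.Hecke
import Fermat.Agent.LanglandsTunnell.Words

/-!
# Operators of combinations of Hecke words and point pair invariants

For combinations whose words avoid the level (`Fine`) the operator of the kernel preserves local
integrability, continuity and invariance; `op_cmul` composes two operators, `kernel_mul_eq`
compares the product of combinations with it, and `kernel_adjoint` gives the adjoint.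
-/

set_option autoImplicit false

noncomputable section

open NumberField MeasureTheory Matrix Filter Function
open scoped ComplexConjugate

namespace FLTAgent.LanglandsTunnell.Killing

open FLTAgent.LanglandsTunnell.Geom (finite_nbrs nbrs_smul countable_finPt exists_level_decomp
  measurePreserving_act measurable_act act_mul act_one wordKernel_smul)

variable {F : Type} [Field F] [NumberField F] {ι : Type} [Fintype ι] {n : Ideal (𝓞 F)}

/-- The primes allowed in words. -/
def OKPrime (n w : Ideal (𝓞 F)) : Prop := w.IsPrime ∧ w ≠ ⊥ ∧ ¬ w ∣ n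

/-- Combinations to which the calculus applies. -/
def Fine (n : Ideal (𝓞 F)) (C : Comb F ι) : Prop := C.Good (OKPrime n)

/-! ### The neighbour relation is symmetric -/

theorem mem_nbrs_symm {w : Ideal (𝓞 F)} (hw : OKPrime n w) {v v' : FinPt F n}
    (h : v' ∈ nbrs n w v) : v ∈ nbrs n w v' := by
  obtain ⟨g, k, π, rfl, hk, hπ, rfl⟩ := h
  obtain ⟨k₁, hk₁, k', hk', he⟩ := exists_lowUnit_eq hw.1 hw.2.1 hw.2.2 hπ
  refine ⟨g * k * diagUnit π, k₁, π, rfl, hk₁, hπ, ?_⟩
  have hlow : diagUnit π * lowUnit π = GeneralLinearGroup.scalar (Fin 2) π := by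
    apply Units.ext
    ext i j
    fin_cases i <;> fin_cases j <;>
      simp [lowUnit, diagUnit, GeneralLinearGroup.scalar, Matrix.mul_apply]
  rw [mul_assoc (g * k * diagUnit π) k₁, he, ← mul_assoc, mk_mul_congr hk', mul_assoc (g * k),
    hlow, mk_mul_scalar, mk_mul_congr hk]

/-! ### Words -/

theorem finite_wordKernel (hn : n ≠ ⊥) : ∀ {ws : List (Ideal (𝓞 F))},
    (∀ w ∈ ws, OKPrime n w) → ∀ v : FinPt F n, (Function.support (wordKernel n ws v)).Finite
  | [], _, v => (Set.finite_singleton v).subset fun u hu => by
      by_contra h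
      exact hu (by rw [wordKernel, if_neg fun e : v = u => h (by simp [e])])
  | w :: ws, hws, v => by
    have hw := hws w List.mem_cons_self
    refine ((finite_nbrs hn hw.2.1 v).biUnion fun u _ =>
      finite_wordKernel hn (fun x hx => hws x (List.mem_cons_of_mem _ hx)) u).subset fun u hu => ?_
    obtain ⟨z, hz, hne⟩ := exists_ne_zero_of_finsum_mem_ne_zero
      (f := fun z => wordKernel n ws z u) (s := nbrs n w v) hu
    exact Set.mem_biUnion hz hne

/-- The sum along the paths of a word. -/
def wordSum (n : Ideal (𝓞 F)) (ws : List (Ideal (𝓞 F))) (v : FinPt F n) (f : FinPt F n → ℂ) : ℂ :=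
  ∑ᶠ u, wordKernel n ws v u * f u

omit [NumberField F] in
theorem wordSum_nil (v : FinPt F n) (f : FinPt F n → ℂ) : wordSum n [] v f = f v := by
  rw [wordSum, finsum_eq_single _ v fun u hu => by simp [wordKernel, Ne.symm hu]]
  simp [wordKernel]

omit [NumberField F] in
theorem wordSum_eq_sum {ws : List (Ideal (𝓞 F))} {v : FinPt F n} {s : Finset (FinPt F n)}
    (hs : Function.support (wordKernel n ws v) ⊆ s) (f : FinPt F n → ℂ) :
    wordSum n ws v f = ∑ u ∈ s, wordKernel n ws v u * f u :=
  finsum_eq_sum_of_support_subset _ fun _ hu => hs (left_ne_zero_of_mul hu)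

theorem wordSum_cons (hn : n ≠ ⊥) {w : Ideal (𝓞 F)} {ws : List (Ideal (𝓞 F))} (hw : OKPrime n w)
    (hws : ∀ x ∈ ws, OKPrime n x) (v : FinPt F n) (f : FinPt F n → ℂ) :
    wordSum n (w :: ws) v f = ∑ᶠ z ∈ nbrs n w v, wordSum n ws z f := by
  classical
  set N := (finite_nbrs hn hw.2.1 v).toFinset with hN
  set s := N.biUnion fun z => (finite_wordKernel hn hws z).toFinset with hs
  have h1 : ∀ u, wordKernel n (w :: ws) v u = ∑ z ∈ N, wordKernel n ws z u := fun u =>
    finsum_mem_eq_finite_toFinset_sum _ (finite_nbrs hn hw.2.1 v)
  have hsub : ∀ z ∈ N, Function.support (wordKernel n ws z) ⊆ (s : Set (FinPt F n)) :=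
    fun z hz u hu => by
    rw [Finset.mem_coe, hs, Finset.mem_biUnion]
    exact ⟨z, hz, (finite_wordKernel hn hws z).mem_toFinset.mpr hu⟩
  rw [wordSum_eq_sum (s := s) (fun u hu => ?_), finsum_mem_eq_finite_toFinset_sum _
    (finite_nbrs hn hw.2.1 v)]
  · simp only [h1, Finset.sum_mul]
    rw [Finset.sum_comm]
    exact Finset.sum_congr rfl fun z hz => (wordSum_eq_sum (hsub z hz) f).symm
  · rw [Function.mem_support, h1] at hu
    obtain ⟨z, hz, hne⟩ := Finset.exists_ne_zero_of_sum_ne_zero hu
    exact hsub z hz hne

omit [NumberField F] in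
theorem wordSum_const_mul (ws : List (Ideal (𝓞 F))) (v : FinPt F n) (f : FinPt F n → ℂ) (a : ℂ) :
    wordSum n ws v (fun u => a * f u) = a * wordSum n ws v f := by
  rw [wordSum, wordSum, mul_finsum _ a]
  exact finsum_congr fun u => by ring

theorem wordKernel_append (hn : n ≠ ⊥) {a b : List (Ideal (𝓞 F))} (ha : ∀ x ∈ a, OKPrime n x)
    (v u : FinPt F n) :
    wordKernel n (a ++ b) v u = wordSum n a v fun z => wordKernel n b z u := by
  induction a generalizing v with
  | nil => rw [List.nil_append, wordSum_nil]
  | cons w a ih =>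
    have ha' : ∀ x ∈ a, OKPrime n x := fun x hx => ha x (List.mem_cons_of_mem _ hx)
    rw [wordSum_cons hn (ha w List.mem_cons_self) ha', List.cons_append, wordKernel]
    exact finsum_mem_congr rfl fun z _ => ih ha' z

theorem wordKernel_reverse (hn : n ≠ ⊥) {ws : List (Ideal (𝓞 F))} (h : ∀ x ∈ ws, OKPrime n x)
    (v u : FinPt F n) : wordKernel n ws.reverse v u = wordKernel n ws u v := by
  induction ws generalizing v u with
  | nil =>
    simp only [List.reverse_nil, wordKernel]
    classical
    exact if_congr eq_comm rfl rfl
  | cons w ws ih =>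
    have h' : ∀ x ∈ ws, OKPrime n x := fun x hx => h x (List.mem_cons_of_mem _ hx)
    have hw := h w List.mem_cons_self
    rw [List.reverse_cons, wordKernel_append hn fun x hx => h' x (List.mem_reverse.mp hx)]
    have h1 : ∀ z : FinPt F n,
        wordKernel n [w] z u = (nbrs n w u).indicator (fun _ => (1 : ℂ)) z := fun z => by
      show ∑ᶠ x ∈ nbrs n w z, wordKernel n [] x u = _
      classical
      rw [Set.indicator_apply]
      split_ifs with hz
      · rw [finsum_eq_single _ u fun x hx => by simp [wordKernel, hx],
          finsum_eq_if, if_pos (mem_nbrs_symm hw hz)]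
        simp [wordKernel]
      · refine finsum_mem_eq_zero_of_forall_eq_zero fun x hx => ?_
        rw [wordKernel, if_neg]
        rintro rfl
        exact hz (mem_nbrs_symm hw hx)
    simp only [h1]
    rw [wordSum]
    show _ = ∑ᶠ z ∈ nbrs n w u, wordKernel n ws z v
    rw [finsum_mem_def]
    refine finsum_congr fun z => ?_
    classical
    rw [ih h' v z, Set.indicator_apply, Set.indicator_apply]
    split_ifs <;> simp

/-! ### The operator of a combination -/

/-- Local integrability on every sheet. -/
def LocI (f : Pt F ι n → ℂ) : Prop := ∀ v, LocallyIntegrable (fun Q => f (v, Q)) (volPi ι)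

omit [NumberField F] in
theorem LocI.of_continuous {f : Pt F ι n → ℂ} (h : ∀ v, Continuous fun Q : ι → H3 => f (v, Q)) :
    LocI f := fun v => (h v).locallyIntegrable

theorem integrable_term_mul (hn : n ≠ ⊥) {T : Term F ι} (hT : WeightsOK T.inf)
    (hw : ∀ w ∈ T.word, OKPrime n w) {f : Pt F ι n → ℂ} (hf : LocI f) (x : Pt F ι n) :
    Integrable (fun y => T.kernel n x y * f y) volPt ∧
      ∫ y, T.kernel n x y * f y ∂volPt
        = T.coeff * wordSum n T.word x.1 fun u => infOp T.inf (fun Q => f (u, Q)) x.2 := by
  classical
  have := countable_finPt (F := F) hn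
  set s := (finite_wordKernel hn hw x.1).toFinset
  let G : FinPt F n → Pt F ι n → ℂ := fun u y =>
    ({u} : Set (FinPt F n)).indicator (fun _ => T.coeff * wordKernel n T.word x.1 u) y.1
      * (infKer T.inf x.2 y.2 * f (u, y.2))
  have he : ∀ y, T.kernel n x y * f y = ∑ u ∈ s, G u y := fun y => by
    by_cases hy : y.1 ∈ s
    · rw [Finset.sum_eq_single y.1 (fun u _ hu => by simp [G, hu.symm]) fun h => absurd hy h]
      simp only [G, Set.indicator_of_mem (Set.mem_singleton y.1), Term.kernel, infKer]
      ring
    · rw [Finset.sum_eq_zero fun u hu => by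
        have : y.1 ≠ u := fun h => hy (h ▸ hu)
        simp [G, this]]
      have : wordKernel n T.word x.1 y.1 = 0 := by simpa [s] using hy
      simp [Term.kernel, this]
  have hG : ∀ u, Integrable (G u) volPt := fun u =>
    Integrable.mul_prod (μ := (Measure.count : Measure (FinPt F n))) (ν := volPi ι)
      ((integrable_indicator_iff (measurableSet_singleton u)).mpr
        (integrableOn_const (by simp)))
      (integrable_infKer_mul hT (hf u) x.2)
  simp only [he]
  refine ⟨integrable_finsetSum _ fun u _ => hG u, ?_⟩
  rw [integral_finsetSum _ fun u _ => hG u,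
    wordSum_eq_sum (s := s) (fun u hu => by simpa [s] using hu),
    Finset.mul_sum]
  refine Finset.sum_congr rfl fun u _ => ?_
  simp only [G, volPt]
  rw [integral_prod_mul (μ := (Measure.count : Measure (FinPt F n))) (ν := volPi ι)
    (fun z => ({u} : Set (FinPt F n)).indicator (fun _ => T.coeff * wordKernel n T.word x.1 u) z)
    (fun Q => infKer T.inf x.2 Q * f (u, Q)), integral_indicator (measurableSet_singleton u),
    setIntegral_const, infOp]
  simp [measureReal_def, mul_assoc]

omit [NumberField F] [Fintype ι] in
theorem Fine.tail {T : Term F ι} {C : Comb F ι} (h : Fine n (T :: C)) : Fine n C :=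
  fun T' hT' => h T' (List.mem_cons_of_mem _ hT')

theorem integrable_kernel_mul (hn : n ≠ ⊥) {C : Comb F ι} (hC : Fine n C) {f : Pt F ι n → ℂ}
    (hf : LocI f) (x : Pt F ι n) :
    Integrable (fun y => C.kernel n x y * f y) volPt ∧
      Kernel.op (C.kernel n) f x
        = (C.map fun T => T.coeff * wordSum n T.word x.1 fun u =>
            infOp T.inf (fun Q => f (u, Q)) x.2).sum := by
  induction C with
  | nil => simp [Comb.kernel, Kernel.op]
  | cons T C ih =>
    obtain ⟨h1, h2⟩ := integrable_term_mul hn (hC T List.mem_cons_self).1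
        (hC T List.mem_cons_self).2
      hf x
    obtain ⟨h3, h4⟩ := ih hC.tail
    have he : (fun y => Comb.kernel n (T :: C) x y * f y)
        = fun y => T.kernel n x y * f y + Comb.kernel n C x y * f y := by
      funext y; simp [Comb.kernel, add_mul]
    refine ⟨he ▸ h1.add h3, ?_⟩
    rw [Kernel.op, he, integral_add h1 h3, List.map_cons, List.sum_cons, h2, ← h4, Kernel.op]

theorem op_kernel (hn : n ≠ ⊥) {C : Comb F ι} (hC : Fine n C) {f : Pt F ι n → ℂ}
    (hf : LocI f) (x : Pt F ι n) :
    Kernel.op (C.kernel n) f x
      = (C.map fun T => T.coeff * wordSum n T.word x.1 fun u =>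
          infOp T.inf (fun Q => f (u, Q)) x.2).sum :=
  (integrable_kernel_mul hn hC hf x).2

theorem continuous_listSum {α X : Type} [TopologicalSpace X] {l : List α} {f : α → X → ℂ}
    (h : ∀ a ∈ l, Continuous (f a)) : Continuous fun x => (l.map fun a => f a x).sum := by
  induction l with
  | nil => simpa using continuous_const
  | cons a l ih =>
    simp only [List.map_cons, List.sum_cons]
    exact (h a List.mem_cons_self).add (ih fun b hb => h b (List.mem_cons_of_mem _ hb))

theorem continuous_op (hn : n ≠ ⊥) {C : Comb F ι} (hC : Fine n C) {f : Pt F ι n → ℂ}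
    (hf : LocI f) (v : FinPt F n) :
    Continuous fun P : ι → H3 => Kernel.op (C.kernel n) f (v, P) := by
  classical
  simp only [op_kernel hn hC hf]
  refine continuous_listSum fun T hT => continuous_const.mul ?_
  simp only [wordSum_eq_sum (s := (finite_wordKernel hn (hC T hT).2 v).toFinset)
    (fun u hu => by simpa using hu)]
  exact continuous_finsetSum _ fun u _ =>
    continuous_const.mul (continuous_infOp (hC T hT).1 (hf u))

theorem LocI.op (hn : n ≠ ⊥) {C : Comb F ι} (hC : Fine n C) {f : Pt F ι n → ℂ}
    (hf : LocI f) : LocI (Kernel.op (C.kernel n) f) :=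
  LocI.of_continuous (continuous_op hn hC hf)

/-! ### Invariance -/

theorem kernel_act (Φ : PlaceChoice F ι) (C : Comb F ι) (γ : GL (Fin 2) F) (x y : Pt F ι n) :
    C.kernel n (act Φ γ x) (act Φ γ y) = C.kernel n x y := by
  simp only [Comb.kernel, Term.kernel, act]
  congr 1
  refine List.map_congr_left fun T _ => ?_
  rw [wordKernel_smul]
  simp only [H3.moebius_eq_smul, H3.coshDist_smul]

/-- The action of an element as a measurable equivalence. -/
def actEquiv (Φ : PlaceChoice F ι) (γ : GL (Fin 2) F) : Pt F ι n ≃ᵐ Pt F ι n where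
  toFun := act Φ γ
  invFun := act Φ γ⁻¹
  left_inv x := by rw [← act_mul, inv_mul_cancel, act_one]
  right_inv x := by rw [← act_mul, mul_inv_cancel, act_one]
  measurable_toFun := measurable_act Φ γ
  measurable_invFun := measurable_act Φ γ⁻¹

theorem op_invariant (Φ : PlaceChoice F ι) (hn : n ≠ ⊥) (C : Comb F ι) {f : Pt F ι n → ℂ}
    (hf : ∀ γ x, f (act Φ γ x) = f x) (γ : GL (Fin 2) F) (x : Pt F ι n) :
    Kernel.op (C.kernel n) f (act Φ γ x) = Kernel.op (C.kernel n) f x := by
  rw [Kernel.op, ← (measurePreserving_act Φ hn γ).integral_comp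
    (actEquiv Φ γ).measurableEmbedding]
  simp only [kernel_act, hf]
  rfl

/-! ### Products -/

/-- The product of two terms with continuous weights. -/
def cmulTerm (T T' : Term F ι) : Term F ι :=
  ⟨T.coeff * T'.coeff, T.word ++ T'.word, fun i => cconv (T.inf i) (T'.inf i)⟩

/-- The product of two combinations with continuous weights. -/
def cmul (C C' : Comb F ι) : Comb F ι := C.flatMap fun T => C'.map (cmulTerm T)

omit [Fintype ι] in
omit [NumberField F] in
theorem Fine.cmul {C C' : Comb F ι} (h : Fine n C) (h' : Fine n C') :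
    Fine n (Killing.cmul C C') := by
  intro T hT
  simp only [Killing.cmul, List.mem_flatMap, List.mem_map] at hT
  obtain ⟨A, hA, B, hB, rfl⟩ := hT
  exact ⟨WeightsOK.cconv (h A hA).1 (h' B hB).1, fun w hw => by
    rcases List.mem_append.mp hw with hw | hw
    exacts [(h A hA).2 w hw, (h' B hB).2 w hw]⟩

theorem wordSum_listSum {α : Type} (hn : n ≠ ⊥) {ws : List (Ideal (𝓞 F))}
    (hws : ∀ w ∈ ws, OKPrime n w) (v : FinPt F n) (l : List α) (f : α → FinPt F n → ℂ) :
    wordSum n ws v (fun u => (l.map fun a => f a u).sum) =
      (l.map fun a => wordSum n ws v (f a)).sum := by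
  induction l with
  | nil => simp [wordSum]
  | cons a l ih =>
    simp only [List.map_cons, List.sum_cons]
    rw [← ih]
    simp only [wordSum, mul_add]
    exact finsum_add_distrib ((finite_wordKernel hn hws v).subset fun u hu =>
      left_ne_zero_of_mul hu)
      ((finite_wordKernel hn hws v).subset fun u hu => left_ne_zero_of_mul hu)

theorem infOp_listSum {α : Type} {g : ι → ℝ → ℂ} (hg : WeightsOK g) (l : List α)
    (f : α → (ι → H3) → ℂ) (hf : ∀ a ∈ l, LocallyIntegrable (f a) (volPi ι)) (P : ι → H3) :
    infOp g (fun Q => (l.map fun a => f a Q).sum) P = (l.map fun a => infOp g (f a) P).sum := by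
  induction l with
  | nil => simp [infOp]
  | cons a l ih =>
    simp only [List.map_cons, List.sum_cons, infOp, mul_add]
    have h2 : LocallyIntegrable (fun Q => (l.map fun a => f a Q).sum) (volPi ι) := by
      clear ih
      induction l with
      | nil => simpa using locallyIntegrable_const (0 : ℂ)
      | cons b l ih' =>
        simp only [List.map_cons, List.sum_cons]
        exact (hf b (by simp)).add (ih' fun c hc => hf c (by
          rcases List.mem_cons.mp hc with rfl | hc <;> simp [*]))
    rw [integral_add (integrable_infKer_mul hg (hf a List.mem_cons_self) P)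
      (integrable_infKer_mul hg h2 P)]
    exact congrArg (_ + ·) (ih fun b hb => hf b (List.mem_cons_of_mem _ hb))

/-- Operators compose. -/
theorem op_cmul (hn : n ≠ ⊥) {C C' : Comb F ι} (hC : Fine n C) (hC' : Fine n C')
    {f : Pt F ι n → ℂ} (hf : LocI f) (x : Pt F ι n) :
    Kernel.op ((cmul C C').kernel n) f x
      = Kernel.op (C.kernel n) (Kernel.op (C'.kernel n) f) x := by
  rw [op_kernel hn (hC.cmul hC') hf, op_kernel hn hC (hf.op hn hC'), cmul, sum_flatMap_map]
  refine congrArg List.sum (List.map_congr_left fun A hA => ?_)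
  have h1 : ∀ u, infOp A.inf (fun Q => Kernel.op (C'.kernel n) f (u, Q)) x.2
      = (C'.map fun B => B.coeff * wordSum n B.word u fun z =>
          infOp (fun i => cconv (A.inf i) (B.inf i)) (fun Q => f (z, Q)) x.2).sum := by
    intro u
    simp only [op_kernel hn hC' hf]
    rw [infOp_listSum (hC A hA).1 C' (fun B Q => B.coeff * wordSum n B.word u fun z =>
      infOp B.inf (fun R => f (z, R)) Q) fun B hB => ?_]
    · refine congrArg List.sum (List.map_congr_left fun B hB => ?_)
      classical
      set s := (finite_wordKernel hn (hC' B hB).2 u).toFinset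
      have hs : Function.support (wordKernel n B.word u) ⊆ s := fun z hz => by simpa [s] using hz
      simp only [wordSum_eq_sum hs, infOp, Finset.mul_sum]
      rw [integral_finsetSum]
      · refine Finset.sum_congr rfl fun z _ => ?_
        have h := infOp_infOp (hC A hA).1 (hC' B hB).1 (hf z) x.2
        simp only [infOp] at h
        rw [← h, ← integral_const_mul, ← integral_const_mul]
        exact integral_congr_ae (Eventually.of_forall fun Q => by ring)
      · intro z _
        refine (((integrable_infKer_mul (hC A hA).1
          (continuous_infOp (hC' B hB).1 (hf z)).locallyIntegrable x.2).const_mul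
          (B.coeff * wordKernel n B.word u z))).congr (Eventually.of_forall fun Q => ?_)
        simp only [infOp]; ring
    · classical
      simp only [wordSum_eq_sum (s := (finite_wordKernel hn (hC' B hB).2 u).toFinset)
        (fun z hz => by simpa using hz)]
      exact (continuous_const.mul (continuous_finsetSum _ fun z _ =>
        continuous_const.mul (continuous_infOp (hC' B hB).1 (hf z)))).locallyIntegrable
  simp only [h1, wordSum_listSum hn (hC A hA).2, ← List.sum_map_mul_left, List.map_map]
  refine congrArg List.sum (List.map_congr_left fun B hB => ?_)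
  simp only [Function.comp_apply, cmulTerm, wordSum_const_mul, mul_assoc]
  congr 2
  classical
  set s := (finite_wordKernel hn (hC A hA).2 x.1).toFinset
  have hs : Function.support (wordKernel n A.word x.1) ⊆ s := fun z hz => by simpa [s] using hz
  have hAB : ∀ w ∈ A.word ++ B.word, OKPrime n w := fun w hw => by
    rcases List.mem_append.mp hw with hw | hw
    exacts [(hC A hA).2 w hw, (hC' B hB).2 w hw]
  set t := (finite_wordKernel hn hAB x.1).toFinset ∪
    s.biUnion fun u => (finite_wordKernel hn (hC' B hB).2 u).toFinset with ht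
  rw [wordSum_eq_sum (s := t) (fun u hu => by simp [ht, Function.mem_support.mp hu]),
    wordSum_eq_sum hs]
  simp only [wordKernel_append hn (hC A hA).2, wordSum_eq_sum hs, Finset.sum_mul]
  rw [Finset.sum_comm]
  refine Finset.sum_congr rfl fun u hu => ?_
  rw [wordSum_eq_sum (s := t) (fun z hz => by
    simp only [ht, Finset.coe_union, Set.mem_union, Finset.mem_coe, Finset.mem_biUnion]
    exact Or.inr ⟨u, hu, by simpa using hz⟩), Finset.mul_sum]
  exact Finset.sum_congr rfl fun z _ => by ring

omit [NumberField F] in
/-- The product with the raw convolution has the same kernel. -/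
theorem kernel_mul_eq (C C' : Comb F ι) : (C.mul C').kernel n = (cmul C C').kernel n := by
  funext x y
  simp only [Comb.kernel, Comb.mul, cmul, List.map_flatMap, List.map_map]
  congr 1
  refine List.flatMap_congr fun A _ => List.map_congr_left fun B _ => ?_
  simp only [Function.comp_apply, Term.kernel, cmulTerm, cconv_eq _ _ (H3.one_le_coshDist _ _)]

/-- Operators of a product compose. -/
theorem op_mul (hn : n ≠ ⊥) {C C' : Comb F ι} (hC : Fine n C) (hC' : Fine n C')
    {f : Pt F ι n → ℂ} (hf : LocI f) :
    Kernel.op ((C.mul C').kernel n) f = Kernel.op (C.kernel n) (Kernel.op (C'.kernel n) f) := by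
  funext x
  rw [kernel_mul_eq]
  exact op_cmul hn hC hC' hf x

/-- The adjoint. -/
def adjoint (C : Comb F ι) : Comb F ι := C.map fun T =>
  ⟨conj T.coeff, T.word.reverse, fun i c => conj (T.inf i c)⟩

/-- The kernel of the adjoint is the conjugate transpose. -/
theorem kernel_adjoint (hn : n ≠ ⊥) {C : Comb F ι} (hC : Fine n C) (x y : Pt F ι n) :
    (adjoint C).kernel n y x = conj (C.kernel n x y) := by
  simp only [Comb.kernel, adjoint, List.map_map, map_list_sum]
  refine congrArg List.sum (List.map_congr_left fun T hT => ?_)
  simp only [Function.comp_apply, Term.kernel, map_mul, map_prod, wordKernel_reverse hn (hC T hT).2,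
    H3.coshDist_comm (y.2 _)]
  rw [show conj (wordKernel n T.word x.1 y.1) = wordKernel n T.word x.1 y.1 from ?_]
  generalize T.word = ws, x.1 = v
  induction ws generalizing v with
  | nil => simp only [wordKernel]; split_ifs <;> simp
  | cons w ws ih =>
    simp only [wordKernel]
    rw [finsum_mem_def]
    by_cases hfin : (Function.support ((nbrs n w v).indicator fun z =>
      wordKernel n ws z y.1)).Finite
    · rw [map_finsum _ hfin]
      refine finsum_congr fun z => ?_
      classical
      simp only [Set.indicator_apply]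
      split_ifs <;> simp [ih]
    · rw [finsum_of_infinite_support hfin, map_zero]

end FLTAgent.LanglandsTunnell.Killing
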