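import Fermat.Agent.LanglandsTunnell.Killing.Core
import Fermat.Agent.LanglandsTunnell.CFT.FrobeniusOver

/-!
# Killing pairs from non-degeneracy of the seed

`killingSpec_of_nondeg` proves `KillingSpec` from `NondegSpec`: the ray class data of the sextic
field `M`, and the same data seen from `E` (`dataM`, `dataE`), give one combination whose middle
part creates cuspidal functions over both fields and acts on the given eigenform by a nonzero
scalar.
-/

set_option autoImplicit false

noncomputable section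

open NumberField Matrix MeasureTheory Filter Function
open scoped ComplexConjugate Topology FLTAgent.LanglandsTunnell.Isolation

namespace FLTAgent.LanglandsTunnell.Killing

open FLTAgent.LanglandsTunnell.Isolation (kernel_descComb_mul kernel_mul_congr good_descComb
  good_mul under_isPrime under_ne_bot)

theorem span_two_mul_ne_top {F : Type} [Field F] [NumberField F] (N : ℕ) :
    Ideal.span {((2 * N : ℕ) : 𝓞 F)} ≠ ⊤ := by
  intro h
  have h1 := Ideal.absNorm_span_natCast (S := 𝓞 F) (2 * N)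
  rw [h, Ideal.absNorm_top] at h1
  rcases Nat.pow_eq_one.mp h1.symm with h2 | h2
  · omega
  · exact absurd h2 (Module.finrank_pos).ne'

variable {D : Datum} (P : ExtPlaces D) {N N' : ℕ}

/-- The primes used in words. -/
abbrev WordPrime (D : Datum) (N' : ℕ) : Type :=
  {w : SplitPrime (D := D) N' // D.SplitOK N' w.1.1.asIdeal}

/-- The data over `M`. -/
def dataM (P : ExtPlaces D) (N' : ℕ) :
    KillData (Ideal.span {(N' : 𝓞 D.M)}) (Fin 3) (WordPrime D N') (Fin 3)
      (TorusQuot P.placesM.emb (Ideal.span {((2 * N' : ℕ) : 𝓞 D.M)})) :=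
  (sameData P.placesM (m := Ideal.span {((2 * N' : ℕ) : 𝓞 D.M)})
    (Ideal.span_singleton_le_span_singleton.mpr (Nat.cast_dvd_cast (dvd_mul_left N' 2)))).restrict
    ((Function.Embedding.subtype _).trans (Function.Embedding.subtype _))

/-- The data over `E`. -/
def dataE (P : ExtPlaces D) (hd : N ∣ N') :
    KillData (Ideal.span {(N : 𝓞 D.E)}) Unit (WordPrime D N') (Fin 3)
      (TorusQuot P.placesM.emb (Ideal.span {((2 * N' : ℕ) : 𝓞 D.M)})) :=
  (descData P hd rfl).restrict (Function.Embedding.subtype _)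

/-- Killing pairs exist if the seed is not degenerate. -/
theorem killingSpec_of_nondeg (hND : NondegSpec) : KillingSpec := by
  classical
  intro D P N N' hN'0 hd SM SE hSM hSE φ a hφ ha
  have hN0 : N ≠ 0 := fun h => hN'0 (Nat.eq_zero_of_zero_dvd (h ▸ hd))
  set m₂ : Ideal (𝓞 D.M) := Ideal.span {((2 * N' : ℕ) : 𝓞 D.M)} with hm₂
  have h2 : (2 * N' : ℕ) ≠ 0 := by omega
  have hm₂b : m₂ ≠ ⊥ := lv_ne_bot h2
  have hm₂t : m₂ ≠ ⊤ := span_two_mul_ne_top N'
  have hnM : Ideal.span {(N' : 𝓞 D.M)} ≠ ⊥ := lv_ne_bot hN'0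
  have hnE : Ideal.span {(N : 𝓞 D.E)} ≠ ⊥ := lv_ne_bot hN0
  have : Finite (RayGroup P.placesM.emb m₂) := finite_rayGroup _ hm₂b
  have : Fintype (RayGroup P.placesM.emb m₂) := Fintype.ofFinite _
  have : Fintype (AddChar (RayGroup P.placesM.emb m₂) ℂ) := Fintype.ofFinite _
  -- a prime for every character
  have hex : ∀ χ : AddChar (RayGroup P.placesM.emb m₂) ℂ, ∃ w : WordPrime D N',
      a w.1.1.1.asIdeal ≠ χ (QuotientAddGroup.mk (Finsupp.single w.1.1 1))
        + conj (χ (QuotientAddGroup.mk (Finsupp.single w.1.1 1))) := by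
    intro χ
    obtain ⟨w, ⟨hdeg, hprime, hndvd⟩, hw⟩ := (hND D (2 * N') h2 (idealChar P.placesM.emb m₂ χ)
      (idealChar_mul _ hm₂t χ) (fun I hI => idealChar_ne_zero _ hm₂t χ hI)
      (fun a' b' _ _ hs hab => idealChar_congr _ hm₂t χ hs hab)).nonempty
    have hgood : D.SplitOK N' w :=
      ⟨hdeg, hprime, fun h => hndvd (h.trans (Ideal.dvd_iff_le.mpr
        (Ideal.span_singleton_le_span_singleton.mpr (Nat.cast_dvd_cast (dvd_mul_left N' 2)))))⟩
    have := hdeg.1
    obtain ⟨g, hg⟩ := LanglandsTunnell.CFT.exists_isFrobOver (F := D.M) hdeg.2.1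
    let gp : GoodPrime D.M m₂ := ⟨⟨w, hdeg.1, hdeg.2.1⟩, hndvd⟩
    refine ⟨⟨⟨gp, hdeg⟩, hgood⟩, ?_⟩
    have h1 := hw g hg
    rw [← ha w hgood g hg, show w = gp.1.asIdeal from rfl, idealChar_prime,
      Complex.inv_def, Complex.normSq_eq_norm_sq, AddChar.norm_apply] at h1
    simpa using h1
  choose wχ hwχ using hex
  obtain ⟨τ, hτ⟩ := exists_section (toRay P.placesM.emb m₂) (shiftClass P.placesM.emb m₂)
    (toRay_surjective _ _) (fun q hq => exists_shiftClass_eq _ _ hq) (toRay_shiftClass _ _)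
  let cls : AddChar (RayGroup P.placesM.emb m₂) ℂ → RayGroup P.placesM.emb m₂ := fun χ =>
    QuotientAddGroup.mk (Finsupp.single (wχ χ).1.1 1)
  have hex2 : ∀ χ, ∃ v : Fin 3 → ℝ,
      shiftClass P.placesM.emb m₂ v = primeClass P.placesM.emb m₂ (wχ χ).1.1 - τ (cls χ) := fun χ =>
    exists_shiftClass_eq _ _ (by rw [map_sub, hτ, toRay_primeClass, sub_self])
  choose sχ hsχ using hex2
  let KM := dataM P N'
  let KE := dataE P hd
  set A : Formal (WordPrime D N') (Fin 3) := killing wχ (fun χ => χ (cls χ)) sχ with hA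
  have himg : image KM.e KM.S A = 0 :=
    image_killing KM.e KM.S τ cls wχ sχ fun χ => by
      show τ (cls χ) = primeClass P.placesM.emb m₂ (wχ χ).1.1 - shiftClass P.placesM.emb m₂ (sχ χ)
      rw [hsχ, sub_sub_cancel]
  have himgE : image KE.e KE.S A = 0 := himg
  have hflip : ∀ ε, flipAlg ε A = A := flipAlg_killing _ _ _
  have hAreal : ∀ m, (A.coeff m).im = 0 := killing_real _ _ _
  obtain ⟨G₀, hG, hGpos⟩ := exists_isBase
  set GM : (WordPrime D N' →₀ ℕ) × (Fin 3 → ℝ) → Fin 3 → ℝ → ℂ := fun m => shiftW G₀ m.2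
  set GE : (WordPrime D N' →₀ ℕ) × (Fin 3 → ℝ) → Unit → ℝ → ℂ := fun m => descW (shiftW G₀ m.2)
  have hGM : ∀ m, WeightsOK (GM m) := fun m => weightsOK_shiftW hG m.2
  have hGE : ∀ m, WeightsOK (GE m) := fun m => weightsOK_descW (hGM m)
  set β : ℝ → ℂ := fun c => (tent c : ℂ)
  have hβc : Continuous β := Complex.continuous_ofReal.comp continuous_tent
  have hβs : HasCompactSupport β := hasCompactSupport_tent.comp_left Complex.ofReal_zero
  have hβr : ∀ x, conj (β x) = β x := fun x => Complex.conj_ofReal _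
  set coreM := KM.coreComb A GM
  set coreE := KE.coreComb A GE
  have dM : CoreData P.placesM coreM β 2 (Ideal.span {(N' : 𝓞 D.M)}) :=
    ⟨KM.fine_coreComb A hGM,
      KM.isCuspidal_coreComb hnM
        (fun f hf => by exact KillData.Respects.restrict _ (respects_same P.placesM _ hnM hf) _)
          himg hflip
        hG.smooth.continuous hG.support hGM (fun m => radial_shiftW hG m.2),
      hβc, hβs, ⟨1, zero_le_one, lip_tent⟩, by simp⟩
  have dE : CoreData P.placesE coreE β 8 (Ideal.span {(N : 𝓞 D.E)}) :=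
    ⟨KE.fine_coreComb A hGE,
      KE.isCuspidal_coreComb hnE
        (fun f hf => by exact KillData.Respects.restrict _ (respects_desc P hd rfl hnE hf) _)
          himgE hflip
        hG.smooth.continuous hG.support hGE (fun m => radial_descW hG m.2),
      hβc, hβs, ⟨1, zero_le_one, lip_tent⟩, by simp⟩
  have hdesc : D.descComb coreM = coreE := by
    rw [show coreM = symm2 (KM.termsOf A GM fun m => wordOf m.1) from rfl,
      descComb_eq_map, map_descT_symm2, map_descT_termsOf KM KE (fun x => rfl)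
        (fun x => (x.2.1.2.2).symm) A GM (fun m => wordOf m.1)]
    · rfl
    · intro T hT w hw
      have hw' : ∃ T₀ ∈ KM.termsOf A GM (fun m => wordOf m.1), w ∈ T₀.word := by
        simp only [symm2, List.mem_flatMap, List.mem_cons, List.not_mem_nil, or_false] at hT
        obtain ⟨T₀, hT₀, rfl | rfl⟩ := hT
        exacts [⟨T₀, hT₀, hw⟩, ⟨T₀, hT₀, List.mem_reverse.mp hw⟩]
      obtain ⟨T₀, hT₀, hw₀⟩ := hw'
      obtain ⟨m, -, rfl⟩ := List.mem_map.mp hT₀
      obtain ⟨x, -, rfl⟩ := List.mem_map.mp hw₀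
      exact x.2.1
  have hgoodcore : coreM.Good (D.SplitOK N') := by
    intro T hT
    refine ⟨(dM.fine T hT).1, fun w hw => ?_⟩
    simp only [coreM, KillData.coreComb, symm2, List.mem_flatMap, List.mem_cons, List.not_mem_nil,
      or_false] at hT
    obtain ⟨T₀, hT₀, h⟩ := hT
    obtain ⟨m, -, rfl⟩ := List.mem_map.mp hT₀
    have hw' : w ∈ (wordOf m.1).map KM.prime := by
      rcases h with rfl | rfl
      exacts [hw, List.mem_reverse.mp hw]
    obtain ⟨x, -, rfl⟩ := List.mem_map.mp hw'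
    exact x.2
  have hgoodO : (outer D.M (Fin 3) β 2 : Comb D.M (Fin 3)).Good (D.SplitOK N') := fun T hT => by
    rw [outer, List.mem_singleton] at hT
    subst hT
    exact ⟨fun _ => pw_ok hβc hβs 2, fun w hw => absurd hw List.not_mem_nil⟩
  set K := kill coreM β 2 with hK
  have hgood : K.Good (D.SplitOK N') := good_mul hgoodO (good_mul hgoodcore hgoodO)
  have hok : ∀ w, D.SplitOK N' w → D.under w ≠ ⊥ := fun w hw => by
    have := hw.1.1
    exact under_ne_bot D hw.1.2.1
  have hker : (D.descComb K).kernel (Ideal.span {(N : 𝓞 D.E)})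
      = (kill coreE β 8).kernel (Ideal.span {(N : 𝓞 D.E)}) := by
    rw [hK, kill, kernel_descComb_mul D hgoodO (good_mul hgoodcore hgoodO)]
    have e1 := kernel_descComb_mul D hgoodcore hgoodO (Ideal.span {(N : 𝓞 D.E)})
    rw [hdesc, descComb_outer hβc hβs] at e1
    refine kernel_mul_congr P.placesE hnE (good_descComb D hok hgoodO) dE.fine_outer.mono
      (good_descComb D hok (good_mul hgoodcore hgoodO)) (dE.fine.mul dE.fine_outer).mono
      (by rw [descComb_outer hβc hβs]) e1
  have hsymM := kill_symm hnM dM hβr (symm2_symm hnM (KM.fine_termsOf A hGM _)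
    (KM.isReal_termsOf hAreal (fun m i c => shiftW_real _ _ i c) _))
  have hsymE := kill_symm hnE dE hβr (symm2_symm hnE (KE.fine_termsOf A hGE _)
    (KE.isReal_termsOf hAreal (fun m i c => conj_h3conv_real
      (conj_h3conv_real (shiftW_real _ _ 0) (shiftW_real _ _ 1)) (shiftW_real _ _ 2) c) _))
  refine ⟨K, ⟨hgood, dM.isKillingKernel hnM hSM hsymM, ?_, fun C hC => ?_, fun C hC => ?_⟩, ?_⟩
  · rw [hker]
    exact dE.isKillingKernel hnE hSE hsymE
  · exact dM.bounded hnM hSM hsymM fun T hT => ⟨(hC T hT).1, fun w hw => by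
      obtain ⟨h1, h2, -⟩ := (hC T hT).2 w hw
      rcases h1 with h1 | h1
      exacts [⟨h1.1, h1.2.1, h2⟩, ⟨h1.1, h1.2.1, h2⟩]⟩
  · obtain ⟨B, hB⟩ := dE.bounded hnE hSE hsymE (C := C) hC
    have hC0 : C.Good fun v => v ≠ ⊥ :=
      LanglandsTunnell.Isolation.Comb.Good.mono hC fun _ h => h.2.1
    have hdK : (D.descComb K).Good fun v => v ≠ ⊥ := good_descComb D hok hgood
    have hkE := dE.fine_kill.mono
    refine ⟨B, fun x y => ?_⟩
    rw [kernel_mul_congr P.placesE hnE (good_mul hdK hC0) (good_mul hkE hC0) hdK hkE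
      (kernel_mul_congr P.placesE hnE hdK hkE hC0 hC0 hker rfl) hker]
    exact hB x y
  · refine ⟨(((sphValue tent : ℂ) ^ 3) ^ (2 + 1)) ^ 2 *
      (((∫ u, G₀ u : ℝ) : ℂ) ^ 3 * evalAlg (fun x => a (KM.prime x)) A), ?_, fun x => ?_⟩
    · refine mul_ne_zero (pow_ne_zero _ (pow_ne_zero _ (pow_ne_zero _
        (Complex.ofReal_ne_zero.mpr sphValue_tent_pos.ne')))) (mul_ne_zero (pow_ne_zero _
        (Complex.ofReal_ne_zero.mpr hGpos.ne')) ?_)
      exact evalAlg_killing_ne_zero _ _ _ _ fun χ => hwχ χ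
    · exact op_kill_eigen hφ hnM continuous_tent hasCompactSupport_tent 2 dM.fine
        (op_coreComb_eigen hφ hnM KM A hG) x

end FLTAgent.LanglandsTunnell.Killing
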