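import Mathlib

/-!
# Multiplicative functions of ray classes

A multiplicative function of ideals which depends only on congruence classes of generators has
modulus one off the modulus (`norm_eq_one_of_ray`) and is trivial on the ray
(`eq_one_of_ray`).
-/

set_option autoImplicit false

noncomputable section

open NumberField
open scoped nonZeroDivisors

namespace FLTAgent.LanglandsTunnell.Killing

variable {K : Type} [Field K] [NumberField K] {f : Ideal (𝓞 K)} {ψ : Ideal (𝓞 K) → ℂ}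

/-- A function only depending on ray classes has modulus one off the modulus. -/
theorem norm_eq_one_of_ray (hf : f ≠ ⊥) (hmul : ∀ I J, ψ (I * J) = ψ I * ψ J)
    (htop : ψ ⊤ = 1)
    (hcong : ∀ a b : 𝓞 K, a ≠ 0 → b ≠ 0 → Ideal.span {a} ⊔ f = ⊤ → a - b ∈ f →
      ψ (Ideal.span {a}) = ψ (Ideal.span {b}))
    {I : Ideal (𝓞 K)} (hI0 : I ≠ ⊥) (hI : I ⊔ f = ⊤) : ‖ψ I‖ = 1 := by
  have : Finite (𝓞 K ⧸ f) := Ideal.finiteQuotientOfFreeOfNeBot f hf
  let φ : Ideal (𝓞 K) →* ℂ :=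
    { toFun := ψ, map_one' := by rw [Ideal.one_eq_top]; exact htop, map_mul' := hmul }
  set h := classNumber K
  obtain ⟨a, ha⟩ : ∃ a : 𝓞 K, I ^ h = Ideal.span {a} := by
    have hnz : I ^ h ∈ (Ideal (𝓞 K))⁰ := mem_nonZeroDivisors_of_ne_zero (pow_ne_zero _ hI0)
    have h1 : ClassGroup.mk0 (⟨I ^ h, hnz⟩ : (Ideal (𝓞 K))⁰) = 1 := by
      rw [show (⟨I ^ h, hnz⟩ : (Ideal (𝓞 K))⁰) = ⟨I, mem_nonZeroDivisors_of_ne_zero hI0⟩ ^ h from
        Subtype.ext rfl, map_pow]
      exact pow_card_eq_one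
    obtain ⟨a, ha⟩ := ((ClassGroup.mk0_eq_one_iff _).mp h1).principal
    exact ⟨a, ha⟩
  have hacop : Ideal.span {a} ⊔ f = ⊤ := by rw [← ha]; exact Ideal.pow_sup_eq_top hI
  have ha0 : a ≠ 0 := fun h0 => pow_ne_zero h hI0 (by rw [ha, h0]; simp)
  set k := Nat.card (𝓞 K ⧸ f)ˣ
  have hunit : IsUnit (Ideal.Quotient.mk f a) := by
    obtain ⟨x, hx, y, hy, e⟩ := Submodule.mem_sup.mp ((Ideal.eq_top_iff_one _).mp hacop)
    obtain ⟨c, rfl⟩ := Ideal.mem_span_singleton'.mp hx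
    refine IsUnit.of_mul_eq_one (Ideal.Quotient.mk f c) ?_
    rw [← map_mul, ← (Ideal.Quotient.mk f).map_one, Ideal.Quotient.eq,
      show a * c - 1 = -y by linear_combination e]
    exact neg_mem hy
  have hk : a ^ k - 1 ∈ f := by
    rw [← Ideal.Quotient.eq, map_pow, map_one, ← hunit.unit_spec, ← Units.val_pow_eq_pow_val,
      pow_card_eq_one', Units.val_one]
  have hkpos : 0 < k := Nat.card_pos
  refine Complex.norm_eq_one_of_pow_eq_one (n := h * k) ?_
    (Nat.mul_pos (classNumber_pos K) hkpos).ne'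
  show φ I ^ (h * k) = 1
  rw [← map_pow, pow_mul, ha, Ideal.span_singleton_pow]
  show ψ (Ideal.span {a ^ k}) = 1
  have hcop : Ideal.span {a ^ k} ⊔ f = ⊤ := by
    rw [← Ideal.span_singleton_pow]; exact Ideal.pow_sup_eq_top hacop
  rw [hcong (a ^ k) 1 (pow_ne_zero _ ha0) one_ne_zero hcop hk, Ideal.span_singleton_one, htop]

/-- A function only depending on ray classes is trivial on the ray. -/
theorem eq_one_of_ray (htop : ψ ⊤ = 1)
    (hcong : ∀ a b : 𝓞 K, a ≠ 0 → b ≠ 0 → Ideal.span {a} ⊔ f = ⊤ → a - b ∈ f →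
      ψ (Ideal.span {a}) = ψ (Ideal.span {b}))
    {a : 𝓞 K} (ha0 : a ≠ 0) (ha : a - 1 ∈ f) : ψ (Ideal.span {a}) = 1 := by
  have hcop : Ideal.span {a} ⊔ f = ⊤ := by
    rw [Ideal.eq_top_iff_one, show (1 : 𝓞 K) = a - (a - 1) by ring]
    exact Ideal.sub_mem _ (Ideal.mem_sup_left (Ideal.mem_span_singleton_self a))
      (Ideal.mem_sup_right ha)
  rw [hcong a 1 ha0 one_ne_zero hcop ha, Ideal.span_singleton_one, htop]

end FLTAgent.LanglandsTunnell.Killing
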