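import Fermat.Agent.LanglandsTunnell.Killing.Signs
import Fermat.Agent.LanglandsTunnell.Killing.RayNorm
import Fermat.Agent.LanglandsTunnell.Killing.Assembly
import Fermat.Agent.LanglandsTunnell.CFT.Reciprocity
import Fermat.Agent.LanglandsTunnell.CFT.SecondIneq

/-!
# The seed avoids degenerate parameters

`nondegSpec`: for every multiplicative function `ψ` of ray classes of the sextic field there are
infinitely many split primes whose seed trace is not `ψ(w) + ψ(w)⁻¹`. With `Assembly` this gives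
`killingSpec`, one of the inputs of the cubic descent.
-/

set_option autoImplicit false

noncomputable section

open NumberField Filter
open scoped Topology nonZeroDivisors FLTAgent.LanglandsTunnell.Isolation

namespace FLTAgent.LanglandsTunnell.Killing

open FLTAgent.LanglandsTunnell.Isolation (under_isPrime)
open FLTAgent.ExtVanishing (PrimeIdeals dirichletTerm)
open FLTAgent.LanglandsTunnell.CFT (IsRayChar onNonzero mul_sup_eq_top_iff)

/-- The sextic field has no real place. -/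
theorem isTotallyComplex_M (D : Datum) : IsTotallyComplex D.M := by
  obtain ⟨ζ, h3, h1⟩ := WeightOneWiring.exists_zeta D
  have : Fact (Nat.Prime 3) := ⟨Nat.prime_three⟩
  have hz : IsPrimitiveRoot (D.incl ζ) 3 := by
    have ho : orderOf (D.incl ζ) = 3 := orderOf_eq_prime (by rw [← map_pow, h3, map_one])
      (fun h => h1 (D.incl.injective (by rw [h, map_one])))
    have hp := IsPrimitiveRoot.orderOf (D.incl ζ)
    rwa [ho] at hp
  exact nrRealPlaces_eq_zero_iff.1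
    (InfinitePlace.IsPrimitiveRoot.nrRealPlaces_eq_zero_of_two_lt (by norm_num) hz)

variable {D : Datum}

/-- A prime of prime norm of `M` has degree one over `E`. -/
theorem degreeOne_of_prime {P : Ideal (𝓞 D.M)} [hP : P.IsPrime] (hP0 : P ≠ ⊥)
    (hq : (Ideal.absNorm P).Prime) : D.DegreeOne P := by
  have := under_isPrime D P
  refine ⟨hP, hP0, ?_⟩
  rw [LanglandsTunnell.Isolation.under_eq]
  exact (LanglandsTunnell.CFT.absNorm_under_eq (K := D.E) hq hP0 rfl).symm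

theorem two_sq_eq {z : ℂ} (hz : z ≠ 0) {t : ℂ} (h : t = z + z⁻¹) :
    (t ^ 2 = 4 → z ^ 2 = 1) ∧ (t = 0 → z ^ 2 = -1) := by
  have h1 : t * z = z ^ 2 + 1 := by rw [h]; field_simp
  refine ⟨fun h2 => ?_, fun h2 => ?_⟩
  · have h3 : (z ^ 2 - 1) ^ 2 = 0 := by linear_combination z ^ 2 * h2 - (t * z + z ^ 2 + 1) * h1
    exact sub_eq_zero.mp (pow_eq_zero_iff two_ne_zero |>.mp h3)
  · rw [h2, zero_mul] at h1
    linear_combination -h1

theorem coprime_of_not_dvd {K : Type} [Field K] [NumberField K] {P f : Ideal (𝓞 K)}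
    (hP : P.IsPrime) (hP0 : P ≠ ⊥) (h : ¬ P ∣ f) : P ⊔ f = ⊤ := by
  by_contra hne
  exact h (Ideal.dvd_iff_le.2 (_root_.le_sup_right.trans
    ((hP.isMaximal hP0).eq_of_le hne _root_.le_sup_left).ge))

/-- The square of a function times another, off a modulus. -/
def twistSq {K : Type} [Field K] [NumberField K] (f : Ideal (𝓞 K)) (ψ χ : Ideal (𝓞 K) → ℂ)
    (hψ : ∀ I J, ψ (I * J) = ψ I * ψ J) (hχ : ∀ I J, χ (I * J) = χ I * χ J) (hψ1 : ψ ⊤ = 1)
    (hχ1 : χ ⊤ = 1) : Ideal (𝓞 K) →* ℂ where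
  toFun I := by classical exact if I ≠ ⊥ ∧ I ⊔ f = ⊤ then ψ I ^ 2 * χ I else 0
  map_one' := by
    classical
    have h1 : (1 : Ideal (𝓞 K)) = ⊤ := Ideal.one_eq_top
    rw [if_pos ⟨by rw [h1]; exact top_ne_bot, by rw [h1, top_sup_eq]⟩, h1, hψ1, hχ1]
    norm_num
  map_mul' I J := by
    classical
    have hiff : (I * J ≠ ⊥ ∧ I * J ⊔ f = ⊤) ↔
        (I ≠ ⊥ ∧ I ⊔ f = ⊤) ∧ (J ≠ ⊥ ∧ J ⊔ f = ⊤) := by
      rw [mul_sup_eq_top_iff, ← Ideal.zero_eq_bot, mul_ne_zero_iff]; tauto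
    by_cases hI : I ≠ ⊥ ∧ I ⊔ f = ⊤
    · by_cases hJ : J ≠ ⊥ ∧ J ⊔ f = ⊤
      · rw [if_pos hI, if_pos hJ, if_pos (hiff.2 ⟨hI, hJ⟩), hψ, hχ]; ring
      · rw [if_neg hJ, if_neg fun e => hJ (hiff.1 e).2, mul_zero]
    · rw [if_neg hI, if_neg fun e => hI (hiff.1 e).1, zero_mul]

/-- Three axis elements, their sign characters of ideals and a common modulus below `N'`. -/
private structure AxisData (D : Datum) (N' : ℕ) where
  x : Fin 3 → GQ
  mem : ∀ i, x i ∈ D.galM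
  ρ_eq : ∀ i, (D.ρ (x i)).1 = axisMat i
  f : Ideal (𝓞 D.M)
  f_ne : f ≠ ⊥
  f_le : f ≤ Ideal.span {(N' : 𝓞 D.M)}
  χ : Fin 3 → Ideal (𝓞 D.M) → ℂ
  χ_mul : ∀ i I J, χ i (I * J) = χ i I * χ i J
  χ_cong : ∀ i, ∀ a b : 𝓞 D.M, a ≠ 0 → b ≠ 0 → Ideal.span {a} ⊔ f = ⊤ → a - b ∈ f →
    χ i (Ideal.span {a}) = χ i (Ideal.span {b})
  χ_frob : ∀ i, ∀ P : Ideal (𝓞 D.M), P.IsPrime → P ≠ ⊥ → ¬ P ∣ f → ∀ g, IsFrobOver D.M P g →
    χ i P = (signVal (D.ρ g) (D.ρ (x i)) : ℂ)

/-- Reciprocity supplies the axis data. -/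
private theorem nonempty_axisData (D : Datum) {N' : ℕ} (hN' : N' ≠ 0) :
    Nonempty (AxisData D N') := by
  classical
  have hax : ∀ i, ∃ x ∈ D.galM, (D.ρ x).1 = axisMat i := by
    intro i
    let u : GL (Fin 2) (ZMod 3) := Matrix.GeneralLinearGroup.mkOfDetNeZero (axisMat i)
      (by rw [(axisMat_spec i).1]; exact one_ne_zero)
    obtain ⟨x, hx⟩ := D.surjective u
    have hx' : (D.ρ x).1 = axisMat i := by rw [hx]; rfl
    exact ⟨x, (mem_galM D).mpr ⟨by rw [hx']; exact (axisMat_spec i).1,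
      Or.inl (by rw [hx']; exact (axisMat_spec i).2)⟩, hx'⟩
  choose x hxM hx using hax
  obtain ⟨L₀, hL₀, hL₀ker⟩ := D.factors
  have := hL₀
  have hrec : ∀ i, ∃ (f : Ideal (𝓞 D.M)) (χ : Ideal (𝓞 D.M) → ℂ), f ≠ ⊥ ∧
      (∀ I J, χ (I * J) = χ I * χ J) ∧
      (∀ P : Ideal (𝓞 D.M), P.IsPrime → P ≠ ⊥ → ¬ P ∣ f → ∀ g, IsFrobOver D.M P g →
        χ P = (signVal (D.ρ g) (D.ρ (x i)) : ℂ)) ∧
      ∀ a b : 𝓞 D.M, a ≠ 0 → b ≠ 0 → Ideal.span {a} ⊔ f = ⊤ → a - b ∈ f →
          χ (Ideal.span {a}) = χ (Ideal.span {b}) := by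
    intro i
    obtain ⟨f, χ, hf, -, hmul, hfrob, hcong⟩ := LanglandsTunnell.CFT.reciprocitySpec D.M
      (isTotallyComplex_M D) 2 (by simp) (signChar (x i) (hxM i)) (signChar_sq (x i) (hxM i))
      ⟨L₀, hL₀, fun g hg => by
        show signVal (D.ρ g) _ = 1
        rw [hL₀ker g hg, signVal, if_pos]
        simp⟩
    exact ⟨f, χ, hf, hmul, fun P hP hP0 hPf g hg => hfrob P hP hP0 hPf g hg.1 hg, hcong⟩
  choose fx χ hfx hχmul hχfrob hχcong using hrec
  set f : Ideal (𝓞 D.M) := Ideal.span {(N' : 𝓞 D.M)} * (fx 0 * fx 1 * fx 2)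
  have hlex : ∀ i, f ≤ fx i := by
    intro i
    refine Ideal.mul_le_right.trans ?_
    fin_cases i
    exacts [Ideal.mul_le_left.trans Ideal.mul_le_left, Ideal.mul_le_left.trans Ideal.mul_le_right,
      Ideal.mul_le_right]
  exact ⟨⟨x, hxM, hx, f,
    mul_ne_zero (lv_ne_bot hN') (mul_ne_zero (mul_ne_zero (hfx 0) (hfx 1)) (hfx 2)),
    Ideal.mul_le_left, χ, hχmul,
    fun i a b ha hb hcop hab => hχcong i a b ha hb
      (eq_top_iff.mpr (hcop.ge.trans (sup_le_sup_left (hlex i) _))) (hlex i hab),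
    fun i P hP hP0 hPf g hg => hχfrob i P hP hP0
      (fun h => hPf (Ideal.dvd_iff_le.mpr ((hlex i).trans (Ideal.dvd_iff_le.mp h)))) g hg⟩⟩

/-- A value at each good prime of a function of ray classes with only finitely many exceptions. -/
private structure GoodBound {N' : ℕ} (A : AxisData D N') (ψ : Ideal (𝓞 D.M) → ℂ) (B : ℕ) :
    Prop where
  ne_zero : B ≠ 0
  spec : ∀ P : Ideal (𝓞 D.M), P.IsPrime → P ≠ ⊥ → (Ideal.absNorm P).Prime →
    ¬ Ideal.absNorm P ∣ B → P ⊔ A.f = ⊤ ∧ (∀ i g, IsFrobOver D.M P g →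
      A.χ i P = (signVal (D.ρ g) (D.ρ (A.x i)) : ℂ)) ∧
      ∃ g, IsFrobOver D.M P g ∧ g ∈ D.galM ∧ trLift (D.ρ g) = ψ P + (ψ P)⁻¹

/-- Finitely many exceptions are avoided by a bound on the norm. -/
private theorem exists_goodBound {N' : ℕ} (hN' : N' ≠ 0) (A : AxisData D N')
    {ψ : Ideal (𝓞 D.M) → ℂ} (hfin : {w : Ideal (𝓞 D.M) | D.SplitOK N' w ∧
      ∀ g, IsFrobOver D.M w g → trLift (D.ρ g) ≠ ψ w + (ψ w)⁻¹}.Finite) :
    ∃ B, GoodBound A ψ B := by
  classical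
  set B : ℕ := N' * Ideal.absNorm A.f * ∏ w ∈ hfin.toFinset.filter (· ≠ ⊥), Ideal.absNorm w
  refine ⟨B, mul_ne_zero (mul_ne_zero hN' (by simpa [Ideal.absNorm_eq_zero_iff] using A.f_ne))
    (Finset.prod_ne_zero_iff.mpr fun w hw e => (Finset.mem_filter.mp hw).2
      (Ideal.absNorm_eq_zero_iff.1 e)), fun P hP hP0 hq hqB => ?_⟩
  have hnd : ∀ J : Ideal (𝓞 D.M), A.f ≤ J → ¬ P ∣ J := fun J hJ h => hqB (by
    have h1 := Ideal.absNorm_dvd_absNorm_of_le (hJ.trans (Ideal.dvd_iff_le.mp h))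
    exact dvd_mul_of_dvd_left (dvd_mul_of_dvd_right h1 _) _)
  refine ⟨coprime_of_not_dvd hP hP0 (hnd A.f le_rfl),
    fun i g hg => A.χ_frob i P hP hP0 (hnd A.f le_rfl) g hg, ?_⟩
  have := hP
  have hok : D.SplitOK N' P := ⟨degreeOne_of_prime hP0 hq, hq, hnd _ A.f_le⟩
  by_contra hno
  push Not at hno
  have hmem : P ∈ hfin.toFinset := hfin.mem_toFinset.mpr
    ⟨hok, fun g hg => hno g hg ((fixingSubgroup_M D) ▸ hg.1)⟩
  exact hqB (dvd_mul_of_dvd_right (Finset.dvd_prod_of_mem _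
    (Finset.mem_filter.mpr ⟨hmem, hP0⟩)) _)

variable {N' : ℕ} {A : AxisData D N'} {ψ : Ideal (𝓞 D.M) → ℂ} {B : ℕ}
  (hψne : ∀ I, I ⊔ Ideal.span {(N' : 𝓞 D.M)} = ⊤ → ψ I ≠ 0)

include hψne in
/-- A good prime in the class of an axis: there `ψ²χ` is `-1` and `χ` is `1`. -/
private theorem GoodBound.exists_axis_prime (h : GoodBound A ψ B) (i : Fin 3) :
    ∃ P : Ideal (𝓞 D.M), P ≠ ⊥ ∧ P ⊔ A.f = ⊤ ∧ ψ P ^ 2 * A.χ i P = -1 ∧ A.χ i P = 1 := by
  classical
  have := WeightOneWiring.isGalois_QB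
  obtain ⟨L₀, hL₀, hL₀ker⟩ := D.factors
  have := hL₀
  have : FiniteDimensional ℚ ↥(L₀ ⊔ D.M) := IntermediateField.finiteDimensional_sup _ _
  set L : IntermediateField ℚ QB := IntermediateField.normalClosure ℚ ↥(L₀ ⊔ D.M) QB
  have : FiniteDimensional ℚ L := normalClosure.is_finiteDimensional ..
  have : Normal ℚ L := normalClosure.normal ..
  have : IsGalois ℚ L := IsGalois.mk
  have hle : L₀ ⊔ D.M ≤ L := IntermediateField.le_normalClosure _
  obtain ⟨q, P, g, hq, hqB, hP, hP0, hPN, hPg, hgL⟩ :=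
    LanglandsTunnell.CFT.exists_degreeOne_frobenius (F := D.M) L (le_sup_right.trans hle) (A.x i)
      ((fixingSubgroup_M D).symm ▸ A.mem i) h.ne_zero
  obtain ⟨hcop, hχv, g', hg', hg'M, htr⟩ := h.spec P hP hP0 (hPN ▸ hq) (hPN ▸ hqB)
  have hρ : D.ρ g = D.ρ (A.x i) := by
    have h : D.ρ ((A.x i)⁻¹ * g) = 1 := hL₀ker _ fun y hy => by
      rw [AlgEquiv.mul_apply, hgL y (hle (le_sup_left (b := D.M) hy)), AlgEquiv.aut_inv,
        AlgEquiv.symm_apply_apply]
    rwa [map_mul, map_inv, inv_mul_eq_one, eq_comm] at h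
  have hχ1 : A.χ i P = 1 := by rw [hχv i g hPg, hρ, axis_sign]; simp
  have h0 : trLift (D.ρ g') = 0 := by
    rcases sum_signVal hg'M A.ρ_eq with ⟨hc, -, -⟩ | ⟨h, -⟩
    · exfalso
      -- a central Frobenius commutes with every axis, unlike the given one
      have hone : ∀ j, A.χ j P = 1 := fun j => by
        rw [hχv j g' hg', signVal, if_pos]
        · simp
        · rcases hc with hc | hc <;> simp [hc]
      rcases sum_signVal (A.mem i) A.ρ_eq with ⟨hc', -, -⟩ | ⟨-, hs⟩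
      · have hdet := axisMat_spec i
        rcases hc' with e | e <;> rw [A.ρ_eq] at e <;> rw [e] at hdet <;>
          simp at hdet <;> exact absurd hdet (by decide)
      · rw [Finset.sum_congr rfl fun j _ =>
            show (signVal (D.ρ (A.x i)) (D.ρ (A.x j)) : ℂ) = 1 by
              rw [← hρ, ← hχv j g hPg, hone j]] at hs
        norm_num at hs
    · exact h
  have hsq := (two_sq_eq (hψne P (eq_top_iff.mpr (hcop.ge.trans
    (sup_le_sup_left A.f_le P)))) htr).2 h0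
  exact ⟨P, hP0, hcop, by rw [hsq, hχ1, mul_one], hχ1⟩

variable (hψmul : ∀ I J, ψ (I * J) = ψ I * ψ J) (hψ1 : ψ ⊤ = 1) (hχ1 : ∀ i, A.χ i ⊤ = 1)
  (hψcong : ∀ a b : 𝓞 D.M, a ≠ 0 → b ≠ 0 → Ideal.span {a} ⊔ Ideal.span {(N' : 𝓞 D.M)} = ⊤ →
    a - b ∈ Ideal.span {(N' : 𝓞 D.M)} → ψ (Ideal.span {a}) = ψ (Ideal.span {b}))

/-- The ray character `ψ²χ` of an axis. -/
private def axisRayChar (i : Fin 3) : Ideal (𝓞 D.M) →* ℂ :=
  twistSq A.f ψ (A.χ i) hψmul (A.χ_mul i) hψ1 (hχ1 i)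

/-- The value of `axisRayChar` away from the modulus. -/
private theorem axisRayChar_apply (i : Fin 3) {I : Ideal (𝓞 D.M)} (h0 : I ≠ ⊥)
    (h : I ⊔ A.f = ⊤) : axisRayChar hψmul hψ1 hχ1 i I = ψ I ^ 2 * A.χ i I :=
  if_pos ⟨h0, h⟩

include hψcong in
/-- `axisRayChar` is a ray character modulo `f`. -/
private theorem isRayChar_axisRayChar (hN' : N' ≠ 0) (i : Fin 3) :
    IsRayChar A.f (axisRayChar hψmul hψ1 hχ1 i) := by
  classical
  have hnorm : ∀ {I : Ideal (𝓞 D.M)}, I ≠ ⊥ → I ⊔ A.f = ⊤ →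
      ‖axisRayChar hψmul hψ1 hχ1 i I‖ = 1 := fun {I} h0 h => by
    rw [axisRayChar_apply hψmul hψ1 hχ1 i h0 h, norm_mul, norm_pow,
      norm_eq_one_of_ray (lv_ne_bot hN') hψmul hψ1 hψcong h0
        (eq_top_iff.mpr (h.ge.trans (sup_le_sup_left A.f_le I))),
      norm_eq_one_of_ray A.f_ne (A.χ_mul i) (hχ1 i) (A.χ_cong i) h0 h]
    norm_num
  refine ⟨A.f_ne, fun I => ?_, fun I h0 => ⟨fun hne => ?_, fun h => ?_⟩, fun a ha0 ha => ?_⟩
  · by_cases h : I ≠ ⊥ ∧ I ⊔ A.f = ⊤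
    · exact (hnorm h.1 h.2).le
    · rw [show axisRayChar hψmul hψ1 hχ1 i I = 0 from if_neg h, norm_zero]; exact zero_le_one
  · by_contra h
    exact hne (if_neg fun hh => h hh.2)
  · exact norm_ne_zero_iff.mp (by rw [hnorm h0 h]; exact one_ne_zero)
  · have hs0 : Ideal.span {a} ≠ ⊥ := fun e => ha0 (Ideal.span_singleton_eq_bot.1 e)
    have hcop : Ideal.span {a} ⊔ A.f = ⊤ := by
      rw [Ideal.eq_top_iff_one, show (1 : 𝓞 D.M) = a - (a - 1) by ring]
      exact Ideal.sub_mem _ (Ideal.mem_sup_left (Ideal.mem_span_singleton_self a))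
        (Ideal.mem_sup_right ha)
    rw [axisRayChar_apply hψmul hψ1 hχ1 i hs0 hcop, eq_one_of_ray hψ1 hψcong ha0 (A.f_le ha),
      eq_one_of_ray (hχ1 i) (A.χ_cong i) ha0 ha]
    norm_num

include hψne in
/-- At a good prime the three values have real part at least one in total. -/
private theorem GoodBound.one_le_re_sum (h : GoodBound A ψ B) {P : Ideal (𝓞 D.M)} (hP : P.IsPrime)
    (hP0 : P ≠ ⊥) (hq : (Ideal.absNorm P).Prime) (hqB : ¬ Ideal.absNorm P ∣ B) :
    1 ≤ (∑ i, axisRayChar hψmul hψ1 hχ1 i P).re := by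
  obtain ⟨hcop, hχv, g, hg, hgM, htr⟩ := h.spec P hP hP0 hq hqB
  have hz := two_sq_eq (hψne P (eq_top_iff.mpr (hcop.ge.trans
    (sup_le_sup_left A.f_le _)))) htr
  rw [Finset.sum_congr rfl fun i _ => (axisRayChar_apply hψmul hψ1 hχ1 i hP0 hcop).trans
    (by rw [hχv i g hg]), ← Finset.mul_sum]
  rcases sum_signVal hgM A.ρ_eq with ⟨-, ht, hsum⟩ | ⟨ht, hsum⟩
  · rw [hz.1 ht, hsum]; norm_num
  · rw [hz.2 ht, hsum]; norm_num

/-- Three prime sums bounded above cannot have total real part at least one at almost every prime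
of degree one, as those diverge. -/
private theorem false_of_primeSum_le {K : Type} [Field K] [NumberField K]
    {χ : Fin 3 → Ideal (𝓞 K) →* ℂ} (hle1 : ∀ i I, ‖χ i I‖ ≤ 1) {B : ℕ} (hB : B ≠ 0)
    (hge : ∀ P : Ideal (𝓞 K), P.IsPrime → P ≠ ⊥ → (Ideal.absNorm P).Prime →
      ¬ Ideal.absNorm P ∣ B → 1 ≤ (∑ i, χ i P).re)
    (hub : ∀ i, ∃ C : ℝ, ∀ᶠ s in 𝓝[>] (1 : ℝ),
      (∑' P : PrimeIdeals K, dirichletTerm (onNonzero (χ i)) s P.toNonZero).re ≤ C) : False := by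
  classical
  choose C hC using hub
  obtain ⟨C₁, hC₁⟩ := ExtVanishing.exists_le_sum_degreeOne (K := K)
  obtain ⟨Ce, hCe⟩ := ExtVanishing.exists_bound_exceptional (K := K) 0
  have hfinB : {P : PrimeIdeals K | Ideal.absNorm P.1 ≤ B}.Finite :=
    (Ideal.finite_setOfPred_absNorm_le (S := 𝓞 K) B).preimage Subtype.val_injective.injOn
  set T₀ := hfinB.toFinset
  have hbig : ∀ᶠ s in 𝓝[>] (1 : ℝ),
      C 0 + C 1 + C 2 + C₁ + 4 * (Ce + T₀.card) + 1 ≤ Real.log (1 / (s - 1)) :=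
    FLTAgent.Density.tendsto_log_one_div_sub_one.eventually_ge_atTop _
  obtain ⟨s, hs0, hs1, hs2, hd, hb, hs⟩ :=
    ((hC 0).and ((hC 1).and ((hC 2).and (hC₁.and (hbig.and self_mem_nhdsWithin))))).exists
  -- the lower bound
  set r : PrimeIdeals K → ℝ := fun P => (Ideal.absNorm P.1 : ℝ) ^ (-s)
  have hr0 : ∀ P, 0 ≤ r P := fun P => Real.rpow_nonneg (Nat.cast_nonneg _) _
  have hr1 : ∀ P, r P ≤ 1 := fun P => Real.rpow_le_one_of_one_le_of_nonpos
    (by exact_mod_cast (show 1 ≤ Ideal.absNorm P.1 from le_trans one_le_two P.two_le_absNorm))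
    (by linarith [(hs : (1:ℝ) < s)])
  set e : PrimeIdeals K → ℝ := fun P =>
    if ¬ ((Ideal.absNorm P.1).Prime ∧ Ideal.absNorm P.1 ≠ 0) then r P else 0
  set d : PrimeIdeals K → ℝ := fun P => if P ∈ T₀ then r P else 0
  set u : Fin 3 → PrimeIdeals K → ℂ := fun i P => dirichletTerm (onNonzero (χ i)) s P.toNonZero
  have hu : ∀ i, Summable (u i) := fun i => Summable.of_norm_bounded
    (ExtVanishing.summable_rpow_primes (K := K) hs)
    fun P => ExtVanishing.norm_dirichletTerm_le (fun I => hle1 i _) s _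
  have hure : ∀ i, Summable fun P => (u i P).re := fun i => (Complex.reCLM.summable (hu i))
  have hval : ∀ i P, (u i P).re = (χ i P.1).re * r P := fun i P => by
    show (χ i P.1 * ((r P : ℝ) : ℂ)).re = _
    rw [Complex.re_mul_ofReal]
  have hpt : ∀ P : PrimeIdeals K, (if (Ideal.absNorm P.1).Prime then r P else 0) -
      4 * e P - 4 * d P ≤ (u 0 P).re + (u 1 P).re + (u 2 P).re := by
    intro P
    have hlow : ∀ i, -r P ≤ (u i P).re := fun i => by
      rw [hval, neg_eq_neg_one_mul]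
      exact mul_le_mul_of_nonneg_right
        (neg_le_of_abs_le ((Complex.abs_re_le_norm _).trans (hle1 i _))) (hr0 P)
    have he0 : 0 ≤ e P := by simp only [e]; split_ifs <;> simp [hr0]
    have hd0 : 0 ≤ d P := by simp only [d]; split_ifs <;> simp [hr0]
    by_cases hp : (Ideal.absNorm P.1).Prime
    · by_cases hT : Ideal.absNorm P.1 ∣ B
      · have hdP : d P = r P := by
          simp only [d]
          rw [if_pos (hfinB.mem_toFinset.mpr (Nat.le_of_dvd (Nat.pos_of_ne_zero hB) hT))]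
        rw [if_pos hp, hdP]
        linarith [hlow 0, hlow 1, hlow 2]
      · have hone := hge P.1 P.2.1 P.2.2 hp hT
        rw [Fin.sum_univ_three, Complex.add_re, Complex.add_re] at hone
        rw [if_pos hp, hval, hval, hval, ← add_mul, ← add_mul]
        linarith [mul_le_mul_of_nonneg_right hone (hr0 P)]
    · have heP : e P = r P := by simp only [e]; rw [if_pos fun h => hp h.1]
      rw [if_neg hp, heP]
      linarith [hlow 0, hlow 1, hlow 2, hr0 P]
  have hsA : Summable fun P : PrimeIdeals K => if (Ideal.absNorm P.1).Prime then r P else 0 :=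
    ExtVanishing.summable_ite_rpow (fun P : PrimeIdeals K => (Ideal.absNorm P.1).Prime) hs
  have hsE : Summable e := ExtVanishing.summable_ite_rpow
    (fun P : PrimeIdeals K => ¬ ((Ideal.absNorm P.1).Prime ∧ Ideal.absNorm P.1 ≠ 0)) hs
  have hdsum : HasSum d (∑ P ∈ T₀, d P) := hasSum_sum_of_ne_finset_zero fun P hP => if_neg hP
  have hdle : ∑ P ∈ T₀, d P ≤ T₀.card := by
    refine (Finset.sum_le_card_nsmul _ _ 1 fun P hP => ?_).trans_eq (by simp)
    simp only [d, if_pos hP]; exact hr1 P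
  have hele : ∑' P, e P ≤ Ce := hsE.tsum_le_of_sum_le fun T => by
    simp only [e]
    rw [← Finset.sum_filter]
    exact hCe s hs _ fun P hP => (Finset.mem_filter.1 hP).2
  have hmain := ((hsA.hasSum.sub (hsE.hasSum.mul_left 4)).sub (hdsum.mul_left 4)).tsum_eq
  have hL := Summable.tsum_le_tsum hpt (((hsA.sub (hsE.mul_left 4)).sub
      (hdsum.summable.mul_left 4)))
    (((hure 0).add (hure 1)).add (hure 2))
  rw [hmain, ((hure 0).add (hure 1)).tsum_add (hure 2), (hure 0).tsum_add (hure 1),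
    ← Complex.re_tsum (hu 0), ← Complex.re_tsum (hu 1), ← Complex.re_tsum (hu 2)] at hL
  simp only [u] at hL
  linarith

/-- The seed avoids the degenerate parameters. -/
theorem nondegSpec : NondegSpec := by
  intro D N' hN' ψ hψmul hψne hψcong
  by_contra hfin
  rw [Set.not_infinite] at hfin
  obtain ⟨A⟩ := nonempty_axisData D hN'
  obtain ⟨B, hgood⟩ := exists_goodBound hN' A hfin
  -- primes in the classes of the axes make the three ray characters nontrivial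
  choose P hP0 hcop hval hχP using hgood.exists_axis_prime hψne
  have hψ1 : ψ ⊤ = 1 := by
    have h := hψmul ⊤ ⊤
    rw [Ideal.top_mul] at h
    exact (mul_eq_left₀ (hψne ⊤ (top_sup_eq _))).mp h.symm
  have hχ1 : ∀ i, A.χ i ⊤ = 1 := fun i => by
    have h := A.χ_mul i ⊤ (P i)
    rw [Ideal.top_mul, hχP, mul_one] at h
    exact h.symm
  -- so their prime sums are bounded above, against the values at almost every prime of degree one
  refine false_of_primeSum_le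
    (fun i => (isRayChar_axisRayChar hψmul hψ1 hχ1 hψcong hN' i).norm_le) hgood.ne_zero
    (fun Q hQ hQ0 hq hqB => hgood.one_le_re_sum hψne hψmul hψ1 hχ1 hQ hQ0 hq hqB) fun i => ?_
  have h := (axisRayChar_apply hψmul hψ1 hχ1 i (hP0 i) (hcop i)).trans (hval i)
  exact LanglandsTunnell.CFT.exists_le_re_primeSum
    (isRayChar_axisRayChar hψmul hψ1 hχ1 hψcong hN' i)
    ⟨P i, hP0 i, by rw [h]; norm_num, by rw [h]; norm_num⟩

/-- Killing pairs exist. -/
theorem killingSpec : KillingSpec := killingSpec_of_nondeg nondegSpec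

end FLTAgent.LanglandsTunnell.Killing
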