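import Fermat.Agent.LanglandsTunnell.Geom.H3Measure

/-!
# The Abel transform of hyperbolic three-space and its inversion

`abel k u` integrates the point pair invariant `k` over a horosphere at logarithmic height `u`.
For an even compactly supported `C²` function `G` (`IsBase G`), `abelKernel G` is a continuous
compactly supported kernel with `abel (abelKernel G) = G` (`IsBase.abel_abelKernel`) and spherical
value `∫ G` (`IsBase.sphValue_abelKernel`).
-/

set_option autoImplicit false

noncomputable section

open MeasureTheory Filter Topology Real Set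

namespace FLTAgent.LanglandsTunnell.Killing

/-- The integral of a point pair invariant over a horosphere, normalised. -/
def abel (k : ℝ → ℝ) (u : ℝ) : ℝ := ∫ w : ℂ, k (cosh u + ‖w‖ ^ 2 / 2)

theorem abel_neg (k : ℝ → ℝ) (u : ℝ) : abel k (-u) = abel k u := by simp [abel]

theorem exists_support_bound {k : ℝ → ℝ} (hs : HasCompactSupport k) :
    ∃ R : ℝ, 1 ≤ R ∧ ∀ c, R < |c| → k c = 0 := by
  obtain ⟨R, hR⟩ := hs.isCompact.isBounded.subset_closedBall 0
  refine ⟨max R 1, le_max_right _ _, fun c hc => by_contra fun h => ?_⟩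
  have := hR (subset_tsupport k h)
  rw [Metric.mem_closedBall, dist_zero_right, Real.norm_eq_abs] at this
  have := le_max_left R 1
  linarith

theorem integrand_eq_zero {k : ℝ → ℝ} {R : ℝ} (hR : ∀ c, R < |c| → k c = 0) {a : ℝ} (ha : 0 ≤ a)
    {w : ℂ} (hw : 2 * R < ‖w‖ ^ 2) : k (a + ‖w‖ ^ 2 / 2) = 0 := by
  refine hR _ (lt_of_lt_of_le ?_ (le_abs_self _))
  linarith

theorem continuous_abel {k : ℝ → ℝ} (hc : Continuous k) (hs : HasCompactSupport k) :
    Continuous (abel k) := by
  obtain ⟨R, hR1, hR⟩ := exists_support_bound hs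
  refine continuous_parametric_integral_of_continuous (μ := (volume : Measure ℂ))
    (f := fun u (w : ℂ) => k (cosh u + ‖w‖ ^ 2 / 2)) (s := Metric.closedBall 0 (2 * R))
    (by fun_prop) (isCompact_closedBall _ _) |>.congr fun u => ?_
  refine setIntegral_eq_integral_of_forall_compl_eq_zero fun w hw => ?_
  rw [Metric.mem_closedBall, dist_zero_right, not_le] at hw
  exact integrand_eq_zero hR (cosh_pos u).le (by nlinarith)

theorem exists_abel_eq_zero {k : ℝ → ℝ} (hs : HasCompactSupport k) :
    ∃ S : ℝ, 0 < S ∧ ∀ u, S < |u| → abel k u = 0 := by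
  obtain ⟨R, hR1, hR⟩ := exists_support_bound hs
  refine ⟨arcosh R + 1, by linarith [arcosh_nonneg hR1], fun u hu => ?_⟩
  refine (integral_eq_zero_of_ae (Eventually.of_forall fun w => hR _ ?_))
  have h1 : R < cosh |u| := by
    rw [← cosh_arcosh hR1]
    exact cosh_strictMonoOn (arcosh_nonneg hR1) (abs_nonneg u) (by linarith)
  rw [cosh_abs] at h1
  have : 0 ≤ ‖w‖ ^ 2 / 2 := by positivity
  exact lt_of_lt_of_le (by linarith) (le_abs_self _)

theorem hasCompactSupport_abel {k : ℝ → ℝ} (hs : HasCompactSupport k) :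
    HasCompactSupport (abel k) := by
  obtain ⟨S, hS, h⟩ := exists_abel_eq_zero hs
  refine HasCompactSupport.intro (isCompact_closedBall (0 : ℝ) S) fun u hu => h u ?_
  simpa [Metric.mem_closedBall] using hu

/-- Integration of a point pair invariant over a horosphere. -/
theorem integral_horosphere (k : ℝ → ℝ) (P : H3) {t : ℝ} (ht : 0 < t) :
    ∫ z : ℂ, k (H3.coshDist P ⟨z, t, ht⟩) = P.t * t * abel k (log (t / P.t)) := by
  have hP := P.t_pos
  set s := √(P.t * t) with hs
  have hs0 : 0 < s := Real.sqrt_pos.mpr (mul_pos hP ht)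
  have hs2 : s ^ 2 = P.t * t := Real.sq_sqrt (mul_pos hP ht).le
  have hcosh : cosh (log (t / P.t)) = (P.t ^ 2 + t ^ 2) / (2 * P.t * t) := by
    rw [cosh_log (div_pos ht hP)]
    field_simp
    ring
  rw [← integral_add_right_eq_self _ P.z]
  have e : ∀ z : ℂ, k (H3.coshDist P ⟨z + P.z, t, ht⟩)
      = (fun w : ℂ => k (cosh (log (t / P.t)) + ‖w‖ ^ 2 / 2)) (s⁻¹ • z) := by
    intro z
    simp only [H3.coshDist, hcosh, norm_smul, Real.norm_eq_abs, mul_pow, sq_abs, inv_pow, hs2]
    rw [show P.z - (z + P.z) = -z by ring, norm_neg]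
    congr 1
    field_simp
    ring
  simp only [e]
  rw [Measure.integral_comp_inv_smul volume (fun w : ℂ => k (cosh (log (t / P.t)) + ‖w‖ ^ 2 / 2)) s,
    Complex.finrank_real_complex, hs2,
    abs_of_pos (mul_pos hP ht), smul_eq_mul, abel]

/-- An even `C²` function with compact support. -/
structure IsBase (G : ℝ → ℝ) : Prop where
  smooth : ContDiff ℝ 2 G
  even : ∀ u, G (-u) = G u
  support : HasCompactSupport G

namespace IsBase

variable {G : ℝ → ℝ} (hG : IsBase G)

include hG

theorem deriv_zero : deriv G 0 = 0 := by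
  have h1 : deriv (fun x => G (-x)) 0 = -deriv G 0 := by
    rw [deriv_comp_neg, neg_zero]
  rw [show (fun x => G (-x)) = G from funext hG.even] at h1
  linarith

theorem contDiff_deriv : ContDiff ℝ 1 (deriv G) := hG.smooth.deriv' (n := 1)

theorem shiftAverage (s : ℝ) : IsBase fun u => (G (u - s) + G (u + s)) / 2 where
  smooth := ((hG.smooth.comp (contDiff_id.sub contDiff_const)).add
    (hG.smooth.comp (contDiff_id.add contDiff_const))).div_const _
  even u := by
    rw [show -u - s = -(u + s) by ring, show -u + s = -(u - s) by ring, hG.even, hG.even]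
    ring
  support := by
    obtain ⟨R, -, hR⟩ := exists_support_bound hG.support
    refine HasCompactSupport.intro (isCompact_closedBall (0 : ℝ) (R + |s|)) fun u hu => ?_
    rw [Metric.mem_closedBall, dist_zero_right, Real.norm_eq_abs, not_le] at hu
    have h1 := abs_sub_abs_le_abs_sub u s
    have h2 := abs_sub_abs_le_abs_add u s
    rw [hR _ (by linarith), hR _ (by linarith)]
    norm_num

end IsBase

/-- The profile `h` with `h(u) sinh u = -G'(u)/2π`. -/
def profile (G : ℝ → ℝ) (u : ℝ) : ℝ :=
  -(dslope (deriv G) 0 u / dslope sinh 0 u) / (2 * π)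

/-- The inverse Abel transform. -/
def abelKernel (G : ℝ → ℝ) (c : ℝ) : ℝ :=
  profile G (arcosh (max c 1)) * max 0 (min c 1)

theorem dslope_sinh_pos (u : ℝ) : 0 < dslope sinh 0 u := by
  rcases eq_or_ne u 0 with rfl | hu
  · simp [Real.deriv_sinh]
  · rw [dslope_of_ne _ hu, slope_def_field, sinh_zero, sub_zero, sub_zero]
    rcases lt_or_gt_of_ne hu with h | h
    · exact div_pos_of_neg_of_neg (sinh_neg_iff.mpr h) h
    · exact div_pos (sinh_pos_iff.mpr h) h

theorem continuous_dslope {f : ℝ → ℝ} (hf : Differentiable ℝ f) : Continuous (dslope f 0) := by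
  refine continuous_iff_continuousAt.mpr fun u => ?_
  rcases eq_or_ne u 0 with rfl | hu
  · exact continuousAt_dslope_same.mpr (hf 0)
  · exact (continuousAt_dslope_of_ne hu).mpr (hf u).continuousAt

theorem abelKernel_of_one_le (G : ℝ → ℝ) {c : ℝ} (hc : 1 ≤ c) :
    abelKernel G c = profile G (arcosh c) := by
  simp [abelKernel, max_eq_left hc, min_eq_right hc]

namespace IsBase

variable {G : ℝ → ℝ} (hG : IsBase G)

include hG

theorem continuous_profile : Continuous (profile G) :=
  ((continuous_dslope (hG.contDiff_deriv.differentiable one_ne_zero)).div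
    (continuous_dslope Real.differentiable_sinh) fun u => (dslope_sinh_pos u).ne').neg.div_const _

theorem profile_mul_sinh (u : ℝ) : profile G u * sinh u = -deriv G u / (2 * π) := by
  have h1 := sub_smul_dslope (deriv G) 0 u
  have h2 := sub_smul_dslope sinh 0 u
  simp only [sub_zero, smul_eq_mul, hG.deriv_zero, sinh_zero] at h1 h2
  have hne := (dslope_sinh_pos u).ne'
  rw [profile, ← h2, ← h1]
  field_simp

theorem continuous_abelKernel : Continuous (abelKernel G) := by
  refine (hG.continuous_profile.comp ?_).mul (by fun_prop)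
  exact continuousOn_arcosh.comp_continuous (continuous_id.max continuous_const) fun c =>
    le_max_right c 1

theorem exists_deriv_eq_zero : ∃ R : ℝ, 1 ≤ R ∧ ∀ u, R < |u| → G u = 0 ∧ deriv G u = 0 := by
  obtain ⟨R, hR1, hR⟩ := exists_support_bound hG.support
  refine ⟨R, hR1, fun u hu => ⟨hR u hu, ?_⟩⟩
  have : G =ᶠ[𝓝 u] fun _ => 0 :=
    eventually_of_mem ((isOpen_lt continuous_const continuous_abs).mem_nhds hu) fun v hv => hR v hv
  rw [this.deriv_eq, deriv_const]

theorem hasCompactSupport_abelKernel : HasCompactSupport (abelKernel G) := by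
  obtain ⟨R, hR1, hR⟩ := hG.exists_deriv_eq_zero
  refine HasCompactSupport.intro (isCompact_Icc (a := 0) (b := cosh R)) fun c hc => ?_
  rw [mem_Icc, not_and_or, not_le, not_le] at hc
  rcases hc with h | h
  · rw [abelKernel, max_eq_left (min_le_of_left_le h.le), mul_zero]
  · have hc1 : 1 ≤ c := (one_le_cosh R).trans h.le
    have hu : R < arcosh c := by
      rw [← arcosh_cosh (show (0 : ℝ) ≤ R by linarith)]
      exact (arcosh_lt_arcosh (cosh_pos R) (by linarith)).mpr h
    have hu0 : arcosh c ≠ 0 := by linarith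
    rw [abelKernel_of_one_le G hc1, profile, dslope_of_ne _ hu0, slope_def_field, hG.deriv_zero,
      (hR _ (lt_of_lt_of_le hu (le_abs_self _))).2]
    simp

/-- The inversion formula. -/
theorem abel_abelKernel (v : ℝ) : abel (abelKernel G) v = G v := by
  have hc := hG.continuous_abelKernel
  obtain ⟨R, hR1, hR⟩ := hG.exists_deriv_eq_zero
  have hGc : Continuous G := hG.smooth.continuous
  set a := cosh v
  have ha : 1 ≤ a := one_le_cosh v
  -- polar coordinates
  have hpol : abel (abelKernel G) v
      = (2 * π) * ∫ r in Ioi (0 : ℝ), r * abelKernel G (a + r ^ 2 / 2) := by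
    rw [abel, ← Complex.integral_comp_polarCoord_symm]
    rw [polarCoord_target, Measure.volume_eq_prod]
    have e : EqOn (fun p : ℝ × ℝ => p.1 • abelKernel G (a + ‖Complex.polarCoord.symm p‖ ^ 2 / 2))
        (fun p => (p.1 * abelKernel G (a + p.1 ^ 2 / 2)) * (1 : ℝ)) (Ioi (0 : ℝ) ×ˢ Ioo (-π) π) :=
      fun p _ => by simp [sq_abs]
    rw [setIntegral_congr_fun (measurableSet_Ioi.prod measurableSet_Ioo) e,
      setIntegral_prod_mul (fun r => r * abelKernel G (a + r ^ 2 / 2)) (fun _ => (1 : ℝ))]
    simp only [setIntegral_const, smul_eq_mul, mul_one,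
      Real.volume_real_Ioo_of_le (by linarith [pi_pos] : -π ≤ π)]
    ring
  set Φ := fun r : ℝ => -(1 / (2 * π)) * G (arcosh (a + r ^ 2 / 2)) with hΦ
  have hderiv : ∀ r ∈ Ioi (0 : ℝ), HasDerivAt Φ (r * abelKernel G (a + r ^ 2 / 2)) r := by
    intro r hr
    have hc1 : 1 < a + r ^ 2 / 2 := by have := sq_pos_of_pos (Set.mem_Ioi.mp hr); linarith
    have h1 : HasDerivAt (fun r : ℝ => a + r ^ 2 / 2) r r := by
      have h := ((hasDerivAt_pow 2 r).div_const 2).const_add a
      refine h.congr_deriv ?_
      push_cast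
      ring
    have h2 := ((hG.smooth.differentiable two_ne_zero _).hasDerivAt.comp r
      ((hasDerivAt_arcosh hc1).comp r h1)).const_mul (-(1 / (2 * π)))
    refine h2.congr_deriv ?_
    have hsinh : 0 < √((a + r ^ 2 / 2) ^ 2 - 1) := Real.sqrt_pos.mpr (by nlinarith)
    rw [abelKernel_of_one_le G hc1.le]
    have hp := hG.profile_mul_sinh (arcosh (a + r ^ 2 / 2))
    rw [sinh_arcosh hc1.le] at hp
    rw [eq_div_of_mul_eq hsinh.ne' hp]
    simp only [Function.comp_apply]
    ring
  have hcont : ContinuousWithinAt Φ (Ici 0) 0 := by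
    have h1 : Continuous fun r : ℝ => arcosh (a + r ^ 2 / 2) :=
      continuousOn_arcosh.comp_continuous (by fun_prop) fun r =>
        show (1 : ℝ) ≤ a + r ^ 2 / 2 by have := sq_nonneg r; linarith
    exact (continuous_const.mul (hGc.comp h1)).continuousWithinAt
  have hint : IntegrableOn (fun r => r * abelKernel G (a + r ^ 2 / 2)) (Ioi 0) := by
    obtain ⟨R', hR'1, hR'⟩ := exists_support_bound hG.hasCompactSupport_abelKernel
    refine ((show Continuous fun r : ℝ => r * abelKernel G (a + r ^ 2 / 2) by fun_prop)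
      |>.integrable_of_hasCompactSupport ?_).integrableOn
    refine HasCompactSupport.intro (isCompact_closedBall (0 : ℝ) (2 * R')) fun r hr => ?_
    rw [Metric.mem_closedBall, dist_zero_right, Real.norm_eq_abs, not_le] at hr
    rw [hR' _ ?_, mul_zero]
    refine lt_of_lt_of_le ?_ (le_abs_self _)
    nlinarith [sq_abs r]
  have hlim : Tendsto Φ atTop (𝓝 0) := by
    refine tendsto_const_nhds.congr' ?_
    filter_upwards [eventually_gt_atTop (2 * cosh R + 2)] with r hr
    have hch := one_le_cosh R
    have h1 : cosh R < a + r ^ 2 / 2 := by nlinarith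
    have hu : R < arcosh (a + r ^ 2 / 2) := by
      rw [← arcosh_cosh (show (0 : ℝ) ≤ R by linarith)]
      exact (arcosh_lt_arcosh (cosh_pos R) (by linarith)).mpr h1
    simp [hΦ, (hR _ (lt_of_lt_of_le hu (le_abs_self _))).1]
  rw [hpol, integral_Ioi_of_hasDerivAt_of_tendsto hcont hderiv hint hlim]
  have : arcosh a = |v| := by
    rw [show a = cosh |v| from (cosh_abs v).symm, arcosh_cosh (abs_nonneg v)]
  have hGv : G |v| = G v := by rcases abs_choice v with h | h <;> simp [h, hG.even]
  simp only [hΦ, zero_pow two_ne_zero, zero_div, add_zero, this, hGv]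
  field_simp
  ring

/-- The value on the spherical function of parameter zero. -/
theorem sphValue_abelKernel : sphValue (abelKernel G) = ∫ u, G u := by
  obtain ⟨R, hR1, hR⟩ := hG.exists_deriv_eq_zero
  have hGc : Continuous G := hG.smooth.continuous
  have hev : ∫ u, G u = 2 * ∫ u in Ioi (0 : ℝ), G u := by
    rw [← integral_comp_abs]
    refine integral_congr_ae (Eventually.of_forall fun u => ?_)
    rcases abs_choice u with h | h <;> simp [h, hG.even]
  have e : EqOn (fun r => abelKernel G (cosh r) * r * sinh r)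
      (fun r => -(1 / (2 * π)) * (r * deriv G r)) (Ioi 0) := by
    intro r hr
    change abelKernel G (cosh r) * r * sinh r = _
    rw [abelKernel_of_one_le G (one_le_cosh r), arcosh_cosh (le_of_lt hr)]
    have := hG.profile_mul_sinh r
    linear_combination r * this
  have hsupp : ∀ r, 2 * R < |r| → G r = 0 ∧ r * deriv G r = 0 := fun r hr => by
    obtain ⟨h1, h2⟩ := hR r (by linarith)
    exact ⟨h1, by rw [h2, mul_zero]⟩
  have hi1 : IntegrableOn G (Ioi 0) := (hGc.integrable_of_hasCompactSupport hG.support).integrableOn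
  have hi2 : IntegrableOn (fun r => r * deriv G r) (Ioi 0) :=
    ((continuous_id.mul hG.contDiff_deriv.continuous).integrable_of_hasCompactSupport
      (HasCompactSupport.intro (isCompact_closedBall (0 : ℝ) (2 * R)) fun r hr => (hsupp r (by
        simpa [Metric.mem_closedBall] using hr)).2)).integrableOn
  have hparts : ∫ r in Ioi (0 : ℝ), (G r + r * deriv G r) = 0 := by
    refine (integral_Ioi_of_hasDerivAt_of_tendsto (f := fun r => r * G r)
      (f' := fun r => G r + r * deriv G r) (m := 0)
      (continuous_id.mul hGc).continuousWithinAt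
      (fun r _ => ((hasDerivAt_id r).mul
        (hG.smooth.differentiable two_ne_zero r).hasDerivAt).congr_deriv
        (by simp))
      (hi1.add hi2) (tendsto_const_nhds.congr' (by
        filter_upwards [eventually_gt_atTop (2 * R)] with r hr
        rw [(hsupp r (lt_of_lt_of_le hr (le_abs_self r))).1, mul_zero]))).trans ?_
    simp
  rw [integral_add hi1 hi2] at hparts
  rw [sphValue, setIntegral_congr_fun measurableSet_Ioi e, integral_const_mul, hev]
  field_simp
  linarith

end IsBase

/-- A fixed nonnegative base function with positive integral. -/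
theorem exists_isBase : ∃ G : ℝ → ℝ, IsBase G ∧ 0 < ∫ u, G u := by
  let φ : ContDiffBump (0 : ℝ) := ⟨1, 2, one_pos, one_lt_two⟩
  exact ⟨φ, ⟨φ.contDiff, fun u => φ.neg u, φ.hasCompactSupport⟩, φ.integral_pos⟩

end FLTAgent.LanglandsTunnell.Killing
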