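import Fermat.Agent.LanglandsTunnell.Killing.InfOps
import Fermat.Agent.LanglandsTunnell.Killing.Abel

/-!
# Point pair invariants against functions of the heights

In the coordinates `toPt` the invariant measure is Lebesgue measure, and
`integral_infKer_radial` evaluates the integral of a product of invariants against a function of
the logarithmic heights through the Abel transforms of the invariants.
-/

set_option autoImplicit false

noncomputable section

open MeasureTheory Set Filter
open scoped ENNReal

namespace FLTAgent.LanglandsTunnell.Killing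

/-- The point `(e^u w, e^u)`. -/
def toPt (p : ℂ × ℝ) : H3 := ⟨(Real.exp p.2 : ℂ) * p.1, Real.exp p.2, Real.exp_pos _⟩

theorem continuous_toPt : Continuous toPt :=
  H3.continuous_mk_iff.mpr ⟨(Complex.continuous_ofReal.comp
    (Real.continuous_exp.comp continuous_snd)).mul continuous_fst,
    Real.continuous_exp.comp continuous_snd⟩

/-- In these coordinates the invariant measure is the Lebesgue measure. -/
theorem measurePreserving_toPt :
    MeasurePreserving toPt (volume : Measure (ℂ × ℝ)) H3.volH3 := by
  refine ⟨continuous_toPt.measurable, Measure.ext_of_lintegral _ fun f hf => ?_⟩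
  rw [lintegral_map hf continuous_toPt.measurable, H3.lintegral_vol hf]
  have hF : Measurable fun x : ℂ × ℝ => ENNReal.ofReal (1 / x.2 ^ 3) * f (H3.mkPt x) :=
    H3.measurable_density.mul (hf.comp H3.measurable_mkPt)
  have hhs : H3.halfSpace = (univ : Set ℂ) ×ˢ Ioi (0 : ℝ) := by
    ext x; simp [H3.halfSpace]
  have hscale : ∀ (t : ℝ) (ht : 0 < t),
      ∫⁻ z : ℂ, f (H3.mkPt (z, t))
        = ENNReal.ofReal (t ^ 2) * ∫⁻ w : ℂ, f ⟨(t : ℂ) * w, t, ht⟩ := by
    intro t ht
    have hmk : ∀ z : ℂ, H3.mkPt (z, t) = ⟨z, t, ht⟩ := fun z => dif_pos ht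
    have hmap := Measure.map_addHaar_smul (volume : Measure ℂ) ht.ne'
    have hg : Measurable fun z : ℂ => f (H3.mkPt (z, t)) :=
      hf.comp (H3.measurable_mkPt.comp (measurable_id.prodMk measurable_const))
    have h := lintegral_map (μ := (volume : Measure ℂ)) hg (continuous_const_smul t).measurable
    rw [hmap, Complex.finrank_real_complex, lintegral_smul_measure, smul_eq_mul] at h
    simp only [hmk, Complex.real_smul] at h
    simp only [hmk]
    rw [← h, ← mul_assoc, ← ENNReal.ofReal_mul (sq_nonneg t),
      show t ^ 2 * |(t ^ 2)⁻¹| = 1 by rw [abs_of_pos (by positivity)]; field_simp,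
      ENNReal.ofReal_one, one_mul]
  rw [hhs, Measure.volume_eq_prod, ← Measure.prod_restrict, Measure.restrict_univ,
    lintegral_prod_symm _ hF.aemeasurable,
    lintegral_prod_symm (μ := (volume : Measure ℂ)) (ν := (volume : Measure ℝ))
      (fun p => f (toPt p)) (hf.comp continuous_toPt.measurable).aemeasurable]
  conv_rhs => rw [← Real.range_exp, ← image_univ, lintegral_image_eq_lintegral_abs_deriv_mul
    MeasurableSet.univ (fun u _ => (Real.hasDerivAt_exp u).hasDerivWithinAt)
    Real.exp_injective.injOn, Measure.restrict_univ]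
  refine lintegral_congr fun u => ?_
  have hg' : Measurable fun z : ℂ => f (H3.mkPt (z, Real.exp u)) :=
    hf.comp (H3.measurable_mkPt.comp (measurable_id.prodMk measurable_const))
  show _ = _ * ∫⁻ x : ℂ, ENNReal.ofReal (1 / Real.exp u ^ 3) * f (H3.mkPt (x, Real.exp u))
  rw [lintegral_const_mul _ hg', hscale _ (Real.exp_pos u), ← mul_assoc, ← mul_assoc,
    ← ENNReal.ofReal_mul (abs_nonneg _), ← ENNReal.ofReal_mul (by positivity),
    show |Real.exp u| * (1 / Real.exp u ^ 3) * Real.exp u ^ 2 = 1 by
      rw [Real.abs_exp]; field_simp, ENNReal.ofReal_one, one_mul]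
  rfl

theorem logT_toPt (p : ℂ × ℝ) : Real.log (toPt p).t = p.2 := Real.log_exp _

variable {ι : Type} [Fintype ι]

/-- The product map. -/
def toPts (p : (ι → ℂ) × (ι → ℝ)) (i : ι) : H3 := toPt (p.1 i, p.2 i)

theorem measurePreserving_toPts :
    MeasurePreserving (toPts : (ι → ℂ) × (ι → ℝ) → ι → H3)
      ((volume : Measure (ι → ℂ)).prod (volume : Measure (ι → ℝ))) (volPi ι) := by
  have h1 := MeasurePreserving.symm _ (measurePreserving_arrowProdEquivProdArrow ℂ ℝ ι
    (fun _ => (volume : Measure ℂ)) (fun _ => (volume : Measure ℝ)))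
  have h2 : MeasurePreserving (fun (x : ι → ℂ × ℝ) i => toPt (x i))
      (Measure.pi fun _ : ι => (volume : Measure ℂ).prod (volume : Measure ℝ)) (volPi ι) :=
    measurePreserving_pi _ _ fun _ => by
      rw [← Measure.volume_eq_prod]; exact measurePreserving_toPt
  have h3 := h2.comp h1
  rwa [volume_pi, volume_pi]

theorem integral_coshDist_toPt (k : ℝ → ℝ) (P : H3) (u : ℝ) :
    ∫ w : ℂ, k (H3.coshDist P (toPt (w, u)))
      = Real.exp (-(u - Real.log P.t)) * abel k (u - Real.log P.t) := by
  have h := integral_horosphere k P (Real.exp_pos u)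
  rw [Real.log_div (Real.exp_pos u).ne' P.t_pos.ne', Real.log_exp] at h
  have h2 := Measure.integral_comp_smul (volume : Measure ℂ)
    (fun z : ℂ => k (H3.coshDist P ⟨z, Real.exp u, Real.exp_pos u⟩)) (Real.exp u)
  rw [Complex.finrank_real_complex, h, smul_eq_mul, abs_of_pos (by positivity)] at h2
  simp only [Complex.real_smul] at h2
  refine h2.trans ?_
  rw [neg_sub, Real.exp_sub, Real.exp_log P.t_pos]
  field_simp

/-- The point over the origin at the given logarithmic heights. -/
def axisPts (ξ : ι → ℝ) (i : ι) : H3 := ⟨0, Real.exp (ξ i), Real.exp_pos _⟩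

/-- A function of the heights against point pair invariants. -/
theorem integral_infKer_radial {k : ι → ℝ → ℝ} (hk : ∀ i, Continuous (k i))
    (hks : ∀ i, HasCompactSupport (k i)) {c : (ι → ℝ) → ℂ} (hc : Continuous c) (ξ : ι → ℝ) :
    ∫ Q, infKer (fun i x => (k i x : ℂ)) (axisPts ξ) Q * c (fun i => Real.log (Q i).t) ∂volPi ι
      = ∫ s : ι → ℝ, (∏ i, ((Real.exp (-s i) * abel (k i) (s i) : ℝ) : ℂ)) * c (ξ + s) := by
  have hw : WeightsOK fun i x => (k i x : ℂ) := fun i =>
    ⟨Complex.continuous_ofReal.comp (hk i), (hks i).comp_left Complex.ofReal_zero⟩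
  have hcont : Continuous fun Q : ι → H3 => c fun i => Real.log (Q i).t :=
    hc.comp (continuous_pi fun i => (H3.continuous_t.comp (continuous_apply i)).log
      fun Q => (Q i).t_pos.ne')
  have hint := integrable_infKer_mul hw hcont.locallyIntegrable (axisPts ξ)
  set G : (ι → H3) → ℂ := fun Q =>
    infKer (fun i x => (k i x : ℂ)) (axisPts ξ) Q * c fun i => Real.log (Q i).t with hG
  have hmp := measurePreserving_toPts (ι := ι)
  change ∫ Q, G Q ∂volPi ι = _
  rw [← hmp.map_eq, integral_map hmp.measurable.aemeasurable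
    (by rw [hmp.map_eq]; exact hint.aestronglyMeasurable)]
  have hint2 : Integrable (fun p : (ι → ℂ) × (ι → ℝ) => G (toPts p))
      ((volume : Measure (ι → ℂ)).prod (volume : Measure (ι → ℝ))) :=
    (hmp.integrable_comp hint.aestronglyMeasurable).mpr hint
  rw [integral_prod_symm _ hint2]
  calc ∫ u : ι → ℝ, ∫ w : ι → ℂ, G (toPts (w, u))
      = ∫ u : ι → ℝ, (∏ i, ((Real.exp (-(u i - ξ i)) * abel (k i) (u i - ξ i) : ℝ) : ℂ)) * c u := by
        refine integral_congr_ae (Eventually.of_forall fun u => ?_)
        simp only [hG, infKer, toPts, logT_toPt, integral_mul_const]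
        congr 1
        rw [integral_fintype_prod_volume_eq_prod (fun i w =>
          ((k i (H3.coshDist (axisPts ξ i) (toPt (w, u i))) : ℝ) : ℂ))]
        refine Finset.prod_congr rfl fun i _ => ?_
        rw [integral_complex_ofReal, integral_coshDist_toPt]
        simp [axisPts]
    _ = ∫ s : ι → ℝ, (∏ i, ((Real.exp (-s i) * abel (k i) (s i) : ℝ) : ℂ)) * c (ξ + s) := by
        rw [← integral_add_left_eq_self (μ := (volume : Measure (ι → ℝ))) _ ξ]
        simp

end FLTAgent.LanglandsTunnell.Killing
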