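import Mathlib

/-!
# Means of periodic functions over the unit cube

`boxMean` is the mean of a function periodic under the integer lattice; for continuous functions
it is unchanged by translations (`boxMean_comp_add`) and by integral matrices of nonzero
determinant (`boxMean_comp_mulVec`).
-/

set_option autoImplicit false

noncomputable section

open MeasureTheory Set

namespace FLTAgent.LanglandsTunnell.Killing

variable {d : Type} [Fintype d]

/-- The mean over the unit cube. -/
def boxMean (f : (d → ℝ) → ℂ) : ℂ := ∫ s in univ.pi (fun _ : d => Icc (0 : ℝ) 1), f s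

/-- Periodic under the integer lattice. -/
def IntPeriodic (f : (d → ℝ) → ℂ) : Prop := ∀ (s : d → ℝ) (k : d → ℤ), f (fun i => s i + k i) = f s

/-- The measure of the torus. -/
abbrev torusVol (d : Type) [Fintype d] : Measure (d → AddCircle (1 : ℝ)) :=
  Measure.pi fun _ => (volume : Measure (AddCircle (1 : ℝ)))

/-- The function on the torus. -/
def descend (f : (d → ℝ) → ℂ) (θ : d → AddCircle (1 : ℝ)) : ℂ :=
  f fun i => (AddCircle.equivIoc (1 : ℝ) 0 (θ i) : ℝ)

omit [Fintype d] in
theorem descend_coe {f : (d → ℝ) → ℂ} (hf : IntPeriodic f) (s : d → ℝ) :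
    descend f (fun i => (s i : AddCircle (1 : ℝ))) = f s := by
  have h : ∀ i, ∃ k : ℤ,
      (AddCircle.equivIoc (1 : ℝ) 0 (s i : AddCircle (1 : ℝ)) : ℝ) = s i + k := fun i => by
    have h1 : ((AddCircle.equivIoc (1 : ℝ) 0 (s i : AddCircle (1 : ℝ)) : ℝ) : AddCircle (1 : ℝ))
        = (s i : AddCircle (1 : ℝ)) := (AddCircle.equivIoc (1 : ℝ) 0).symm_apply_apply _
    obtain ⟨k, hk⟩ := AddSubgroup.mem_zmultiples_iff.mp ((QuotientAddGroup.eq).mp h1.symm)
    exact ⟨k, by rw [zsmul_one] at hk; rw [hk]; abel⟩
  choose k hk using h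
  rw [descend, funext hk]
  exact hf s k

theorem measurable_descend {f : (d → ℝ) → ℂ} (hf : Continuous f) : Measurable (descend f) :=
  hf.measurable.comp (measurable_pi_lambda _ fun i => measurable_subtype_coe.comp
    ((AddCircle.measurableEquivIoc (1 : ℝ) 0).measurable.comp (measurable_pi_apply i)))

theorem boxMean_eq {f : (d → ℝ) → ℂ} (hf : IntPeriodic f) (hc : Continuous f) :
    boxMean f = ∫ θ, descend f θ ∂torusVol d := by
  have hmp : MeasurePreserving (fun (s : d → ℝ) i => (s i : AddCircle (1 : ℝ)))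
      (Measure.pi fun _ : d => (volume : Measure ℝ).restrict (Ioc (0 : ℝ) (0 + 1))) (torusVol d) :=
    measurePreserving_pi _ _ fun _ => AddCircle.measurePreserving_mk (1 : ℝ) 0
  rw [← hmp.map_eq, integral_map hmp.measurable.aemeasurable
    (measurable_descend hc).aestronglyMeasurable]
  simp only [descend_coe hf]
  rw [boxMean, ← Measure.restrict_pi_pi, zero_add, ← volume_pi]
  refine setIntegral_congr_set ?_
  rw [pi_univ_Icc, volume_pi]
  exact (Measure.univ_pi_Ioc_ae_eq_Icc (f := fun _ : d => (0 : ℝ)) (g := fun _ => 1)).symm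

omit [Fintype d] in
theorem IntPeriodic.comp_add {f : (d → ℝ) → ℂ} (hf : IntPeriodic f) (a : d → ℝ) :
    IntPeriodic fun s => f (fun i => a i + s i) := fun s k => by
  show f (fun i => a i + (s i + k i)) = _
  simp only [← add_assoc]
  exact hf _ k

/-- The mean does not see translations. -/
theorem boxMean_comp_add {f : (d → ℝ) → ℂ} (hf : IntPeriodic f) (hc : Continuous f) (a : d → ℝ) :
    boxMean (fun s => f fun i => a i + s i) = boxMean f := by
  rw [boxMean_eq (hf.comp_add a) (hc.comp (continuous_pi fun i => continuous_const.add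
    (continuous_apply i))), boxMean_eq hf hc]
  rw [← integral_add_left_eq_self (μ := torusVol d) (descend f)
    (fun i => (a i : AddCircle (1 : ℝ)))]
  refine integral_congr_ae (Filter.Eventually.of_forall fun θ => ?_)
  obtain ⟨s, rfl⟩ : ∃ s : d → ℝ, (fun i => (s i : AddCircle (1 : ℝ))) = θ :=
    ⟨fun i => (AddCircle.equivIoc (1 : ℝ) 0 (θ i) : ℝ),
      funext fun i => (AddCircle.equivIoc (1 : ℝ) 0).symm_apply_apply (θ i)⟩
  simp only
  rw [descend_coe (hf.comp_add a), ← descend_coe hf fun i => a i + s i]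
  rfl

variable [DecidableEq d]

/-- The endomorphism of the torus given by an integer matrix. -/
def torusHom (A : Matrix d d ℤ) : (d → AddCircle (1 : ℝ)) →+ (d → AddCircle (1 : ℝ)) where
  toFun θ i := ∑ j, A i j • θ j
  map_zero' := by funext i; simp
  map_add' θ η := by funext i; simp [Finset.sum_add_distrib]

omit [DecidableEq d] in
theorem torusHom_coe (A : Matrix d d ℤ) (s : d → ℝ) :
    torusHom A (fun i => (s i : AddCircle (1 : ℝ)))
      = fun i => (((A.map (Int.cast : ℤ → ℝ)).mulVec s i : ℝ) : AddCircle (1 : ℝ)) := by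
  funext i
  show ∑ j, A i j • (s j : AddCircle (1 : ℝ)) = QuotientAddGroup.mk' _ (∑ j, (A i j : ℝ) * s j)
  rw [map_sum]
  refine Finset.sum_congr rfl fun j _ => ?_
  rw [← zsmul_eq_mul, map_zsmul]
  rfl

theorem measurePreserving_torusHom {A : Matrix d d ℤ} (hA : A.det ≠ 0) :
    MeasurePreserving (torusHom A) (torusVol d) (torusVol d) := by
  have hsurj : Function.Surjective (torusHom A) := fun θ => by
    set t : d → ℝ := fun i => (AddCircle.equivIoc (1 : ℝ) 0 (θ i) : ℝ)
    have ht : (fun i => (t i : AddCircle (1 : ℝ))) = θ :=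
      funext fun i => (AddCircle.equivIoc (1 : ℝ) 0).symm_apply_apply (θ i)
    have hu : IsUnit (A.map (Int.cast : ℤ → ℝ)).det := by
      have : (A.map (Int.cast : ℤ → ℝ)).det = (A.det : ℝ) :=
        ((Int.castRingHom ℝ).map_det A).symm
      rw [this, isUnit_iff_ne_zero]
      exact_mod_cast hA
    refine ⟨fun i => (((A.map (Int.cast : ℤ → ℝ))⁻¹.mulVec t) i : AddCircle (1 : ℝ)), ?_⟩
    rw [torusHom_coe, Matrix.mulVec_mulVec, Matrix.mul_nonsing_inv _ hu, Matrix.one_mulVec, ht]
  have hcont : Continuous (torusHom A) :=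
    continuous_pi fun i => continuous_finsetSum _ fun j _ =>
      (continuous_zsmul (A i j)).comp (continuous_apply j)
  exact AddMonoidHom.measurePreserving hcont hsurj rfl

/-- The mean does not see integral endomorphisms. -/
theorem boxMean_comp_mulVec {f : (d → ℝ) → ℂ} (hf : IntPeriodic f) (hc : Continuous f)
    {A : Matrix d d ℤ} (hA : A.det ≠ 0) :
    boxMean (fun s => f ((A.map (Int.cast : ℤ → ℝ)).mulVec s)) = boxMean f := by
  have hper : IntPeriodic fun s => f ((A.map (Int.cast : ℤ → ℝ)).mulVec s) := fun s k => by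
    have h : (A.map (Int.cast : ℤ → ℝ)).mulVec (fun i => s i + k i)
        = fun i => (A.map (Int.cast : ℤ → ℝ)).mulVec s i + ((A.mulVec k i : ℤ) : ℝ) := by
      funext i
      simp [Matrix.mulVec, dotProduct, mul_add, Finset.sum_add_distrib]
    show f _ = _
    rw [h]
    exact hf _ _
  rw [boxMean_eq hper (hc.comp (continuous_pi fun i => continuous_finsetSum _ fun j _ =>
    continuous_const.mul (continuous_apply j))), boxMean_eq hf hc]
  have h := measurePreserving_torusHom hA
  conv_rhs => rw [← h.map_eq, integral_map h.measurable.aemeasurable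
    (measurable_descend hc).aestronglyMeasurable]
  refine integral_congr_ae (Filter.Eventually.of_forall fun θ => ?_)
  obtain ⟨s, rfl⟩ : ∃ s : d → ℝ, (fun i => (s i : AddCircle (1 : ℝ))) = θ :=
    ⟨fun i => (AddCircle.equivIoc (1 : ℝ) 0 (θ i) : ℝ),
      funext fun i => (AddCircle.equivIoc (1 : ℝ) 0).symm_apply_apply (θ i)⟩
  simp only
  rw [descend_coe hper, torusHom_coe, descend_coe hf]

omit [DecidableEq d] in
theorem volume_box : (volume : Measure (d → ℝ)) (univ.pi fun _ : d => Icc (0 : ℝ) 1) = 1 := by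
  rw [pi_univ_Icc, Real.volume_Icc_pi]
  simp

omit [DecidableEq d] in
theorem boxMean_const (c : ℂ) : boxMean (fun _ : d → ℝ => c) = c := by
  rw [boxMean, setIntegral_const, measureReal_def, volume_box]
  simp

end FLTAgent.LanglandsTunnell.Killing
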