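import Fermat.Agent.LanglandsTunnell.AdelicGroup
import Fermat.Agent.LanglandsTunnell.Geom.Embedding
import Fermat.Agent.LanglandsTunnell.Geom.Reduction
import Fermat.Agent.LanglandsTunnell.Killing.Operators
import Fermat.Agent.LanglandsTunnell.Killing.Mean
import Fermat.Agent.LanglandsTunnell.Killing.Horosphere

/-!
# Constant terms of invariant functions

For a function invariant and continuous on every sheet (`InvCts`), `ctLog` is the constant term
as a function of the logarithmic heights, computed as a mean over a period cube (`ctMean`). It is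
invariant under unipotent elements, transforms under the diagonal elements of the field
(`ctLog_diag`), and `ctLog_op` computes the constant term of an operator applied to a function.
-/

set_option autoImplicit false

noncomputable section

open NumberField MeasureTheory Matrix Filter Function

namespace FLTAgent.LanglandsTunnell.Killing

open FLTAgent.LanglandsTunnell.Geom (BIdx embLin embLin_bijective exists_level_decomp affineGL
  affineGL_map affineGL_smul_z affineGL_smul_t act_mul)

variable {F : Type} [Field F] [NumberField F] {ι : Type} [Fintype ι] {n : Ideal (𝓞 F)}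

/-- Translation at every place. -/
def shiftPt (x : ι → ℂ) (P : ι → H3) (i : ι) : H3 := H3.shift (x i) (P i)

omit [Fintype ι] in
theorem shiftPt_add (x y : ι → ℂ) (P : ι → H3) : shiftPt x (shiftPt y P) = shiftPt (x + y) P := by
  funext i
  exact H3.ext (by simp [shiftPt, H3.shift]; ring) rfl

omit [Fintype ι] in
theorem continuous_shiftPt :
    Continuous fun p : (ι → ℂ) × (ι → H3) => shiftPt p.1 p.2 :=
  continuous_pi fun i => by
    have h1 : Continuous fun p : (ι → ℂ) × (ι → H3) => p.2 i :=
      (continuous_apply i).comp continuous_snd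
    have h2 : Continuous fun p : (ι → ℂ) × (ι → H3) => p.1 i :=
      (continuous_apply i).comp continuous_fst
    refine H3.continuous_mk_iff.mpr ⟨?_, ?_⟩
    · exact (H3.continuous_z.comp h1).add h2
    · show Continuous fun p : (ι → ℂ) × (ι → H3) => (p.2 i).t
      exact H3.continuous_t.comp h1

theorem smul_upperUnip (x : ℂ) (P : H3) : upperUnip x • P = H3.shift x P := by
  refine H3.ext ?_ ?_ <;>
    simp [H3.smul_z, H3.smul_t, H3.denom, upperUnip, H3.shift, Matrix.det_fin_two]

theorem upperUnip_mul {R : Type} [CommRing R] (x y : R) :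
    upperUnip x * upperUnip y = upperUnip (x + y) := by
  refine Units.ext (Matrix.ext fun i j => ?_)
  fin_cases i <;> fin_cases j <;> simp [upperUnip, Matrix.mul_apply, add_comm x y]

omit [NumberField F] [Fintype ι] in
theorem act_upperUnip (Φ : PlaceChoice F ι) (β : F) (v : FinPt F n) (P : ι → H3) :
    act Φ (upperUnip β) (v, P) = (upperUnip (toAF F β) • v, shiftPt (fun i => Φ.emb i β) P) := by
  simp only [act, map_upperUnip, H3.moebius_eq_smul, smul_upperUnip]
  rfl

omit [Fintype ι] in
theorem continuous_axisPts : Continuous (axisPts : (ι → ℝ) → ι → H3) :=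
  continuous_pi fun i => by
    refine H3.continuous_mk_iff.mpr ⟨?_, ?_⟩
    · exact continuous_const
    · exact Real.continuous_exp.comp (continuous_apply i)

/-! ### Fixed lattices -/

/-- The multiples of `m` fix the coset. -/
def FixesUnip (m : ℕ) (v : FinPt F n) : Prop :=
  ∀ a : 𝓞 F, upperUnip (toAF F (m * (a : F))) • v = v

omit [NumberField F] in
theorem FixesUnip.mul {m : ℕ} {v : FinPt F n} (h : FixesUnip m v) (k : ℕ) :
    FixesUnip (m * k) v := fun a => by
  have := h ((k : 𝓞 F) * a)
  push_cast at this ⊢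
  rwa [mul_assoc]

omit [NumberField F] in
theorem FixesUnip.smul_unip {m : ℕ} {v : FinPt F n} (h : FixesUnip m v) (b : AF F) :
    FixesUnip m (upperUnip b • v) := fun a => by
  rw [smul_smul, upperUnip_mul, add_comm, ← upperUnip_mul, ← smul_smul, h a]

omit [NumberField F] in
/-- Being fixed by unipotents of level `m k` passes to the product of the `m j`. -/
theorem FixesUnip.prod {κ : Type} {s : Finset κ} {m : κ → ℕ} {v : FinPt F n} {k : κ} (hk : k ∈ s)
    (h : FixesUnip (m k) v) : FixesUnip (∏ j ∈ s, m j) v := by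
  classical
  rw [← Finset.mul_prod_erase s m hk]
  exact h.mul _

theorem exists_small (hn : n ≠ ⊥) (v : FinPt F n) :
    ∃ m : Ideal (𝓞 F), m ≠ ⊥ ∧ ∀ x ∈ idealAF F m, upperUnip x • v = v := by
  obtain ⟨g, rfl⟩ := QuotientGroup.mk_surjective v
  obtain ⟨m, hm, hmg⟩ := exists_conj_mem g hn
  refine ⟨m, hm, fun x hx => ?_⟩
  have hmem : upperUnip x ∈ principalSubgroup m := by
    constructor <;> intro i j <;> fin_cases i <;> fin_cases j <;> simp [upperUnip, hx]
  show ((upperUnip x * g : GL (Fin 2) (AF F)) : FinPt F n) = g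
  rw [show upperUnip x * g = g * (g⁻¹ * upperUnip x * g) by group,
    mk_mul_congr (hmg _ hmem)]

theorem exists_fixesUnip (hn : n ≠ ⊥) (v : FinPt F n) : ∃ m : ℕ, m ≠ 0 ∧ FixesUnip m v := by
  obtain ⟨m, hm, h⟩ := exists_small hn v
  refine ⟨Ideal.absNorm m, absNorm_ne_zero hm, fun a => h _ ?_⟩
  have he : (Ideal.absNorm m : F) * (a : F) =
      ((Ideal.absNorm m * a : 𝓞 F) : F) := by push_cast; ring
  rw [he]
  exact toAF_mem_idealAF (m.mul_mem_right a (Ideal.absNorm_mem m))

theorem exists_rational (hn : n ≠ ⊥) (b : AF F) (v : FinPt F n) :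
    ∃ β : F, upperUnip b • v = upperUnip (toAF F β) • v := by
  obtain ⟨m, hm, h⟩ := exists_small hn v
  obtain ⟨β, hβ⟩ := exists_sub_mem_idealAF hm b
  refine ⟨β, ?_⟩
  conv_lhs => rw [show b = toAF F β + (b - toAF F β) by ring, ← upperUnip_mul, ← smul_smul, h _ hβ]

/-! ### The constant term -/

/-- Invariant and continuous on every sheet. -/
structure InvCts (Φ : PlaceChoice F ι) (f : Pt F ι n → ℂ) : Prop where
  invariant : ∀ γ x, f (act Φ γ x) = f x
  continuous : ∀ v, Continuous fun P : ι → H3 => f (v, P)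

/-- The point of the period lattice. -/
def latVec (Φ : PlaceChoice F ι) (m : ℕ) (s : BIdx F → ℝ) (i : ι) : ℂ :=
  ∑ j, (s j : ℂ) * (m * Φ.emb i (RingOfIntegers.basis F j : 𝓞 F))

omit [Fintype ι] in
theorem latVec_eq (Φ : PlaceChoice F ι) (m : ℕ) (s : BIdx F → ℝ) (i : ι) :
    latVec Φ m s i = m * embLin Φ s i := by
  show _ = (m : ℂ) * ∑ k, _
  rw [latVec, Finset.mul_sum]
  exact Finset.sum_congr rfl fun j _ => by ring

omit [Fintype ι] in
theorem continuous_latVec (Φ : PlaceChoice F ι) (m : ℕ) : Continuous (latVec Φ m) :=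
  continuous_pi fun _ => continuous_finsetSum _ fun j _ =>
    (Complex.continuous_ofReal.comp (continuous_apply j)).mul continuous_const

omit [Fintype ι] in
theorem latVec_add (Φ : PlaceChoice F ι) (m : ℕ) (s t : BIdx F → ℝ) :
    latVec Φ m (fun j => s j + t j) = latVec Φ m s + latVec Φ m t := by
  funext i
  simp only [latVec, Pi.add_apply, ← Finset.sum_add_distrib]
  exact Finset.sum_congr rfl fun j _ => by push_cast; ring

theorem exists_latVec_eq (Φ : PlaceChoice F ι) {m : ℕ} (hm : m ≠ 0) (x : ι → ℂ) :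
    ∃ s, latVec Φ m s = x := by
  obtain ⟨s, hs⟩ := (embLin_bijective Φ).surjective fun i => x i / m
  refine ⟨s, funext fun i => ?_⟩
  rw [latVec_eq, congrFun hs i]
  field_simp

theorem latVec_intCast (Φ : PlaceChoice F ι) (m : ℕ) (k : BIdx F → ℤ) :
    ∃ a : 𝓞 F, latVec Φ m (fun i => (k i : ℝ)) = fun i => Φ.emb i (m * (a : F)) := by
  refine ⟨∑ j, k j • RingOfIntegers.basis F j, funext fun i => ?_⟩
  rw [latVec_eq, FLTAgent.LanglandsTunnell.Geom.embLin_intCast, map_mul, map_natCast]

/-- The mean over a period cube. -/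
def ctMean (Φ : PlaceChoice F ι) (m : ℕ) (f : Pt F ι n → ℂ) (v : FinPt F n) (P : ι → H3) : ℂ :=
  boxMean fun s => f (v, shiftPt (latVec Φ m s) P)

omit [Fintype ι] in
theorem isCuspidal_iff (Φ : PlaceChoice F ι) (f : Pt F ι n → ℂ) :
    IsCuspidal Φ f ↔ ∀ v P m, m ≠ 0 → FixesUnip m v → ctMean Φ m f v P = 0 := Iff.rfl

variable {Φ : PlaceChoice F ι} {f : Pt F ι n → ℂ} (hf : InvCts Φ f)

include hf

theorem intPeriodic_slice {m : ℕ} {v : FinPt F n} (hm : FixesUnip m v) (P : ι → H3) :
    IntPeriodic fun s => f (v, shiftPt (latVec Φ m s) P) := fun s k => by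
  obtain ⟨a, ha⟩ := latVec_intCast Φ m k
  show f (v, shiftPt (latVec Φ m fun i => s i + k i) P) = _
  rw [latVec_add, add_comm, ← shiftPt_add, ha]
  have h := hf.invariant (upperUnip ((m : F) * (a : F))) (v, shiftPt (latVec Φ m s) P)
  rwa [act_upperUnip, hm a] at h

omit [Fintype ι] in
theorem continuous_slice (m : ℕ) (v : FinPt F n) (P : ι → H3) :
    Continuous fun s => f (v, shiftPt (latVec Φ m s) P) :=
  (hf.continuous v).comp (continuous_shiftPt.comp ((continuous_latVec Φ m).prodMk continuous_const))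

theorem ctMean_mul {m : ℕ} {v : FinPt F n} (hm : FixesUnip m v) {k : ℕ} (hk : k ≠ 0) (P : ι → H3) :
    ctMean Φ (m * k) f v P = ctMean Φ m f v P := by
  classical
  conv_rhs => rw [ctMean, ← boxMean_comp_mulVec (intPeriodic_slice hf hm P)
    (continuous_slice hf m v P) (A := Matrix.diagonal fun _ : BIdx F => (k : ℤ))
    (by simp [Matrix.det_diagonal, hk])]
  refine congrArg boxMean (funext fun s => ?_)
  congr 2
  refine congrArg₂ shiftPt ?_ rfl
  have e : (Matrix.diagonal fun _ : BIdx F => (k : ℤ)).map (Int.cast : ℤ → ℝ) *ᵥ s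
      = fun j => (k : ℝ) * s j := by
    funext j
    rw [Matrix.diagonal_map Int.cast_zero, Matrix.mulVec_diagonal]
    simp
  rw [e]
  funext i
  exact Finset.sum_congr rfl fun j _ => by push_cast; ring

theorem ctMean_eq_of_fixes {m m' : ℕ} (hm0 : m ≠ 0) (hm0' : m' ≠ 0) {v : FinPt F n}
    (hm : FixesUnip m v) (hm' : FixesUnip m' v) (P : ι → H3) :
    ctMean Φ m f v P = ctMean Φ m' f v P := by
  rw [← ctMean_mul hf hm hm0' P, mul_comm, ctMean_mul hf hm' hm0 P]

theorem ctMean_shiftPt {m : ℕ} (hm0 : m ≠ 0) {v : FinPt F n} (hm : FixesUnip m v) (x : ι → ℂ)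
    (P : ι → H3) : ctMean Φ m f v (shiftPt x P) = ctMean Φ m f v P := by
  obtain ⟨a, rfl⟩ := exists_latVec_eq Φ hm0 x
  conv_rhs => rw [ctMean, ← boxMean_comp_add (intPeriodic_slice hf hm P)
    (continuous_slice hf m v P) a]
  refine congrArg boxMean (funext fun s => ?_)
  rw [shiftPt_add, latVec_add, add_comm]

theorem ctMean_unip {m : ℕ} (hm0 : m ≠ 0) {v : FinPt F n} (hm : FixesUnip m v) (hn : n ≠ ⊥)
    (b : AF F) (P : ι → H3) : ctMean Φ m f (upperUnip b • v) P = ctMean Φ m f v P := by
  obtain ⟨β, hβ⟩ := exists_rational hn b v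
  rw [hβ]
  have h : ctMean Φ m f (upperUnip (toAF F β) • v) P
      = ctMean Φ m f v (shiftPt (fun i => -Φ.emb i β) P) := by
    refine congrArg boxMean (funext fun s => ?_)
    have h := hf.invariant (upperUnip β)
        (v, shiftPt (fun i => -Φ.emb i β) (shiftPt (latVec Φ m s) P))
    rw [act_upperUnip, shiftPt_add (fun i => Φ.emb i β) (fun i => -Φ.emb i β)] at h
    have h0 : ((fun i => Φ.emb i β) + fun i => -Φ.emb i β) = (0 : ι → ℂ) := by funext i; simp
    rw [h0] at h
    have h1 : shiftPt (0 : ι → ℂ) (shiftPt (latVec Φ m s) P) = shiftPt (latVec Φ m s) P := by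
      rw [shiftPt_add, zero_add]
    rw [h1] at h
    rw [h, shiftPt_add, shiftPt_add, add_comm]
  rw [h, ctMean_shiftPt hf hm0 hm]

omit hf

/-- The constant term as a function of the logarithmic heights. -/
def ctLog (Φ : PlaceChoice F ι) (f : Pt F ι n → ℂ) (v : FinPt F n) (ξ : ι → ℝ) : ℂ := by
  classical
  exact if h : ∃ m : ℕ, m ≠ 0 ∧ FixesUnip m v then ctMean Φ h.choose f v (axisPts ξ) else 0

include hf

theorem ctMean_eq_ctLog {m : ℕ} (hm0 : m ≠ 0) {v : FinPt F n} (hm : FixesUnip m v) (P : ι → H3) :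
    ctMean Φ m f v P = ctLog Φ f v fun i => Real.log (P i).t := by
  have h : ∃ m : ℕ, m ≠ 0 ∧ FixesUnip m v := ⟨m, hm0, hm⟩
  rw [ctLog, dif_pos h, ← ctMean_eq_of_fixes hf hm0 h.choose_spec.1 hm h.choose_spec.2]
  conv_lhs => rw [← ctMean_shiftPt hf hm0 hm (fun i => -(P i).z)]
  refine congrArg (ctMean Φ m f v) (funext fun i => ?_)
  exact H3.ext (by simp [shiftPt, H3.shift, axisPts])
    (by simp [shiftPt, H3.shift, axisPts, Real.exp_log (P i).t_pos])

theorem ctLog_eq {m : ℕ} (hm0 : m ≠ 0) {v : FinPt F n} (hm : FixesUnip m v) (ξ : ι → ℝ) :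
    ctLog Φ f v ξ = ctMean Φ m f v (axisPts ξ) := by
  rw [ctMean_eq_ctLog hf hm0 hm]
  exact congrArg (ctLog Φ f v) (funext fun i => (Real.log_exp _).symm)

theorem ctLog_unip (hn : n ≠ ⊥) (b : AF F) (v : FinPt F n) (ξ : ι → ℝ) :
    ctLog Φ f (upperUnip b • v) ξ = ctLog Φ f v ξ := by
  obtain ⟨m, hm0, hm⟩ := exists_fixesUnip hn v
  rw [ctLog_eq hf hm0 hm, ctLog_eq hf hm0 (hm.smul_unip b), ctMean_unip hf hm0 hm hn]

theorem continuous_ctLog (hn : n ≠ ⊥) (v : FinPt F n) : Continuous (ctLog Φ f v) := by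
  obtain ⟨m, hm0, hm⟩ := exists_fixesUnip hn v
  rw [funext fun ξ => ctLog_eq hf hm0 hm ξ]
  refine continuous_parametric_integral_of_continuous
    (f := fun ξ s => f (v, shiftPt (latVec Φ m s) (axisPts ξ))) ?_
    (isCompact_univ_pi fun _ => isCompact_Icc)
  exact (hf.continuous v).comp (continuous_shiftPt.comp (((continuous_latVec Φ m).comp
    continuous_snd).prodMk (continuous_axisPts.comp continuous_fst)))

/-- The diagonal elements of the field. -/
theorem ctLog_diag (hn : n ≠ ⊥) (α : Fˣ) (v : FinPt F n) (ξ : ι → ℝ) :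
    ctLog Φ f (diagUnit (Units.map (toAF F : F →* AF F) α) • v)
        (fun i => ξ i + Real.log ‖Φ.emb i (α : F)‖)
      = ctLog Φ f v ξ := by
  classical
  obtain ⟨m, hm0, hm⟩ := exists_fixesUnip hn v
  set v' := diagUnit (Units.map (toAF F : F →* AF F) α) • v with hv'
  obtain ⟨m₀, hm₀, hm'⟩ := exists_fixesUnip hn v'
  obtain ⟨a, b, hb, hab⟩ := IsFractionRing.div_surjective (A := 𝓞 F) (α : F)
  have ha0 : a ≠ 0 := fun h => α.ne_zero (by rw [← hab, h, map_zero, zero_div])
  have hb0 : b ≠ 0 := nonZeroDivisors.ne_zero hb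
  obtain ⟨d, hd⟩ := Ideal.mem_span_singleton'.mp (Ideal.absNorm_mem (Ideal.span {a}))
  set N := Ideal.absNorm (Ideal.span {a})
  have hN : N ≠ 0 := absNorm_ne_zero (by simpa using ha0)
  set c : 𝓞 F := b * d * (m₀ : 𝓞 F) with hc
  have hc0 : c ≠ 0 := mul_ne_zero (mul_ne_zero hb0 fun h => hN (by
    rw [h, zero_mul] at hd; exact_mod_cast hd.symm)) (Nat.cast_ne_zero.mpr hm₀)
  have hM : m * N * m₀ ≠ 0 := mul_ne_zero (mul_ne_zero hm0 hN) hm₀
  have hMfix : FixesUnip (m * N * m₀) v' := by
    rw [mul_comm _ m₀]; exact hm'.mul _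
  rw [ctLog_eq hf hM hMfix, ctLog_eq hf hm0 hm]
  set A : Matrix (BIdx F) (BIdx F) ℤ := Algebra.leftMulMatrix (RingOfIntegers.basis F) c with hA
  have hAdet : A.det ≠ 0 := by
    rw [hA, ← Algebra.norm_eq_matrix_det (RingOfIntegers.basis F)]
    exact Algebra.norm_ne_zero_iff.mpr hc0
  conv_rhs => rw [ctMean, ← boxMean_comp_mulVec (intPeriodic_slice hf hm _)
    (continuous_slice hf m v _) hAdet]
  refine congrArg boxMean (funext fun s => ?_)
  have hcol : ∀ i j, Φ.emb i (c : F) * Φ.emb i (RingOfIntegers.basis F j : F)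
      = ∑ k, (A k j : ℂ) * Φ.emb i (RingOfIntegers.basis F k : F) := by
    intro i j
    have h := (RingOfIntegers.basis F).sum_repr (c * RingOfIntegers.basis F j)
    have h2 := congrArg (fun x : 𝓞 F => Φ.emb i (x : F)) h
    simp only [map_sum, zsmul_eq_mul, map_mul, map_intCast] at h2
    rw [← h2]
    exact Finset.sum_congr rfl fun k _ => by
      rw [hA, Algebra.leftMulMatrix_eq_repr_mul]
  have hlat : ∀ i, latVec Φ (m * N * m₀) s i
      = Φ.emb i (α : F) * latVec Φ m (A.map (Int.cast : ℤ → ℝ) *ᵥ s) i := by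
    intro i
    have e : latVec Φ m (A.map (Int.cast : ℤ → ℝ) *ᵥ s) i
        = (m : ℂ) * (Φ.emb i (c : F) * embLin Φ s i) := by
      rw [latVec_eq]
      congr 1
      show ∑ k, _ = _ * ∑ j, _
      simp only [Matrix.mulVec, dotProduct, Matrix.map_apply, Complex.ofReal_sum, Finset.sum_mul,
        Finset.mul_sum]
      rw [Finset.sum_comm]
      refine Finset.sum_congr rfl fun j _ => ?_
      rw [mul_left_comm, hcol, Finset.mul_sum]
      exact Finset.sum_congr rfl fun k _ => by push_cast; ring
    have hkey : Φ.emb i (α : F) * Φ.emb i (c : F) = (N : ℂ) * m₀ := by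
      rw [← map_mul, ← map_natCast (Φ.emb i), ← map_natCast (Φ.emb i) m₀, ← map_mul]
      congr 1
      have hd' : (N : F) = algebraMap (𝓞 F) F d * algebraMap (𝓞 F) F a := by
        rw [← map_mul, hd, map_natCast]
      rw [← hab, hd', hc]
      simp only [map_mul, map_natCast]
      have : algebraMap (𝓞 F) F b ≠ 0 := by simpa using hb0
      field_simp
    rw [e, latVec_eq, mul_left_comm, ← mul_assoc (Φ.emb i (α : F)), hkey]
    push_cast; ring
  have h := hf.invariant (diagUnit α)
    (v, shiftPt (latVec Φ m (A.map (Int.cast : ℤ → ℝ) *ᵥ s)) (axisPts ξ))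
  rw [← h]
  refine congrArg f (Prod.ext ?_ (funext fun i => ?_))
  · simp only [act, map_diagUnit]
    rfl
  · simp only [act, map_diagUnit, H3.moebius_eq_smul]
    refine H3.ext ?_ ?_
    · simp [shiftPt, H3.shift, axisPts, H3.smul_z, H3.denom, diagUnit, hlat i]
    · have hα : Φ.emb i (α : F) ≠ 0 := by simp
      simp [shiftPt, H3.shift, axisPts, H3.smul_t, H3.denom, diagUnit, Matrix.det_fin_two,
        Real.exp_add, Real.exp_log (norm_pos_iff.mpr hα), mul_comm]

omit hf

/-- Integral units congruent to `1` do not move functions invariant under the unipotent group. -/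
theorem unip_invariant_diagUnit {c : FinPt F n → ℂ}
    (hc : ∀ (b : AF F) v, c (upperUnip b • v) = c v) {u : (AF F)ˣ}
    (hu : diagUnit u ∈ principalSubgroup n) (v : FinPt F n) : c (diagUnit u • v) = c v := by
  obtain ⟨g, rfl⟩ := QuotientGroup.mk_surjective v
  obtain ⟨T, κ, hT, rfl⟩ := exists_upper_mul_intGL g
  obtain ⟨e, he⟩ := (isUnit_upper hT).exists_left_inv
  set y : AF F := T.val 0 1 * e with hy
  set D : GL (Fin 2) (AF F) := (upperUnip y)⁻¹ * T with hD
  have hTD : T = upperUnip y * D := by rw [hD, mul_inv_cancel_left]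
  have hcomm : diagUnit u * D = D * diagUnit u := by
    have hD01 : D.val 0 1 = 0 := by
      rw [hD, Units.val_mul]
      show (!![1, -y; 0, 1] * T.val) 0 1 = 0
      rw [Matrix.mul_apply, Fin.sum_univ_two]
      simp only [Matrix.of_apply, Matrix.cons_val_zero, Matrix.cons_val_one,
        Matrix.cons_val', Matrix.cons_val_fin_one]
      linear_combination -(T.val 0 1) * he
    have hD10 : D.val 1 0 = 0 := by
      rw [hD, Units.val_mul]
      show (!![1, -y; 0, 1] * T.val) 1 0 = 0
      simp [Matrix.mul_apply, Fin.sum_univ_two, hT]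
    apply Units.ext
    ext i j
    fin_cases i <;> fin_cases j <;>
      simp [diagUnit, Matrix.mul_apply, Fin.sum_univ_two, hD01, hD10, mul_comm]
  rw [hTD]
  show c ((diagUnit u * (upperUnip y * D * intGL κ) : GL (Fin 2) (AF F)) : FinPt F n) = _
  rw [show diagUnit u * (upperUnip y * D * intGL κ)
    = upperUnip ((u : AF F) * y) * (D * intGL κ * (intGL κ⁻¹ * diagUnit u * (intGL κ⁻¹)⁻¹)) by
      rw [mul_assoc (upperUnip y), ← mul_assoc (diagUnit u), diagUnit_mul_upperUnip, mul_assoc,
        ← mul_assoc (diagUnit u), hcomm, map_inv, inv_inv]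
      simp only [mul_assoc, mul_inv_cancel_left]]
  have hk := conj_intGL_mem hu κ⁻¹
  have e1 := hc ((u : AF F) * y)
    ((D * intGL κ * (intGL κ⁻¹ * diagUnit u * (intGL κ⁻¹)⁻¹) : GL (Fin 2) (AF F)) : FinPt F n)
  refine e1.trans ?_
  rw [mk_mul_congr hk]
  have e2 := hc y ((D * intGL κ : GL (Fin 2) (AF F)) : FinPt F n)
  refine e2.symm.trans ?_
  show c ((upperUnip y * (D * intGL κ) : GL (Fin 2) (AF F)) : FinPt F n) = _
  simp only [mul_assoc]

/-! ### Operators on the constant term -/

theorem infOp_shiftPt (g : ι → ℝ → ℂ) (φ : (ι → H3) → ℂ) (x : ι → ℂ) (P : ι → H3) :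
    infOp g φ (shiftPt x P) = infOp g (fun Q => φ (shiftPt x Q)) P := by
  let e : (ι → H3) ≃ᵐ (ι → H3) :=
    MeasurableEquiv.piCongrRight fun i =>
      (Homeomorph.smul (upperUnip (x i))).toMeasurableEquiv
  have he : MeasurePreserving e (volPi ι) (volPi ι) :=
    measurePreserving_pi _ _ fun i => H3.measurePreserving_smul _
  have hval : ∀ Q, e Q = shiftPt x Q := fun Q => funext fun i => smul_upperUnip (x i) (Q i)
  rw [infOp, infOp, ← he.integral_comp' _]
  refine integral_congr_ae (Eventually.of_forall fun Q => ?_)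
  simp only [hval]
  congr 1
  refine Finset.prod_congr rfl fun i _ => ?_
  simp only [shiftPt, ← smul_upperUnip, H3.coshDist_smul]

theorem boxMean_infOp {g : ι → ℝ → ℂ} (hg : WeightsOK g) {φ : (ι → H3) → ℂ} (hφ : Continuous φ)
    {L : (BIdx F → ℝ) → ι → ℂ} (hL : Continuous L) (P : ι → H3) :
    boxMean (fun s => infOp g φ (shiftPt (L s) P))
      = infOp g (fun Q => boxMean fun s => φ (shiftPt (L s) Q)) P := by
  simp only [infOp_shiftPt]
  obtain ⟨K, hK, h0⟩ := exists_support (fun i => (hg i).2) (isCompact_singleton (x := P))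
  set box := Set.univ.pi fun _ : BIdx F => Set.Icc (0 : ℝ) 1
  have hbox : IsCompact box := isCompact_univ_pi fun _ => isCompact_Icc
  have hint : Integrable (Function.uncurry fun (s : BIdx F → ℝ) Q =>
      infKer g P Q * φ (shiftPt (L s) Q)) ((volume.restrict box).prod (volPi ι)) := by
    have hc : Continuous fun p : (BIdx F → ℝ) × (ι → H3) =>
        infKer g P p.2 * φ (shiftPt (L p.1) p.2) :=
      ((continuous_infKer fun i => (hg i).1).comp (continuous_const.prodMk continuous_snd)).mul
        (hφ.comp (continuous_shiftPt.comp ((hL.comp continuous_fst).prodMk continuous_snd)))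
    have h1 : IntegrableOn (fun p : (BIdx F → ℝ) × (ι → H3) =>
        infKer g P p.2 * φ (shiftPt (L p.1) p.2)) (box ×ˢ K)
        ((volume : Measure (BIdx F → ℝ)).prod (volPi ι)) :=
      hc.continuousOn.integrableOn_compact (hbox.prod hK)
    have h2 : IntegrableOn (fun p : (BIdx F → ℝ) × (ι → H3) =>
        infKer g P p.2 * φ (shiftPt (L p.1) p.2)) (box ×ˢ Set.univ)
        ((volume : Measure (BIdx F → ℝ)).prod (volPi ι)) := by
      refine h1.of_forall_sdiff_eq_zero (hbox.measurableSet.prod MeasurableSet.univ) fun p hp => ?_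
      rw [h0 P rfl p.2 fun h => hp.2 ⟨hp.1.1, h⟩, zero_mul]
    rw [IntegrableOn, ← Measure.prod_restrict, Measure.restrict_univ] at h2
    exact h2
  simp only [boxMean, infOp]
  rw [integral_integral_swap hint]
  exact integral_congr_ae (Eventually.of_forall fun Q => integral_const_mul _ _)

/-- The constant term of the operator. -/
theorem ctLog_op (hn : n ≠ ⊥) (hf : InvCts Φ f) {C : Comb F ι} (hC : Fine n C) (v : FinPt F n)
    (ξ : ι → ℝ) :
    ctLog Φ (Kernel.op (C.kernel n) f) v ξ
      = (C.map fun T => T.coeff * wordSum n T.word v fun u =>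
          infOp T.inf (fun Q => ctLog Φ f u fun i => Real.log (Q i).t) (axisPts ξ)).sum := by
  classical
  have hloc : LocI f := LocI.of_continuous hf.continuous
  have hF : InvCts Φ (Kernel.op (C.kernel n) f) :=
    ⟨op_invariant Φ hn C hf.invariant, continuous_op hn hC hloc⟩
  choose mf hmf0 hmf using fun u : FinPt F n => exists_fixesUnip hn u
  obtain ⟨s, hv, hs⟩ : ∃ s : Finset (FinPt F n), v ∈ s ∧
      ∀ T ∈ C, Function.support (wordKernel n T.word v) ⊆ s := by
    refine ⟨insert v (C.attach.toFinset.biUnion fun T =>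
      (finite_wordKernel hn (hC T.1 T.2).2 v).toFinset), Finset.mem_insert_self _ _,
      fun T hT u hu => ?_⟩
    rw [Finset.coe_insert, Set.mem_insert_iff, Finset.mem_coe, Finset.mem_biUnion]
    exact Or.inr ⟨⟨T, hT⟩, by simp, (finite_wordKernel hn (hC T hT).2 v).mem_toFinset.mpr hu⟩
  set M := ∏ u ∈ s, mf u
  have hM : M ≠ 0 := Finset.prod_ne_zero_iff.mpr fun u _ => hmf0 u
  have hMfix : ∀ u ∈ s, FixesUnip M u := fun u hu => (hmf u).prod hu
  rw [ctLog_eq hF hM (hMfix v hv), ctMean]
  simp only [op_kernel hn hC hloc]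
  have hcont : ∀ T ∈ C, ∀ u, Continuous fun t : BIdx F → ℝ =>
      infOp T.inf (fun Q => f (u, Q)) (shiftPt (latVec Φ M t) (axisPts ξ)) := fun T hT u =>
    (continuous_infOp (hC T hT).1 (hf.continuous u).locallyIntegrable).comp
      (continuous_shiftPt.comp ((continuous_latVec Φ M).prodMk continuous_const))
  have hterm : ∀ T ∈ C, boxMean (fun t => T.coeff * wordSum n T.word v fun u =>
      infOp T.inf (fun Q => f (u, Q)) (shiftPt (latVec Φ M t) (axisPts ξ)))
      = T.coeff * wordSum n T.word v fun u =>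
          infOp T.inf (fun Q => ctLog Φ f u fun i => Real.log (Q i).t) (axisPts ξ) := by
    intro T hT
    simp only [wordSum_eq_sum (hs T hT), boxMean]
    rw [integral_const_mul, integral_finsetSum _ fun u _ => ?_]
    · congr 1
      refine Finset.sum_congr rfl fun u hu => ?_
      rw [integral_const_mul]
      congr 1
      refine (boxMean_infOp (hC T hT).1 (hf.continuous u) (continuous_latVec Φ M) _).trans ?_
      exact congrArg (fun φ => infOp T.inf φ (axisPts ξ))
        (funext fun Q => ctMean_eq_ctLog hf hM (hMfix u hu) Q)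
    · exact (((hcont T hT u).continuousOn.integrableOn_compact
        (isCompact_univ_pi fun _ => isCompact_Icc)).const_mul _)
  have hlin : ∀ l : List (Term F ι), (∀ T ∈ l, T ∈ C) →
      boxMean (fun t => (l.map fun T => T.coeff * wordSum n T.word v fun u =>
        infOp T.inf (fun Q => f (u, Q)) (shiftPt (latVec Φ M t) (axisPts ξ))).sum)
      = (l.map fun T => T.coeff * wordSum n T.word v fun u =>
          infOp T.inf (fun Q => ctLog Φ f u fun i => Real.log (Q i).t) (axisPts ξ)).sum := by
    intro l hl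
    induction l with
    | nil => simp [boxMean]
    | cons T l ih =>
      have hc1 : ∀ T ∈ C, Continuous fun t => T.coeff * wordSum n T.word v fun u =>
          infOp T.inf (fun Q => f (u, Q)) (shiftPt (latVec Φ M t) (axisPts ξ)) := fun T hT => by
        simp only [wordSum_eq_sum (hs T hT)]
        exact continuous_const.mul (continuous_finsetSum _ fun u _ =>
          continuous_const.mul (hcont T hT u))
      simp only [List.map_cons, List.sum_cons]
      rw [← hterm T (hl T List.mem_cons_self), ← ih fun T' hT' =>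
        hl T' (List.mem_cons_of_mem _ hT')]
      exact integral_add
        ((hc1 T (hl T List.mem_cons_self)).continuousOn.integrableOn_compact
          (isCompact_univ_pi fun _ => isCompact_Icc))
        ((continuous_listSum fun T' hT' => hc1 T' (hl T' (List.mem_cons_of_mem _ hT'))).continuousOn
          |>.integrableOn_compact (isCompact_univ_pi fun _ => isCompact_Icc))
  exact hlin C fun _ h => h

end FLTAgent.LanglandsTunnell.Killing
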