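import Fermat.Agent.LanglandsTunnell.Killing.Smoothing

/-!
# Combinations on spherical eigenforms

`op_eigen`: a fine combination with real weights acts on an eigenform by a scalar, the product of
the Hecke eigenvalues along each word and the spherical values of the weights. The tent function,
a Lipschitz invariant with positive spherical value, is introduced here.
-/

set_option autoImplicit false

noncomputable section

open NumberField Matrix MeasureTheory Filter Function
open scoped ComplexConjugate Topology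

namespace FLTAgent.LanglandsTunnell.Killing

theorem measurePreserving_cons (n : ℕ) :
    MeasurePreserving (fun p : H3 × (Fin n → H3) => (Fin.cons p.1 p.2 : Fin (n + 1) → H3))
      (H3.volH3.prod (volPi (Fin n))) (volPi (Fin (n + 1))) ∧
    MeasurableEmbedding (fun p : H3 × (Fin n → H3) => (Fin.cons p.1 p.2 : Fin (n + 1) → H3)) := by
  have e := (measurePreserving_piFinSuccAbove (fun _ : Fin (n + 1) => H3.volH3) 0).symm
  have he : ⇑(MeasurableEquiv.piFinSuccAbove (fun _ : Fin (n + 1) => H3) 0).symm
      = fun p : H3 × (Fin n → H3) => (Fin.cons p.1 p.2 : Fin (n + 1) → H3) := by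
    funext p
    simp [MeasurableEquiv.piFinSuccAbove_symm_apply]
    rfl
  exact ⟨he ▸ e, he ▸ MeasurableEquiv.measurableEmbedding _⟩

/-- Weights acting by scalars in each variable act by the product of the scalars. -/
theorem infOp_scalar : ∀ {n : ℕ} (ψ : (Fin n → H3) → ℂ), Continuous ψ →
    ∀ g : Fin n → ℝ → ℂ, WeightsOK g → ∀ s : Fin n → ℂ,
      (∀ i P, ∫ Q, g i (H3.coshDist (P i) Q) * ψ (update P i Q) ∂H3.volH3 = s i * ψ P) →
      ∀ P, infOp g ψ P = (∏ i, s i) * ψ P := by
  intro n
  induction n with
  | zero =>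
    intro ψ _ g _ s _ P
    simp [infOp, infKer, integral_unique, Measure.real]
    exact congrArg ψ (Subsingleton.elim _ _)
  | succ n ih =>
    intro ψ hψ g hg s hs P
    obtain ⟨hmp, hemb⟩ := measurePreserving_cons n
    have : SigmaFinite H3.volH3 := H3.sigmaFinite_volH3
    have hint := (hmp.integrable_comp_emb hemb).mpr
      (integrable_infKer_mul hg hψ.locallyIntegrable P)
    simp only [Function.comp_def] at hint
    rw [infOp, ← hmp.integral_comp hemb, integral_prod _ hint]
    have hinner : ∀ a, ∫ t, infKer g P (Fin.cons a t) * ψ (Fin.cons a t) ∂volPi (Fin n)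
        = (∏ i : Fin n, s i.succ) * (g 0 (H3.coshDist (P 0) a) * ψ (update P 0 a)) := by
      intro a
      have h := ih (fun t => ψ (Fin.cons a t)) (hψ.comp (continuous_const.finCons continuous_id))
        (fun i => g i.succ) (fun i => hg _) (fun i => s i.succ)
        (fun i P' => by
          have h1 := hs i.succ (Fin.cons a P')
          simpa [Fin.cons_succ, Fin.cons_update] using h1) (Fin.tail P)
      have e1 : ∫ t, infKer g P (Fin.cons a t) * ψ (Fin.cons a t) ∂volPi (Fin n)
          = g 0 (H3.coshDist (P 0) a) *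
              infOp (fun i => g (Fin.succ i)) (fun t => ψ (Fin.cons a t)) (Fin.tail P) := by
        rw [infOp, ← integral_const_mul]
        refine integral_congr_ae (Eventually.of_forall fun t => ?_)
        simp only [infKer, Fin.prod_univ_succ, Fin.cons_zero, Fin.cons_succ, Fin.tail, mul_assoc]
      rw [e1, h, show (Fin.cons a (Fin.tail P) : Fin (n + 1) → H3) = update P 0 a by
        rw [← Fin.update_cons_zero (P 0), Fin.cons_self_tail]]
      ring
    simp only [hinner]
    rw [integral_const_mul, hs 0 P, Fin.prod_univ_succ]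
    ring

/-- Products of invariants act by products of spherical values. -/
theorem infOp_spherical {n : ℕ} (ψ : (Fin n → H3) → ℂ) (hψ : Continuous ψ)
    (hsph : ∀ (i : Fin n) (k : ℝ → ℝ), Continuous k → HasCompactSupport k → ∀ P,
      ∫ Q, (k (H3.coshDist (P i) Q) : ℂ) * ψ (update P i Q) ∂H3.volH3 = (sphValue k : ℂ) * ψ P)
    (k : Fin n → ℝ → ℝ) (hk : ∀ i, Continuous (k i)) (hks : ∀ i, HasCompactSupport (k i))
    (P : Fin n → H3) :
    infOp (fun i x => (k i x : ℂ)) ψ P = (∏ i, (sphValue (k i) : ℂ)) * ψ P :=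
  infOp_scalar ψ hψ _
    (fun i => ⟨Complex.continuous_ofReal.comp (hk i), (hks i).comp_left Complex.ofReal_zero⟩) _
    (fun i P => hsph i (k i) (hk i) (hks i) P) P

variable {F : Type} [Field F] [NumberField F] {N : ℕ} {n : Ideal (𝓞 F)} {Φ : PlaceChoice F (Fin N)}
  {φ : Pt F (Fin N) n → ℂ} {a : Ideal (𝓞 F) → ℂ}

theorem infApply_eigen (h : IsEigenform Φ φ a) (k : Fin N → ℝ → ℝ) (hk : ∀ i, Continuous (k i))
    (hks : ∀ i, HasCompactSupport (k i)) (x : Pt F (Fin N) n) :
    infApply (fun i c => (k i c : ℂ)) φ x = (∏ i, (sphValue (k i) : ℂ)) * φ x :=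
  infOp_spherical (fun Q => φ (x.1, Q)) (h.automorphic.continuous _)
    (fun i k' hc hs P => h.spherical i k' hc hs x.1 P) k hk hks x.2

/-- The scalar of a word. -/
def wordEigen (a : Ideal (𝓞 F) → ℂ) (ws : List (Ideal (𝓞 F))) : ℂ :=
  (ws.map fun w => (Real.sqrt (Ideal.absNorm w) : ℂ) * a w).prod

theorem wordSum_eigen (hn : n ≠ ⊥)
    (ha : ∀ w : Ideal (𝓞 F), w.IsPrime → w ≠ ⊥ → ¬ w ∣ n → HeckeEigen φ w (a w))
    {ws : List (Ideal (𝓞 F))}
    (hws : ∀ w ∈ ws, OKPrime n w) (v : FinPt F n) (P : Fin N → H3) :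
    wordSum n ws v (fun u => φ (u, P)) = wordEigen a ws * φ (v, P) := by
  induction ws generalizing v with
  | nil => simp [wordSum_nil, wordEigen]
  | cons w ws ih =>
    have hw := hws w List.mem_cons_self
    have hws' : ∀ x ∈ ws, OKPrime n x := fun x hx => hws x (List.mem_cons_of_mem _ hx)
    rw [wordSum_cons hn hw hws']
    simp only [ih hws']
    rw [← mul_finsum_mem (s := nbrs n w v) (fun z => φ (z, P)) (wordEigen a ws),
      ha w hw.1 hw.2.1 hw.2.2 v P, wordEigen, wordEigen, List.map_cons, List.prod_cons]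
    ring

/-- The scalar of a combination with real weights. -/
theorem op_eigen (h : IsEigenform Φ φ a) (hn : n ≠ ⊥) {C : Comb F (Fin N)} (hC : Fine n C)
    (k : Term F (Fin N) → Fin N → ℝ → ℝ) (hk : ∀ T ∈ C, ∀ i, T.inf i = fun c => (k T i c : ℂ))
    (x : Pt F (Fin N) n) :
    Kernel.op (C.kernel n) φ x
      = (C.map fun T => T.coeff * wordEigen a T.word * ∏ i, (sphValue (k T i) : ℂ)).sum * φ x := by
  rw [op_kernel hn hC (LocI.of_continuous h.automorphic.continuous), ← List.sum_map_mul_right]
  refine congrArg List.sum (List.map_congr_left fun T hT => ?_)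
  have hkc : ∀ i, Continuous (k T i) ∧ HasCompactSupport (k T i) := fun i => by
    have h1 := (hC T hT).1 i
    rw [hk T hT i] at h1
    exact ⟨by simpa [Function.comp_def] using Complex.continuous_re.comp h1.1,
      by simpa [Function.comp_def] using h1.2.comp_left (g := Complex.re) Complex.zero_re⟩
  have e : ∀ u, infOp T.inf (fun Q => φ (u, Q)) x.2
      = (∏ i, (sphValue (k T i) : ℂ)) * φ (u, x.2) := fun u => by
    rw [show T.inf = fun i c => (k T i c : ℂ) from funext (hk T hT)]
    exact infApply_eigen h (k T) (fun i => (hkc i).1) (fun i => (hkc i).2) (u, x.2)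
  simp only [e, wordSum_const_mul, wordSum_eigen hn h.eigen (hC T hT).2]
  ring

/-! ### The base invariant -/

/-- The tent. -/
def tent (c : ℝ) : ℝ := max 0 (2 - |c|)

theorem continuous_tent : Continuous tent :=
  continuous_const.max (continuous_const.sub continuous_abs)

theorem hasCompactSupport_tent : HasCompactSupport tent := by
  refine HasCompactSupport.intro (isCompact_Icc (a := (-2 : ℝ)) (b := 2)) fun c hc => max_eq_left ?_
  rw [Set.mem_Icc, ← abs_le, not_le] at hc
  linarith

theorem lip_tent (a b : ℝ) : ‖((tent a : ℝ) : ℂ) - ((tent b : ℝ) : ℂ)‖ ≤ 1 * |a - b| := by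
  rw [← Complex.ofReal_sub, Complex.norm_real, Real.norm_eq_abs, one_mul, tent, tent]
  refine (abs_max_sub_max_le_max _ _ _ _).trans ?_
  rw [sub_self, abs_zero, max_eq_right (abs_nonneg _), sub_sub_sub_cancel_left, abs_sub_comm a b]
  exact abs_abs_sub_abs_le_abs_sub _ _

/-- The spherical value of the tent function is positive. -/
theorem sphValue_tent_pos : 0 < sphValue tent := by
  refine mul_pos (by positivity) ?_
  set f : ℝ → ℝ := fun r => tent (Real.cosh r) * r * Real.sinh r
  have hfc : Continuous f := ((continuous_tent.comp Real.continuous_cosh).mul continuous_id).mul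
    Real.continuous_sinh
  have hR : (1 : ℝ) ≤ 2 := one_le_two
  have hA0 : 0 < Real.arcosh 2 := Real.arcosh_pos one_lt_two
  have hfs : HasCompactSupport f := by
    refine HasCompactSupport.intro (isCompact_closedBall (0 : ℝ) (Real.arcosh 2)) fun r hr => ?_
    rw [Metric.mem_closedBall, dist_zero_right, Real.norm_eq_abs, not_le] at hr
    have h1 : 2 < Real.cosh r := by
      rw [← Real.cosh_arcosh hR, ← Real.cosh_abs r]
      exact Real.cosh_strictMonoOn (Real.arcosh_nonneg hR) (abs_nonneg r) hr
    have : tent (Real.cosh r) = 0 := max_eq_left (by rw [abs_of_pos (Real.cosh_pos r)]; linarith)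
    simp [f, this]
  have hpos : 0 ≤ᵐ[volume.restrict (Set.Ioi (0 : ℝ))] f := by
    refine (ae_restrict_mem measurableSet_Ioi).mono fun r hr => ?_
    exact mul_nonneg (mul_nonneg (le_max_left _ _) (le_of_lt hr))
      (Real.sinh_nonneg_iff.mpr (le_of_lt hr))
  rw [setIntegral_pos_iff_support_of_nonneg_ae hpos
    (hfc.integrable_of_hasCompactSupport hfs).integrableOn]
  refine lt_of_lt_of_le ?_
    (measure_mono (s := Set.Ioo (0 : ℝ) (Real.arcosh 2)) fun r hr => ⟨?_, hr.1⟩)
  · rw [Real.volume_Ioo, sub_zero]; exact ENNReal.ofReal_pos.mpr hA0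
  · have h1 : Real.cosh r < 2 := by
      rw [← Real.cosh_arcosh hR]
      exact Real.cosh_strictMonoOn hr.1.le (Real.arcosh_nonneg hR) hr.2
    have h2 : 0 < tent (Real.cosh r) := lt_max_of_lt_right (by
      rw [abs_of_pos (Real.cosh_pos r)]; linarith)
    exact (mul_pos (mul_pos h2 hr.1) (Real.sinh_pos_iff.mpr hr.1)).ne'

end FLTAgent.LanglandsTunnell.Killing
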