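import Fermat.Agent.LanglandsTunnell.Killing.KillingKernel
import Fermat.Agent.LanglandsTunnell.Isolation.DescComb

/-!
# Symmetrised combinations

`symm2` takes half of each term forwards and half backwards; for real combinations its kernel is
symmetric (`symm2_symm`), and then so is that of the whole combination `kill` (`kill_symm`).
-/

set_option autoImplicit false

noncomputable section

open NumberField Matrix MeasureTheory Filter Function
open scoped ComplexConjugate Topology

namespace FLTAgent.LanglandsTunnell.Killing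

open FLTAgent.LanglandsTunnell.Trace (h3conv_assoc h3conv_comm integrable_pair)
open FLTAgent.LanglandsTunnell.Isolation (kernel_mul_congr mul_assoc_comb good_mul sum_map_comm)

variable {F : Type} [Field F] [NumberField F] {ι : Type} [Fintype ι] {n : Ideal (𝓞 F)}

theorem conj_h3conv_real {k l : ℝ → ℂ} (hk : ∀ x, conj (k x) = k x) (hl : ∀ x, conj (l x) = l x)
    (c : ℝ) : conj (h3conv k l c) = h3conv k l c := by
  rw [conj_h3conv]; simp only [hk, hl]

theorem conj_pw {β : ℝ → ℂ} (hβ : ∀ x, conj (β x) = β x) : ∀ (k : ℕ) (c : ℝ),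
    conj (pw β k c) = pw β k c
  | 0, c => hβ c
  | k + 1, c => conj_h3conv_real (conj_pw hβ k) hβ c

theorem h3conv_pw {β : ℝ → ℂ} (hc : Continuous β) (hs : HasCompactSupport β) (i : ℕ) :
    ∀ j, h3conv (pw β i) (pw β j) = pw β (i + j + 1)
  | 0 => rfl
  | j + 1 => by
    show h3conv (pw β i) (h3conv (pw β j) β) = h3conv (pw β (i + j + 1)) β
    rw [← h3conv_pw hc hs i j, h3conv_assoc (pw_ok hc hs i).1 (pw_ok hc hs i).2 (pw_ok hc hs j).1
      hc hs]

/-- Each term with half the coefficient, forwards and backwards. -/
def symm2 (C : Comb F ι) : Comb F ι :=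
  C.flatMap fun T => [⟨T.coeff / 2, T.word, T.inf⟩, ⟨T.coeff / 2, T.word.reverse, T.inf⟩]

/-- Each word backwards. -/
def revComb (C : Comb F ι) : Comb F ι := C.map fun T => ⟨T.coeff, T.word.reverse, T.inf⟩

omit [NumberField F] [Fintype ι] in
theorem Fine.revComb {C : Comb F ι} (h : Fine n C) : Fine n (revComb C) := by
  intro T hT
  obtain ⟨A, hA, rfl⟩ := List.mem_map.mp hT
  exact ⟨(h A hA).1, fun w hw => (h A hA).2 w (List.mem_reverse.mp hw)⟩

omit [NumberField F] [Fintype ι] in
theorem Fine.symm2 {C : Comb F ι} (h : Fine n C) : Fine n (symm2 C) := by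
  intro T hT
  simp only [Killing.symm2, List.mem_flatMap, List.mem_cons, List.not_mem_nil, or_false] at hT
  obtain ⟨A, hA, rfl | rfl⟩ := hT
  · exact h A hA
  · exact ⟨(h A hA).1, fun w hw => (h A hA).2 w (List.mem_reverse.mp hw)⟩

omit [NumberField F] in
theorem kernel_symm2 (C : Comb F ι) (x y : Pt F ι n) :
    (symm2 C).kernel n x y = (C.kernel n x y + (revComb C).kernel n x y) / 2 := by
  simp only [Comb.kernel, symm2, revComb, List.map_map, List.map_flatMap]
  induction C with
  | nil => simp
  | cons T C ih =>
    rw [List.flatMap_cons, List.sum_append, ih]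
    simp only [List.map_cons, List.sum_cons, List.map_nil, List.sum_nil, Function.comp_apply,
      Term.kernel]
    ring

theorem op_symm2 (hn : n ≠ ⊥) {C : Comb F ι} (hC : Fine n C) {f : Pt F ι n → ℂ} (hf : LocI f)
    (x : Pt F ι n) :
    Kernel.op ((symm2 C).kernel n) f x
      = (Kernel.op (C.kernel n) f x + Kernel.op ((revComb C).kernel n) f x) / 2 := by
  simp only [Kernel.op, kernel_symm2, add_div, add_mul, div_mul_eq_mul_div]
  rw [integral_add ((integrable_kernel_mul hn hC hf x).1.div_const 2)
    ((integrable_kernel_mul hn hC.revComb hf x).1.div_const 2), integral_div, integral_div]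

/-- Real combinations. -/
def IsReal (C : Comb F ι) : Prop :=
  ∀ T ∈ C, conj T.coeff = T.coeff ∧ ∀ i c, conj (T.inf i c) = T.inf i c

theorem symm2_symm (hn : n ≠ ⊥) {C : Comb F ι} (hC : Fine n C) (hr : IsReal C) (x y : Pt F ι n) :
    (symm2 C).kernel n y x = conj ((symm2 C).kernel n x y) := by
  have e1 : adjoint C = revComb C := List.map_congr_left fun T hT => by
    rw [(hr T hT).1]
    congr 1
    funext i c
    exact (hr T hT).2 i c
  rw [kernel_symm2, kernel_symm2, map_div₀, map_add, ← kernel_adjoint hn hC x y, e1,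
    ← kernel_adjoint hn hC.revComb x y]
  have e2 : adjoint (revComb C) = C := by
    rw [adjoint, revComb, List.map_map]
    refine (List.map_congr_left fun T hT => ?_).trans (List.map_id' C)
    simp only [Function.comp_apply, List.reverse_reverse, (hr T hT).1]
    congr 1
    funext i c
    exact (hr T hT).2 i c
  rw [e2, add_comm, map_ofNat]

omit [NumberField F] in
theorem kernel_adjoint_mul (C C' : Comb F ι) (x y : Pt F ι n) :
    (adjoint (C.mul C')).kernel n x y = ((adjoint C').mul (adjoint C)).kernel n x y := by
  simp only [Comb.kernel, adjoint, Comb.mul, List.map_flatMap, List.flatMap_map, List.map_map]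
  simp only [List.flatMap_def, List.sum_flatten, List.map_map, Function.comp_def]
  rw [sum_map_comm]
  refine congrArg List.sum (List.map_congr_left fun A _ => ?_)
  refine congrArg List.sum (List.map_congr_left fun B _ => ?_)
  simp only [Term.kernel, map_mul, List.reverse_append, mul_comm (conj B.coeff),
    conj_h3conv, h3conv_comm (fun c => conj (B.inf _ c))]

/-- The whole combination is symmetric if the middle is. -/
theorem kill_symm (hn : n ≠ ⊥) {Φ : PlaceChoice F ι} {core : Comb F ι} {β : ℝ → ℂ} {k : ℕ}
    (h : CoreData Φ core β k n) (hβ : ∀ x, conj (β x) = β x)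
    (hcore : ∀ x y, core.kernel n y x = conj (core.kernel n x y)) (x y : Pt F ι n) :
    (kill core β k).kernel n y x = conj ((kill core β k).kernel n x y) := by
  rw [← kernel_adjoint hn h.fine_kill]
  have hO : adjoint (outer F ι β k : Comb F ι) = outer F ι β k := by
    simp only [adjoint, outer, List.map_cons, List.map_nil, map_one, List.reverse_nil, conj_pw hβ]
  have hA : (adjoint core).kernel n = core.kernel n := by
    funext a b
    rw [kernel_adjoint hn h.fine, ← hcore]
  have hfA : Fine n (adjoint core) := by
    intro T hT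
    obtain ⟨T₀, hT₀, rfl⟩ := List.mem_map.mp hT
    exact ⟨fun i => ⟨Complex.continuous_conj.comp ((h.fine T₀ hT₀).1 i).1,
      ((h.fine T₀ hT₀).1 i).2.comp_left (g := conj) (map_zero _)⟩,
      fun w hw => (h.fine T₀ hT₀).2 w (List.mem_reverse.mp hw)⟩
  have hOf := h.fine_outer
  have e : (kill core β k).kernel n = (adjoint (kill core β k)).kernel n := by
    funext a b
    rw [kill, kernel_adjoint_mul]
    have e1 : (adjoint (core.mul (outer F ι β k))).kernel n
        = ((outer F ι β k).mul (adjoint core)).kernel n := by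
      funext p q; rw [kernel_adjoint_mul, hO]
    have hfad : Fine n (adjoint (core.mul (outer F ι β k))) := by
      intro T hT
      obtain ⟨T₀, hT₀, rfl⟩ := List.mem_map.mp hT
      exact ⟨fun i => ⟨Complex.continuous_conj.comp (((h.fine.mul hOf) T₀ hT₀).1 i).1,
        (((h.fine.mul hOf) T₀ hT₀).1 i).2.comp_left (g := conj) (map_zero _)⟩,
        fun w hw => ((h.fine.mul hOf) T₀ hT₀).2 w (List.mem_reverse.mp hw)⟩
    rw [kernel_mul_congr Φ hn hfad.mono (hOf.mul hfA).mono (B := adjoint (outer F ι β k))
      (B' := outer F ι β k) (by rw [hO]; exact hOf.mono) hOf.mono e1 (by rw [hO]),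
      mul_assoc_comb hOf hfA hOf,
      kernel_mul_congr Φ hn hOf.mono hOf.mono (hfA.mul hOf).mono (h.fine.mul hOf).mono rfl
        (kernel_mul_congr Φ hn hfA.mono h.fine.mono hOf.mono hOf.mono hA rfl)]
  exact (congrFun (congrFun e y) x)

end FLTAgent.LanglandsTunnell.Killing
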