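import Mathlib

/-!
# Killing combinations in a formal group algebra

`killing w z s` is a formal combination of Hecke monomials and shifts which is invariant under all
sign changes of the shifts, has real coefficients, and whose `image` in the group algebra of a
quotient vanishes when it runs over all characters of a finite group (`image_killing`), while its
value at scalars avoiding `z + conj z` is not zero (`evalAlg_killing_ne_zero`).
-/

set_option autoImplicit false

noncomputable section

open AddMonoidAlgebra Finset ComplexConjugate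

namespace FLTAgent.LanglandsTunnell.Killing

/-- Products of shifted characters over all characters vanish in the group algebra. -/
theorem prod_characters_sub_eq_zero {C : Type*} [AddCommGroup C] [Finite C]
    (c : AddChar C ℂ → C) [Fintype (AddChar C ℂ)] :
    ∏ χ : AddChar C ℂ, (single (c χ) (1 : ℂ) - single 0 (χ (c χ))) = 0 := by
  classical
  have := Fintype.ofFinite C
  set f := ∏ χ : AddChar C ℂ, (single (c χ) (1 : ℂ) - single 0 (χ (c χ)))
  have hev : ∀ ψ : AddChar C ℂ, AddMonoidAlgebra.lift ℂ ℂ C ψ.toMonoidHom f = 0 := fun ψ => by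
    rw [map_prod]
    refine Finset.prod_eq_zero (Finset.mem_univ ψ) ?_
    simp [AddMonoidAlgebra.lift_single, AddChar.toMonoidHom_apply]
  ext a
  have h2 : ∑ ψ : AddChar C ℂ, ψ (-a) * AddMonoidAlgebra.lift ℂ ℂ C ψ.toMonoidHom f = 0 :=
    Finset.sum_eq_zero fun ψ _ => by rw [hev, mul_zero]
  have h1 : ∀ ψ : AddChar C ℂ, AddMonoidAlgebra.lift ℂ ℂ C ψ.toMonoidHom f
      = ∑ b : C, f.coeff b * ψ b := fun ψ => by
    rw [AddMonoidAlgebra.lift_apply, Finsupp.sum_fintype _ _ fun b => by simp]
    simp [AddChar.toMonoidHom_apply]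
  simp only [h1, Finset.mul_sum] at h2
  rw [Finset.sum_comm] at h2
  have h3 : ∀ b : C, ∑ ψ : AddChar C ℂ, ψ (-a) * (f.coeff b * ψ b)
      = f.coeff b * if b - a = 0 then (Fintype.card C : ℂ) else 0 := fun b => by
    rw [← AddChar.sum_apply_eq_ite, Finset.mul_sum]
    refine Finset.sum_congr (by ext; simp) fun ψ _ => ?_
    rw [sub_eq_add_neg b a, AddChar.map_add_eq_mul]
    ring
  simp only [h3, sub_eq_zero, mul_ite, mul_zero, Finset.sum_ite_eq', Finset.mem_univ, if_true]
    at h2
  simpa using (mul_eq_zero.mp h2).resolve_right (Nat.cast_ne_zero.mpr Fintype.card_ne_zero)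

variable {X ι Q : Type*} [Fintype ι] [DecidableEq ι] [AddCommGroup Q]

/-- Formal combinations: words in commuting operators times translations. -/
abbrev Formal (X ι : Type*) : Type _ := AddMonoidAlgebra ℂ ((X →₀ ℕ) × (ι → ℝ))

/-- Change signs in the marked coordinates. -/
def flipVec (ε : ι → Bool) : (ι → ℝ) →+ (ι → ℝ) where
  toFun v i := if ε i then -v i else v i
  map_zero' := by funext i; simp
  map_add' v w := by funext i; simp only [Pi.add_apply]; split_ifs <;> ring

omit [Fintype ι] [DecidableEq ι] in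
theorem flipVec_flipVec (ε δ : ι → Bool) (v : ι → ℝ) :
    flipVec ε (flipVec δ v) = flipVec (fun i => xor (ε i) (δ i)) v := by
  funext i
  simp only [flipVec, AddMonoidHom.coe_mk, ZeroHom.coe_mk]
  by_cases h1 : ε i = true <;> by_cases h2 : δ i = true <;> simp [h1, h2]

omit [Fintype ι] [DecidableEq ι] in
theorem flipVec_false (v : ι → ℝ) : flipVec (fun _ : ι => false) v = v := by
  funext i; simp [flipVec]

omit [Fintype ι] [DecidableEq ι] in
theorem flipVec_true (v : ι → ℝ) : flipVec (fun _ : ι => true) v = -v := by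
  funext i; simp [flipVec]

/-- The substitution of a change of signs. -/
def flipAlg (ε : ι → Bool) : Formal X ι →+* Formal X ι :=
  AddMonoidAlgebra.mapDomainRingHom ℂ ((AddMonoidHom.id (X →₀ ℕ)).prodMap (flipVec ε))

omit [Fintype ι] [DecidableEq ι] in
theorem flipAlg_single (ε : ι → Bool) (n : X →₀ ℕ) (v : ι → ℝ) (c : ℂ) :
    flipAlg ε (single ((n, v) : (X →₀ ℕ) × (ι → ℝ)) c) = single (n, flipVec ε v) c := by
  simp [flipAlg, AddMonoidAlgebra.mapDomainRingHom_apply, AddMonoidHom.prodMap]

/-- One factor. -/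
def factor (x : X) (z : ℂ) (s : ι → ℝ) : Formal X ι :=
  single ((Finsupp.single x 1, 0) : (X →₀ ℕ) × (ι → ℝ)) 1 - single (0, s) z -
    single (0, -s) (conj z)

omit [Fintype ι] [DecidableEq ι] in
theorem flipAlg_factor (ε : ι → Bool) (x : X) (z : ℂ) (s : ι → ℝ) :
    flipAlg ε (factor x z s) = factor x z (flipVec ε s) := by
  simp [factor, flipAlg_single, map_neg]

/-- All sign changes of one factor. -/
def flipProd (x : X) (z : ℂ) (s : ι → ℝ) : Formal X ι :=
  ∏ ε : ι → Bool, factor x z (flipVec ε s)

theorem flipAlg_flipProd (δ : ι → Bool) (x : X) (z : ℂ) (s : ι → ℝ) :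
    flipAlg δ (flipProd x z s) = flipProd x z s := by
  simp only [flipProd, map_prod, flipAlg_factor, flipVec_flipVec]
  refine Fintype.prod_bijective (fun (ε : ι → Bool) i => xor (δ i) (ε i))
    (Function.Involutive.bijective fun ε => funext fun i => ?_) _ _ fun ε => rfl
  simp

/-- The killing combination. -/
def killing {J : Type*} [Fintype J] (w : J → X) (z : J → ℂ) (s : J → ι → ℝ) : Formal X ι :=
  ∏ j, flipProd (w j) (z j) (s j)

section Killing

variable {J : Type*} [Fintype J] (w : J → X) (z : J → ℂ) (s : J → ι → ℝ)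

theorem flipAlg_killing (ε : ι → Bool) : flipAlg ε (killing w z s) = killing w z s := by
  simp only [killing, map_prod, flipAlg_flipProd]

/-- Conjugation of the coefficients. -/
def conjAlg : Formal X ι →+* Formal X ι :=
  AddMonoidAlgebra.mapRingHom _ (starRingEnd ℂ)

omit [Fintype ι] [DecidableEq ι] in
theorem conjAlg_single (m : (X →₀ ℕ) × (ι → ℝ)) (c : ℂ) :
    conjAlg (single m c : Formal X ι) = single m (conj c) := by
  simp [conjAlg]

omit [Fintype ι] [DecidableEq ι] in
theorem conjAlg_factor (x : X) (c : ℂ) (v : ι → ℝ) :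
    conjAlg (factor x c v) = flipAlg (fun _ => true) (factor x c v) := by
  rw [flipAlg_factor, flipVec_true]
  simp [factor, conjAlg_single]
  abel

theorem conjAlg_killing : conjAlg (killing w z s) = killing w z s := by
  conv_rhs => rw [← flipAlg_killing w z s fun _ => true]
  simp only [killing, flipProd, map_prod, conjAlg_factor]

theorem killing_real (m : (X →₀ ℕ) × (ι → ℝ)) : ((killing w z s).coeff m).im = 0 := by
  have h := congrArg (fun B => B.coeff m) (conjAlg_killing w z s)
  simp [conjAlg] at h
  exact Complex.conj_eq_iff_im.mp h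

/-- The value where translations act trivially and operators by scalars. -/
def evalAlg (a : X → ℂ) : Formal X ι →ₐ[ℂ] ℂ :=
  AddMonoidAlgebra.lift ℂ ℂ ((X →₀ ℕ) × (ι → ℝ))
    { toFun := fun m => (Multiplicative.toAdd m).1.prod fun x k => a x ^ k
      map_one' := by simp
      map_mul' := fun m m' => by simp [Finsupp.prod_add_index', pow_add] }

omit [Fintype ι] [DecidableEq ι] in
theorem evalAlg_single (a : X → ℂ) (n : X →₀ ℕ) (v : ι → ℝ) (c : ℂ) :
    evalAlg a (single ((n, v) : (X →₀ ℕ) × (ι → ℝ)) c) = c * n.prod fun x k => a x ^ k := by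
  rw [evalAlg, AddMonoidAlgebra.lift_single, smul_eq_mul]
  rfl

theorem evalAlg_killing_ne_zero (a : X → ℂ) (h : ∀ j, a (w j) ≠ z j + conj (z j)) :
    evalAlg a (killing w z s) ≠ 0 := by
  simp only [killing, flipProd, map_prod]
  refine Finset.prod_ne_zero_iff.mpr fun j _ => Finset.prod_ne_zero_iff.mpr fun ε _ => ?_
  simp only [factor, map_sub, evalAlg_single, Finsupp.prod_zero_index, mul_one]
  rw [Finsupp.prod_single_index (by simp), pow_one, one_mul, sub_sub, sub_ne_zero]
  exact h j

variable (e : X → Q) (S : (ι → ℝ) →+ Q)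

/-- Substitute `[e x] + [-e x]` for the operators and `[S v]` for the translations. -/
def image : Formal X ι →ₐ[ℂ] AddMonoidAlgebra ℂ Q :=
  AddMonoidAlgebra.lift ℂ (AddMonoidAlgebra ℂ Q) ((X →₀ ℕ) × (ι → ℝ))
    { toFun := fun m => ((Multiplicative.toAdd m).1.prod fun x k =>
        (single (e x) (1 : ℂ) + single (-e x) 1) ^ k) * single (S (Multiplicative.toAdd m).2) 1
      map_one' := by simp [AddMonoidAlgebra.one_def]
      map_mul' := fun m m' => by
        simp only [toAdd_mul, Prod.fst_add, Prod.snd_add, map_add]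
        rw [Finsupp.prod_add_index' (fun _ => pow_zero _) (fun _ _ _ => pow_add _ _ _),
          mul_mul_mul_comm, single_mul_single, one_mul] }

omit [Fintype ι] [DecidableEq ι] in
theorem image_single (n : X →₀ ℕ) (v : ι → ℝ) (c : ℂ) :
    image e S (single ((n, v) : (X →₀ ℕ) × (ι → ℝ)) c)
      = c • ((n.prod fun x k => (single (e x) (1 : ℂ) + single (-e x) 1) ^ k) *
        single (S v) 1) := by
  rw [image, AddMonoidAlgebra.lift_single]
  rfl

omit [Fintype ι] [DecidableEq ι] in
theorem image_factor (x : X) (c : ℂ) (hc : c * conj c = 1) (v : ι → ℝ) (q : Q)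
    (hq : q = e x - S v) :
    image e S (factor x c v)
      = (single q (1 : ℂ) - single 0 c) * (single (S v) 1 - single (-e x) (conj c)) := by
  subst hq
  simp only [factor, map_sub, image_single, Finsupp.prod_zero_index, map_neg, map_zero,
    one_mul, one_smul, AddMonoidAlgebra.smul_single', mul_one]
  rw [Finsupp.prod_single_index (by simp), pow_one]
  simp only [← AddMonoidAlgebra.one_def, mul_one, sub_mul, mul_sub, single_mul_single, one_mul, hc,
    zero_add]
  rw [sub_add_cancel, show e x - S v + -e x = -S v by abel]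
  abel

theorem image_killing {C : Type*} [AddCommGroup C] [Finite C] [Fintype (AddChar C ℂ)]
    (τ : C →+ Q) (c : AddChar C ℂ → C) (w : AddChar C ℂ → X) (s : AddChar C ℂ → ι → ℝ)
    (hτ : ∀ χ, τ (c χ) = e (w χ) - S (s χ)) :
    image e S (killing w (fun χ => χ (c χ)) s) = 0 := by
  classical
  have := Fintype.ofFinite C
  have hdvd : ∏ χ : AddChar C ℂ, (single (τ (c χ)) (1 : ℂ) - single 0 (χ (c χ)))
      ∣ image e S (killing w (fun χ => χ (c χ)) s) := by
    simp only [killing, flipProd, map_prod]
    refine Finset.prod_dvd_prod_of_dvd _ _ fun χ _ => ?_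
    refine dvd_trans ?_ (Finset.dvd_prod_of_mem _ (Finset.mem_univ fun _ => false))
    rw [flipVec_false, image_factor e S (w χ) _ ?_ (s χ) (τ (c χ)) (hτ χ)]
    · exact dvd_mul_right _ _
    · rw [Complex.mul_conj, Complex.normSq_eq_norm_sq, AddChar.norm_apply]
      simp
  have hz := congrArg (AddMonoidAlgebra.mapDomainRingHom ℂ τ) (prod_characters_sub_eq_zero c)
  simp only [map_prod, map_sub, map_zero, AddMonoidAlgebra.mapDomainRingHom_apply,
    AddMonoidAlgebra.mapDomain_single] at hz
  rwa [hz, zero_dvd_iff] at hdvd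

end Killing

/-- The sum over the signs of a word. -/
def signSum (e : X → Q) (Ψ : Q → ℂ) : List X → Q → ℂ
  | [], q => Ψ q
  | x :: l, q => signSum e Ψ l (q + e x) + signSum e Ψ l (q - e x)

/-- Linear extension of a function. -/
def pair (Ψ : Q → ℂ) : AddMonoidAlgebra ℂ Q →ₗ[ℂ] ℂ :=
  (Finsupp.linearCombination ℂ Ψ).comp (AddMonoidAlgebra.coeffLinearEquiv ℂ).toLinearMap

theorem pair_mul_single_list (e : X → Q) (Ψ : Q → ℂ) (l : List X) (q : Q) :
    pair Ψ ((l.map fun x => single (e x) (1 : ℂ) + single (-e x) 1).prod * single q 1)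
      = signSum e Ψ l q := by
  induction l generalizing q with
  | nil => simp [pair, signSum]
  | cons x l ih =>
    rw [List.map_cons, List.prod_cons, mul_comm (single (e x) (1 : ℂ) + _), mul_assoc,
      add_mul, mul_add, map_add, single_mul_single, single_mul_single, one_mul, ih, ih, signSum,
      sub_eq_add_neg, add_comm (e x), add_comm (-e x)]

/-- The word of a monomial. -/
def wordOf (n : X →₀ ℕ) : List X := n.toMultiset.toList

theorem prod_wordOf {M : Type*} [CommMonoid M] (f : X → M) (n : X →₀ ℕ) :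
    ((wordOf n).map f).prod = n.prod fun x k => f x ^ k := by
  rw [← Multiset.prod_coe, ← Multiset.map_coe, wordOf, Multiset.coe_toList, Finsupp.toMultiset_map,
    Finsupp.prod_toMultiset, Finsupp.prod_mapDomain_index (fun _ => pow_zero _)
      fun _ _ _ => pow_add _ _ _]

omit [Fintype ι] [DecidableEq ι] in
/-- A vanishing image kills every function on the quotient. -/
theorem sum_signSum_eq_zero (e : X → Q) (S : (ι → ℝ) →+ Q) {A : Formal X ι}
    (hA : image e S A = 0) (Ψ : Q → ℂ) (q : Q) :
    ∑ m ∈ A.coeff.support, A.coeff m * signSum e Ψ (wordOf m.1) (S m.2 + q) = 0 := by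
  have h : pair (fun p => Ψ (p + q)) (image e S A) = 0 := by rw [hA, map_zero]
  conv at h => lhs; rw [← AddMonoidAlgebra.sum_coeff_single A]
  simp only [Finsupp.sum, map_sum] at h
  refine Eq.trans (Finset.sum_congr rfl fun m _ => ?_) h
  rw [show (single m (A.coeff m) : Formal X ι) = single (m.1, m.2) (A.coeff m) from rfl,
    image_single, map_smul, smul_eq_mul, ← prod_wordOf, pair_mul_single_list]
  congr 1
  generalize S m.2 = p
  induction wordOf m.1 generalizing p with
  | nil => simp [signSum]
  | cons x l ih =>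
    rw [signSum, signSum, ← ih, ← ih, add_right_comm, sub_add_eq_add_sub]

omit [Fintype ι] [DecidableEq ι] in
/-- A flip invariant combination does not see signs. -/
theorem sum_flip_eq {A : Formal X ι} {ε : ι → Bool} (hA : flipAlg ε A = A)
    (f : (X →₀ ℕ) × (ι → ℝ) → ℂ) :
    ∑ m ∈ A.coeff.support, A.coeff m * f (m.1, flipVec ε m.2) =
      ∑ m ∈ A.coeff.support, A.coeff m * f m := by
  let L : Formal X ι →ₗ[ℂ] ℂ := (Finsupp.linearCombination ℂ f).comp
      (AddMonoidAlgebra.coeffLinearEquiv ℂ).toLinearMap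
  have h1 : ∀ B : Formal X ι, L B = ∑ m ∈ B.coeff.support, B.coeff m * f m := fun B => by
    simp [L, Finsupp.linearCombination_apply, Finsupp.sum]
  have h2 : L (flipAlg ε A) = ∑ m ∈ A.coeff.support, A.coeff m * f (m.1, flipVec ε m.2) := by
    conv_lhs => rw [← AddMonoidAlgebra.sum_coeff_single A]
    simp only [Finsupp.sum, map_sum]
    refine Finset.sum_congr rfl fun m _ => ?_
    rw [show (single m (A.coeff m) : Formal X ι) = single (m.1, m.2) (A.coeff m) from rfl,
      flipAlg_single]
    simp [L]
  rw [← h2, hA, h1]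

omit [Fintype ι] [DecidableEq ι] in
/-- A monomial sum at scalars. -/
theorem sum_prod_wordOf (a : X → ℂ) (A : Formal X ι) :
    ∑ m ∈ A.coeff.support, A.coeff m * ((wordOf m.1).map a).prod = evalAlg a A := by
  conv_rhs => rw [← AddMonoidAlgebra.sum_coeff_single A]
  simp only [Finsupp.sum, map_sum, prod_wordOf]
  exact Finset.sum_congr rfl fun m _ => (evalAlg_single a m.1 m.2 _).symm

end FLTAgent.LanglandsTunnell.Killing
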