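import Fermat.Agent.LanglandsTunnell.Basic

/-!
# Ray class groups from exponent vectors

`TorusQuot` divides exponent vectors of good primes and logarithmic shifts by principal elements
congruent to `1`; `RayGroup` forgets the shifts and is finite (`finite_rayGroup`). Its characters
give multiplicative functions of ideals (`idealChar`), and `exists_section` provides the section
used for the killing combination.
-/

set_option autoImplicit false

noncomputable section

open NumberField IsDedekindDomain Ideal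
open scoped nonZeroDivisors

namespace FLTAgent.LanglandsTunnell.Killing

/-- A homomorphism onto a finite group with divisible kernel splits. -/
theorem exists_section {C Q V : Type*} [AddCommGroup C] [Finite C] [AddCommGroup Q] [AddCommGroup V]
    [Module ℝ V] (f : Q →+ C) (S : V →+ Q) (hf : Function.Surjective f)
    (hker : ∀ q, f q = 0 → ∃ v, S v = q) (hS : ∀ v, f (S v) = 0) :
    ∃ τ : C →+ Q, ∀ c, f (τ c) = c := by
  classical
  obtain ⟨ι, _, p, hp, k, ⟨e⟩⟩ := AddCommGroup.equiv_directSum_zmod_of_finite C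
  have hgen : ∀ i, ∃ q : Q, f q = e.symm (DirectSum.of _ i 1) ∧ (p i ^ k i) • q = 0 := by
    intro i
    obtain ⟨q, hq⟩ := hf (e.symm (DirectSum.of _ i 1))
    have h0 : f ((p i ^ k i) • q) = 0 := by
      rw [map_nsmul, hq, ← map_nsmul, ← map_nsmul]
      simp
    obtain ⟨v, hv⟩ := hker _ h0
    have hne : ((p i ^ k i : ℕ) : ℝ) ≠ 0 := Nat.cast_ne_zero.mpr (pow_ne_zero _ (hp i).ne_zero)
    refine ⟨q - S (((p i ^ k i : ℕ) : ℝ)⁻¹ • v), by rw [map_sub, hS, sub_zero, hq], ?_⟩
    rw [nsmul_sub, ← map_nsmul,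
      show (p i ^ k i) • ((((p i ^ k i : ℕ) : ℝ))⁻¹ • v) = v by
        rw [← Nat.cast_smul_eq_nsmul ℝ, smul_smul, mul_inv_cancel₀ hne, one_smul],
      hv, sub_self]
  choose q hq hq0 using hgen
  let g : ∀ i, ZMod (p i ^ k i) →+ Q := fun i =>
    ZMod.lift _ ⟨zmultiplesHom Q (q i), by
      rw [zmultiplesHom_apply, natCast_zsmul]; exact hq0 i⟩
  let τ : C →+ Q := (DirectSum.toAddMonoid g).comp e.toAddMonoidHom
  refine ⟨τ, fun c => ?_⟩
  have h : f.comp (DirectSum.toAddMonoid g) = e.symm.toAddMonoidHom := by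
    refine DirectSum.addHom_ext fun i x => ?_
    obtain ⟨z, rfl⟩ := ZMod.intCast_surjective x
    simp only [AddMonoidHom.comp_apply, DirectSum.toAddMonoid_of, g, ZMod.lift_coe,
      zmultiplesHom_apply, map_zsmul, hq]
    rw [← map_zsmul]
    change e.symm _ = e.symm _
    rw [← map_zsmul, zsmul_one]
  exact (DFunLike.congr_fun h (e c)).trans (e.symm_apply_apply c)

variable (F : Type) [Field F] [NumberField F]

/-- The primes not dividing `n`. -/
abbrev GoodPrime (n : Ideal (𝓞 F)) : Type := {w : HeightOneSpectrum (𝓞 F) // ¬ w.asIdeal ∣ n}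

variable {F}

/-- A good prime as a fractional ideal. -/
def primeUnit {n : Ideal (𝓞 F)} (w : GoodPrime F n) : (FractionalIdeal (𝓞 F)⁰ F)ˣ :=
  Units.mk0 (w.1.asIdeal : FractionalIdeal (𝓞 F)⁰ F)
    (FractionalIdeal.coeIdeal_ne_zero.mpr w.1.ne_bot)

/-- The fractional ideal of an exponent vector. -/
def idealOf (n : Ideal (𝓞 F)) :
    (GoodPrime F n →₀ ℤ) →+ Additive (FractionalIdeal (𝓞 F)⁰ F)ˣ :=
  Finsupp.liftAddHom fun w => zmultiplesHom _ (Additive.ofMul (primeUnit w))

/-- The ideal of a nonnegative exponent vector. -/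
def intIdeal {n : Ideal (𝓞 F)} (m : GoodPrime F n →₀ ℕ) : Ideal (𝓞 F) :=
  m.prod fun w k => w.1.asIdeal ^ k

/-- Exponent vectors with natural coefficients. -/
def castVec {n : Ideal (𝓞 F)} : (GoodPrime F n →₀ ℕ) →+ (GoodPrime F n →₀ ℤ) :=
  Finsupp.mapRange.addMonoidHom (Nat.castAddMonoidHom ℤ)

omit [NumberField F] in
theorem intIdeal_add {n : Ideal (𝓞 F)} (m m' : GoodPrime F n →₀ ℕ) :
    intIdeal (m + m') = intIdeal m * intIdeal m' :=
  Finsupp.prod_add_index' (fun _ => pow_zero _) fun _ _ _ => pow_add _ _ _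

omit [NumberField F] in
theorem intIdeal_single {n : Ideal (𝓞 F)} (w : GoodPrime F n) (k : ℕ) :
    intIdeal (Finsupp.single w k) = w.1.asIdeal ^ k :=
  Finsupp.prod_single_index (pow_zero _)

omit [NumberField F] in
theorem intIdeal_ne_bot {n : Ideal (𝓞 F)} (m : GoodPrime F n →₀ ℕ) : intIdeal m ≠ ⊥ :=
  Finset.prod_ne_zero_iff.mpr fun w _ => pow_ne_zero _ w.1.ne_bot

theorem intIdeal_sup {n : Ideal (𝓞 F)} (m : GoodPrime F n →₀ ℕ) : intIdeal m ⊔ n = ⊤ := by
  induction m using Finsupp.induction with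
  | zero => simp [intIdeal]
  | single_add w k m _ _ ih =>
    rw [intIdeal_add, intIdeal_single]
    refine Ideal.mul_sup_eq_of_coprime_left ?_ |>.trans ih
    have hmax : w.1.asIdeal.IsMaximal := w.1.isMaximal
    have hw : w.1.asIdeal ⊔ n = ⊤ := hmax.out.2 _
      (lt_of_le_not_ge le_sup_left fun h => w.2 (Ideal.dvd_iff_le.mpr (le_sup_right.trans h)))
    exact Ideal.pow_sup_eq_top hw

theorem idealOf_castVec {n : Ideal (𝓞 F)} (m : GoodPrime F n →₀ ℕ) :
    ((Additive.toMul (idealOf n (castVec m)) : (FractionalIdeal (𝓞 F)⁰ F)ˣ) :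
      FractionalIdeal (𝓞 F)⁰ F) = (intIdeal m : FractionalIdeal (𝓞 F)⁰ F) := by
  induction m using Finsupp.induction with
  | zero => simp [intIdeal]
  | single_add w k m _ _ ih =>
    rw [map_add, map_add, toMul_add, Units.val_mul, ih, intIdeal_add, intIdeal_single,
      FractionalIdeal.coeIdeal_mul, FractionalIdeal.coeIdeal_pow]
    congr 1
    simp [castVec, idealOf, primeUnit]

section Relations

variable {ι : Type} (emb : ι → F →+* ℂ) (n : Ideal (𝓞 F))

/-- The logarithms of the absolute values. -/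
def logVec (x : F) : ι → ℝ := fun i => Real.log ‖emb i x‖

omit [NumberField F] in
theorem logVec_mul {x y : F} (hx : x ≠ 0) (hy : y ≠ 0) :
    logVec emb (x * y) = logVec emb x + logVec emb y := by
  funext i
  simp only [logVec, map_mul, norm_mul, Pi.add_apply]
  exact Real.log_mul (norm_ne_zero_iff.mpr (by simpa using hx))
    (norm_ne_zero_iff.mpr (by simpa using hy))

/-- The relation: `(a/b)` is the ideal of the vector, `a` and `b` are `1` modulo `n`. -/
def IsRelation (p : (GoodPrime F n →₀ ℤ) × (ι → ℝ)) (a b : 𝓞 F) : Prop :=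
  a ≠ 0 ∧ b ≠ 0 ∧ a - 1 ∈ n ∧ b - 1 ∈ n ∧
    FractionalIdeal.spanSingleton (𝓞 F)⁰ ((a : F) / (b : F)) =
      ((Additive.toMul (idealOf n p.1) : (FractionalIdeal (𝓞 F)⁰ F)ˣ) :
        FractionalIdeal (𝓞 F)⁰ F) ∧
    p.2 = logVec emb ((a : F) / (b : F))

omit [NumberField F] in
theorem mul_sub_one_mem {a a' : 𝓞 F} (ha : a - 1 ∈ n) (ha' : a' - 1 ∈ n) : a * a' - 1 ∈ n := by
  rw [show a * a' - 1 = a * (a' - 1) + (a - 1) by ring]
  exact add_mem (n.mul_mem_left _ ha') ha

/-- The subgroup of relations. -/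
def relSubgroup : AddSubgroup ((GoodPrime F n →₀ ℤ) × (ι → ℝ)) where
  carrier := {p | ∃ a b, IsRelation emb n p a b}
  zero_mem' := ⟨1, 1, one_ne_zero, one_ne_zero, by simp, by simp, by simp, by
    funext i; simp [logVec]⟩
  add_mem' := by
    rintro p q ⟨a, b, ha, hb, ha1, hb1, hi, hl⟩ ⟨a', b', ha', hb', ha1', hb1', hi', hl'⟩
    refine ⟨a * a', b * b', mul_ne_zero ha ha', mul_ne_zero hb hb', mul_sub_one_mem n ha1 ha1',
      mul_sub_one_mem n hb1 hb1', ?_, ?_⟩
    · rw [Prod.fst_add, map_add, toMul_add, Units.val_mul, ← hi, ← hi',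
        FractionalIdeal.spanSingleton_mul_spanSingleton]
      push_cast
      rw [div_mul_div_comm]
    · rw [Prod.snd_add, hl, hl', ← logVec_mul emb (by simp [ha, hb]) (by simp [ha', hb'])]
      push_cast
      rw [div_mul_div_comm]
  neg_mem' := by
    rintro p ⟨a, b, ha, hb, ha1, hb1, hi, hl⟩
    refine ⟨b, a, hb, ha, hb1, ha1, ?_, ?_⟩
    · rw [Prod.fst_neg, map_neg, toMul_neg, Units.val_inv_eq_inv_val, ← hi,
        FractionalIdeal.spanSingleton_inv, inv_div]
    · rw [Prod.snd_neg, hl]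
      funext i
      simp only [logVec, Pi.neg_apply]
      rw [← inv_div (a : F), map_inv₀, norm_inv, Real.log_inv]

/-- The torus quotient. -/
abbrev TorusQuot : Type := ((GoodPrime F n →₀ ℤ) × (ι → ℝ)) ⧸ relSubgroup emb n

/-- The class of a prime in the torus quotient. -/
def primeClass (w : GoodPrime F n) : TorusQuot emb n :=
  QuotientAddGroup.mk (Finsupp.single w 1, 0)

/-- The translations in the torus quotient. -/
def shiftClass : (ι → ℝ) →+ TorusQuot emb n :=
  (QuotientAddGroup.mk' _).comp (AddMonoidHom.inr _ _)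

/-- The exponent vectors of relations. -/
def principalVectors : AddSubgroup (GoodPrime F n →₀ ℤ) :=
  (relSubgroup emb n).map (AddMonoidHom.fst _ _)

/-- The ray class group. -/
abbrev RayGroup : Type := (GoodPrime F n →₀ ℤ) ⧸ principalVectors emb n

/-- The projection to ray classes. -/
def toRay : TorusQuot emb n →+ RayGroup emb n :=
  QuotientAddGroup.map _ _ (AddMonoidHom.fst _ _) fun p hp => ⟨p, hp, rfl⟩

theorem toRay_primeClass (w : GoodPrime F n) :
    toRay emb n (primeClass emb n w) = QuotientAddGroup.mk (Finsupp.single w 1) := rfl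

theorem toRay_shiftClass (v : ι → ℝ) : toRay emb n (shiftClass emb n v) = 0 :=
  (QuotientAddGroup.eq_zero_iff _).mpr (zero_mem _)

theorem toRay_surjective : Function.Surjective (toRay emb n) := fun c => by
  obtain ⟨e, rfl⟩ := QuotientAddGroup.mk_surjective c
  exact ⟨QuotientAddGroup.mk (e, 0), rfl⟩

theorem exists_shiftClass_eq {q : TorusQuot emb n} (h : toRay emb n q = 0) :
    ∃ v, shiftClass emb n v = q := by
  obtain ⟨⟨e, v⟩, rfl⟩ := QuotientAddGroup.mk_surjective q
  obtain ⟨⟨e', v'⟩, hp, rfl⟩ := (QuotientAddGroup.eq_zero_iff _).mp h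
  refine ⟨v - v', ?_⟩
  simp only [shiftClass, AddMonoidHom.comp_apply, QuotientAddGroup.mk'_apply,
    AddMonoidHom.inr_apply, AddMonoidHom.coe_fst]
  rw [QuotientAddGroup.eq]
  convert hp using 1
  simp

variable {n}

theorem mem_principalVectors {a b : 𝓞 F} (ha : a ≠ 0) (hb : b ≠ 0) (ha1 : a - 1 ∈ n)
    (hb1 : b - 1 ∈ n) {e : GoodPrime F n →₀ ℤ}
    (hi : FractionalIdeal.spanSingleton (𝓞 F)⁰ ((a : F) / (b : F)) =
      ((Additive.toMul (idealOf n e) : (FractionalIdeal (𝓞 F)⁰ F)ˣ) :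
        FractionalIdeal (𝓞 F)⁰ F)) :
    e ∈ principalVectors emb n :=
  ⟨(e, logVec emb ((a : F) / (b : F))), ⟨a, b, ha, hb, ha1, hb1, hi, rfl⟩, rfl⟩

theorem exists_unit_mod {a : 𝓞 F} (ha : Ideal.span {a} ⊔ n = ⊤) :
    ∃ u : 𝓞 F, u ≠ 0 ∧ a * u - 1 ∈ n := by
  obtain ⟨x, hx, y, hy, hxy⟩ := Submodule.mem_sup.1 (ha ▸ Submodule.mem_top : (1 : 𝓞 F) ∈ _)
  obtain ⟨u, rfl⟩ := Ideal.mem_span_singleton.1 hx
  by_cases hu : u = 0
  · subst hu
    have h1 : (1 : 𝓞 F) ∈ n := by simp only [mul_zero, zero_add] at hxy; rwa [← hxy]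
    exact ⟨1, one_ne_zero, by rw [(Ideal.eq_top_iff_one n).mpr h1]; exact Submodule.mem_top⟩
  · exact ⟨u, hu, by rw [show a * u - 1 = -y by linear_combination hxy]; exact n.neg_mem hy⟩

/-- Equivalence of two integral vectors with congruent principal completions. -/
theorem mk_eq_of_congr {m m' k : GoodPrime F n →₀ ℕ} {a a' : 𝓞 F}
    (ha : intIdeal (m + k) = Ideal.span {a}) (ha' : intIdeal (m' + k) = Ideal.span {a'})
    (hcong : a - a' ∈ n) :
    (QuotientAddGroup.mk (castVec m) : RayGroup emb n) = QuotientAddGroup.mk (castVec m') := by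
  obtain ⟨u, hu0, hu⟩ := exists_unit_mod (ha' ▸ intIdeal_sup (m' + k))
  have hne : ∀ {b : 𝓞 F} {l : GoodPrime F n →₀ ℕ}, intIdeal l = Ideal.span {b} → b ≠ 0 :=
    fun hl h0 => intIdeal_ne_bot _ (by rw [hl, h0, Ideal.span_singleton_eq_bot])
  rw [eq_comm, QuotientAddGroup.eq]
  refine mem_principalVectors emb (mul_ne_zero (hne ha) hu0) (mul_ne_zero (hne ha') hu0) ?_ hu ?_
  · rw [show a * u - 1 = (a - a') * u + (a' * u - 1) by ring]
    exact add_mem (n.mul_mem_right _ hcong) hu
  · have e : -castVec m' + castVec m = castVec (m + k) - castVec (m' + k) := by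
      rw [map_add, map_add]; abel
    rw [e, map_sub, toMul_sub, Units.val_div_eq_div_val,
      idealOf_castVec, idealOf_castVec, ha, ha', FractionalIdeal.coeIdeal_span_singleton,
      FractionalIdeal.coeIdeal_span_singleton, FractionalIdeal.spanSingleton_div_spanSingleton]
    push_cast
    rw [mul_div_mul_right _ _ (by simpa using hu0)]

theorem classGroup_intIdeal_eq_one {m : GoodPrime F n →₀ ℕ}
    (h : ClassGroup.mk0 ⟨intIdeal m, mem_nonZeroDivisors_of_ne_zero (intIdeal_ne_bot m)⟩ = 1) :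
    ∃ a : 𝓞 F, intIdeal m = Ideal.span {a} := by
  obtain ⟨a, ha⟩ := ((ClassGroup.mk0_eq_one_iff _).mp h).principal
  exact ⟨a, ha⟩

/-- Some uniform multiple of every prime vector is principal. -/
theorem exists_pos_smul_single_mem (hn : n ≠ ⊥) :
    ∃ h : ℕ, 0 < h ∧ ∀ w : GoodPrime F n, h • Finsupp.single w (1 : ℤ) ∈
      principalVectors emb n := by
  have : Finite (𝓞 F ⧸ n) := Ideal.finiteQuotientOfFreeOfNeBot n hn
  refine ⟨classNumber F * Nat.card (𝓞 F ⧸ n)ˣ, Nat.mul_pos (classNumber_pos F) Nat.card_pos,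
    fun w => ?_⟩
  obtain ⟨a, ha⟩ := classGroup_intIdeal_eq_one (m := Finsupp.single w (classNumber F)) (by
    have e : (⟨intIdeal (Finsupp.single w (classNumber F)),
        mem_nonZeroDivisors_of_ne_zero (intIdeal_ne_bot _)⟩ : (Ideal (𝓞 F))⁰)
        = ⟨w.1.asIdeal, mem_nonZeroDivisors_of_ne_zero w.1.ne_bot⟩ ^ classNumber F :=
      Subtype.ext (intIdeal_single w _)
    rw [e, map_pow, classNumber, pow_card_eq_one])
  set k := Nat.card (𝓞 F ⧸ n)ˣ
  obtain ⟨u, -, hu⟩ := exists_unit_mod (ha ▸ intIdeal_sup (Finsupp.single w (classNumber F)))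
  have hunit : IsUnit (Ideal.Quotient.mk n a) :=
    IsUnit.of_mul_eq_one (Ideal.Quotient.mk n u) (by
      rw [← map_mul, ← (Ideal.Quotient.mk n).map_one, Ideal.Quotient.eq]
      exact hu)
  have hk : a ^ k - 1 ∈ n := by
    rw [← Ideal.Quotient.eq, map_pow, map_one, ← hunit.unit_spec, ← Units.val_pow_eq_pow_val,
      pow_card_eq_one', Units.val_one]
  have ha0 : a ≠ 0 := fun h0 => intIdeal_ne_bot (Finsupp.single w (classNumber F))
    (by rw [ha, h0, Ideal.span_singleton_eq_bot])
  refine mem_principalVectors emb (pow_ne_zero k ha0) one_ne_zero hk (by simp) ?_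
  have e : (classNumber F * k) • Finsupp.single w (1 : ℤ)
      = castVec (k • Finsupp.single w (classNumber F)) := by
    rw [mul_comm, Finsupp.smul_single, Finsupp.smul_single, castVec,
      Finsupp.mapRange.addMonoidHom_apply, Finsupp.mapRange_single]
    simp
  rw [e, idealOf_castVec, show intIdeal (k • Finsupp.single w (classNumber F)) =
    Ideal.span {a ^ k} by
    rw [Finsupp.smul_single, intIdeal_single, smul_eq_mul, mul_comm, pow_mul, ← intIdeal_single,
      ha, Ideal.span_singleton_pow], FractionalIdeal.coeIdeal_span_singleton]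
  simp

/-- Every ray class contains a nonnegative vector. -/
theorem exists_castVec_eq (hn : n ≠ ⊥) (c : RayGroup emb n) :
    ∃ m : GoodPrime F n →₀ ℕ, (QuotientAddGroup.mk (castVec m) : RayGroup emb n) = c := by
  obtain ⟨h, hh, hmem⟩ := exists_pos_smul_single_mem emb hn
  obtain ⟨e, rfl⟩ := QuotientAddGroup.mk_surjective c
  induction e using Finsupp.induction with
  | zero => exact ⟨0, by rw [map_zero]⟩
  | single_add w z e _ _ ih =>
    obtain ⟨m, hm⟩ := ih
    refine ⟨Finsupp.single w (z % h).toNat + m, ?_⟩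
    rw [map_add, QuotientAddGroup.mk_add, hm, QuotientAddGroup.mk_add]
    congr 1
    rw [QuotientAddGroup.eq]
    have e1 : -castVec (Finsupp.single w (z % (h : ℤ)).toNat) + Finsupp.single w z
        = (z / (h : ℤ)) • (h • Finsupp.single w (1 : ℤ)) := by
      rw [castVec, Finsupp.mapRange.addMonoidHom_apply, Finsupp.mapRange_single,
        ← Finsupp.single_neg, ← Finsupp.single_add, Finsupp.smul_single, Finsupp.smul_single]
      congr 1
      have h1 := Int.emod_add_mul_ediv z h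
      have h2 := Int.toNat_of_nonneg (Int.emod_nonneg z (by omega : (h : ℤ) ≠ 0))
      simp only [Nat.coe_castAddMonoidHom, smul_eq_mul, nsmul_eq_mul, mul_one]
      rw [h2]
      linarith
    rw [e1]
    exact zsmul_mem (hmem w) _

/-- The ray class group is finite. -/
theorem finite_rayGroup (hn : n ≠ ⊥) : Finite (RayGroup emb n) := by
  classical
  have : Finite (𝓞 F ⧸ n) := Ideal.finiteQuotientOfFreeOfNeBot n hn
  set cls : (GoodPrime F n →₀ ℕ) → ClassGroup (𝓞 F) := fun m =>
    ClassGroup.mk0 ⟨intIdeal m, mem_nonZeroDivisors_of_ne_zero (intIdeal_ne_bot m)⟩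
  have hcls : ∀ m m', cls (m + m') = cls m * cls m' := fun m m' => by
    simp only [cls]
    rw [← map_mul]
    exact congrArg _ (Subtype.ext (intIdeal_add m m'))
  let comp : ClassGroup (𝓞 F) → (GoodPrime F n →₀ ℕ) := fun c =>
    if hc : ∃ m, cls m = c then (classNumber F - 1) • hc.choose else 0
  have hcomp : ∀ m, cls (m + comp (cls m)) = 1 := fun m => by
    have hc : ∃ m', cls m' = cls m := ⟨m, rfl⟩
    simp only [comp, dif_pos hc]
    have hp : ∀ j : ℕ, cls (j • hc.choose) = cls m ^ j := fun j => by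
      induction j with
      | zero =>
        simp only [zero_smul, pow_zero, cls]
        rw [show (⟨intIdeal 0, _⟩ : (Ideal (𝓞 F))⁰) = 1 from
          Subtype.ext (by simp [intIdeal]), map_one]
      | succ j ih => rw [succ_nsmul, hcls, ih, hc.choose_spec, pow_succ]
    rw [hcls, hp, ← pow_succ', Nat.sub_add_cancel (classNumber_pos F), classNumber, pow_card_eq_one]
  choose gen hgen using fun m => classGroup_intIdeal_eq_one (hcomp m)
  choose rep hrep using exists_castVec_eq emb hn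
  refine Finite.of_injective (fun c => (cls (rep c), Ideal.Quotient.mk n (gen (rep c))))
    fun c c' h => ?_
  rw [Prod.mk.injEq, Ideal.Quotient.eq] at h
  rw [← hrep c, ← hrep c']
  exact mk_eq_of_congr emb (hgen (rep c)) (by rw [h.1]; exact hgen (rep c')) h.2

variable (n)

/-- The character of ideals defined by a character of the ray class group. -/
def idealChar (χ : AddChar (RayGroup emb n) ℂ) (I : Ideal (𝓞 F)) : ℂ := by
  classical
  exact if h : ∃ m : GoodPrime F n →₀ ℕ, intIdeal m = I then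
    χ (QuotientAddGroup.mk (castVec h.choose)) else 0

variable {n}

theorem idealChar_intIdeal (χ : AddChar (RayGroup emb n) ℂ) (m : GoodPrime F n →₀ ℕ) :
    idealChar emb n χ (intIdeal m) = χ (QuotientAddGroup.mk (castVec m)) := by
  have h : ∃ m' : GoodPrime F n →₀ ℕ, intIdeal m' = intIdeal m := ⟨m, rfl⟩
  rw [idealChar, dif_pos h]
  congr 1
  rw [eq_comm, QuotientAddGroup.eq]
  refine mem_principalVectors emb one_ne_zero one_ne_zero (by simp) (by simp) ?_
  rw [map_add, map_neg, toMul_add, toMul_neg, Units.val_mul, Units.val_inv_eq_inv_val,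
    idealOf_castVec, idealOf_castVec, h.choose_spec,
    inv_mul_cancel₀ (FractionalIdeal.coeIdeal_ne_zero.mpr (intIdeal_ne_bot m))]
  simp

theorem exists_intIdeal_eq_iff (hn : n ≠ ⊤) (I : Ideal (𝓞 F)) :
    (∃ m : GoodPrime F n →₀ ℕ, intIdeal m = I) ↔ I ⊔ n = ⊤ := by
  refine ⟨fun ⟨m, hm⟩ => hm ▸ intIdeal_sup m, fun h => ?_⟩
  induction I using UniqueFactorizationMonoid.induction_on_prime with
  | h₁ => exact absurd (by simpa using h) hn
  | h₂ I hI => exact ⟨0, by rw [Ideal.isUnit_iff] at hI; simp [intIdeal, hI, Ideal.one_eq_top]⟩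
  | h₃ I P hI hP ih =>
    have hI' : I ⊔ n = ⊤ := top_le_iff.mp (h ▸ sup_le_sup_right Ideal.mul_le_right n)
    have hP' : P ⊔ n = ⊤ := top_le_iff.mp (h ▸ sup_le_sup_right Ideal.mul_le_left n)
    obtain ⟨m, rfl⟩ := ih hI'
    have hPn : ¬ P ∣ n := fun hd => by
      rw [sup_eq_left.mpr (Ideal.dvd_iff_le.mp hd)] at hP'
      exact (Ideal.isPrime_of_prime hP).ne_top hP'
    refine ⟨Finsupp.single ⟨⟨P, Ideal.isPrime_of_prime hP, hP.ne_zero⟩, hPn⟩ 1 + m, ?_⟩
    rw [intIdeal_add, intIdeal_single, pow_one]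

theorem idealChar_mul (hn : n ≠ ⊤) (χ : AddChar (RayGroup emb n) ℂ) (I J : Ideal (𝓞 F)) :
    idealChar emb n χ (I * J) = idealChar emb n χ I * idealChar emb n χ J := by
  by_cases h : I * J ⊔ n = ⊤
  · obtain ⟨m, rfl⟩ := (exists_intIdeal_eq_iff hn I).mpr
      (top_le_iff.mp (h ▸ sup_le_sup_right Ideal.mul_le_left n))
    obtain ⟨m', rfl⟩ := (exists_intIdeal_eq_iff hn J).mpr
      (top_le_iff.mp (h ▸ sup_le_sup_right Ideal.mul_le_right n))
    rw [← intIdeal_add, idealChar_intIdeal, idealChar_intIdeal, idealChar_intIdeal, map_add,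
      QuotientAddGroup.mk_add, AddChar.map_add_eq_mul]
  · have h' : ¬ (I ⊔ n = ⊤ ∧ J ⊔ n = ⊤) := fun ⟨h1, h2⟩ =>
      h ((Ideal.mul_sup_eq_of_coprime_left h1).trans h2)
    have h0 : idealChar emb n χ (I * J) = 0 := by
      rw [idealChar, dif_neg fun he => h ((exists_intIdeal_eq_iff hn _).mp he)]
    rw [h0, eq_comm, mul_eq_zero]
    by_cases hI : I ⊔ n = ⊤
    · right
      rw [idealChar, dif_neg fun he => h' ⟨hI, (exists_intIdeal_eq_iff hn _).mp he⟩]
    · left
      rw [idealChar, dif_neg fun he => hI ((exists_intIdeal_eq_iff hn _).mp he)]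

theorem idealChar_ne_zero (hn : n ≠ ⊤) (χ : AddChar (RayGroup emb n) ℂ) {I : Ideal (𝓞 F)}
    (hI : I ⊔ n = ⊤) : idealChar emb n χ I ≠ 0 := by
  obtain ⟨m, rfl⟩ := (exists_intIdeal_eq_iff hn I).mpr hI
  rw [idealChar_intIdeal]
  exact AddChar.val_isUnit χ _ |>.ne_zero

theorem idealChar_congr (hn : n ≠ ⊤) (χ : AddChar (RayGroup emb n) ℂ) {a b : 𝓞 F}
    (ha : Ideal.span {a} ⊔ n = ⊤) (hab : a - b ∈ n) :
    idealChar emb n χ (Ideal.span {a}) = idealChar emb n χ (Ideal.span {b}) := by
  have hb : Ideal.span {b} ⊔ n = ⊤ := by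
    refine eq_top_iff.2 (ha ▸ sup_le ?_ le_sup_right)
    rw [Ideal.span_singleton_le_iff_mem, show a = b + (a - b) by ring]
    exact Ideal.add_mem _ (Ideal.mem_sup_left (Ideal.mem_span_singleton_self b))
      (Ideal.mem_sup_right hab)
  obtain ⟨m, hm⟩ := (exists_intIdeal_eq_iff hn _).mpr ha
  obtain ⟨m', hm'⟩ := (exists_intIdeal_eq_iff hn _).mpr hb
  rw [← hm, ← hm', idealChar_intIdeal, idealChar_intIdeal,
    mk_eq_of_congr emb (k := 0) (by rw [add_zero, hm]) (by rw [add_zero, hm']) hab]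

theorem idealChar_prime (χ : AddChar (RayGroup emb n) ℂ) (w : GoodPrime F n) :
    idealChar emb n χ w.1.asIdeal = χ (QuotientAddGroup.mk (Finsupp.single w 1)) := by
  have h := idealChar_intIdeal emb χ (Finsupp.single w 1)
  rw [intIdeal_single, pow_one] at h
  rw [h]
  simp [castVec]

end Relations

end FLTAgent.LanglandsTunnell.Killing
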