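import Fermat.Agent.LanglandsTunnell.Killing.Vanishing
import Fermat.Agent.LanglandsTunnell.Killing.RayClass
import Fermat.Agent.LanglandsTunnell.Geom.Heights
import Fermat.Agent.LanglandsTunnell.Isolation.Galois

/-!
# Relations act trivially on constant terms

The torus quotient of a field gives killing data (`sameData`), and so does that of `M` seen from
`E` through the norm (`descData`). In both cases the constant term of an invariant function
respects the relations (`respects_same`, `respects_desc`).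
-/

set_option autoImplicit false

noncomputable section

open NumberField MeasureTheory Matrix Function
open scoped nonZeroDivisors

namespace FLTAgent.LanglandsTunnell.Killing

open FLTAgent.LanglandsTunnell.Geom (prod_norm_sq_emb nrm nrm_spanSingleton)

variable {F : Type} [Field F] [NumberField F] {ι : Type} [Fintype ι] {n : Ideal (𝓞 F)}

/-- The ideal of a vector with natural coefficients. -/
def primePow {X : Type} (p : X → Ideal (𝓞 F)) (k : X →₀ ℕ) : Ideal (𝓞 F) :=
  k.prod fun x j => p x ^ j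

omit [NumberField F] in
theorem primePow_single_add {X : Type} (p : X → Ideal (𝓞 F)) (x : X) (j : ℕ) (k : X →₀ ℕ) :
    primePow p (Finsupp.single x j + k) = p x ^ j * primePow p k := by
  rw [primePow, Finsupp.prod_add_index' (fun _ => pow_zero _) fun _ _ _ => pow_add _ _ _,
    Finsupp.prod_single_index (h := fun x j => p x ^ j) (pow_zero _)]
  rfl

theorem isUniformizerAt_pow {J : Ideal (𝓞 F)} {π : (AF F)ˣ} (h : IsUniformizerAt n J π) (j : ℕ) :
    IsUniformizerAt n (J ^ j) (π ^ j) := by
  induction j with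
  | zero => rw [pow_zero, pow_zero, Ideal.one_eq_top]; exact isUniformizerAt_one
  | succ j ih => rw [pow_succ, pow_succ]; exact ih.mul h

theorem isUniformizerAt_primePow {X : Type} {p : X → Ideal (𝓞 F)} {π : X → (AF F)ˣ}
    (h : ∀ x, IsUniformizerAt n (p x) (π x)) (k : X →₀ ℕ) :
    IsUniformizerAt n (primePow p k) (k.prod fun x j => π x ^ j) := by
  induction k using Finsupp.induction with
  | zero =>
    rw [primePow, Finsupp.prod_zero_index, Finsupp.prod_zero_index, Ideal.one_eq_top]
    exact isUniformizerAt_one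
  | single_add x j k _ _ ih =>
    rw [primePow_single_add, Finsupp.prod_add_index' (fun _ => pow_zero _) fun _ _ _ =>
      pow_add _ _ _,
      Finsupp.prod_single_index (h := fun x j => π x ^ j) (pow_zero _)]
    exact (isUniformizerAt_pow (h x) j).mul ih

/-- A field element as an idele. -/
def toIdele (α : Fˣ) : (AF F)ˣ := Units.map (toAF F : F →* AF F) α

/-- A nonzero integer as an element of the field. -/
def intUnit (a : 𝓞 F) (ha : a ≠ 0) : Fˣ :=
  Units.mk0 (a : F) (RingOfIntegers.coe_ne_zero_iff.mpr ha)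

theorem isUniformizerAt_span {a : 𝓞 F} (ha : a ≠ 0) (h1 : a - 1 ∈ n) :
    IsUniformizerAt n (Ideal.span {a}) (toIdele (intUnit a ha)) := by
  refine isUniformizerAt_iff.mpr ⟨a ⊗ₜ[ℤ] (1 : Zhat), intHom_tmul_one a, ?_, ?_⟩
  · have := tmul_one_mem_idealOH h1
    rwa [TensorProduct.sub_tmul, ← Algebra.TensorProduct.one_def] at this
  · rw [idealOH, Ideal.map_span, Set.image_singleton]
    rfl

theorem absNorm_eq_prod_sq (Φ : PlaceChoice F ι) (a : 𝓞 F) :
    (Ideal.absNorm (Ideal.span {a}) : ℝ) = (∏ i, ‖Φ.emb i (a : F)‖) ^ 2 := by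
  rw [← Finset.prod_pow, prod_norm_sq_emb, ← nrm_spanSingleton]
  simp [nrm, ← FractionalIdeal.coeIdeal_span_singleton, FractionalIdeal.coeIdeal_absNorm]

theorem posPart_sub_negPart {X : Type} (k : X →₀ ℤ) :
    (k.mapRange Int.toNat Int.toNat_zero).mapRange (fun j : ℕ => (j : ℤ)) Nat.cast_zero
      - ((-k).mapRange Int.toNat Int.toNat_zero).mapRange (fun j : ℕ => (j : ℤ)) Nat.cast_zero
      = k := by
  ext x
  simp

theorem eq_of_mul_eq_mul_mul {G : Type} [CommGroup G] {A B u pm pp : G}
    (h : A * pm = B * pp * u) : pp = A * B⁻¹ * u⁻¹ * pm := by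
  rw [mul_right_comm _ u⁻¹ pm, mul_right_comm A B⁻¹ pm, h, mul_comm B pp, mul_right_comm (pp * B) u,
    mul_inv_cancel_right, mul_inv_cancel_right]

namespace KillData

variable {X κ Q : Type} [AddCommGroup Q] [Fintype κ] (K : KillData n ι X κ Q)

theorem cast_prod_eq {M : Type} [CommGroup M] (g : X → M) (m : X →₀ ℕ) :
    (m.mapRange (fun j : ℕ => (j : ℤ)) Nat.cast_zero).prod (fun x z => g x ^ z)
      = m.prod fun x j => g x ^ j := by
  rw [Finsupp.prod_mapRange_index fun x => zpow_zero (g x)]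
  exact Finset.prod_congr rfl fun x _ => zpow_natCast _ _

omit [Fintype κ] in
theorem respects_of_relation {Φ : PlaceChoice F ι} {f : Pt F ι n → ℂ} (hf : InvCts Φ f)
    (hn : n ≠ ⊥) {k : X →₀ ℤ} {s : κ → ℝ} {a b : 𝓞 F} (ha : a ≠ 0) (hb : b ≠ 0)
    (ha1 : a - 1 ∈ n) (hb1 : b - 1 ∈ n)
    (hideal : Ideal.span {a} * primePow K.prime ((-k).mapRange Int.toNat Int.toNat_zero)
      = Ideal.span {b} * primePow K.prime (k.mapRange Int.toNat Int.toNat_zero))
    (hlog : ∀ i, K.L s i = Real.log ‖Φ.emb i ((a : F) / (b : F))‖) (v : FinPt F n) (ξ : ι → ℝ) :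
    K.moved (ctLog Φ f) v ξ k s = ctLog Φ f v ξ := by
  set kp := k.mapRange Int.toNat Int.toNat_zero with hkp
  set km := (-k).mapRange Int.toNat Int.toNat_zero with hkm
  have hk : k = kp.mapRange (fun j : ℕ => (j : ℤ)) Nat.cast_zero
      - km.mapRange (fun j : ℕ => (j : ℤ)) Nat.cast_zero := (posPart_sub_negPart k).symm
  -- the idele
  obtain ⟨u, hu, -, -, hu1, hu1'⟩ :=
    ((isUniformizerAt_span hb hb1).mul (isUniformizerAt_primePow K.isUnif kp)).exists_mul_eq
      (hideal ▸ (isUniformizerAt_span ha ha1).mul (isUniformizerAt_primePow K.isUnif km))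
  have hsplit : K.piPow k * (km.prod fun x j => K.unif x ^ j)
      = kp.prod fun x j => K.unif x ^ j := by
    rw [← cast_prod_eq K.unif km, ← cast_prod_eq K.unif kp]
    show K.piPow k * K.piPow _ = K.piPow _
    rw [← K.piPow_add, hk, sub_add_cancel]
  set α : Fˣ := intUnit a ha * (intUnit b hb)⁻¹ with hα
  have hpi : K.piPow k = toIdele α * u⁻¹ := by
    have h2 : toIdele α = toIdele (intUnit a ha) * (toIdele (intUnit b hb))⁻¹ := by
      rw [hα, toIdele, map_mul, map_inv]; rfl
    rw [h2, ← mul_left_inj (km.prod fun x j => K.unif x ^ j), hsplit]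
    exact eq_of_mul_eq_mul_mul (G := (AF F)ˣ) hu
  -- the scalar
  have hαval : (α : F) = (a : F) / (b : F) := by
    simp [hα, intUnit, div_eq_mul_inv]
  have hnorm : ∀ i, 0 < ‖Φ.emb i (a : F)‖ ∧ 0 < ‖Φ.emb i (b : F)‖ := fun i =>
    ⟨by simp [ha], by simp [hb]⟩
  have hscale : K.scale k s = 1 := by
    have hsum : Real.exp (-∑ i, K.L s i)
        = (∏ i, ‖Φ.emb i (b : F)‖) / ∏ i, ‖Φ.emb i (a : F)‖ := by
      rw [← Finset.sum_neg_distrib, Real.exp_sum, ← Finset.prod_div_distrib]
      refine Finset.prod_congr rfl fun i _ => ?_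
      rw [hlog, map_div₀, norm_div, Real.exp_neg, Real.exp_log (div_pos (hnorm i).1 (hnorm i).2),
        inv_div]
    set P : (X →₀ ℕ) → ℝ := fun m => m.prod fun x j => Real.sqrt (Ideal.absNorm (K.prime x)) ^ j
    have hPpos : ∀ m, 0 < P m := fun m =>
      Finset.prod_pos fun x _ => pow_pos (K.sqrt_absNorm_pos x) _
    have hP2 : ∀ m, P m ^ 2 = (Ideal.absNorm (primePow K.prime m) : ℝ) := fun m => by
      simp only [P, primePow, Finsupp.prod, map_prod, map_pow, Nat.cast_prod, Nat.cast_pow,
        ← Finset.prod_pow]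
      exact Finset.prod_congr rfl fun x _ => by
        rw [← pow_mul, mul_comm, pow_mul, Real.sq_sqrt (Nat.cast_nonneg _)]
    have hsq : ((∏ i, ‖Φ.emb i (a : F)‖) * P km) ^ 2 = ((∏ i, ‖Φ.emb i (b : F)‖) * P kp) ^ 2 := by
      rw [mul_pow, mul_pow, ← absNorm_eq_prod_sq, ← absNorm_eq_prod_sq, hP2, hP2, ← Nat.cast_mul,
        ← Nat.cast_mul, ← map_mul, ← map_mul, hideal]
    have hpa : 0 < ∏ i, ‖Φ.emb i (a : F)‖ := Finset.prod_pos fun i _ => (hnorm i).1
    have hpb : 0 < ∏ i, ‖Φ.emb i (b : F)‖ := Finset.prod_pos fun i _ => (hnorm i).2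
    have heq := (pow_left_inj₀ (mul_pos hpa (hPpos _)).le (mul_pos hpb (hPpos _)).le
      two_ne_zero).mp hsq
    have hq : ∀ m : X →₀ ℕ, (m.mapRange (fun j : ℕ => (j : ℤ)) Nat.cast_zero).prod
        (fun x z => Real.sqrt (Ideal.absNorm (K.prime x)) ^ z) = P m := fun m => by
      rw [Finsupp.prod_mapRange_index fun x => zpow_zero _]
      exact Finset.prod_congr rfl fun x _ => zpow_natCast _ _
    have hkq : (k.prod fun x z => Real.sqrt (Ideal.absNorm (K.prime x)) ^ z) * P km = P kp := by
      rw [← hq km, ← hq kp, ← Finsupp.prod_add_index' (fun x => zpow_zero _)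
        fun x => zpow_add₀ (K.sqrt_absNorm_pos x).ne', hk, sub_add_cancel]
    rw [scale, hsum, ← Complex.ofReal_mul, Complex.ofReal_eq_one, ← mul_div_assoc,
      div_eq_one_iff_eq hpa.ne']
    refine mul_right_cancel₀ (hPpos km).ne' ?_
    rw [mul_right_comm, hkq, heq, mul_comm]
  -- the move
  have hunit : diagUnit u⁻¹ ∈ principalSubgroup n :=
    diagUnit_mem_principalSubgroup hu1' (by rwa [inv_inv])
  rw [moved, hscale, one_mul, hpi, FLTAgent.LanglandsTunnell.diagUnit_mul, ← smul_smul]
  have hξ : ξ + K.L s = fun i => ξ i + Real.log ‖Φ.emb i (α : F)‖ := by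
    funext i
    rw [Pi.add_apply, hlog, hαval]
  rw [hξ, show toIdele α = Units.map (toAF F : F →* AF F) α from rfl, ctLog_diag hf hn]
  exact unip_invariant_diagUnit (c := fun u => ctLog Φ f u ξ)
    (fun b' w => ctLog_unip hf hn b' w ξ) hunit v

end KillData

/-! ### The data over the field itself -/

section Same

variable (Φ : PlaceChoice F ι) (m : Ideal (𝓞 F))

/-- A relation between exponent vectors and elements, on integral ideals. -/
theorem span_mul_intIdeal {e : GoodPrime F m →₀ ℤ} {a b : 𝓞 F} (hb : b ≠ 0)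
    (h : FractionalIdeal.spanSingleton (𝓞 F)⁰ ((a : F) / (b : F)) =
      ((Additive.toMul (idealOf m e) : (FractionalIdeal (𝓞 F)⁰ F)ˣ) :
        FractionalIdeal (𝓞 F)⁰ F)) :
    Ideal.span {a} * intIdeal ((-e).mapRange Int.toNat Int.toNat_zero)
      = Ideal.span {b} * intIdeal (e.mapRange Int.toNat Int.toNat_zero) := by
  refine FractionalIdeal.coeIdeal_injective (K := F) ?_
  simp only [FractionalIdeal.coeIdeal_mul, FractionalIdeal.coeIdeal_span_singleton,
    ← idealOf_castVec]
  have he : castVec (e.mapRange Int.toNat Int.toNat_zero)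
      = e + castVec ((-e).mapRange Int.toNat Int.toNat_zero) :=
    eq_add_of_sub_eq (posPart_sub_negPart e)
  rw [he, map_add, toMul_add, Units.val_mul, ← h, ← mul_assoc,
    FractionalIdeal.spanSingleton_mul_spanSingleton]
  congr 2
  have hb' : (b : F) ≠ 0 := RingOfIntegers.coe_ne_zero_iff.mpr hb
  field_simp

omit [Fintype ι] in
theorem zsum_primeClass (k : GoodPrime F m →₀ ℤ) :
    (k.sum fun w z => z • primeClass Φ.emb m w)
      = (QuotientAddGroup.mk (k, 0) : TorusQuot Φ.emb m) := by
  induction k using Finsupp.induction with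
  | zero => simp; rfl
  | single_add w z k _ _ ih =>
    rw [Finsupp.sum_add_index' (fun _ => zero_zsmul _) fun _ _ _ => add_zsmul _ _ _,
      Finsupp.sum_single_index (zero_zsmul _), ih, primeClass, ← QuotientAddGroup.mk_zsmul,
      ← QuotientAddGroup.mk_add, Prod.smul_mk, Finsupp.smul_single, smul_zero, Prod.mk_add_mk,
      add_zero, zsmul_one, Int.cast_id]

variable {m} (hmn : m ≤ n)

include hmn

theorem okPrime_of_good (w : GoodPrime F m) : OKPrime n w.1.asIdeal :=
  ⟨w.1.isPrime, w.1.ne_bot, fun h => w.2 (h.trans (Ideal.dvd_iff_le.mpr hmn))⟩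

theorem exists_unif (w : GoodPrime F m) : ∃ π, IsUniformizerAt n w.1.asIdeal π :=
  exists_isUniformizerAt_prime w.1.isPrime w.1.ne_bot (okPrime_of_good hmn w).2.2

/-- The data of the field. -/
def sameData : KillData n ι (GoodPrime F m) ι (TorusQuot Φ.emb m) where
  prime w := w.1.asIdeal
  ok := okPrime_of_good hmn
  unif w := (exists_unif hmn w).choose
  isUnif w := (exists_unif hmn w).choose_spec
  e := primeClass Φ.emb m
  S := shiftClass Φ.emb m
  L := ContinuousLinearMap.id ℝ _

theorem respects_same (hn : n ≠ ⊥) {f : Pt F ι n → ℂ} (hf : InvCts Φ f) :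
    (sameData Φ hmn).Respects (ctLog Φ f) := by
  intro k s h v ξ
  have hmem : (k, s) ∈ relSubgroup Φ.emb m := by
    refine (QuotientAddGroup.eq_zero_iff _).mp ?_
    rw [← h, KillData.img]
    show _ = _ + QuotientAddGroup.mk ((0 : GoodPrime F m →₀ ℤ), s)
    simp only [sameData, zsum_primeClass]
    rw [← QuotientAddGroup.mk_add, Prod.mk_add_mk, add_zero, zero_add]
  obtain ⟨a, b, ha, hb, ha1, hb1, hi, hl⟩ := hmem
  exact (sameData Φ hmn).respects_of_relation hf hn ha hb (hmn ha1) (hmn hb1)
    (span_mul_intIdeal m hb hi) (fun i => congrFun hl i) v ξ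

end Same

/-! ### The data of `E` seen from `M` -/

section Descend

open scoped FLTAgent.LanglandsTunnell.Isolation

variable {D : Datum} (P : ExtPlaces D) (N N' : ℕ)

/-- The primes of degree one prime to the modulus. -/
abbrev SplitPrime : Type :=
  {w : GoodPrime D.M (Ideal.span {((2 * N' : ℕ) : 𝓞 D.M)}) // D.DegreeOne w.1.asIdeal}

variable {N N'} (hNN' : N ∣ N') {n' : Ideal (𝓞 D.E)} (hn' : n' = Ideal.span {(N : 𝓞 D.E)})

include hNN' hn'

theorem okPrime_under (w : SplitPrime (D := D) N') : OKPrime n' (D.under w.1.1.asIdeal) := by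
  have := w.1.1.isPrime
  refine ⟨LanglandsTunnell.Isolation.under_isPrime D _,
    LanglandsTunnell.Isolation.under_ne_bot D w.1.1.ne_bot, fun h => ?_⟩
  refine LanglandsTunnell.Isolation.not_dvd_under D w.1.2 (h.trans ?_)
  rw [hn', Ideal.dvd_iff_le, Ideal.span_singleton_le_span_singleton]
  exact Nat.cast_dvd_cast (hNN'.mul_left 2)

theorem exists_unif_under (w : SplitPrime (D := D) N') :
    ∃ π, IsUniformizerAt n' (D.under w.1.1.asIdeal) π :=
  exists_isUniformizerAt_prime (okPrime_under hNN' hn' w).1 (okPrime_under hNN' hn' w).2.1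
    (okPrime_under hNN' hn' w).2.2

/-- The data of the descent. -/
def descData : KillData n' Unit (SplitPrime (D := D) N') (Fin 3)
    (TorusQuot P.placesM.emb (Ideal.span {((2 * N' : ℕ) : 𝓞 D.M)})) where
  prime w := D.under w.1.1.asIdeal
  ok := okPrime_under hNN' hn'
  unif w := (exists_unif_under hNN' hn' w).choose
  isUnif w := (exists_unif_under hNN' hn' w).choose_spec
  e w := primeClass P.placesM.emb _ w.1
  S := shiftClass P.placesM.emb _
  L := ContinuousLinearMap.pi fun _ => ∑ j, ContinuousLinearMap.proj j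

theorem descData_L (s : Fin 3 → ℝ) (i : Unit) : (descData P hNN' hn').L s i = ∑ j, s j := by
  simp [descData]

omit hNN' hn' in
theorem relNorm_degreeOne {w : Ideal (𝓞 D.M)} (hw : D.DegreeOne w) :
    Ideal.relNorm (𝓞 D.E) w = D.under w := by
  have := hw.1
  have := LanglandsTunnell.Isolation.under_isPrime D w
  have : w.LiesOver (D.under w) := ⟨rfl⟩
  exact LanglandsTunnell.CFT.relNorm_eq_of_absNorm_eq
    (LanglandsTunnell.Isolation.under_ne_bot D hw.2.1) hw.2.2

theorem respects_desc (hnb : n' ≠ ⊥) {f : Pt D.E Unit n' → ℂ}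
    (hf : InvCts P.placesE f) :
    (descData P hNN' hn').Respects (ctLog P.placesE f) := by
  classical
  intro k s h v ξ
  set m := Ideal.span {((2 * N' : ℕ) : 𝓞 D.M)} with hm
  set e : GoodPrime D.M m →₀ ℤ := k.embDomain ⟨Subtype.val, Subtype.val_injective⟩ with he
  have hmem : (e, s) ∈ relSubgroup P.placesM.emb m := by
    refine (QuotientAddGroup.eq_zero_iff _).mp ?_
    rw [← h, KillData.img]
    show _ = _ + QuotientAddGroup.mk ((0 : GoodPrime D.M m →₀ ℤ), s)
    have : (k.sum fun x z => z • (descData P hNN' hn').e x) =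
        (QuotientAddGroup.mk (e, 0) : TorusQuot P.placesM.emb m) := by
      rw [← zsum_primeClass, he, Finsupp.sum_embDomain]
      rfl
    rw [this, ← QuotientAddGroup.mk_add, Prod.mk_add_mk, add_zero, zero_add]
  obtain ⟨a, b, ha, hb, ha1, hb1, hi, hl⟩ := hmem
  have hnorm : ∀ {x : 𝓞 D.M}, x ≠ 0 → Algebra.intNorm (𝓞 D.E) (𝓞 D.M) x ≠ 0 := fun {x} hx => by
    intro h0
    have h1 := congrArg (algebraMap (𝓞 D.E) D.E) h0
    rw [Algebra.algebraMap_intNorm (L := D.M), map_zero, Algebra.norm_eq_zero_iff] at h1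
    exact hx (RingOfIntegers.coe_injective (h1.trans (map_zero _).symm))
  have hcong : ∀ {x : 𝓞 D.M}, x - 1 ∈ m → Algebra.intNorm (𝓞 D.E) (𝓞 D.M) x - 1 ∈ n' := by
    intro x hx
    have h1 := LanglandsTunnell.CFT.intNorm_sub_one_mem (K := D.E) (F := D.M)
      (c := ((2 * N' : ℕ) : 𝓞 D.E)) (a := x) (by rw [map_natCast]; exact hx)
    have hle : Ideal.span {((2 * N' : ℕ) : 𝓞 D.E)} ≤ n' := by
      rw [hn', Ideal.span_singleton_le_span_singleton]
      exact Nat.cast_dvd_cast (hNN'.mul_left 2)
    exact hle h1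
  refine (descData P hNN' hn').respects_of_relation hf hnb (hnorm ha) (hnorm hb) (hcong ha1)
    (hcong hb1) ?_ (fun i => ?_) v ξ
  · have h1 := congrArg (Ideal.relNorm (𝓞 D.E)) (span_mul_intIdeal m hb hi)
    simp only [map_mul, Ideal.relNorm_singleton] at h1
    have hp : ∀ j : SplitPrime (D := D) N' →₀ ℕ,
        Ideal.relNorm (𝓞 D.E) (intIdeal (j.embDomain ⟨Subtype.val, Subtype.val_injective⟩))
          = primePow (descData P hNN' hn').prime j := by
      intro j
      rw [intIdeal, Finsupp.prod_embDomain, map_finsuppProd]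
      refine Finset.prod_congr rfl fun x _ => ?_
      simp only [map_pow, Function.Embedding.coeFn_mk, relNorm_degreeOne x.2]
      rfl
    rw [← hp, ← hp, Finsupp.embDomain_mapRange, Finsupp.embDomain_mapRange]
    have hneg : (-k).embDomain ⟨Subtype.val, Subtype.val_injective⟩ = -e := by
      rw [he, Finsupp.embDomain_eq_mapDomain, Finsupp.embDomain_eq_mapDomain]
      exact map_neg (Finsupp.mapDomain.addMonoidHom _) k
    rw [hneg, ← he]
    exact h1
  · rw [descData_L P hNN' hn']
    have hb' : ∀ {x : 𝓞 D.M}, x ≠ 0 → Real.log ‖P.placesE.emb ()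
        (Algebra.intNorm (𝓞 D.E) (𝓞 D.M) x : D.E)‖
        = ∑ j, Real.log ‖P.placesM.emb j (x : D.M)‖ := by
      intro x hx
      have h1 := prod_norm_sq_emb P.placesE (Algebra.intNorm (𝓞 D.E) (𝓞 D.M) x : D.E)
      rw [RingOfIntegers.coe_eq_algebraMap (Algebra.intNorm (𝓞 D.E) (𝓞 D.M) x),
        Algebra.algebraMap_intNorm (L := D.M)] at h1 ⊢
      rw [Algebra.norm_norm, ← prod_norm_sq_emb P.placesM, Fintype.prod_unique, Finset.prod_pow,
        pow_left_inj₀ (norm_nonneg _) (Finset.prod_nonneg fun _ _ =>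
          norm_nonneg _) two_ne_zero] at h1
      rw [show (default : Unit) = () from rfl] at h1
      rw [h1, Real.log_prod fun j _ => by simp [hx]]
    rw [show i = () from rfl, map_div₀, norm_div,
      Real.log_div (by simpa using hnorm ha) (by simpa using hnorm hb), hb' ha, hb' hb,
      ← Finset.sum_sub_distrib]
    refine Finset.sum_congr rfl fun j _ => ?_
    refine (congrFun hl j).trans ?_
    show Real.log ‖_‖ = _
    rw [map_div₀, norm_div, Real.log_div (by simpa using ha) (by simpa using hb)]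

end Descend

end FLTAgent.LanglandsTunnell.Killing
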