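import Fermat.Agent.LanglandsTunnell.Killing.Vanishing

/-!
# The weights of the killing combination

`shiftW` has as Abel transforms the shifted averages of a base function, and `descW` is the
threefold convolution seen over the subfield; both act radially on functions of the heights
(`radial_shiftW`, `radial_descW`).
-/

set_option autoImplicit false

noncomputable section

open MeasureTheory Filter Function
open scoped Topology

namespace FLTAgent.LanglandsTunnell.Killing

open FLTAgent.LanglandsTunnell.Trace (continuous_h3conv hasCompactSupport_h3conv)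

variable {ι : Type} [Fintype ι]

/-- The weights with Abel transforms the shifted averages of a base. -/
def shiftW (G₀ : ℝ → ℝ) (σ : ι → ℝ) (i : ι) (c : ℝ) : ℂ :=
  (abelKernel (fun u => (G₀ (u - σ i) + G₀ (u + σ i)) / 2) c : ℂ)

omit [Fintype ι] in
theorem weightsOK_shiftW {G₀ : ℝ → ℝ} (h : IsBase G₀) (σ : ι → ℝ) : WeightsOK (shiftW G₀ σ) :=
  fun i => ⟨Complex.continuous_ofReal.comp (h.shiftAverage (σ i)).continuous_abelKernel,
    (h.shiftAverage (σ i)).hasCompactSupport_abelKernel.comp_left Complex.ofReal_zero⟩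

omit [Fintype ι] in
theorem shiftW_real (G₀ : ℝ → ℝ) (σ : ι → ℝ) (i : ι) (c : ℝ) :
    (starRingEnd ℂ) (shiftW G₀ σ i c) = shiftW G₀ σ i c :=
  Complex.conj_ofReal _

/-- The operator on a function of the heights, at any point. -/
theorem infOp_radial {k : ι → ℝ → ℝ} (hk : ∀ i, Continuous (k i))
    (hks : ∀ i, HasCompactSupport (k i)) {c : (ι → ℝ) → ℂ} (hc : Continuous c) (P : ι → H3) :
    infOp (fun i x => (k i x : ℂ)) (fun Q => c fun i => Real.log (Q i).t) P
      = ∫ s : ι → ℝ, (∏ i, ((Real.exp (-s i) * abel (k i) (s i) : ℝ) : ℂ))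
          * c ((fun i => Real.log (P i).t) + s) := by
  have hP : P = shiftPt (fun i => (P i).z) (axisPts fun i => Real.log (P i).t) := by
    funext i
    ext
    · simp [shiftPt, H3.shift, axisPts]
    · simp [shiftPt, H3.shift, axisPts, Real.exp_log (P i).t_pos]
  conv_lhs => rw [hP, infOp_shiftPt]
  exact integral_infKer_radial hk hks hc _

theorem radial_shiftW {G₀ : ℝ → ℝ} (h : IsBase G₀) (σ : ι → ℝ) :
    Radial (shiftW G₀ σ) (avgShift G₀ σ) (ContinuousLinearMap.id ℝ (ι → ℝ)) := by
  intro c hc ξ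
  refine (integral_infKer_radial (fun i => (h.shiftAverage (σ i)).continuous_abelKernel)
    (fun i => (h.shiftAverage (σ i)).hasCompactSupport_abelKernel) hc ξ).trans ?_
  refine integral_congr_ae (Eventually.of_forall fun s => ?_)
  simp only [(h.shiftAverage _).abel_abelKernel, ContinuousLinearMap.id_apply, avgShift]
  rw [← Finset.sum_neg_distrib, Real.exp_sum, Complex.ofReal_prod, ← Finset.prod_mul_distrib]
  congr 1
  exact Finset.prod_congr rfl fun i _ => by push_cast; ring

/-! ### Three invariants seen on one space -/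

/-- The threefold convolution. -/
def descW (g : Fin 3 → ℝ → ℂ) (_ : Unit) : ℝ → ℂ := h3conv (h3conv (g 0) (g 1)) (g 2)

theorem weightsOK_descW {g : Fin 3 → ℝ → ℂ} (hg : WeightsOK g) : WeightsOK (descW g) := fun _ =>
  ⟨continuous_h3conv (continuous_h3conv (hg 0).1 (hg 0).2 (hg 1).1)
      (hasCompactSupport_h3conv (hg 0).2 (hg 1).2) (hg 2).1,
    hasCompactSupport_h3conv (hasCompactSupport_h3conv (hg 0).2 (hg 1).2) (hg 2).2⟩

theorem infOp_congr {g g' : ι → ℝ → ℂ} (h : ∀ i c, 1 ≤ c → g i c = g' i c) (f : (ι → H3) → ℂ)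
    (P : ι → H3) : infOp g f P = infOp g' f P := by
  have e : ∀ Q, infKer g P Q = infKer g' P Q := fun Q =>
    Finset.prod_congr rfl fun i _ => h i _ (H3.one_le_coshDist _ _)
  simp only [infOp, e]

theorem infOp_descW {g : Fin 3 → ℝ → ℂ} (hg : WeightsOK g) {f : (Unit → H3) → ℂ}
    (hf : LocallyIntegrable f (volPi Unit)) (P : Unit → H3) :
    infOp (descW g) f P
      = infOp (fun _ => g 0) (infOp (fun _ => g 1) (infOp (fun _ => g 2) f)) P := by
  have hw : ∀ j, WeightsOK fun _ : Unit => g j := fun j _ => hg j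
  have h01 : WeightsOK fun _ : Unit => cconv (g 0) (g 1) := (hw 0).cconv (hw 1)
  rw [infOp_infOp (hw 0) (hw 1) (continuous_infOp (hw 2) hf).locallyIntegrable,
    infOp_infOp h01 (hw 2) hf]
  refine infOp_congr (fun i c hc => ?_) f P
  rw [cconv_eq _ _ hc, descW]
  exact congrFun (h3conv_congr (fun x hx => (cconv_eq _ _ hx).symm) fun x _ => rfl) c

/-- Unfolding an integral over a three-dimensional space. -/
theorem integral_fin_cons {n : ℕ} {Ψ : (Fin (n + 1) → ℝ) → ℂ} (hc : Continuous Ψ)
    (hs : HasCompactSupport Ψ) :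
    ∫ s : Fin (n + 1) → ℝ, Ψ s = ∫ a : ℝ, ∫ t : Fin n → ℝ, Ψ (Fin.cons a t) := by
  have e := volume_preserving_piFinSuccAbove (fun _ : Fin (n + 1) => ℝ) 0
  have he : ∀ p : ℝ × (Fin n → ℝ),
      (MeasurableEquiv.piFinSuccAbove (fun _ : Fin (n + 1) => ℝ) 0).symm p = Fin.cons p.1 p.2 :=
    fun p => by
      simp [MeasurableEquiv.piFinSuccAbove_symm_apply]
      rfl
  have hi : Integrable (fun p : ℝ × (Fin n → ℝ) => Ψ (Fin.cons p.1 p.2))
      ((volume : Measure ℝ).prod volume) := by
    have := (e.symm.integrable_comp_emb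
      (MeasurableEquiv.measurableEmbedding _)).mpr (hc.integrable_of_hasCompactSupport hs)
    simp only [Function.comp_def, he] at this
    exact this
  rw [← e.symm.integral_comp' Ψ, Measure.volume_eq_prod]
  simp only [he]
  exact integral_prod _ hi

theorem integral_unit (Ψ : (Unit → ℝ) → ℂ) :
    ∫ s : Unit → ℝ, Ψ s = ∫ a : ℝ, Ψ fun _ => a := by
  rw [← (volume_preserving_funUnique Unit ℝ).symm.integral_comp' Ψ]
  rfl

theorem integral_iterate3 {w : Fin 3 → ℝ → ℂ} (hw : ∀ j, Continuous (w j))
    (hws : ∀ j, HasCompactSupport (w j)) {h : ℝ → ℂ} (hh : Continuous h) :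
    ∫ a, w 0 a * ∫ b, w 1 b * ∫ c, w 2 c * h (a + b + c)
      = ∫ s : Fin 3 → ℝ, w 0 (s 0) * w 1 (s 1) * w 2 (s 2) * h (∑ j, s j) := by
  set Ψ : (Fin 3 → ℝ) → ℂ := fun s => w 0 (s 0) * w 1 (s 1) * w 2 (s 2) * h (∑ j, s j) with hΨ
  have hΨc : Continuous Ψ := by fun_prop
  have hΨs : HasCompactSupport Ψ := by
    refine HasCompactSupport.intro (K := Set.univ.pi fun j => tsupport (w j))
      (isCompact_univ_pi fun j => hws j) fun s hs => ?_
    rw [Set.mem_univ_pi, not_forall] at hs
    obtain ⟨j, hj⟩ := hs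
    have h0 := image_eq_zero_of_notMem_tsupport hj
    fin_cases j <;> simp [hΨ] <;> tauto
  rw [integral_fin_cons hΨc hΨs]
  refine integral_congr_ae (Eventually.of_forall fun a => ?_)
  beta_reduce
  have hcons : ∀ n, Continuous fun p : Fin n → ℝ => (Fin.cons a p : Fin (n + 1) → ℝ) := fun n =>
    continuous_const.finCons continuous_id
  have hs1 : HasCompactSupport fun p : Fin 2 → ℝ => Ψ (Fin.cons a p) := by
    refine HasCompactSupport.intro (K := (fun s => Fin.tail s) '' tsupport Ψ)
      (hΨs.image (by fun_prop)) fun p hp => ?_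
    by_contra hne
    exact hp ⟨Fin.cons a p, subset_tsupport _ hne, Fin.tail_cons _ _⟩
  rw [integral_fin_cons (Ψ := fun p : Fin 2 → ℝ => Ψ (Fin.cons a p)) (hΨc.comp (hcons 2)) hs1,
    ← integral_const_mul]
  refine integral_congr_ae (Eventually.of_forall fun b => ?_)
  beta_reduce
  have hs2 : HasCompactSupport fun p : Fin 1 → ℝ => Ψ (Fin.cons a (Fin.cons b p)) := by
    refine HasCompactSupport.intro (K := (fun s => Fin.tail (Fin.tail s)) '' tsupport Ψ)
      (hΨs.image (by fun_prop)) fun p hp => ?_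
    by_contra hne
    exact hp ⟨_, subset_tsupport _ hne, by simp⟩
  rw [integral_fin_cons (n := 0) (Ψ := fun p : Fin 1 → ℝ => Ψ (Fin.cons a (Fin.cons b p)))
    (hΨc.comp ((hcons 2).comp (continuous_const.finCons continuous_id))) hs2,
    ← integral_const_mul, ← integral_const_mul]
  refine integral_congr_ae (Eventually.of_forall fun c => ?_)
  beta_reduce
  rw [integral_unique]
  have h2 : ∀ d : Fin 0 → ℝ,
      (Fin.cons a (Fin.cons b (Fin.cons c d)) : Fin 3 → ℝ) 2 = c := fun _ => rfl
  simp [hΨ, Fin.sum_univ_three, Measure.real, volume_pi, h2]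
  ring

theorem radial_descW {G₀ : ℝ → ℝ} (h : IsBase G₀) (σ : Fin 3 → ℝ) :
    Radial (descW (shiftW G₀ σ)) (avgShift G₀ σ)
      (ContinuousLinearMap.pi fun _ : Unit => ∑ j : Fin 3, ContinuousLinearMap.proj j) := by
  intro c hc ξ
  set G : Fin 3 → ℝ → ℝ := fun j u => (G₀ (u - σ j) + G₀ (u + σ j)) / 2 with hG
  have hB : ∀ j, IsBase (G j) := fun j => h.shiftAverage (σ j)
  set w : Fin 3 → ℝ → ℂ := fun j u => ((Real.exp (-u) * G j u : ℝ) : ℂ) with hw
  have hwc : ∀ j, Continuous (w j) := fun j =>
    Complex.continuous_ofReal.comp ((Real.continuous_exp.comp continuous_neg).mul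
      (hB j).smooth.continuous)
  have hws : ∀ j, HasCompactSupport (w j) := fun j =>
    ((hB j).support.mul_left).comp_left Complex.ofReal_zero
  have step : ∀ (j : Fin 3) (d : (Unit → ℝ) → ℂ), Continuous d → ∀ P : Unit → H3,
      infOp (fun _ => shiftW G₀ σ j) (fun Q => d fun i => Real.log (Q i).t) P
        = ∫ a : ℝ, w j a * d ((fun i => Real.log (P i).t) + fun _ => a) := by
    intro j d hd P
    refine (infOp_radial (fun _ : Unit => (hB j).continuous_abelKernel)
      (fun _ => (hB j).hasCompactSupport_abelKernel) hd P).trans ?_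
    rw [integral_unit]
    simp only [(hB j).abel_abelKernel, Fintype.prod_unique, hw]
  have hcont : ∀ (j : Fin 3) (d : (Unit → ℝ) → ℂ), Continuous d →
      Continuous fun η : Unit → ℝ => ∫ a : ℝ, w j a * d (η + fun _ => a) := by
    intro j d hd
    refine (continuous_parametric_integral_of_continuous (μ := (volume : Measure ℝ))
      (f := fun (η : Unit → ℝ) a => w j a * d (η + fun _ => a)) ?_ (hws j)).congr fun η => ?_
    · exact ((hwc j).comp continuous_snd).mul
        (hd.comp (continuous_fst.add (continuous_pi fun _ => continuous_snd)))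
    · refine setIntegral_eq_integral_of_forall_compl_eq_zero fun a ha => ?_
      rw [image_eq_zero_of_notMem_tsupport ha, zero_mul]
  have hlog : Continuous fun Q : Unit → H3 => fun i => Real.log (Q i).t :=
    continuous_pi fun i => (H3.continuous_t.comp (continuous_apply i)).log
      fun Q => (Q i).t_pos.ne'
  have hcl : Continuous fun Q : Unit → H3 => c fun i => Real.log (Q i).t := hc.comp hlog
  rw [infOp_descW (weightsOK_shiftW h σ) hcl.locallyIntegrable]
  have e2 : infOp (fun _ => shiftW G₀ σ 2) (fun Q : Unit → H3 => c fun i => Real.log (Q i).t)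
      = fun Q => (fun η => ∫ a : ℝ, w 2 a * c (η + fun _ => a)) fun i => Real.log (Q i).t :=
    funext (step 2 c hc)
  rw [e2]
  set d1 := fun η : Unit → ℝ => ∫ a : ℝ, w 2 a * c (η + fun _ => a) with hd1
  have e1 : infOp (fun _ => shiftW G₀ σ 1) (fun Q : Unit → H3 => d1 fun i => Real.log (Q i).t)
      = fun Q => (fun η => ∫ a : ℝ, w 1 a * d1 (η + fun _ => a)) fun i => Real.log (Q i).t :=
    funext (step 1 d1 (hcont 2 c hc))
  rw [e1, step 0 _ (hcont 1 d1 (hcont 2 c hc))]
  have hax : (fun i => Real.log (axisPts ξ i).t) = ξ := funext fun i => Real.log_exp _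
  simp only [hax, hd1, add_assoc]
  have key := integral_iterate3 hwc hws (h := fun r : ℝ => c (ξ + fun _ => r))
    (hc.comp (continuous_const.add (continuous_pi fun _ => continuous_id)))
  refine Eq.trans ?_ (key.trans ?_)
  · simp only [add_assoc]
    rfl
  · refine integral_congr_ae (Eventually.of_forall fun s => ?_)
    simp only [ContinuousLinearMap.coe_pi', FunLike.coe_sum, Finset.sum_apply,
      ContinuousLinearMap.proj_apply]
    simp only [hw, hG, avgShift, Fin.prod_univ_three, Fin.sum_univ_three, Fintype.sum_unique,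
      neg_add, Real.exp_add]
    push_cast
    ring

end FLTAgent.LanglandsTunnell.Killing
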