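import Fermat.Agent.LanglandsTunnell.Killing.Symmetry
import Fermat.Agent.LanglandsTunnell.Killing.Relations
import Fermat.Agent.LanglandsTunnell.Killing.Weights
import Fermat.Agent.LanglandsTunnell.Killing.Eigen
import Fermat.Agent.LanglandsTunnell.Words

/-!
# The middle part of the killing combination

`KillData.coreComb` is the symmetrised list of terms of a formal combination; it maps invariant
functions to cuspidal ones (`KillData.isCuspidal_coreComb`). The file also computes its descent
from `M` to `E` (`map_descT_termsOf`) and the scalar by which the whole combination acts on an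
eigenform (`op_kill_eigen`). Used in `Assembly`.
-/

set_option autoImplicit false

noncomputable section

open NumberField Matrix MeasureTheory Filter Function
open scoped ComplexConjugate Topology

namespace FLTAgent.LanglandsTunnell.Killing

variable {F : Type} [Field F] [NumberField F] {ι : Type} [Fintype ι] {n : Ideal (𝓞 F)}

namespace KillData

variable {X X' κ Q : Type} [AddCommGroup Q] [Fintype κ] (K : KillData n ι X κ Q)

/-- The data on some of the indices. -/
def restrict (j : X' ↪ X) : KillData n ι X' κ Q where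
  prime x := K.prime (j x)
  ok x := K.ok (j x)
  unif x := K.unif (j x)
  isUnif x := K.isUnif (j x)
  e x := K.e (j x)
  S := K.S
  L := K.L

omit [Fintype κ] in
theorem Respects.restrict {c : FinPt F n → (ι → ℝ) → ℂ} (hc : K.Respects c) (j : X' ↪ X) :
    (K.restrict j).Respects c := by
  intro k s h v ξ
  have h1 : K.img (k.embDomain j) s = (K.restrict j).img k s := by
    simp only [img, Finsupp.sum_embDomain]
    rfl
  have h2 : K.scale (k.embDomain j) s = (K.restrict j).scale k s := by
    simp only [scale, Finsupp.prod_embDomain]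
    rfl
  have h3 : K.piPow (k.embDomain j) = (K.restrict j).piPow k := by
    simp only [piPow, Finsupp.prod_embDomain]
    rfl
  have h0 := hc (k.embDomain j) s (h1.trans h) v ξ
  simpa only [moved, h2, h3, KillData.restrict] using h0

variable [DecidableEq κ]

/-- The middle part. -/
def coreComb (A : Formal X κ) (G : (X →₀ ℕ) × (κ → ℝ) → ι → ℝ → ℂ) : Comb F ι :=
  symm2 (K.termsOf A G fun m => wordOf m.1)

omit [Fintype κ] in
theorem revComb_termsOf (A : Formal X κ) (G : (X →₀ ℕ) × (κ → ℝ) → ι → ℝ → ℂ)
    (w : (X →₀ ℕ) × (κ → ℝ) → List X) :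
    revComb (K.termsOf A G w) = K.termsOf A G fun m => (w m).reverse := by
  rw [revComb, termsOf, termsOf, List.map_map]
  refine List.map_congr_left fun m _ => ?_
  simp only [Function.comp_apply, List.map_reverse, K.wordScale_perm (List.reverse_perm (w m))]

omit [Fintype κ] in
theorem fine_coreComb (A : Formal X κ) {G : (X →₀ ℕ) × (κ → ℝ) → ι → ℝ → ℂ}
    (hG : ∀ m, WeightsOK (G m)) : Fine n (K.coreComb A G) := (K.fine_termsOf A hG _).symm2

omit [Fintype κ] [DecidableEq κ] in
theorem conj_wordScale (l : List X) : conj (K.wordScale l) = K.wordScale l := by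
  rw [wordScale, map_list_prod, List.map_map]
  refine congrArg List.prod (List.map_congr_left fun x _ => ?_)
  exact Complex.conj_ofReal _

omit [Fintype κ] in
theorem isReal_termsOf {A : Formal X κ} (hA : ∀ m, (A.coeff m).im = 0)
    {G : (X →₀ ℕ) × (κ → ℝ) → ι → ℝ → ℂ} (hG : ∀ m i c, conj (G m i c) = G m i c)
    (w : (X →₀ ℕ) × (κ → ℝ) → List X) : IsReal (K.termsOf A G w) := by
  intro T hT
  obtain ⟨m, -, rfl⟩ := List.mem_map.mp hT
  refine ⟨?_, hG m⟩
  rw [map_mul, map_inv₀, conj_wordScale, Complex.conj_eq_iff_im.mpr (hA m)]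

/-- The middle part makes invariant functions cuspidal. -/
theorem isCuspidal_coreComb (hn : n ≠ ⊥) {Φ : PlaceChoice F ι}
    (hres : ∀ f : Pt F ι n → ℂ, InvCts Φ f → K.Respects (ctLog Φ f)) {A : Formal X κ}
    (himg : image K.e K.S A = 0) (hflip : ∀ ε, flipAlg ε A = A) {G₀ : ℝ → ℝ} (hG₀ : Continuous G₀)
    (hG₀s : HasCompactSupport G₀) {G : (X →₀ ℕ) × (κ → ℝ) → ι → ℝ → ℂ}
    (hG : ∀ m, WeightsOK (G m)) (hrad : ∀ m, Radial (G m) (avgShift G₀ m.2) K.L)
    (f : Pt F ι n → ℂ) (hf : InvCts Φ f) :
    IsCuspidal Φ (Kernel.op ((K.coreComb A G).kernel n) f) := by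
  have h1 := K.isCuspidal_termsOf hn hf (hres f hf) himg hflip hG₀ hG₀s hG hrad
    (fun m => wordOf m.1) fun m => List.Perm.refl _
  have h2 := K.isCuspidal_termsOf hn hf (hres f hf) himg hflip hG₀ hG₀s hG hrad
    (fun m => (wordOf m.1).reverse) fun m => List.reverse_perm _
  rw [← revComb_termsOf] at h2
  have hC := K.fine_termsOf A hG fun m => wordOf m.1
  have hloc := LocI.of_continuous hf.continuous
  rw [isCuspidal_iff] at h1 h2 ⊢
  intro v P m hm hfix
  have hc : ∀ C : Comb F ι, Fine n C → IntegrableOn
      (fun s => Kernel.op (C.kernel n) f (v, shiftPt (latVec Φ m s) P) / 2)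
      (Set.univ.pi fun _ : FLTAgent.LanglandsTunnell.Geom.BIdx F => Set.Icc (0 : ℝ) 1) volume :=
    fun C hC => (((continuous_op hn hC hloc v).comp (continuous_shiftPt.comp
      ((continuous_latVec Φ m).prodMk continuous_const))).div_const
        2).continuousOn.integrableOn_compact
      (isCompact_univ_pi fun _ => isCompact_Icc)
  have e1 := h1 v P m hm hfix
  have e2 := h2 v P m hm hfix
  rw [ctMean, boxMean] at e1 e2 ⊢
  simp only [coreComb, op_symm2 hn hC hloc, add_div]
  rw [integral_add (hc _ hC) (hc _ hC.revComb), integral_div, integral_div, e1, e2]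
  simp

end KillData

/-! ### The descent of a combination of degree one words -/

variable {D : Datum}

/-- The descent of one term with a word of primes of degree one. -/
def descT (T : Term D.M (Fin 3)) : Term D.E Unit := ⟨T.coeff, T.word.map D.under, descW T.inf⟩

theorem descComb_eq_map {C : Comb D.M (Fin 3)} (h : ∀ T ∈ C, ∀ w ∈ T.word, D.DegreeOne w) :
    D.descComb C = C.map descT := by
  induction C with
  | nil => rfl
  | cons T C ih =>
    have e : D.descComb (T :: C) = (D.descWord T.word).map (fun a =>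
        (⟨T.coeff * a.1, a.2, descW T.inf⟩ : Term D.E Unit)) ++ D.descComb C := rfl
    rw [e, descWord_degreeOne (h T List.mem_cons_self),
      ih fun T' hT' => h T' (List.mem_cons_of_mem _ hT')]
    simp [descT]

theorem map_descT_symm2 (C : Comb D.M (Fin 3)) : (symm2 C).map descT = symm2 (C.map descT) := by
  simp only [symm2, List.map_flatMap, List.flatMap_map]
  refine List.flatMap_congr fun T _ => ?_
  simp [descT, List.map_reverse]

theorem map_descT_termsOf {n : Ideal (𝓞 D.M)} {n' : Ideal (𝓞 D.E)} {X κ Q Q' : Type}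
    [AddCommGroup Q] [AddCommGroup Q'] [Fintype κ] [DecidableEq κ]
    (K : KillData n (Fin 3) X κ Q) (K' : KillData n' Unit X κ Q')
    (hp : ∀ x, K'.prime x = D.under (K.prime x))
    (hN : ∀ x, Ideal.absNorm (K'.prime x) = Ideal.absNorm (K.prime x))
    (A : Formal X κ) (G : (X →₀ ℕ) × (κ → ℝ) → Fin 3 → ℝ → ℂ)
    (w : (X →₀ ℕ) × (κ → ℝ) → List X) :
    (K.termsOf A G w).map descT = K'.termsOf A (fun m => descW (G m)) w := by
  rw [KillData.termsOf, KillData.termsOf, List.map_map]
  refine List.map_congr_left fun m _ => ?_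
  simp only [Function.comp_apply, descT, List.map_map]
  congr 1
  · simp only [KillData.wordScale, hN]
  · exact List.map_congr_left fun x _ => (hp x).symm

theorem descComb_outer {β : ℝ → ℂ} (hc : Continuous β) (hs : HasCompactSupport β) :
    D.descComb (outer D.M (Fin 3) β 2) = outer D.E Unit β 8 := by
  rw [descComb_eq_map (fun T hT w hw => by
    rw [outer, List.mem_singleton] at hT; subst hT; exact absurd hw List.not_mem_nil)]
  have e : descW (fun _ : Fin 3 => pw β 2) = fun _ => pw β 8 := funext fun _ => by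
    show h3conv (h3conv (pw β 2) (pw β 2)) (pw β 2) = _
    rw [h3conv_pw hc hs, h3conv_pw hc hs]
  simp only [outer, List.map_cons, List.map_nil, descT, e]

/-! ### Eigenvalues -/

section Eigen

variable {N : ℕ} {Φ : PlaceChoice F (Fin N)} {φ : Pt F (Fin N) n → ℂ} {a : Ideal (𝓞 F) → ℂ}
  {X Q : Type} [AddCommGroup Q]

theorem op_termsOf_eigen (h : IsEigenform Φ φ a) (hn : n ≠ ⊥) (K : KillData n (Fin N) X (Fin N) Q)
    (A : Formal X (Fin N)) {G₀ : ℝ → ℝ} (hG : IsBase G₀)
    (w : (X →₀ ℕ) × (Fin N → ℝ) → List X) (hw : ∀ m, (w m).Perm (wordOf m.1))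
    (x : Pt F (Fin N) n) :
    Kernel.op ((K.termsOf A (fun m => shiftW G₀ m.2) w).kernel n) φ x
      = (((∫ u, G₀ u : ℝ) : ℂ) ^ N * evalAlg (fun y => a (K.prime y)) A) * φ x := by
  have hreal : ∀ T ∈ K.termsOf A (fun m => shiftW G₀ m.2) w, ∀ i,
      T.inf i = fun c => ((T.inf i c).re : ℂ) := by
    intro T hT i
    obtain ⟨m, -, rfl⟩ := List.mem_map.mp hT
    funext c
    exact (Complex.conj_eq_iff_re.mp (shiftW_real _ _ _ _)).symm
  rw [op_eigen h hn (K.fine_termsOf A (fun m => weightsOK_shiftW hG m.2) w)
    (fun T i c => (T.inf i c).re) hreal x]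
  congr 1
  rw [← sum_prod_wordOf, Finset.mul_sum, KillData.termsOf, List.map_map, Finset.sum_map_toList]
  refine Finset.sum_congr rfl fun m _ => ?_
  have hsph : ∀ i, sphValue (fun c => (shiftW G₀ m.2 i c).re) = ∫ u, G₀ u := fun i => by
    simp only [shiftW, Complex.ofReal_re]
    rw [(hG.shiftAverage (m.2 i)).sphValue_abelKernel]
    have hi := hG.smooth.continuous.integrable_of_hasCompactSupport (μ := volume) hG.support
    rw [integral_div, integral_add (hi.comp_sub_right _) (hi.comp_add_right _),
      integral_sub_right_eq_self, integral_add_right_eq_self]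
    ring
  have hwe : wordEigen a ((w m).map K.prime)
      = K.wordScale (w m) * ((wordOf m.1).map fun y => a (K.prime y)).prod := by
    rw [← ((hw m).map fun y => a (K.prime y)).prod_eq, wordEigen, List.map_map,
      KillData.wordScale, ← List.prod_map_mul]
    rfl
  simp only [Function.comp_apply, hsph, Finset.prod_const, Finset.card_univ, Fintype.card_fin, hwe]
  have := K.wordScale_ne_zero (w m)
  field_simp

theorem op_coreComb_eigen (h : IsEigenform Φ φ a) (hn : n ≠ ⊥)
    (K : KillData n (Fin N) X (Fin N) Q) (A : Formal X (Fin N)) {G₀ : ℝ → ℝ} (hG : IsBase G₀)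
    (x : Pt F (Fin N) n) :
    Kernel.op ((K.coreComb A fun m => shiftW G₀ m.2).kernel n) φ x
      = (((∫ u, G₀ u : ℝ) : ℂ) ^ N * evalAlg (fun y => a (K.prime y)) A) * φ x := by
  rw [KillData.coreComb, op_symm2 hn (K.fine_termsOf A (fun m => weightsOK_shiftW hG m.2) _)
    (LocI.of_continuous h.automorphic.continuous), K.revComb_termsOf,
    op_termsOf_eigen h hn K A hG _ (fun _ => List.Perm.refl _) x,
    op_termsOf_eigen h hn K A hG _ (fun _ => List.reverse_perm _) x]
  ring

omit [NumberField F] in
theorem op_const_mul (κ : Kernel F (Fin N) n) (l : ℂ) (f : Pt F (Fin N) n → ℂ) :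
    Kernel.op κ (fun y => l * f y) = fun x => l * Kernel.op κ f x := by
  funext x
  simp only [Kernel.op, ← integral_const_mul]
  exact integral_congr_ae (Eventually.of_forall fun y => by ring)

theorem op_outer_eigen (h : IsEigenform Φ φ a) (hn : n ≠ ⊥) {b : ℝ → ℝ} (hb : Continuous b)
    (hbs : HasCompactSupport b) (k : ℕ) :
    Kernel.op ((outer F (Fin N) (fun c => (b c : ℂ)) k).kernel n) φ
      = fun x => ((sphValue b : ℂ) ^ N) ^ (k + 1) * φ x := by
  have hc : Continuous fun c => (b c : ℂ) := Complex.continuous_ofReal.comp hb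
  have hs : HasCompactSupport fun c => (b c : ℂ) := hbs.comp_left Complex.ofReal_zero
  have hloc := LocI.of_continuous h.automorphic.continuous
  rw [show Kernel.op ((outer F (Fin N) (fun c => (b c : ℂ)) k).kernel n) φ = infApply _ φ from
    op_single hn (fun _ => pw_ok hc hs k) hloc, infApply_pw hc hs hn k φ hloc]
  have hit : ∀ j : ℕ, (infApply fun (_ : Fin N) (c : ℝ) => (b c : ℂ))^[j] φ
      = fun x => ((sphValue b : ℂ) ^ N) ^ j * φ x := by
    intro j
    induction j with
    | zero => simp
    | succ j ih =>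
      rw [Function.iterate_succ_apply', ih]
      funext x
      have he := infApply_eigen h (fun _ => b) (fun _ => hb) (fun _ => hbs) x
      rw [Finset.prod_const, Finset.card_univ, Fintype.card_fin] at he
      calc infApply (fun _ c => (b c : ℂ)) (fun y => ((sphValue b : ℂ) ^ N) ^ j * φ y) x
          = ((sphValue b : ℂ) ^ N) ^ j * infApply (fun _ c => (b c : ℂ)) φ x := by
            simp only [infApply, infOp, ← integral_const_mul]
            exact integral_congr_ae (Eventually.of_forall fun y => by ring)
        _ = _ := by rw [he]; ring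
  exact hit (k + 1)

theorem op_kill_eigen (h : IsEigenform Φ φ a) (hn : n ≠ ⊥) {b : ℝ → ℝ} (hb : Continuous b)
    (hbs : HasCompactSupport b) (k : ℕ) {core : Comb F (Fin N)} (hcore : Fine n core) {l : ℂ}
    (hl : ∀ x, Kernel.op (core.kernel n) φ x = l * φ x) (x : Pt F (Fin N) n) :
    Kernel.op ((kill core (fun c => (b c : ℂ)) k).kernel n) φ x
      = (((sphValue b : ℂ) ^ N) ^ (k + 1)) ^ 2 * l * φ x := by
  have hO : Fine n (outer F (Fin N) (fun c => (b c : ℂ)) k : Comb F (Fin N)) :=
    fine_single fun _ => pw_ok (Complex.continuous_ofReal.comp hb)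
      (hbs.comp_left Complex.ofReal_zero) k
  have hloc := LocI.of_continuous h.automorphic.continuous
  rw [kill, op_mul hn hO (hcore.mul hO) hloc, op_mul hn hcore hO hloc, op_outer_eigen h hn hb hbs k,
    op_const_mul, funext hl, op_const_mul, op_const_mul, op_outer_eigen h hn hb hbs k]
  ring

end Eigen

end FLTAgent.LanglandsTunnell.Killing
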