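import Fermat.Agent.LanglandsTunnell.Geom.Domain
import Fermat.Agent.LanglandsTunnell.Trace.H3Compact

/-!
# Counting rational motions near a cusp

`exists_card_moves`: at a point with heights bounded below, the rational motions which carry some
nearby point back near it number at most a constant times the square of the product of the
heights. The proof puts lattice entries in half-integral cells. Used for the growth bound.
-/

set_option autoImplicit false

noncomputable section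

open NumberField Matrix MeasureTheory
open scoped nonZeroDivisors

namespace FLTAgent.LanglandsTunnell.Killing

open FLTAgent.LanglandsTunnell.Geom

variable {F : Type} [Field F] [NumberField F] {ι : Type} [Fintype ι] {n : Ideal (𝓞 F)}

/-! ### Boxes in the lattice of integers -/

/-- The half-integral cell of a complex number. -/
def cell (x : ℂ) : ℤ × ℤ := (⌊2 * x.re⌋, ⌊2 * x.im⌋)

theorem norm_sub_lt_one {x y : ℂ} (h : cell x = cell y) : ‖x - y‖ < 1 := by
  rw [cell, cell, Prod.mk.injEq] at h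
  have h1 := Int.abs_sub_lt_one_of_floor_eq_floor h.1
  have h2 := Int.abs_sub_lt_one_of_floor_eq_floor h.2
  rw [abs_lt] at h1 h2
  rw [← sq_lt_one_iff₀ (norm_nonneg _), ← Complex.normSq_eq_norm_sq, Complex.normSq_apply,
    Complex.sub_re, Complex.sub_im]
  nlinarith

/-- Integers in the same cells around given centres agree. -/
theorem eq_of_cells (Φ : PlaceChoice F ι) {a b : 𝓞 F} (w : ι → ℂ)
    (h : ∀ i, cell (Φ.emb i (a : F) + w i) = cell (Φ.emb i (b : F) + w i)) : a = b := by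
  by_contra hne
  have h0 : a - b ≠ 0 := sub_ne_zero.mpr hne
  have h1 : (1 : ℝ) ≤ |(Algebra.norm ℚ ((a - b : 𝓞 F) : F) : ℝ)| := by
    rw [← Algebra.coe_norm_int, Rat.cast_intCast]
    exact_mod_cast Int.one_le_abs (Algebra.norm_ne_zero_iff.mpr h0)
  rw [← prod_norm_sq_emb Φ] at h1
  have hι : Nonempty ι := (placeEquiv Φ).symm.nonempty_congr.mp inferInstance
  refine absurd h1 (not_le.mpr ?_)
  have hlt : ∀ i, ‖Φ.emb i ((a - b : 𝓞 F) : F)‖ ^ 2 < 1 := fun i => by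
    refine (sq_lt_one_iff₀ (norm_nonneg _)).mpr ?_
    simpa [map_sub, add_sub_add_right_eq_sub] using norm_sub_lt_one (h i)
  obtain ⟨i₀⟩ := hι
  classical
  rw [← Finset.mul_prod_erase _ _ (Finset.mem_univ i₀)]
  exact mul_lt_one_of_nonneg_of_lt_one_left (sq_nonneg _) (hlt i₀)
    (Finset.prod_le_one (fun i _ => sq_nonneg _) fun i _ => (hlt i).le)

/-- The cells meeting a disc. -/
def cellBox (K : ℝ) : Finset (ℤ × ℤ) :=
  Finset.Icc (-(⌊2 * K⌋ + 1)) (⌊2 * K⌋ + 1) ×ˢ Finset.Icc (-(⌊2 * K⌋ + 1)) (⌊2 * K⌋ + 1)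

theorem cell_mem_cellBox {x : ℂ} {K : ℝ} (h : ‖x‖ ≤ K) : cell x ∈ cellBox K := by
  have key : ∀ r : ℝ, |r| ≤ ‖x‖ → ⌊2 * r⌋ ∈ Finset.Icc (-(⌊2 * K⌋ + 1)) (⌊2 * K⌋ + 1) := by
    intro r hr
    have hr' := abs_le.mp (hr.trans h)
    rw [Finset.mem_Icc]
    refine ⟨?_, le_trans (Int.floor_le_floor (show 2 * r ≤ 2 * K by linarith [hr'.2])) (by omega)⟩
    rw [Int.le_floor]
    push_cast
    linarith [Int.lt_floor_add_one (2 * K), hr'.1]
  exact Finset.mem_product.mpr ⟨key _ (Complex.abs_re_le_norm x), key _ (Complex.abs_im_le_norm x)⟩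

theorem card_cellBox_le {K : ℝ} (hK : 0 ≤ K) : ((cellBox K).card : ℝ) ≤ (4 * K + 3) ^ 2 := by
  have h0 : 0 ≤ ⌊2 * K⌋ := Int.floor_nonneg.mpr (by linarith)
  have h1 : ((Finset.Icc (-(⌊2 * K⌋ + 1)) (⌊2 * K⌋ + 1)).card : ℝ) ≤ 4 * K + 3 := by
    rw [Int.card_Icc, show ((⌊2 * K⌋ + 1 + 1 - -(⌊2 * K⌋ + 1)).toNat : ℝ)
      = ((2 * ⌊2 * K⌋ + 3 : ℤ) : ℝ) by
        rw [← Int.cast_natCast, Int.toNat_of_nonneg (by omega)]; push_cast; ring]
    push_cast
    linarith [Int.floor_le (2 * K)]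
  rw [cellBox, Finset.card_product, Nat.cast_mul, sq]
  exact mul_le_mul h1 h1 (Nat.cast_nonneg _) (by linarith)

/-! ### The bound on the entries and the count -/

/-- A motion keeping a neighbourhood of `P` nearby, seen from `P`. -/
theorem exists_entry_bound (R D : ℝ) : ∃ M : ℝ, 0 ≤ M ∧ ∀ (γ : GL (Fin 2) ℂ) (P Q : H3),
    H3.coshDist P Q ≤ R → H3.coshDist P (γ • Q) ≤ R → ‖γ.val.det‖ ≤ D →
      ‖γ.val 0 0 - P.z * γ.val 1 0‖ ≤ M ∧ ‖γ.val 1 0 * P.z + γ.val 1 1‖ ≤ M ∧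
      ‖γ.val 1 0‖ ≤ M / P.t ∧
      ‖γ.val 0 0 * P.z + γ.val 0 1 - P.z * (γ.val 1 0 * P.z + γ.val 1 1)‖ ≤ M * P.t := by
  obtain ⟨A, hA0, hA⟩ := exists_qform_bounds (LanglandsTunnell.Trace.isCompact_ball H3.base R)
  refine ⟨√(A * (|D| * A)), Real.sqrt_nonneg _, fun γ P Q hQ hγQ hD => ?_⟩
  have htne : (P.t : ℂ) ≠ 0 := Complex.ofReal_ne_zero.mpr P.t_pos.ne'
  set g : GL (Fin 2) ℂ := affineGL (Units.mk0 (P.t : ℂ) htne) P.z with hg
  have hgb : g • H3.base = P := by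
    refine H3.ext ?_ ?_
    · rw [hg, affineGL_smul_z]; simp [H3.base]
    · rw [hg, affineGL_smul_t]; simp [H3.base, abs_of_pos P.t_pos]
  set δ := g⁻¹ * γ * g with hδ
  have hball : ∀ Z : H3, H3.coshDist P Z ≤ R → H3.coshDist H3.base (g⁻¹ • Z) ≤ R := fun Z hZ => by
    rw [← H3.coshDist_smul g, smul_inv_smul, hgb]; exact hZ
  have hQ0 := hball Q hQ
  have hQ1 : H3.coshDist H3.base (δ • (g⁻¹ • Q)) ≤ R := by
    rw [hδ, mul_smul, mul_smul, smul_inv_smul]; exact hball _ hγQ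
  have hdet : δ.val.det = γ.val.det := by
    rw [hδ, Units.val_mul, Units.val_mul, Matrix.det_mul, Matrix.det_mul, mul_right_comm,
      ← Matrix.det_mul, ← Units.val_mul, inv_mul_cancel, Units.val_one, Matrix.det_one, one_mul]
  have hent : ∀ a b, ‖δ.val a b‖ ≤ √(A * (|D| * A)) := fun a b => by
    refine Real.le_sqrt_of_sq_le ?_
    have h1 := H3.qform_smul δ (g⁻¹ • Q) (Pi.single b 1)
    rw [Matrix.mulVec_single_one] at h1
    have h2 := ((hA _ hQ1) fun a => δ.val a b).2 a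
    change _ ≤ A * (δ • g⁻¹ • Q).qform (fun a => δ.val a b) at h2
    change (δ • g⁻¹ • Q).qform (fun a => δ.val a b) = _ at h1
    rw [h1, hdet] at h2
    refine h2.trans ?_
    have h3 := ((hA _ hQ0) (Pi.single b (1 : ℂ))).1
    have h4 : ‖(Pi.single b (1 : ℂ) : Fin 2 → ℂ) 0‖ ^ 2 + ‖(Pi.single b (1 : ℂ) : Fin 2 → ℂ) 1‖ ^ 2
        = 1 := by fin_cases b <;> simp
    rw [h4, mul_one] at h3
    exact mul_le_mul_of_nonneg_left (mul_le_mul (hD.trans (le_abs_self D)) h3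
      (H3.qform_nonneg _ _) (abs_nonneg D)) hA0
  have e00 : δ.val 0 0 = γ.val 0 0 - P.z * γ.val 1 0 := by
    simp [hδ, hg, affineGL, Matrix.mul_apply, Matrix.vecMul, dotProduct, Fin.sum_univ_two]
    field_simp
    ring
  have e10 : δ.val 1 0 = γ.val 1 0 * P.t := by
    simp [hδ, hg, affineGL, Matrix.mul_apply, Matrix.vecMul, dotProduct, Fin.sum_univ_two]
  have e11 : δ.val 1 1 = γ.val 1 0 * P.z + γ.val 1 1 := by
    simp [hδ, hg, affineGL, Matrix.mul_apply, Matrix.vecMul, dotProduct, Fin.sum_univ_two]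
  have e01 : δ.val 0 1 * P.t
      = γ.val 0 0 * P.z + γ.val 0 1 - P.z * (γ.val 1 0 * P.z + γ.val 1 1) := by
    simp [hδ, hg, affineGL, Matrix.mul_apply, Matrix.vecMul, dotProduct, Fin.sum_univ_two]
    field_simp
    ring
  refine ⟨e00 ▸ hent 0 0, e11 ▸ hent 1 1, ?_, ?_⟩
  · rw [le_div_iff₀ P.t_pos]
    have := hent 1 0
    rwa [e10, norm_mul, Complex.norm_real, Real.norm_of_nonneg P.t_pos.le] at this
  · rw [← e01, norm_mul, Complex.norm_real, Real.norm_of_nonneg P.t_pos.le]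
    exact mul_le_mul_of_nonneg_right (hent 0 1) P.t_pos.le

/-- Motions keeping a neighbourhood nearby: at most the square of the product of the heights. -/
theorem exists_card_moves (Φ : PlaceChoice F ι) (y y' : FinPt F n) (R : ℝ) {c : ℝ} (hc : 0 < c) :
    ∃ A : ℝ, 0 ≤ A ∧ ∀ P : ι → H3, (∀ i, c ≤ (P i).t) → ∀ s : Finset (PGLF F),
      (∀ q ∈ s, GeneralLinearGroup.map (toAF F) q.out • y = y' ∧ ∃ Q : ι → H3,
        (∀ i, H3.coshDist (P i) (Q i) ≤ R) ∧
        ∀ i, H3.coshDist (P i) ((act Φ q.out (y, Q)).2 i) ≤ R) →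
      (s.card : ℝ) ≤ A * (∏ i, (P i).t) ^ 2 := by
  classical
  obtain ⟨L, D, hL, hD0, hrep⟩ := exists_normalised Φ y y'
  obtain ⟨M, hM0, hM⟩ := exists_entry_bound R D
  have hL' : (0 : ℝ) ≤ L := Nat.cast_nonneg L
  set K₁ : ℝ := 4 * (L * (M / c)) + 3
  set K₂ : ℝ := 4 * (L * M) + 3
  set K₃ : ℝ := 4 * (L * M) + 3 / c
  refine ⟨∏ _i : ι, (K₁ ^ 2 * K₂ ^ 2 * (K₂ ^ 2 * K₃ ^ 2)),
    Finset.prod_nonneg fun _ _ => by positivity, fun P hP s hs => ?_⟩
  choose! γ hγq hγL hγD using fun q (hq : q ∈ s) => hrep q (hs q hq).1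
  choose! e he using fun q (hq : q ∈ s) => hγL q hq
  have hb : ∀ q ∈ s, ∀ i,
      ‖Φ.emb i (γ q |>.val 0 0) - (P i).z * Φ.emb i (γ q |>.val 1 0)‖ ≤ M ∧
      ‖Φ.emb i (γ q |>.val 1 0) * (P i).z + Φ.emb i (γ q |>.val 1 1)‖ ≤ M ∧
      ‖Φ.emb i (γ q |>.val 1 0)‖ ≤ M / (P i).t ∧
      ‖Φ.emb i (γ q |>.val 0 0) * (P i).z + Φ.emb i (γ q |>.val 0 1)
        - (P i).z * (Φ.emb i (γ q |>.val 1 0) * (P i).z + Φ.emb i (γ q |>.val 1 1))‖
          ≤ M * (P i).t := by
    intro q hq i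
    obtain ⟨-, Q, hQ, hγQ⟩ := hs q hq
    refine hM (GeneralLinearGroup.map (Φ.emb i) (γ q)) (P i) (Q i) (hQ i) ?_ ?_
    · have h := hγQ i
      rw [← hγq q hq, act_out] at h
      exact h
    · rw [show (GeneralLinearGroup.map (Φ.emb i) (γ q)).val.det = Φ.emb i (γ q).val.det from
        ((Φ.emb i).map_det (γ q).val).symm]
      exact hγD q hq i
  let code : PGLF F → (ι → (((ℤ × ℤ) × (ℤ × ℤ)) × ((ℤ × ℤ) × (ℤ × ℤ)))) := fun q i =>
    ((cell (Φ.emb i (e q 1 0 : F) + 0),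
      cell (Φ.emb i (e q 0 0 : F) + -((P i).z * Φ.emb i (e q 1 0 : F)))),
     (cell (Φ.emb i (e q 1 1 : F) + Φ.emb i (e q 1 0 : F) * (P i).z),
      cell (Φ.emb i (e q 0 1 : F) + (Φ.emb i (e q 0 0 : F) * (P i).z
        - (P i).z * (Φ.emb i (e q 1 0 : F) * (P i).z + Φ.emb i (e q 1 1 : F))))))
  let T : Finset (ι → (((ℤ × ℤ) × (ℤ × ℤ)) × ((ℤ × ℤ) × (ℤ × ℤ)))) :=
    Fintype.piFinset fun i => (cellBox (L * (M / c)) ×ˢ cellBox (L * M)) ×ˢ
      (cellBox (L * M) ×ˢ cellBox (L * M * (P i).t))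
  have hσ : ∀ q ∈ s, ∀ i a b, Φ.emb i (e q a b : F) = (L : ℂ) * Φ.emb i ((γ q).val a b) :=
    fun q hq i a b => by rw [he q hq, map_mul, map_natCast]
  have hmaps : ∀ q ∈ s, code q ∈ T := fun q hq => Fintype.mem_piFinset.mpr fun i => by
    obtain ⟨b1, b2, b3, b4⟩ := hb q hq i
    have hscale : ∀ {x : ℂ} {K : ℝ}, ‖x‖ ≤ K → ‖(L : ℂ) * x‖ ≤ L * K := fun h => by
      rw [norm_mul, Complex.norm_natCast]; exact mul_le_mul_of_nonneg_left h hL'
    simp only [code, Finset.mem_product, hσ q hq]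
    refine ⟨⟨cell_mem_cellBox ?_, cell_mem_cellBox ?_⟩, cell_mem_cellBox ?_, cell_mem_cellBox ?_⟩
    · rw [add_zero]
      exact hscale (b3.trans (by gcongr; exact hP i))
    · exact le_of_eq_of_le (congrArg norm (by ring)) (hscale b1)
    · exact le_of_eq_of_le (congrArg norm (by ring)) (hscale b2)
    · exact le_of_eq_of_le (congrArg norm (by ring)) ((hscale b4).trans_eq (by ring))
  have hinj : Set.InjOn code s := by
    intro q hq q' hq' hcode
    have h := fun i => congrFun hcode i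
    simp only [code, Prod.mk.injEq] at h
    have e10 : e q 1 0 = e q' 1 0 := eq_of_cells Φ _ fun i => (h i).1.1
    have e00 : e q 0 0 = e q' 0 0 :=
      eq_of_cells Φ _ fun i => by simpa only [e10] using (h i).1.2
    have e11 : e q 1 1 = e q' 1 1 :=
      eq_of_cells Φ _ fun i => by simpa only [e10] using (h i).2.1
    have e01 : e q 0 1 = e q' 0 1 :=
      eq_of_cells Φ _ fun i => by simpa only [e10, e00, e11] using (h i).2.2
    have hL0 : (L : F) ≠ 0 := Nat.cast_ne_zero.mpr hL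
    have hv : γ q = γ q' := Units.ext (Matrix.ext fun a b => mul_left_cancel₀ hL0 (by
      rw [← he q hq, ← he q' hq']
      fin_cases a <;> fin_cases b <;> simp [e00, e01, e10, e11]))
    rw [← hγq q hq, hv, hγq q' hq']
  refine le_trans (Nat.cast_le.mpr (Finset.card_le_card_of_injOn code hmaps hinj)) ?_
  rw [Fintype.card_piFinset, Nat.cast_prod, ← Finset.prod_pow, ← Finset.prod_mul_distrib]
  refine Finset.prod_le_prod (fun i _ => Nat.cast_nonneg _) fun i _ => ?_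
  have ht : 0 ≤ (P i).t := (P i).t_pos.le
  have h4 : 4 * (L * M * (P i).t) + 3 ≤ K₃ * (P i).t := by
    have : 3 ≤ 3 / c * (P i).t := by
      rw [div_mul_eq_mul_div, le_div_iff₀ hc]; nlinarith [hP i]
    simp only [K₃, add_mul]; linarith
  simp only [Finset.card_product, Nat.cast_mul]
  calc _ ≤ (K₁ ^ 2 * K₂ ^ 2) * (K₂ ^ 2 * (K₃ * (P i).t) ^ 2) := by
        gcongr
        · exact card_cellBox_le (by positivity)
        · exact card_cellBox_le (by positivity)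
        · exact card_cellBox_le (by positivity)
        · exact (card_cellBox_le (by positivity)).trans (pow_le_pow_left₀ (by positivity) h4 2)
    _ = _ := by ring

end FLTAgent.LanglandsTunnell.Killing
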