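import Fermat.Agent.LanglandsTunnell.Killing.Count
import Fermat.Agent.LanglandsTunnell.Killing.Operators
import Fermat.Agent.LanglandsTunnell.Isolation.KernelCalc

/-!
# Polynomial growth of operators applied to square integrable functions

`exists_op_bound`: a fine combination applied to an invariant function which is square integrable
on a fundamental domain (`Adm`) is bounded, where the heights are bounded below, by a power of
their sum times the norm of the function.
-/

set_option autoImplicit false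

noncomputable section

open NumberField Matrix MeasureTheory Filter Function
open scoped ENNReal Topology

namespace FLTAgent.LanglandsTunnell.Killing

open FLTAgent.LanglandsTunnell.Geom (pglAction act_out countable_finPt measurable_act affineGL
  affineGL_smul_z affineGL_smul_t placeEquiv lintegral_unfold_fundDomain)
open FLTAgent.LanglandsTunnell.Trace (isCompact_ball continuous_coshDist)

variable {F : Type} [Field F] [NumberField F] {ι : Type} [Fintype ι] {n : Ideal (𝓞 F)}

/-- The sum of the heights. -/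
def heightSum (P : ι → H3) : ℝ := ∑ i, (P i).t

theorem heightSum_nonneg (P : ι → H3) : 0 ≤ heightSum P :=
  Finset.sum_nonneg fun i _ => (P i).t_pos.le

theorem t_le_heightSum (P : ι → H3) (i : ι) : (P i).t ≤ heightSum P :=
  Finset.single_le_sum (f := fun j => (P j).t) (fun j _ => (P j).t_pos.le) (Finset.mem_univ i)

theorem prod_t_le (P : ι → H3) : ∏ i, (P i).t ≤ heightSum P ^ Fintype.card ι := by
  rw [← Finset.card_univ, ← Finset.prod_const]
  exact Finset.prod_le_prod (fun i _ => (P i).t_pos.le) fun i _ => t_le_heightSum P i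

/-- Heights bounded below and comparable. -/
def Reg (c B : ℝ) (P : ι → H3) : Prop := ∀ i, c ≤ (P i).t ∧ ∀ j, (P i).t ≤ B * (P j).t

/-- The product of balls. -/
def ballPi (P : ι → H3) (R : ℝ) : Set (ι → H3) := {Q | ∀ i, H3.coshDist (P i) (Q i) ≤ R}

omit [Fintype ι] in
theorem ballPi_eq (P : ι → H3) (R : ℝ) :
    ballPi P R = Set.univ.pi fun i => {Q | H3.coshDist (P i) Q ≤ R} := by
  ext Q; simp [ballPi]

theorem measurableSet_ballPi (P : ι → H3) (R : ℝ) : MeasurableSet (ballPi P R) := by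
  rw [ballPi_eq]
  exact (isCompact_univ_pi fun i => isCompact_ball (P i) R).isClosed.measurableSet

/-- Balls have a volume independent of the centre. -/
theorem volH3_ball (P : H3) (R : ℝ) :
    H3.volH3 {Q | H3.coshDist P Q ≤ R} = H3.volH3 {Q | H3.coshDist H3.base Q ≤ R} := by
  have htne : (P.t : ℂ) ≠ 0 := Complex.ofReal_ne_zero.mpr P.t_pos.ne'
  set g : GL (Fin 2) ℂ := affineGL (Units.mk0 (P.t : ℂ) htne) P.z with hg
  have hgb : g • H3.base = P := by
    refine H3.ext ?_ ?_
    · rw [hg, affineGL_smul_z]; simp [H3.base]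
    · rw [hg, affineGL_smul_t]; simp [H3.base, abs_of_pos P.t_pos]
  rw [← (H3.measurePreserving_smul g).measure_preimage
    (isCompact_ball P R).isClosed.measurableSet.nullMeasurableSet]
  congr 1
  ext Q
  show H3.coshDist P (g • Q) ≤ R ↔ _
  rw [← hgb, H3.coshDist_smul]
  rfl

theorem exists_vol_ballPi (R : ℝ) :
    ∃ V : ℝ, 0 ≤ V ∧ ∀ P : ι → H3, volPi ι (ballPi P R) ≤ ENNReal.ofReal V := by
  refine ⟨(∏ _i : ι, H3.volH3 {Q | H3.coshDist H3.base Q ≤ R}).toReal, ENNReal.toReal_nonneg,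
    fun P => ?_⟩
  rw [ballPi_eq, Measure.pi_pi, ENNReal.ofReal_toReal
    (ENNReal.prod_ne_top fun i _ => (isCompact_ball H3.base R).measure_lt_top.ne)]
  exact le_of_eq (Finset.prod_congr rfl fun i _ => volH3_ball (P i) R)

/-- An invariant function near a point against its mass on a fundamental domain. -/
theorem exists_lintegral_near (Φ : PlaceChoice F ι) (hn : n ≠ ⊥) {S : Set (Pt F ι n)}
    (hS : IsFundDomain Φ S) {U : Set (FinPt F n)} (hU : U.Finite) (R : ℝ) {c : ℝ} (hc : 0 < c) :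
    ∃ A : ℝ, 0 ≤ A ∧ ∀ P : ι → H3, (∀ i, c ≤ (P i).t) → ∀ f : Pt F ι n → ℝ≥0∞, Measurable f →
      (∀ γ x, f (act Φ γ x) = f x) →
      ∫⁻ y in U ×ˢ ballPi P R, f y ∂volPt
        ≤ ENNReal.ofReal (A * (∏ i, (P i).t) ^ 2) * ∫⁻ y in S, f y ∂volPt := by
  classical
  choose A hA0 hA using fun p : FinPt F n × FinPt F n => exists_card_moves Φ p.1 p.2 R hc
  set Us := hU.toFinset
  refine ⟨∑ u ∈ Us, ∑ u' ∈ Us, A (u, u'),
    Finset.sum_nonneg fun u _ => Finset.sum_nonneg fun u' _ => hA0 _, fun P hP f hf hinv => ?_⟩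
  set N := U ×ˢ ballPi P R
  have hN : MeasurableSet N := hU.measurableSet.prod (measurableSet_ballPi P R)
  set T : ℝ := (∑ u ∈ Us, ∑ u' ∈ Us, A (u, u')) * (∏ i, (P i).t) ^ 2
  let := pglAction (n := n) Φ
  have hcount : ∀ y : Pt F ι n, ∀ s : Finset (PGLF F), (∀ q ∈ s, q • y ∈ N) → (s.card : ℝ) ≤ T := by
    intro y s hs
    rcases s.eq_empty_or_nonempty with rfl | ⟨q₀, hq₀⟩
    · simp only [Finset.card_empty, Nat.cast_zero, T]
      exact mul_nonneg (Finset.sum_nonneg fun u _ => Finset.sum_nonneg fun u' _ => hA0 _)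
        (sq_nonneg _)
    have hu : (q₀ • y).1 ∈ Us := hU.mem_toFinset.mpr (hs q₀ hq₀).1
    have hcond : ∀ u' : FinPt F n, ∀ q ∈ (s.image (· * q₀⁻¹)).filter fun q => (q • q₀ • y).1 = u',
        GeneralLinearGroup.map (toAF F) q.out • (q₀ • y).1 = u' ∧ ∃ Q : ι → H3,
          (∀ i, H3.coshDist (P i) (Q i) ≤ R) ∧
          ∀ i, H3.coshDist (P i) ((act Φ q.out ((q₀ • y).1, Q)).2 i) ≤ R := by
      intro u' q hq
      obtain ⟨hq1, hq2⟩ := Finset.mem_filter.mp hq
      obtain ⟨q', hq', rfl⟩ := Finset.mem_image.mp hq1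
      refine ⟨hq2, (q₀ • y).2, (hs q₀ hq₀).2, ?_⟩
      have h2 : ((q' * q₀⁻¹) • (q₀ • y)).2 ∈ ballPi P R := by
        rw [← mul_smul, inv_mul_cancel_right]; exact (hs q' hq').2
      exact h2
    calc (s.card : ℝ) = ((s.image (· * q₀⁻¹)).card : ℝ) := by
          rw [Finset.card_image_of_injective _ fun a b h => mul_right_cancel h]
      _ ≤ ∑ u' ∈ Us, (((s.image (· * q₀⁻¹)).filter fun q => (q • q₀ • y).1 = u').card : ℝ) := by
          rw [← Nat.cast_sum]
          refine Nat.cast_le.mpr (le_of_eq (Finset.card_eq_sum_card_fiberwise ?_))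
          intro q hq
          obtain ⟨q', hq', rfl⟩ := Finset.mem_image.mp hq
          show ((q' * q₀⁻¹) • (q₀ • y)).1 ∈ Us
          rw [← mul_smul, inv_mul_cancel_right]
          exact hU.mem_toFinset.mpr (hs q' hq').1
      _ ≤ ∑ u' ∈ Us, A ((q₀ • y).1, u') * (∏ i, (P i).t) ^ 2 :=
          Finset.sum_le_sum fun u' _ => hA (_, u') P hP _ (hcond u')
      _ ≤ T := by
          rw [← Finset.sum_mul]
          exact mul_le_mul_of_nonneg_right (Finset.single_le_sum
            (f := fun u => ∑ u' ∈ Us, A (u, u'))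
            (fun u _ => Finset.sum_nonneg fun u' _ => hA0 _) hu) (sq_nonneg _)
  rw [← lintegral_indicator hN, lintegral_unfold_fundDomain Φ hn hS (hf.indicator hN),
    ← lintegral_const_mul' _ _ ENNReal.ofReal_ne_top]
  refine lintegral_mono fun y => ?_
  rw [ENNReal.tsum_eq_iSup_sum]
  refine iSup_le fun s => ?_
  have e : ∀ q ∈ s, N.indicator f (act Φ q.out y) = if q • y ∈ N then f y else 0 := fun q _ => by
    show N.indicator f (q • y) = _
    rw [Set.indicator_apply]
    exact if_congr Iff.rfl (hinv _ _) rfl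
  rw [Finset.sum_congr rfl e, ← Finset.sum_filter, Finset.sum_const, nsmul_eq_mul]
  refine mul_le_mul_left ?_ _
  rw [← ENNReal.ofReal_natCast]
  exact ENNReal.ofReal_le_ofReal (hcount y _ fun q hq => (Finset.mem_filter.mp hq).2)

/-- Invariant functions, square integrable on a fundamental domain. -/
structure Adm (Φ : PlaceChoice F ι) (S : Set (Pt F ι n)) (φ : Pt F ι n → ℂ) : Prop where
  invariant : ∀ γ x, φ (act Φ γ x) = φ x
  measurable : Measurable φ
  sq : IntegrableOn (fun x => ‖φ x‖ ^ 2) S volPt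

/-- The norm on a fundamental domain. -/
def l2 (S : Set (Pt F ι n)) (φ : Pt F ι n → ℂ) : ℝ := √(∫ x in S, ‖φ x‖ ^ 2 ∂volPt)

omit [NumberField F] in
theorem l2_nonneg (S : Set (Pt F ι n)) (φ : Pt F ι n → ℂ) : 0 ≤ l2 S φ := Real.sqrt_nonneg _

omit [NumberField F] in
theorem l2_sq (S : Set (Pt F ι n)) (φ : Pt F ι n → ℂ) :
    l2 S φ ^ 2 = ∫ x in S, ‖φ x‖ ^ 2 ∂volPt :=
  Real.sq_sqrt (integral_nonneg fun _ => sq_nonneg _)

omit [NumberField F] in
theorem Adm.lintegral_sq {Φ : PlaceChoice F ι} {S : Set (Pt F ι n)} {φ : Pt F ι n → ℂ}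
    (h : Adm Φ S φ) :
    ∫⁻ x in S, ENNReal.ofReal (‖φ x‖ ^ 2) ∂volPt = ENNReal.ofReal (l2 S φ ^ 2) := by
  rw [l2_sq, ofReal_integral_eq_lintegral_ofReal h.sq (Eventually.of_forall fun _ => sq_nonneg _)]

omit [NumberField F] in
theorem volPt_prod (U : Set (FinPt F n)) (K : Set (ι → H3)) :
    volPt (U ×ˢ K) = Measure.count U * volPi ι K := Measure.prod_prod _ _

/-- The mass of an admissible function near a point. -/
theorem exists_near_bound (Φ : PlaceChoice F ι) (hn : n ≠ ⊥) {S : Set (Pt F ι n)}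
    (hS : IsFundDomain Φ S) {U : Set (FinPt F n)} (hU : U.Finite) (R : ℝ) {c : ℝ} (hc : 0 < c) :
    ∃ A : ℝ, 0 ≤ A ∧ ∀ P : ι → H3, (∀ i, c ≤ (P i).t) → ∀ φ, Adm Φ S φ →
      IntegrableOn φ (U ×ˢ ballPi P R) volPt ∧
        ∫ y in U ×ˢ ballPi P R, ‖φ y‖ ∂volPt ≤ A * (∏ i, (P i).t) * l2 S φ := by
  obtain ⟨A, hA0, hA⟩ := exists_lintegral_near Φ hn hS hU R hc
  obtain ⟨V, hV0, hV⟩ := exists_vol_ballPi (ι := ι) R
  refine ⟨(U.ncard * V + A) / 2, by positivity, fun P hP φ hφ => ?_⟩
  set N := U ×ˢ ballPi P R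
  have hNm : MeasurableSet N := hU.measurableSet.prod (measurableSet_ballPi P R)
  have hvol : volPt N ≤ ENNReal.ofReal (U.ncard * V) := by
    rw [volPt_prod, Measure.count_apply_finite _ hU, ENNReal.ofReal_mul (Nat.cast_nonneg _),
      ENNReal.ofReal_natCast, Set.ncard_eq_toFinset_card _ hU]
    exact mul_le_mul_right (hV P) _
  have : IsFiniteMeasure (volPt.restrict N) :=
    isFiniteMeasure_restrict.mpr (ne_top_of_le_ne_top ENNReal.ofReal_ne_top hvol)
  have hb := hA P hP (fun y => ENNReal.ofReal (‖φ y‖ ^ 2))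
    (ENNReal.measurable_ofReal.comp (hφ.measurable.norm.pow_const 2))
    (fun γ x => by simp only [hφ.invariant])
  rw [hφ.lintegral_sq, ← ENNReal.ofReal_mul (by positivity)] at hb
  have hsq : IntegrableOn (fun y => ‖φ y‖ ^ 2) N volPt := by
    refine ⟨(hφ.measurable.norm.pow_const 2).aestronglyMeasurable, ?_⟩
    rw [hasFiniteIntegral_iff_ofReal (Eventually.of_forall fun _ => sq_nonneg _)]
    exact lt_of_le_of_lt hb ENNReal.ofReal_lt_top
  have hint : IntegrableOn φ N volPt := by
    refine Integrable.mono' ((integrable_const (1 : ℝ)).add hsq)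
      hφ.measurable.aestronglyMeasurable (Eventually.of_forall fun y => ?_)
    show ‖φ y‖ ≤ 1 + ‖φ y‖ ^ 2
    nlinarith [norm_nonneg (φ y)]
  refine ⟨hint, ?_⟩
  set T := ∏ i, (P i).t
  have hT : 0 < T := Finset.prod_pos fun i _ => (P i).t_pos
  set I := ∫ y in N, ‖φ y‖ ^ 2 ∂volPt
  have hI : I ≤ A * T ^ 2 * l2 S φ ^ 2 := by
    refine (ENNReal.ofReal_le_ofReal_iff (by positivity)).mp ?_
    rw [ofReal_integral_eq_lintegral_ofReal hsq (Eventually.of_forall fun _ => sq_nonneg _)]
    exact hb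
  have hV' : volPt.real N ≤ U.ncard * V :=
    (ENNReal.toReal_mono ENNReal.ofReal_ne_top hvol).trans_eq
      (ENNReal.toReal_ofReal (by positivity))
  refine le_of_forall_pos_le_add fun δ hδ => ?_
  set a := (U.ncard * V + A) / 2 * T
  have ha : 0 ≤ a := by positivity
  set ε := δ / (a + 1) with hε
  have hε0 : 0 < ε := div_pos hδ (by linarith)
  have hl := l2_nonneg S φ
  set lam := T * (l2 S φ + ε) with hlam
  have hlam0 : 0 < lam := mul_pos hT (by linarith)
  have h1 : ∫ y in N, ‖φ y‖ ∂volPt ≤ lam / 2 * volPt.real N + I / (2 * lam) := by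
    calc ∫ y in N, ‖φ y‖ ∂volPt ≤ ∫ y in N, (lam / 2 + (2 * lam)⁻¹ * ‖φ y‖ ^ 2) ∂volPt := by
          refine setIntegral_mono_on hint.norm ((integrable_const _).add (hsq.const_mul _)) hNm
            fun y _ => ?_
          rw [← sub_nonneg, show lam / 2 + (2 * lam)⁻¹ * ‖φ y‖ ^ 2 - ‖φ y‖
            = (2 * lam)⁻¹ * (lam - ‖φ y‖) ^ 2 by field_simp; ring]
          positivity
      _ = _ := by
          rw [integral_add (integrable_const _) (hsq.const_mul _), setIntegral_const,
            integral_const_mul, smul_eq_mul, mul_comm, inv_mul_eq_div]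
  have h2 : I / (2 * lam) ≤ A / 2 * T * (l2 S φ + ε) := by
    rw [div_le_iff₀ (by positivity), hlam]
    refine hI.trans ?_
    have : A * T ^ 2 * l2 S φ ^ 2 ≤ A * T ^ 2 * (l2 S φ + ε) ^ 2 :=
      mul_le_mul_of_nonneg_left (pow_le_pow_left₀ hl (by linarith) 2) (by positivity)
    linarith
  have h3 : lam / 2 * volPt.real N ≤ U.ncard * V / 2 * T * (l2 S φ + ε) := by
    refine (mul_le_mul_of_nonneg_left hV' (by positivity)).trans_eq ?_
    rw [hlam]; ring
  have h4 : a * ε ≤ δ := by
    rw [hε, ← mul_div_assoc, div_le_iff₀ (by linarith)]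
    nlinarith
  have h5 : U.ncard * V / 2 * T * (l2 S φ + ε) + A / 2 * T * (l2 S φ + ε)
      = a * l2 S φ + a * ε := by simp only [a]; ring
  linarith

/-- Admissible functions are locally integrable on each sheet. -/
theorem Adm.locI {Φ : PlaceChoice F ι} {S : Set (Pt F ι n)} {φ : Pt F ι n → ℂ}
    (hφ : Adm Φ S φ) (hn : n ≠ ⊥) (hS : IsFundDomain Φ S) : LocI φ := by
  intro v P
  obtain ⟨c, hc, hcP⟩ : ∃ c : ℝ, 0 < c ∧ ∀ i, c ≤ (P i).t := by
    refine ⟨(1 + ∑ i, (P i).t⁻¹)⁻¹, inv_pos.mpr (add_pos_of_pos_of_nonneg one_pos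
      (Finset.sum_nonneg fun i _ => (inv_pos.mpr (P i).t_pos).le)), fun i => ?_⟩
    rw [inv_le_comm₀ (add_pos_of_pos_of_nonneg one_pos
      (Finset.sum_nonneg fun i _ => (inv_pos.mpr (P i).t_pos).le)) (P i).t_pos]
    have := Finset.single_le_sum (f := fun j => (P j).t⁻¹)
      (fun j _ => (inv_pos.mpr (P j).t_pos).le) (Finset.mem_univ i)
    linarith
  obtain ⟨A, -, hA⟩ := exists_near_bound Φ hn hS (Set.finite_singleton v) 2 hc
  have hint := (hA P hcP φ hφ).1
  refine ⟨ballPi P 2, ?_, ?_⟩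
  · refine Filter.mem_of_superset (IsOpen.mem_nhds
      (s := {Q : ι → H3 | ∀ i, H3.coshDist (P i) (Q i) < 2})
      ?_ (fun i => by rw [H3.coshDist_self]; norm_num)) fun Q hQ i => (hQ i).le
    simp only [Set.ofPred_forall]
    exact isOpen_iInter_of_finite fun i => isOpen_lt
      (continuous_coshDist (f := fun _ : ι → H3 => P i) (g := fun Q => Q i) continuous_const
        (continuous_apply i)) continuous_const
  · have := countable_finPt (F := F) hn
    have h2 : Integrable φ ((Measure.count.restrict {v}).prod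
        ((volPi ι).restrict (ballPi P 2))) := by
      rw [Measure.prod_restrict]; exact hint
    rw [Measure.restrict_singleton, Measure.count_singleton, one_smul, Measure.dirac_prod,
      (measurableEmbedding_prodMk_left v).integrable_map_iff] at h2
    exact h2

/-- A combination applied to an admissible function grows at most like the product of heights. -/
theorem exists_op_bound (Φ : PlaceChoice F ι) (hn : n ≠ ⊥) {S : Set (Pt F ι n)}
    (hS : IsFundDomain Φ S) {C : Comb F ι} (hC : Fine n C) (v : FinPt F n) {c : ℝ} (hc : 0 < c) :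
    ∃ A : ℝ, 0 ≤ A ∧ ∀ φ, Adm Φ S φ → ∀ P : ι → H3, (∀ i, c ≤ (P i).t) →
      ‖Kernel.op (C.kernel n) φ (v, P)‖ ≤ A * heightSum P ^ Fintype.card ι * l2 S φ := by
  classical
  choose! R hR using fun T (hT : T ∈ C) => exists_radii (fun i => ((hC T hT).1 i).2)
  set R₀ : ℝ := ∑ T ∈ C.attach.toFinset, |R T.1|
  set U : Set (FinPt F n) := ⋃ T ∈ {T | T ∈ C}, Function.support (wordKernel n T.word v)
  have hU : U.Finite := C.finite_toSet.biUnion fun T hT => finite_wordKernel hn (hC T hT).2 v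
  have hnice := LanglandsTunnell.Isolation.isNice_of_good Φ hn
    (LanglandsTunnell.Isolation.Comb.Good.mono hC fun w hw => hw.2.1)
  obtain ⟨K, hK⟩ := hnice.bounded
  obtain ⟨A, hA0, hA⟩ := exists_near_bound Φ hn hS hU R₀ hc
  refine ⟨|K| * A, by positivity, fun φ hφ P hP => ?_⟩
  obtain ⟨hint, hbd⟩ := hA P hP φ hφ
  have hsupp : ∀ y, y ∉ U ×ˢ ballPi P R₀ → C.kernel n (v, P) y = 0 := by
    intro y hy
    by_contra hne
    obtain ⟨T, hT, hTne⟩ := LanglandsTunnell.Isolation.list_sum_ne_zero hne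
    refine hy ⟨Set.mem_biUnion hT (right_ne_zero_of_mul (left_ne_zero_of_mul hTne)), fun i => ?_⟩
    exact (hR T hT P y.2 (right_ne_zero_of_mul hTne) i).trans ((le_abs_self _).trans
      (Finset.single_le_sum (f := fun S : {T // T ∈ C} => |R S.1|) (fun S _ => abs_nonneg _)
        (show (⟨T, hT⟩ : {T // T ∈ C}) ∈ C.attach.toFinset by simp)))
  rw [Kernel.op, ← setIntegral_eq_integral_of_forall_compl_eq_zero
    (s := U ×ˢ ballPi P R₀) (fun y hy => by rw [hsupp y hy, zero_mul])]
  refine (norm_integral_le_integral_norm _).trans ?_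
  calc ∫ y in U ×ˢ ballPi P R₀, ‖C.kernel n (v, P) y * φ y‖ ∂volPt
      ≤ ∫ y in U ×ˢ ballPi P R₀, |K| * ‖φ y‖ ∂volPt := by
        refine integral_mono_of_nonneg (Eventually.of_forall fun y => norm_nonneg _)
          (hint.norm.const_mul _) (Eventually.of_forall fun y => ?_)
        show ‖C.kernel n (v, P) y * φ y‖ ≤ |K| * ‖φ y‖
        rw [norm_mul]
        exact mul_le_mul_of_nonneg_right ((hK _ _).trans (le_abs_self _)) (norm_nonneg _)
    _ ≤ |K| * (A * (∏ i, (P i).t) * l2 S φ) := by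
        rw [integral_const_mul]; exact mul_le_mul_of_nonneg_left hbd (abs_nonneg _)
    _ ≤ |K| * A * heightSum P ^ Fintype.card ι * l2 S φ := by
        rw [← mul_assoc, ← mul_assoc]
        exact mul_le_mul_of_nonneg_right (mul_le_mul_of_nonneg_left (prod_t_le P) (by positivity))
          (l2_nonneg _ _)

end FLTAgent.LanglandsTunnell.Killing
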