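import Fermat.Agent.LanglandsTunnell.Killing.Smoothing
import Fermat.Agent.LanglandsTunnell.Isolation.CombCalc
import Fermat.Agent.LanglandsTunnell.Geom.Reduction

/-!
# From a cuspidal middle part to a killing kernel

`kill core β k` is `outer * core * outer`, the outer parts being powers of a Lipschitz invariant
`β`. If the middle part creates cuspidal functions (`CoreData`) and the product is symmetric, its
kernel is a killing kernel (`CoreData.isKillingKernel`), and its products with test combinations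
have bounded periodised kernels (`CoreData.bounded`).
-/

set_option autoImplicit false

noncomputable section

open NumberField Matrix MeasureTheory Filter Function
open scoped ENNReal ComplexConjugate Topology

namespace FLTAgent.LanglandsTunnell.Killing

open FLTAgent.LanglandsTunnell.Isolation (good_mul mul_assoc_comb periodise_conj isNice_of_good
  IsNice)
open FLTAgent.LanglandsTunnell.Geom (exists_balanced_reduction placeEquiv)

variable {F : Type} [Field F] [NumberField F] {ι : Type} [Fintype ι] {n : Ideal (𝓞 F)}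
  {Φ : PlaceChoice F ι} {S : Set (Pt F ι n)}

omit [NumberField F] [Fintype ι] in
theorem Fine.mono {C : Comb F ι} (h : Fine n C) : C.Good fun w => w ≠ ⊥ :=
  LanglandsTunnell.Isolation.Comb.Good.mono h fun _ hw => hw.2.1

omit [NumberField F] [Fintype ι] in
theorem Fine.mul {C C' : Comb F ι} (h : Fine n C) (h' : Fine n C') : Fine n (C.mul C') :=
  good_mul h h'

theorem invCts_op (hn : n ≠ ⊥) {C : Comb F ι} (hC : Fine n C) {f : Pt F ι n → ℂ}
    (hinv : ∀ γ x, f (act Φ γ x) = f x) (hf : LocI f) : InvCts Φ (Kernel.op (C.kernel n) f) :=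
  ⟨op_invariant Φ hn C hinv, continuous_op hn hC hf⟩

/-- A bound on the operator bounds the rows of the periodised kernel in the square mean. -/
theorem square_of_op_bound (hn : n ≠ ⊥) (hS : IsFundDomain Φ S) {κ : Kernel F ι n}
    (hκ : IsNice Φ κ) {A : ℝ}
    (hA : ∀ φ, Adm Φ S φ → ∀ x, ‖Kernel.op κ φ x‖ ≤ A * l2 S φ) (x : Pt F ι n) :
    IntegrableOn (fun y => ‖Kernel.periodise Φ κ x y‖ ^ 2) S volPt ∧
      ∫ y in S, ‖Kernel.periodise Φ κ x y‖ ^ 2 ∂volPt ≤ A ^ 2 := by
  classical
  have : IsFiniteMeasure (volPt.restrict S : Measure (Pt F ι n)) :=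
    isFiniteMeasure_restrict.mpr hS.finite_volume.ne
  set g : Pt F ι n → ℂ := fun y => Kernel.periodise Φ κ x y
  have hgm : Measurable g := hκ.measurable_periodise.comp (measurable_const.prodMk measurable_id)
  let φ : ℕ → Pt F ι n → ℂ := fun M y => if ‖g y‖ ≤ M then conj (g y) else 0
  have hφb : ∀ M y, ‖φ M y‖ ≤ M := fun M y => by
    simp only [φ]; split_ifs with h
    · rwa [Complex.norm_conj]
    · simp
  have hφm : ∀ M, Measurable (φ M) := fun M =>
    Measurable.ite (measurableSet_le hgm.norm measurable_const)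
      (Complex.continuous_conj.measurable.comp hgm) measurable_const
  have hφi : ∀ M γ y, φ M (act Φ γ y) = φ M y := fun M γ y => by
    simp only [φ, g, IsNice.periodise_act_right]
  have hsq : ∀ M, IntegrableOn (fun y => ‖φ M y‖ ^ 2) S volPt := fun M =>
    Integrable.of_bound ((hφm M).norm.pow_const 2).aestronglyMeasurable ((M : ℝ) ^ 2)
      (Eventually.of_forall fun y => by
        rw [Real.norm_of_nonneg (sq_nonneg _)]
        exact pow_le_pow_left₀ (norm_nonneg _) (hφb M y) 2)
  have hbd : ∀ M, ∫ y in S, ‖φ M y‖ ^ 2 ∂volPt ≤ A ^ 2 := fun M => by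
    have hop : Kernel.op κ (φ M) x = ((∫ y in S, ‖φ M y‖ ^ 2 ∂volPt : ℝ) : ℂ) := by
      rw [Kernel.op, hκ.integral_mul_invariant hn hS x (hφm M)
        (fun v K _ => ⟨M, fun P _ => hφb M _⟩) (hφi M), ← integral_complex_ofReal]
      refine integral_congr_ae (Eventually.of_forall fun y => ?_)
      simp only [φ]
      split_ifs with h
      · rw [Complex.norm_conj, ← Complex.normSq_eq_norm_sq, Complex.mul_conj]
      · simp
    have h := hA (φ M) ⟨hφi M, hφm M, hsq M⟩ x
    rw [hop, Complex.norm_real, Real.norm_of_nonneg (integral_nonneg fun _ => sq_nonneg _), l2] at h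
    set I := ∫ y in S, ‖φ M y‖ ^ 2 ∂volPt
    have hI : 0 ≤ I := integral_nonneg fun _ => sq_nonneg _
    have hs := Real.mul_self_sqrt hI
    nlinarith [Real.sqrt_nonneg I]
  have hl : ∫⁻ y in S, ENNReal.ofReal (‖g y‖ ^ 2) ∂volPt ≤ ENNReal.ofReal (A ^ 2) := by
    have hmono : Monotone fun (M : ℕ) (y : Pt F ι n) => ENNReal.ofReal (‖φ M y‖ ^ 2) := by
      intro M N hMN y
      refine ENNReal.ofReal_le_ofReal (pow_le_pow_left₀ (norm_nonneg _) ?_ 2)
      simp only [φ]
      by_cases h : ‖g y‖ ≤ M
      · rw [if_pos h, if_pos (h.trans (Nat.cast_le.mpr hMN))]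
      · rw [if_neg h, norm_zero]; exact norm_nonneg _
    have hsup : ∀ y, ENNReal.ofReal (‖g y‖ ^ 2) = ⨆ M, ENNReal.ofReal (‖φ M y‖ ^ 2) := fun y => by
      refine le_antisymm ?_ (iSup_le fun M => ENNReal.ofReal_le_ofReal
        (pow_le_pow_left₀ (norm_nonneg _) ?_ 2))
      · refine le_iSup_of_le ⌈‖g y‖⌉₊ (le_of_eq ?_)
        simp only [φ, if_pos (Nat.le_ceil _), Complex.norm_conj]
      · simp only [φ]; split_ifs <;> simp
    simp only [hsup]
    rw [lintegral_iSup (f := fun (M : ℕ) y => ENNReal.ofReal (‖φ M y‖ ^ 2))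
      (fun M => ENNReal.measurable_ofReal.comp ((hφm M).norm.pow_const 2)) hmono]
    refine iSup_le fun M => ?_
    rw [← ofReal_integral_eq_lintegral_ofReal (hsq M) (Eventually.of_forall fun _ => sq_nonneg _)]
    exact ENNReal.ofReal_le_ofReal (hbd M)
  have hint : IntegrableOn (fun y => ‖g y‖ ^ 2) S volPt := by
    refine ⟨(hgm.norm.pow_const 2).aestronglyMeasurable, ?_⟩
    rw [hasFiniteIntegral_iff_ofReal (Eventually.of_forall fun _ => sq_nonneg _)]
    exact hl.trans_lt ENNReal.ofReal_lt_top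
  refine ⟨hint, (ENNReal.ofReal_le_ofReal_iff (sq_nonneg A)).mp ?_⟩
  rw [ofReal_integral_eq_lintegral_ofReal hint (Eventually.of_forall fun _ => sq_nonneg _)]
  exact hl

/-- What makes the middle part usable. -/
structure CoreData (Φ : PlaceChoice F ι) (core : Comb F ι) (β : ℝ → ℂ) (k : ℕ)
    (n : Ideal (𝓞 F)) : Prop where
  fine : Fine n core
  cusp : ∀ f : Pt F ι n → ℂ, InvCts Φ f → IsCuspidal Φ (Kernel.op (core.kernel n) f)
  cont : Continuous β
  supp : HasCompactSupport β
  lip : ∃ L : ℝ, 0 ≤ L ∧ ∀ a b, ‖β a - β b‖ ≤ L * |a - b|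
  card_le : Fintype.card ι ≤ k + 1

/-- The outer part. -/
def outer (F : Type) [Field F] (ι : Type) (β : ℝ → ℂ) (k : ℕ) : Comb F ι :=
  [⟨1, [], fun _ => pw β k⟩]

/-- The whole combination. -/
def kill (core : Comb F ι) (β : ℝ → ℂ) (k : ℕ) : Comb F ι :=
  (outer F ι β k).mul (core.mul (outer F ι β k))

variable {core : Comb F ι} {β : ℝ → ℂ} {k : ℕ}

theorem CoreData.fine_outer (h : CoreData Φ core β k n) : Fine n (outer F ι β k : Comb F ι) :=
  fine_single fun _ => pw_ok h.cont h.supp k

theorem CoreData.fine_kill (h : CoreData Φ core β k n) : Fine n (kill core β k) :=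
  h.fine_outer.mul (h.fine.mul h.fine_outer)

/-- The outer part after the middle part after anything is bounded by the square mean. -/
theorem CoreData.exists_bound (h : CoreData Φ core β k n) (hn : n ≠ ⊥) (hS : IsFundDomain Φ S)
    {C : Comb F ι} (hC : Fine n C) :
    ∃ A : ℝ, 0 ≤ A ∧ ∀ φ, Adm Φ S φ → ∀ x,
      ‖Kernel.op (((outer F ι β k).mul (core.mul C)).kernel n) φ x‖ ≤ A * l2 S φ := by
  classical
  have hw : WeightsOK fun _ : ι => β := fun _ => ⟨h.cont, h.supp⟩
  obtain ⟨R, C₀, c, B, hR, hc, hred⟩ := exists_balanced_reduction (n := n) Φ hn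
  have hι : Nonempty ι := (placeEquiv Φ).symm.nonempty_congr.mp inferInstance
  obtain ⟨i₀⟩ := hι
  have hr : Fintype.card ι ≤ k + 1 := h.card_le
  choose c' B' κ hc' hB' hκ hgain using fun v : FinPt F n =>
    exists_gain_iterate (Φ := Φ) hn hw (fun _ => h.lip) v (k + 1) hc (le_max_right B 0) 0
  choose A hA0 hA using fun v : FinPt F n =>
    exists_op_bound Φ hn hS (h.fine.mul hC) v (hc' v)
  refine ⟨∑ v ∈ hR.toFinset, κ v * (A v / c' v ^ (k + 1 - Fintype.card ι)),
    Finset.sum_nonneg fun v _ => mul_nonneg (hκ v) (div_nonneg (hA0 v) (pow_nonneg (hc' v).le _)),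
    fun φ hφ x => ?_⟩
  have hloc := hφ.locI hn hS
  set f := Kernel.op ((core.mul C).kernel n) φ with hf
  have hfI : InvCts Φ f := invCts_op hn (h.fine.mul hC) hφ.invariant hloc
  have hfC : IsCuspidal Φ f := by
    rw [hf, op_mul hn h.fine hC hloc]
    exact h.cusp _ (invCts_op hn hC hφ.invariant hloc)
  have hfin : Fine n (outer F ι β k) := h.fine_outer
  obtain ⟨γ, h1, h2, h3⟩ := hred x
  rw [← op_invariant Φ hn _ hφ.invariant γ x]
  obtain ⟨v, P, hvP⟩ : ∃ v P, act Φ γ x = (v, P) := ⟨_, _, rfl⟩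
  rw [hvP] at h1 h2 h3 ⊢
  rw [op_mul hn hfin (h.fine.mul hC) hloc, ← hf,
    show Kernel.op ((outer F ι β k).kernel n) f = infApply (fun _ => pw β k) f from
      op_single hn (fun _ => pw_ok h.cont h.supp k) (LocI.of_continuous hfI.continuous),
    infApply_pw h.cont h.supp hn k f (LocI.of_continuous hfI.continuous)]
  have hreg : Reg c (max B 0) P := fun i =>
    ⟨(h2 i).2, fun j => (h3 i j).trans (mul_le_mul_of_nonneg_right (le_max_left _ _)
      (P j).t_pos.le)⟩
  have hg := hgain v f hfI hfC (A v / c' v ^ (k + 1 - Fintype.card ι) * l2 S φ)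
    (mul_nonneg (div_nonneg (hA0 v) (pow_nonneg (hc' v).le _)) (l2_nonneg _ _)) (fun Q hQ => ?_)
    P hreg
  · refine hg.trans ?_
    rw [pow_zero, mul_one, ← mul_assoc]
    refine mul_le_mul_of_nonneg_right ?_ (l2_nonneg _ _)
    exact Finset.single_le_sum (f := fun v => κ v * (A v / c' v ^ (k + 1 - Fintype.card ι)))
      (fun v _ => mul_nonneg (hκ v) (div_nonneg (hA0 v) (pow_nonneg (hc' v).le _)))
      (hR.mem_toFinset.mpr h1)
  · refine (hA v φ hφ Q fun i => (hQ i).1).trans ?_
    rw [zero_add, mul_right_comm (A v / _), mul_right_comm (A v)]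
    conv_lhs => rw [mul_right_comm]
    refine mul_le_mul_of_nonneg_right ?_ (l2_nonneg _ _)
    rw [div_mul_eq_mul_div, le_div_iff₀ (pow_pos (hc' v) _), mul_assoc]
    refine mul_le_mul_of_nonneg_left ?_ (hA0 v)
    calc heightSum Q ^ Fintype.card ι * c' v ^ (k + 1 - Fintype.card ι)
        ≤ heightSum Q ^ Fintype.card ι * heightSum Q ^ (k + 1 - Fintype.card ι) :=
          mul_le_mul_of_nonneg_left (pow_le_pow_left₀ (hc' v).le
            ((hQ i₀).1.trans (t_le_heightSum Q i₀)) _) (pow_nonneg (heightSum_nonneg _) _)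
      _ = heightSum Q ^ (k + 1) := by rw [← pow_add, Nat.add_sub_cancel' hr]

/-- The combination is a killing kernel. -/
theorem CoreData.isKillingKernel (h : CoreData Φ core β k n) (hn : n ≠ ⊥) (hS : IsFundDomain Φ S)
    (hsym : ∀ x y, (kill core β k).kernel n y x = conj ((kill core β k).kernel n x y)) :
    IsKillingKernel Φ S ((kill core β k).kernel n) := by
  refine ⟨hsym, fun φ hinv hm hsq => ?_, ?_⟩
  · have hloc := (Adm.locI (⟨hinv, hm, hsq⟩ : Adm Φ S φ) hn hS)
    rw [kill, op_mul hn h.fine_outer (h.fine.mul h.fine_outer) hloc,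
      op_mul hn h.fine h.fine_outer hloc]
    have hI := invCts_op hn h.fine_outer hinv hloc
    have hc := h.cusp _ hI
    have hI2 := invCts_op (Φ := Φ) hn h.fine hI.invariant (LocI.of_continuous hI.continuous)
    rw [show Kernel.op ((outer F ι β k).kernel n) (Kernel.op (core.kernel n) _) = infApply _ _ from
      op_single hn (fun _ => pw_ok h.cont h.supp k) (LocI.of_continuous hI2.continuous)]
    exact isCuspidal_infApply (fun _ => pw_ok h.cont h.supp k) hI2.continuous hc
  · obtain ⟨A, hA0, hA⟩ := h.exists_bound hn hS h.fine_outer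
    exact ⟨A ^ 2, fun x => square_of_op_bound hn hS (isNice_of_good Φ hn h.fine_kill.mono) hA x⟩

/-- Products around a test combination have bounded periodised kernels. -/
theorem CoreData.bounded (h : CoreData Φ core β k n) (hn : n ≠ ⊥) (hS : IsFundDomain Φ S)
    (hsym : ∀ x y, (kill core β k).kernel n y x = conj ((kill core β k).kernel n x y))
    {C : Comb F ι} (hC : Fine n C) :
    ∃ B : ℝ, ∀ x y, ‖Kernel.periodise Φ
      ((((kill core β k).mul C).mul (kill core β k)).kernel n) x y‖
      ≤ B := by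
  have hK := h.fine_kill
  have hnK : IsNice Φ ((kill core β k).kernel n) := isNice_of_good Φ hn hK.mono
  have hnKC : IsNice Φ (((kill core β k).mul C).kernel n) := isNice_of_good Φ hn (hK.mul hC).mono
  obtain ⟨A, hA0, hA⟩ := h.exists_bound hn hS h.fine_outer
  obtain ⟨A', hA'0, hA'⟩ := h.exists_bound hn hS (h.fine_outer.mul hC)
  have e : (kill core β k).mul C
      = (outer F ι β k).mul (core.mul ((outer F ι β k).mul C)) := by
    rw [kill, mul_assoc_comb h.fine_outer (h.fine.mul h.fine_outer) hC,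
      mul_assoc_comb h.fine h.fine_outer hC]
  refine ⟨(A' ^ 2 + A ^ 2) / 2, fun x z => ?_⟩
  have hcomp : (((kill core β k).mul C).mul (kill core β k)).kernel n
      = Kernel.comp (((kill core β k).mul C).kernel n) ((kill core β k).kernel n) := by
    funext a b
    exact LanglandsTunnell.Isolation.kernel_mul Φ hn (hK.mul hC).mono hK.mono a b
  rw [hcomp, hnKC.periodise_comp hnK hn hS x z]
  obtain ⟨i1, b1⟩ := square_of_op_bound hn hS hnKC (by rw [e]; exact hA') x
  obtain ⟨i2, b2⟩ := square_of_op_bound hn hS hnK hA z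
  have hconj : ∀ y, ‖Kernel.periodise Φ ((kill core β k).kernel n) y z‖
      = ‖Kernel.periodise Φ ((kill core β k).kernel n) z y‖ := fun y => by
    rw [periodise_conj Φ hnK hsym z y, Complex.norm_conj]
  refine (norm_integral_le_integral_norm _).trans ?_
  refine (integral_mono_of_nonneg (Eventually.of_forall fun y => norm_nonneg _)
    ((i1.add i2).div_const 2) (Eventually.of_forall fun y => ?_)).trans ?_
  · simp only [Pi.add_apply, norm_mul, hconj]
    nlinarith [sq_nonneg (‖Kernel.periodise Φ (((kill core β k).mul C).kernel n) x y‖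
      - ‖Kernel.periodise Φ ((kill core β k).kernel n) z y‖)]
  · simp only [Pi.add_apply]
    rw [integral_div, integral_add i1 i2]
    linarith

end FLTAgent.LanglandsTunnell.Killing
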