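import Fermat.Agent.LanglandsTunnell.Isolation.Galois

/-!
# The three quadratic characters of the quaternion part of the seed

`signChar h` is the commutation sign with the image of `h`, a character of the Galois group of
`M`; on three orthogonal axes the signs add up to `3` on the centre and to `-1` elsewhere
(`sum_signVal`). Used in `Nondeg`.
-/

set_option autoImplicit false

noncomputable section

open NumberField Matrix

namespace FLTAgent.LanglandsTunnell.Killing


variable {D : Datum}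

theorem sq_eq_neg_one {A : Matrix (Fin 2) (Fin 2) (ZMod 3)} (hd : A.det = 1) (ht : A.trace = 0) :
    A * A = -1 := by
  rw [det_fin_two] at hd
  rw [trace_fin_two] at ht
  ext i j
  fin_cases i <;> fin_cases j <;> simp [Matrix.mul_apply, Fin.sum_univ_two]
  · linear_combination (A 0 0) * ht - hd
  · linear_combination (A 0 1) * ht
  · linear_combination (A 1 0) * ht
  · linear_combination (A 1 1) * ht - hd

theorem comm_or_anti {g h : GQ} (hg : g ∈ D.galM) (hh : h ∈ D.galM) :
    (D.ρ g).1 * (D.ρ h).1 = (D.ρ h).1 * (D.ρ g).1 ∨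
      (D.ρ g).1 * (D.ρ h).1 = -((D.ρ h).1 * (D.ρ g).1) := by
  have hp : InQ8 (D.ρ g * D.ρ h) := by rw [← map_mul]; exact (mem_galM D).mp (mul_mem hg hh)
  obtain ⟨dg, hA⟩ := (mem_galM D).mp hg
  obtain ⟨dh, hX⟩ := (mem_galM D).mp hh
  obtain ⟨dp, hP⟩ := hp
  simp only [Units.val_mul] at dp hP
  set A := (D.ρ g).1
  set X := (D.ρ h).1
  rcases hA with hA | hA | hA
  swap; · left; rw [hA, one_mul, mul_one]
  swap; · left; rw [hA, neg_one_mul, mul_neg_one]
  rcases hX with hX | hX | hX
  swap; · left; rw [hX, one_mul, mul_one]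
  swap; · left; rw [hX, neg_one_mul, mul_neg_one]
  rcases hP with hP | hP | hP
  · right
    have hAA := sq_eq_neg_one dg hA
    have hXX := sq_eq_neg_one dh hX
    have hPP := sq_eq_neg_one dp hP
    have e : X * A = A * (A * X * (A * X)) * X := by
      calc X * A = (A * A) * (X * A) * (X * X) := by
            rw [hAA, hXX, neg_one_mul, mul_neg_one, neg_neg]
        _ = _ := by simp only [mul_assoc]
    rw [e, hPP, mul_neg_one, neg_mul, neg_neg]
  · left; rw [hP, mul_eq_one_comm.mp hP]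
  · left
    have h1 : -A * X = 1 := by rw [neg_mul, hP, neg_neg]
    have h2 := mul_eq_one_comm.mp h1
    rw [mul_neg] at h2
    rw [hP, ← h2, neg_neg]

theorem unit_ne_neg {g : GL (Fin 2) (ZMod 3)} {U : Matrix (Fin 2) (Fin 2) (ZMod 3)} (hU : g.1 = U) :
    U ≠ -U := by
  intro h
  have h3 : ∀ z : ZMod 3, z = -z → z = 0 := by decide
  have h0 : U = 0 := Matrix.ext fun i j => h3 _ (congrFun (congrFun h i) j)
  exact g.ne_zero (hU.trans h0)

/-- The value of a commutator sign. -/
def signVal (g h : GL (Fin 2) (ZMod 3)) : ℂˣ := if g.1 * h.1 = h.1 * g.1 then 1 else -1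

theorem signVal_mul {f g h : GQ} (hf : f ∈ D.galM) (hg : g ∈ D.galM) (hh : h ∈ D.galM) :
    signVal (D.ρ (f * g)) (D.ρ h) = signVal (D.ρ f) (D.ρ h) * signVal (D.ρ g) (D.ρ h) := by
  have hu : ∀ u v : GQ, (D.ρ u).1 * (D.ρ v).1 ≠ -((D.ρ u).1 * (D.ρ v).1) := fun u v =>
    unit_ne_neg (g := D.ρ u * D.ρ v) (Units.val_mul _ _)
  have key : ∀ u, u ∈ D.galM → signVal (D.ρ u) (D.ρ h) = -1 →
      (D.ρ u).1 * (D.ρ h).1 = -((D.ρ h).1 * (D.ρ u).1) := fun u hu' e => by
    refine (comm_or_anti hu' hh).resolve_left fun hc => ?_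
    rw [signVal, if_pos hc] at e
    exact absurd (congrArg Units.val e) (by norm_num)
  have hne : ∀ u, signVal (D.ρ u) (D.ρ h) = 1 → (D.ρ u).1 * (D.ρ h).1 = (D.ρ h).1 * (D.ρ u).1 :=
    fun u e => by
    by_contra hc
    rw [signVal, if_neg hc] at e
    exact absurd (congrArg Units.val e) (by norm_num)
  have hcases : ∀ u, signVal (D.ρ u) (D.ρ h) = 1 ∨ signVal (D.ρ u) (D.ρ h) = -1 := fun u => by
    rw [signVal]; split_ifs <;> simp
  rcases hcases f with e1 | e1 <;> rcases hcases g with e2 | e2 <;> rw [e1, e2]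
  · have := hne f e1; have h2 := hne g e2
    rw [signVal, if_pos (by
      rw [map_mul, Units.val_mul, mul_assoc, h2, ← mul_assoc, this, mul_assoc]), one_mul]
  · have h1 := hne f e1; have h2 := key g hg e2
    rw [signVal, if_neg, one_mul]
    intro hc
    rw [map_mul, Units.val_mul, mul_assoc, h2, mul_neg, ← mul_assoc, h1, mul_assoc] at hc
    exact hu h (f * g) (by simpa [map_mul, Units.val_mul] using hc.symm)
  · have h1 := key f hf e1; have h2 := hne g e2
    rw [signVal, if_neg, mul_one]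
    intro hc
    rw [map_mul, Units.val_mul, mul_assoc, h2, ← mul_assoc, h1, neg_mul, mul_assoc] at hc
    exact hu h (f * g) (by simpa [map_mul, Units.val_mul] using hc.symm)
  · have h1 := key f hf e1; have h2 := key g hg e2
    rw [signVal, if_pos (by
      rw [map_mul, Units.val_mul, mul_assoc, h2, mul_neg, ← mul_assoc, h1, neg_mul, neg_neg,
        mul_assoc]), neg_mul_neg, one_mul]

/-- The character attached to an element of the quaternion part. -/
def signChar (h : GQ) (hh : h ∈ D.galM) : D.M.fixingSubgroup →* ℂˣ :=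
  MonoidHom.mk' (fun g => signVal (D.ρ g) (D.ρ h)) fun f g =>
    signVal_mul ((fixingSubgroup_M D) ▸ f.2) ((fixingSubgroup_M D) ▸ g.2) hh

theorem signChar_sq (h : GQ) (hh : h ∈ D.galM) (g : D.M.fixingSubgroup) :
    signChar h hh g ^ 2 = 1 := by
  show signVal _ _ ^ 2 = 1
  rw [signVal]
  split_ifs <;> simp

/-- The three axes. -/
def axisMat : Fin 3 → Matrix (Fin 2) (Fin 2) (ZMod 3) :=
  ![!![0, 2; 1, 0], !![1, 1; 1, 2], !![2, 1; 1, 1]]

theorem axisMat_spec : ∀ i, (axisMat i).det = 1 ∧ (axisMat i).trace = 0 := by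
  intro i
  fin_cases i <;> simp [axisMat, Matrix.det_fin_two, Matrix.trace_fin_two] <;> decide

theorem entries_axes : ∀ a b c d : ZMod 3, a * d - b * c = 1 → a + d = 0 →
    (if !![a, b; c, d] * axisMat 0 = axisMat 0 * !![a, b; c, d] then (1 : ℤ) else -1) +
    (if !![a, b; c, d] * axisMat 1 = axisMat 1 * !![a, b; c, d] then (1 : ℤ) else -1) +
    (if !![a, b; c, d] * axisMat 2 = axisMat 2 * !![a, b; c, d] then (1 : ℤ) else -1) = -1 := by
  decide +kernel

/-- The signs on the axes add up to `3` on the centre and to `-1` elsewhere. -/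
theorem sum_signVal {g : GQ} (hg : g ∈ D.galM) {x : Fin 3 → GQ}
    (hx : ∀ i, (D.ρ (x i)).1 = axisMat i) :
    ((D.ρ g).1 = 1 ∨ (D.ρ g).1 = -1) ∧ trLift (D.ρ g) ^ 2 = 4 ∧
        (∑ i, (signVal (D.ρ g) (D.ρ (x i)) : ℂ)) = 3 ∨
      trLift (D.ρ g) = 0 ∧ (∑ i, (signVal (D.ρ g) (D.ρ (x i)) : ℂ)) = -1 := by
  obtain ⟨hd, h⟩ := (mem_galM D).mp hg
  by_cases hc : (D.ρ g).1 = 1 ∨ (D.ρ g).1 = -1
  · refine Or.inl ⟨hc, ?_, ?_⟩
    · rcases hc with hc | hc
      · rw [trLift, if_pos hd, if_pos hc]; norm_num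
      · rw [trLift, if_pos hd, if_neg, if_pos hc]
        · norm_num
        · rw [hc]; decide
    · have e : ∀ i, signVal (D.ρ g) (D.ρ (x i)) = 1 := fun i => by
        rw [signVal, if_pos]
        rcases hc with hc | hc <;> simp [hc]
      simp [e]
  · rw [not_or] at hc
    have ht : (D.ρ g).1.trace = 0 := h.resolve_right (not_or.mpr hc)
    refine Or.inr ⟨by rw [trLift, if_pos hd, if_neg hc.1, if_neg hc.2, if_pos ht], ?_⟩
    have he : ∀ i, (signVal (D.ρ g) (D.ρ (x i)) : ℂ)
        = ((if (D.ρ g).1 * axisMat i = axisMat i * (D.ρ g).1 then (1 : ℤ) else -1 : ℤ) : ℂ) :=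
          fun i => by
      rw [signVal, hx]; split_ifs <;> simp
    simp only [he, Fin.sum_univ_three, ← Int.cast_add]
    rw [eta_fin_two (D.ρ g).1]
    rw [det_fin_two] at hd
    rw [trace_fin_two] at ht
    rw [entries_axes _ _ _ _ hd ht]
    simp

theorem axis_sign {x : GQ} : signVal (D.ρ x) (D.ρ x) = 1 := if_pos rfl

end FLTAgent.LanglandsTunnell.Killing
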