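import Fermat.Agent.LanglandsTunnell.Killing.Growth
import Fermat.Agent.LanglandsTunnell.Killing.ConstantTerm

/-!
# Smoothing gains one power of the height on cuspidal functions

Applying a Lipschitz point pair invariant to a cuspidal function lowers its exponent of growth at
the cusp by one (`exists_gain`, iterated in `exists_gain_iterate`). `pw` is the convolution power
realising the iteration.
-/

set_option autoImplicit false

noncomputable section

open NumberField Matrix MeasureTheory Filter Function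

namespace FLTAgent.LanglandsTunnell.Killing

open FLTAgent.LanglandsTunnell.Geom (BIdx)
open FLTAgent.LanglandsTunnell.Trace (continuous_h3conv hasCompactSupport_h3conv)

variable {F : Type} [Field F] [NumberField F] {ι : Type} [Fintype ι] {n : Ideal (𝓞 F)}

/-- Invariants at infinity applied on each sheet. -/
def infApply (g : ι → ℝ → ℂ) (f : Pt F ι n → ℂ) (x : Pt F ι n) : ℂ :=
  infOp g (fun Q => f (x.1, Q)) x.2

/-- The combination with the empty word. -/
def single (g : ι → ℝ → ℂ) : Comb F ι := [⟨1, [], g⟩]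

omit [NumberField F] [Fintype ι] in
theorem fine_single {g : ι → ℝ → ℂ} (hg : WeightsOK g) : Fine n (single (F := F) g) := by
  intro T hT
  rw [single, List.mem_singleton] at hT
  subst hT
  exact ⟨hg, fun w hw => absurd hw List.not_mem_nil⟩

theorem op_single (hn : n ≠ ⊥) {g : ι → ℝ → ℂ} (hg : WeightsOK g) {f : Pt F ι n → ℂ} (hf : LocI f) :
    Kernel.op ((single g).kernel n) f = infApply g f := by
  funext x
  rw [op_kernel hn (fine_single hg) hf]
  simp [single, wordSum_nil, infApply]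

variable {Φ : PlaceChoice F ι}

theorem InvCts.infApply (hn : n ≠ ⊥) {g : ι → ℝ → ℂ} (hg : WeightsOK g) {f : Pt F ι n → ℂ}
    (hf : InvCts Φ f) : InvCts Φ (Killing.infApply g f) := by
  have hloc := LocI.of_continuous hf.continuous
  rw [← op_single hn hg hloc]
  exact ⟨op_invariant Φ hn _ hf.invariant, continuous_op hn (fine_single hg) hloc⟩

theorem isCuspidal_infApply {g : ι → ℝ → ℂ} (hg : WeightsOK g) {f : Pt F ι n → ℂ}
    (hc : ∀ v, Continuous fun P : ι → H3 => f (v, P)) (hf : IsCuspidal Φ f) :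
    IsCuspidal Φ (infApply g f) := by
  rw [isCuspidal_iff]
  intro v P m hm hfix
  rw [ctMean]
  simp only [infApply]
  rw [boxMean_infOp hg (hc v) (continuous_latVec Φ m)]
  have e : ∀ Q : ι → H3, boxMean (fun s => f (v, shiftPt (latVec Φ m s) Q)) = 0 := fun Q =>
    hf v Q m hm hfix
  simp [e, infOp]

/-- Weights which are Lipschitz. -/
def LipW (g : ι → ℝ → ℂ) : Prop := ∀ i, ∃ L : ℝ, 0 ≤ L ∧ ∀ a b, ‖g i a - g i b‖ ≤ L * |a - b|

omit [Fintype ι] in
theorem norm_prod_sub_prod_le {s : Finset ι} {a b : ι → ℂ} {M : ℝ} (hM : 1 ≤ M)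
    (ha : ∀ i, ‖a i‖ ≤ M) (hb : ∀ i, ‖b i‖ ≤ M) :
    ‖∏ i ∈ s, a i - ∏ i ∈ s, b i‖ ≤ M ^ s.card * ∑ i ∈ s, ‖a i - b i‖ := by
  classical
  induction s using Finset.induction_on with
  | empty => simp
  | insert j s hj ih =>
    rw [Finset.prod_insert hj, Finset.prod_insert hj, Finset.sum_insert hj,
      Finset.card_insert_of_notMem hj,
      show a j * ∏ i ∈ s, a i - b j * ∏ i ∈ s, b i
        = (a j - b j) * ∏ i ∈ s, a i + b j * (∏ i ∈ s, a i - ∏ i ∈ s, b i) by ring]
    refine (norm_add_le _ _).trans ?_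
    rw [norm_mul, norm_mul, norm_prod]
    have h1 : ∏ i ∈ s, ‖a i‖ ≤ M ^ s.card := by
      rw [← Finset.prod_const]
      exact Finset.prod_le_prod (fun i _ => norm_nonneg _) fun i _ => ha i
    have h2 : ‖b j‖ * ‖∏ i ∈ s, a i - ∏ i ∈ s, b i‖
        ≤ M * (M ^ s.card * ∑ i ∈ s, ‖a i - b i‖) :=
      mul_le_mul (hb j) ih (norm_nonneg _) (zero_le_one.trans hM)
    have h3 : ‖a j - b j‖ * ∏ i ∈ s, ‖a i‖ ≤ ‖a j - b j‖ * M ^ (s.card + 1) :=
      mul_le_mul_of_nonneg_left (h1.trans (pow_le_pow_right₀ hM (Nat.le_succ _))) (norm_nonneg _)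
    rw [pow_succ] at h3 ⊢
    nlinarith [h2, h3]

/-- Translating a point changes its hyperbolic cosines by at most the inverse height. -/
theorem abs_coshDist_shift_le {P Q : H3} {x : ℂ} {R D c : ℝ} (hc : 0 < c) (hP : c ≤ P.t)
    (hQ : H3.coshDist P Q ≤ R) (hx : ‖x‖ ≤ D) :
    |H3.coshDist (H3.shift x P) Q - H3.coshDist P Q| ≤ D * R * (4 * R + D / c) / P.t := by
  obtain ⟨-, h2, h3, hR⟩ := coshDist_bounds hQ
  have ht := P.t_pos
  have hQt := Q.t_pos
  have hD : 0 ≤ D := (norm_nonneg x).trans hx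
  have e : H3.coshDist (H3.shift x P) Q - H3.coshDist P Q
      = (‖P.z - Q.z + x‖ - ‖P.z - Q.z‖) * (‖P.z - Q.z + x‖ + ‖P.z - Q.z‖) / (2 * P.t * Q.t) := by
    simp only [H3.coshDist, H3.shift, show P.z + x - Q.z = P.z - Q.z + x by ring]
    field_simp
    ring
  rw [norm_sub_rev] at h3
  have hd : |‖P.z - Q.z + x‖ - ‖P.z - Q.z‖| ≤ D :=
    (abs_norm_sub_norm_le _ _).trans (by simpa using hx)
  have hs : ‖P.z - Q.z + x‖ + ‖P.z - Q.z‖ ≤ 4 * R * P.t + D := by
    linarith [norm_add_le (P.z - Q.z) x]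
  rw [e, abs_div, abs_mul, abs_of_pos (by positivity : 0 < 2 * P.t * Q.t),
    abs_of_nonneg (by positivity : 0 ≤ ‖P.z - Q.z + x‖ + ‖P.z - Q.z‖)]
  calc |‖P.z - Q.z + x‖ - ‖P.z - Q.z‖| * (‖P.z - Q.z + x‖ + ‖P.z - Q.z‖) / (2 * P.t * Q.t)
      ≤ D * (4 * R * P.t + D) / (2 * P.t * Q.t) := by gcongr
    _ ≤ D * ((4 * R + D / c) * P.t) / (P.t * P.t / R) := by
        have h5 : D ≤ D / c * P.t := by
          rw [div_mul_eq_mul_div, le_div_iff₀ hc]
          exact mul_le_mul_of_nonneg_left hP hD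
        refine div_le_div₀ (by positivity) (mul_le_mul_of_nonneg_left (by linarith) hD)
          (by positivity) ?_
        rw [div_le_iff₀ (by linarith)]
        nlinarith [mul_le_mul_of_nonneg_left h2 ht.le]
    _ = D * R * (4 * R + D / c) / P.t := by field_simp

omit [Fintype ι] in
theorem Reg.of_near {P Q : ι → H3} {c B R : ℝ} (hP : Reg c B P) (hR : 1 ≤ R) (hB : 0 ≤ B)
    (hQ : Q ∈ ballPi P R) : Reg (c / (2 * R)) (4 * R ^ 2 * B) Q := by
  intro i
  obtain ⟨-, a2, -, -⟩ := coshDist_bounds (hQ i)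
  refine ⟨?_, fun j => ?_⟩
  · rw [div_le_iff₀ (by linarith)]
    linarith [(hP i).1]
  · obtain ⟨a1, -, -, -⟩ := coshDist_bounds (hQ i)
    obtain ⟨-, b2, -, -⟩ := coshDist_bounds (hQ j)
    refine a1.trans ?_
    calc 2 * R * (P i).t ≤ 2 * R * (B * (P j).t) :=
          mul_le_mul_of_nonneg_left ((hP i).2 j) (by linarith)
      _ ≤ 2 * R * (B * (2 * R * (Q j).t)) := by gcongr
      _ = 4 * R ^ 2 * B * (Q j).t := by ring

theorem heightSum_near {P Q : ι → H3} {R : ℝ} (hQ : Q ∈ ballPi P R) :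
    heightSum Q ≤ 2 * R * heightSum P := by
  rw [heightSum, heightSum, Finset.mul_sum]
  exact Finset.sum_le_sum fun i _ => (coshDist_bounds (hQ i)).1

theorem inv_t_le {P : ι → H3} {c B : ℝ} (hP : Reg c B P) (i : ι) :
    (P i).t⁻¹ ≤ Fintype.card ι * B / heightSum P := by
  have hh : 0 < heightSum P := lt_of_lt_of_le (P i).t_pos (t_le_heightSum P i)
  rw [le_div_iff₀ hh, inv_mul_le_iff₀ (P i).t_pos]
  calc heightSum P ≤ ∑ _j : ι, B * (P i).t := Finset.sum_le_sum fun j _ => (hP j).2 i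
    _ = (P i).t * (Fintype.card ι * B) := by simp; ring

/-- The gain of one application. -/
theorem exists_gain (hn : n ≠ ⊥) {g : ι → ℝ → ℂ} (hg : WeightsOK g) (hL : LipW g) (v : FinPt F n)
    {c : ℝ} (hc : 0 < c) {B : ℝ} (hB : 0 ≤ B) (e : ℕ) :
    ∃ c' B' κ : ℝ, 0 < c' ∧ 0 ≤ B' ∧ 0 ≤ κ ∧ ∀ f : Pt F ι n → ℂ,
      (∀ u, Continuous fun P : ι → H3 => f (u, P)) → IsCuspidal Φ f → ∀ A, 0 ≤ A →
      (∀ P, Reg c' B' P → ‖f (v, P)‖ ≤ A * heightSum P ^ (e + 1)) →
      ∀ P, Reg c B P → ‖infApply g f (v, P)‖ ≤ κ * A * heightSum P ^ e := by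
  obtain ⟨R₀, hR₀⟩ := exists_radii (fun i => (hg i).2)
  set R := max R₀ 1
  have hR1 : 1 ≤ R := le_max_right _ _
  obtain ⟨m, hm, hfix⟩ := exists_fixesUnip hn v
  set box := Set.univ.pi fun _ : BIdx F => Set.Icc (0 : ℝ) 1
  have hbox : IsCompact box := isCompact_univ_pi fun _ => isCompact_Icc
  choose D hD using fun i =>
    hbox.exists_bound_of_continuousOn ((continuous_apply i).comp
      (continuous_latVec Φ m)).continuousOn
  choose L hL0 hLb using hL
  choose M hM using fun i => (hg i).1.bounded_above_of_compact_support (hg i).2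
  set M₀ : ℝ := 1 + ∑ i, |M i| with hM₀
  have hM1 : 1 ≤ M₀ := le_add_of_nonneg_right (Finset.sum_nonneg fun i _ => abs_nonneg _)
  have hMb : ∀ i a, ‖g i a‖ ≤ M₀ := fun i a => (hM i a).trans ((le_abs_self _).trans
    ((Finset.single_le_sum (f := fun j => |M j|) (fun j _ => abs_nonneg _)
      (Finset.mem_univ i)).trans
      (le_add_of_nonneg_left zero_le_one)))
  obtain ⟨V, hV0, hV⟩ := exists_vol_ballPi (ι := ι) R
  set W : ℝ := M₀ ^ Fintype.card ι *
    ∑ i, L i * (|D i| * R * (4 * R + |D i| / c)) * (Fintype.card ι * B)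
  have hW : 0 ≤ W := mul_nonneg (by positivity) (Finset.sum_nonneg fun i _ => by
    have := hL0 i; positivity)
  refine ⟨c / (2 * R), 4 * R ^ 2 * B, W * (2 * V) * (2 * R) ^ (e + 1), by positivity, by positivity,
    by positivity, fun f hfc hf A hA hbd P hP => ?_⟩
  by_cases hι : IsEmpty ι
  · have : IsEmpty ι := hι
    exfalso
    exact (FLTAgent.LanglandsTunnell.Geom.placeEquiv Φ).symm.nonempty_congr.mp inferInstance |>.elim
      fun i => hι.false i
  have : Nonempty ι := not_isEmpty_iff.mp hι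
  have hh : 0 < heightSum P := Finset.sum_pos (fun i _ => (P i).t_pos) Finset.univ_nonempty
  set G : (ι → H3) → ℂ := infOp g fun Q => f (v, Q)
  set H := A * (2 * R * heightSum P) ^ (e + 1)
  have hH : 0 ≤ H := mul_nonneg hA (pow_nonneg (by positivity) _)
  have hpt : ∀ s ∈ box, ‖G P - G (shiftPt (latVec Φ m s) P)‖
      ≤ W / heightSum P * H * (2 * V) := by
    intro s hs
    set x := latVec Φ m s with hx
    set P' := shiftPt x P with hP'
    have hxD : ∀ i, ‖x i‖ ≤ |D i| := fun i => (hD i s hs).trans (le_abs_self _)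
    have hzero : ∀ (P₁ : ι → H3) (Q : ι → H3), Q ∉ ballPi P₁ R → infKer g P₁ Q = 0 :=
      fun P₁ Q hQ => by
        by_contra hne
        exact hQ fun i => (hR₀ P₁ Q hne i).trans (le_max_left _ _)
    have hti : ∀ i, (P' i).t = (P i).t := fun i => rfl
    have hP'r : Reg c B P' := fun i => ⟨(hP i).1, fun j => (hP i).2 j⟩
    have hsum : heightSum P' = heightSum P := rfl
    have hker : ∀ Q ∈ ballPi P R ∪ ballPi P' R,
        ‖infKer g P Q - infKer g P' Q‖ ≤ W / heightSum P := by
      intro Q hQ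
      refine (norm_prod_sub_prod_le hM1 (fun i => hMb i _) fun i => hMb i _).trans ?_
      rw [Finset.card_univ, mul_div_assoc, Finset.sum_div]
      refine mul_le_mul_of_nonneg_left (Finset.sum_le_sum fun i _ => ?_) (by positivity)
      refine (hLb i _ _).trans ?_
      rw [mul_assoc, mul_div_assoc]
      refine mul_le_mul_of_nonneg_left ?_ (hL0 i)
      refine le_trans ?_ (le_of_le_of_eq (mul_le_mul_of_nonneg_left (inv_t_le hP i)
        (by positivity : (0 : ℝ) ≤ |D i| * R * (4 * R + |D i| / c))) (mul_div_assoc _ _ _).symm)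
      rw [← div_eq_mul_inv, abs_sub_comm]
      rcases hQ with hQ | hQ
      · exact abs_coshDist_shift_le hc (hP i).1 (hQ i) (hxD i)
      · have h := abs_coshDist_shift_le (P := P' i) (x := -x i) (D := |D i|) hc (hP i).1 (hQ i)
          (by rw [norm_neg]; exact hxD i)
        rw [show H3.shift (-x i) (P' i) = P i by ext <;> simp [hP', shiftPt, H3.shift],
          abs_sub_comm, hti] at h
        exact h
    have hint : ∀ P₁, Integrable (fun Q => infKer g P₁ Q * f (v, Q)) (volPi ι) := fun P₁ =>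
      integrable_infKer_mul hg (hfc v).locallyIntegrable P₁
    have hms : MeasurableSet (ballPi P R ∪ ballPi P' R) :=
      (measurableSet_ballPi P R).union (measurableSet_ballPi P' R)
    simp only [G, infOp]
    rw [← integral_sub (hint P) (hint P'), ← setIntegral_eq_integral_of_forall_compl_eq_zero
      (s := ballPi P R ∪ ballPi P' R) fun Q hQ => by
        rw [Set.mem_union, not_or] at hQ
        rw [hzero P Q hQ.1, hzero P' Q hQ.2, zero_mul, sub_zero]]
    have hvol : volPi ι (ballPi P R ∪ ballPi P' R) ≤ ENNReal.ofReal (2 * V) := by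
      rw [two_mul, ENNReal.ofReal_add hV0 hV0]
      exact (measure_union_le _ _).trans (add_le_add (hV P) (hV P'))
    refine (norm_setIntegral_le_of_norm_le_const (lt_of_le_of_lt hvol ENNReal.ofReal_lt_top)
      (C := W / heightSum P * H) fun Q hQ => ?_).trans ?_
    · rw [← sub_mul, norm_mul]
      refine mul_le_mul (hker Q hQ) ?_ (norm_nonneg _) (by positivity)
      rcases hQ with hQ' | hQ'
      · exact (hbd Q (hP.of_near hR1 hB hQ')).trans (mul_le_mul_of_nonneg_left
          (pow_le_pow_left₀ (heightSum_nonneg _) (heightSum_near hQ') _) hA)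
      · exact (hbd Q (hP'r.of_near hR1 hB hQ')).trans (mul_le_mul_of_nonneg_left
          (pow_le_pow_left₀ (heightSum_nonneg _) (hsum ▸ heightSum_near hQ') _) hA)
    · exact mul_le_mul_of_nonneg_left ((ENNReal.toReal_mono ENNReal.ofReal_ne_top hvol).trans_eq
        (ENNReal.toReal_ofReal (by positivity))) (by positivity)
  have hcGc : Continuous fun s => G (shiftPt (latVec Φ m s) P) :=
    (continuous_infOp hg (hfc v).locallyIntegrable).comp
      (continuous_shiftPt.comp ((continuous_latVec Φ m).prodMk continuous_const))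
  have hmean : boxMean (fun s => G (shiftPt (latVec Φ m s) P)) = 0 := by
    simp only [G]
    rw [boxMean_infOp hg (hfc v) (continuous_latVec Φ m)]
    have e0 : ∀ Q : ι → H3, boxMean (fun s => f (v, shiftPt (latVec Φ m s) Q)) = 0 := fun Q =>
      hf v Q m hm hfix
    simp [e0, infOp]
  have hG : G P = ∫ s in box, (G P - G (shiftPt (latVec Φ m s) P)) := by
    have hGc : IntegrableOn (fun _ : BIdx F → ℝ => G P) box volume :=
      continuousOn_const.integrableOn_compact hbox
    rw [integral_sub hGc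
      (hcGc.continuousOn.integrableOn_compact hbox)]
    change G P = boxMean (fun _ => G P) - boxMean fun s => G (shiftPt (latVec Φ m s) P)
    rw [boxMean_const, hmean, sub_zero]
  show ‖G P‖ ≤ _
  rw [hG]
  refine (norm_setIntegral_le_of_norm_le_const hbox.measure_lt_top hpt).trans_eq ?_
  rw [measureReal_def, volume_box, ENNReal.toReal_one, mul_one]
  simp only [H]
  rw [pow_succ, pow_succ, mul_pow]
  field_simp

/-- The gain of iterated applications. -/
theorem exists_gain_iterate (hn : n ≠ ⊥) {g : ι → ℝ → ℂ} (hg : WeightsOK g) (hL : LipW g)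
    (v : FinPt F n) (k : ℕ) : ∀ {c : ℝ}, 0 < c → ∀ {B : ℝ}, 0 ≤ B → ∀ e : ℕ,
      ∃ c' B' κ : ℝ, 0 < c' ∧ 0 ≤ B' ∧ 0 ≤ κ ∧ ∀ f : Pt F ι n → ℂ, InvCts Φ f → IsCuspidal Φ f →
        ∀ A, 0 ≤ A → (∀ P, Reg c' B' P → ‖f (v, P)‖ ≤ A * heightSum P ^ (e + k)) →
        ∀ P, Reg c B P → ‖(infApply g)^[k] f (v, P)‖ ≤ κ * A * heightSum P ^ e := by
  induction k with
  | zero =>
    intro c hc B hB e
    exact ⟨c, B, 1, hc, hB, zero_le_one, fun f _ _ A _ h P hP => by simpa using h P hP⟩
  | succ k ih =>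
    intro c hc B hB e
    obtain ⟨c₁, B₁, κ₁, hc₁, hB₁, hκ₁, h₁⟩ := exists_gain (Φ := Φ) hn hg hL v hc hB e
    obtain ⟨c₂, B₂, κ₂, hc₂, hB₂, hκ₂, h₂⟩ := ih hc₁ hB₁ (e + 1)
    refine ⟨c₂, B₂, κ₁ * κ₂, hc₂, hB₂, by positivity, fun f hf hcu A hA h P hP => ?_⟩
    have hit : InvCts Φ ((infApply g)^[k] f) ∧ IsCuspidal Φ ((infApply g)^[k] f) := by
      clear ih h₁ h₂ h
      induction k with
      | zero => exact ⟨hf, hcu⟩
      | succ j ihj =>
        rw [Function.iterate_succ_apply']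
        exact ⟨ihj.1.infApply hn hg, isCuspidal_infApply hg ihj.1.continuous ihj.2⟩
    rw [Function.iterate_succ_apply', mul_assoc κ₁]
    exact h₁ _ hit.1.continuous hit.2 (κ₂ * A) (by positivity)
      (h₂ f hf hcu A hA fun Q hQ => by
        rw [show e + 1 + k = e + (k + 1) by ring]; exact h Q hQ) P hP

/-! ### Powers -/

/-- `pw β k` is the `(k + 1)`-fold convolution power. -/
def pw (β : ℝ → ℂ) : ℕ → ℝ → ℂ
  | 0 => β
  | k + 1 => h3conv (pw β k) β

theorem pw_ok {β : ℝ → ℂ} (hc : Continuous β) (hs : HasCompactSupport β) :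
    ∀ k, Continuous (pw β k) ∧ HasCompactSupport (pw β k)
  | 0 => ⟨hc, hs⟩
  | k + 1 => ⟨continuous_h3conv (pw_ok hc hs k).1 (pw_ok hc hs k).2 hc,
      hasCompactSupport_h3conv (pw_ok hc hs k).2 hs⟩

omit [NumberField F] in
theorem infApply_pw {β : ℝ → ℂ} (hc : Continuous β) (hs : HasCompactSupport β) (hn : n ≠ ⊥) :
    ∀ (k : ℕ) (f : Pt F ι n → ℂ), LocI f →
      infApply (fun _ => pw β k) f = (infApply fun _ => β)^[k + 1] f
  | 0, f, _ => rfl
  | k + 1, f, hf => by
    have hw : WeightsOK fun _ : ι => β := fun _ => ⟨hc, hs⟩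
    have hwk : WeightsOK fun _ : ι => pw β k := fun _ => pw_ok hc hs k
    have hf' : LocI (infApply (fun _ : ι => β) f) :=
      LocI.of_continuous fun u => continuous_infOp hw (hf u)
    rw [Function.iterate_succ_apply, ← infApply_pw hc hs hn k _ hf']
    funext x
    show infOp _ _ x.2 = infOp _ (fun Q => infOp _ (fun R => f (x.1, R)) Q) x.2
    rw [infOp_infOp hwk hw (hf x.1)]
    refine Eq.symm ?_
    have e : ∀ Q, infKer (fun _ : ι => cconv (pw β k) β) x.2 Q
        = infKer (fun _ : ι => pw β (k + 1)) x.2 Q := fun Q =>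
      Finset.prod_congr rfl fun i _ => cconv_eq _ _ (H3.one_le_coshDist _ _)
    simp only [infOp, e]

end FLTAgent.LanglandsTunnell.Killing
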