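import Fermat.Agent.LanglandsTunnell.Killing.Algebra
import Fermat.Agent.LanglandsTunnell.Killing.ConstantTerm

/-!
# A vanishing image kills constant terms

`KillData` turns a formal combination into Hecke words with weights (`KillData.termsOf`). If the
relations act trivially on a constant term, the image of the combination in the group algebra
vanishes, and the weights act radially by shifted averages (`Radial`), then the constant term
of the result vanishes (`KillData.isCuspidal_termsOf`).
-/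

set_option autoImplicit false

noncomputable section

open NumberField MeasureTheory Matrix Filter Function

namespace FLTAgent.LanglandsTunnell.Killing

open FLTAgent.LanglandsTunnell.Geom (wordKernel_smul)

theorem signSum_perm {X Q : Type*} [AddCommGroup Q] (e : X → Q) (Ψ : Q → ℂ) {l l' : List X}
    (h : l.Perm l') (q : Q) : signSum e Ψ l q = signSum e Ψ l' q := by
  rw [← pair_mul_single_list e Ψ l q, ← pair_mul_single_list e Ψ l' q, (h.map _).prod_eq]

variable {F : Type} [Field F] [NumberField F] {ι : Type} [Fintype ι] {n : Ideal (𝓞 F)}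

theorem wordSum_unip (ws : List (Ideal (𝓞 F))) {c : FinPt F n → ℂ}
    (hc : ∀ (b : AF F) v, c (upperUnip b • v) = c v) (b : AF F) (v : FinPt F n) :
    wordSum n ws (upperUnip b • v) c = wordSum n ws v c := by
  rw [wordSum, ← finsum_comp_equiv (MulAction.toPerm (upperUnip b))]
  simp only [MulAction.toPerm_apply, wordKernel_smul, hc]
  rfl

/-- Density of a product of shifted bases. -/
def avgShift {κ : Type} [Fintype κ] (G₀ : ℝ → ℝ) (σ s : κ → ℝ) : ℂ :=
  ∏ j, (((G₀ (s j - σ j) + G₀ (s j + σ j)) / 2 : ℝ) : ℂ)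

theorem avgShift_eq {κ : Type} [Fintype κ] [DecidableEq κ] (G₀ : ℝ → ℝ) (σ s : κ → ℝ) :
    avgShift G₀ σ s
      = ((1 / 2 : ℂ) ^ Fintype.card κ) *
        ∑ ε : κ → Bool, ∏ j, (G₀ (s j - flipVec ε σ j) : ℂ) := by
  have h : ∀ j, (((G₀ (s j - σ j) + G₀ (s j + σ j)) / 2 : ℝ) : ℂ)
      = (1 / 2 : ℂ) * ∑ b : Bool, (G₀ (s j - if b then -σ j else σ j) : ℂ) := fun j => by
    simp only [Fintype.sum_bool, if_true, Bool.false_eq_true, if_false, sub_neg_eq_add]
    push_cast; ring
  rw [avgShift, Finset.prod_congr rfl fun j _ => h j, Finset.prod_mul_distrib, Finset.prod_const,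
    Finset.card_univ, Fintype.prod_sum]
  rfl

/-- The way weights act on functions of the heights. -/
def Radial {κ : Type} [Fintype κ] (g : ι → ℝ → ℂ) (D : (κ → ℝ) → ℂ)
    (L : (κ → ℝ) →L[ℝ] ι → ℝ) : Prop :=
  ∀ c : (ι → ℝ) → ℂ, Continuous c → ∀ ξ : ι → ℝ,
    infOp g (fun Q => c fun i => Real.log (Q i).t) (axisPts ξ)
      = ∫ s : κ → ℝ, D s * (Real.exp (-∑ i, L s i) : ℂ) * c (ξ + L s)

/-- The abstract data. -/
structure KillData (n : Ideal (𝓞 F)) (ι : Type) [Fintype ι] (X κ Q : Type) [AddCommGroup Q] where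
  prime : X → Ideal (𝓞 F)
  ok : ∀ x, OKPrime n (prime x)
  unif : X → (AF F)ˣ
  isUnif : ∀ x, IsUniformizerAt n (prime x) (unif x)
  e : X → Q
  S : (κ → ℝ) →+ Q
  L : (κ → ℝ) →L[ℝ] ι → ℝ

namespace KillData

variable {X κ Q : Type} [AddCommGroup Q] [Fintype κ] (K : KillData n ι X κ Q)

/-- The image of an exponent and a shift. -/
def img (k : X →₀ ℤ) (s : κ → ℝ) : Q := (k.sum fun x z => z • K.e x) + K.S s

/-- The idele. -/
def piPow (k : X →₀ ℤ) : (AF F)ˣ := k.prod fun x z => K.unif x ^ z

/-- The normalising factor. -/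
def scale (k : X →₀ ℤ) (s : κ → ℝ) : ℂ :=
  ((k.prod fun x z => Real.sqrt (Ideal.absNorm (K.prime x)) ^ z : ℝ) : ℂ)
    * (Real.exp (-∑ i, K.L s i) : ℂ)

/-- The transformed function. -/
def moved (c : FinPt F n → (ι → ℝ) → ℂ) (v : FinPt F n) (ξ : ι → ℝ) (k : X →₀ ℤ) (s : κ → ℝ) : ℂ :=
  K.scale k s * c (diagUnit (K.piPow k) • v) (ξ + K.L s)

/-- Functions on which the relations act trivially. -/
def Respects (c : FinPt F n → (ι → ℝ) → ℂ) : Prop :=
  ∀ k s, K.img k s = 0 → ∀ v ξ, K.moved c v ξ k s = c v ξ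

omit [Fintype κ] in
theorem sqrt_absNorm_pos (x : X) : 0 < Real.sqrt (Ideal.absNorm (K.prime x)) :=
  Real.sqrt_pos.mpr (Nat.cast_pos.mpr (Nat.pos_of_ne_zero (absNorm_ne_zero (K.ok x).2.1)))

omit [NumberField F] [Fintype κ] in
theorem piPow_add (k k' : X →₀ ℤ) : K.piPow (k + k') = K.piPow k * K.piPow k' :=
  Finsupp.prod_add_index' (fun _ => zpow_zero _) fun _ => zpow_add _

omit [Fintype κ] in
theorem scale_add (k k' : X →₀ ℤ) (s s' : κ → ℝ) :
    K.scale (k + k') (s + s') = K.scale k s * K.scale k' s' := by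
  simp only [scale, map_add, Pi.add_apply, Finset.sum_add_distrib, neg_add, Real.exp_add]
  rw [Finsupp.prod_add_index' (fun _ => zpow_zero _)
    fun x => zpow_add₀ (K.sqrt_absNorm_pos x).ne']
  push_cast
  ring

omit [NumberField F] [Fintype κ] in
theorem img_add (k k' : X →₀ ℤ) (s s' : κ → ℝ) :
    K.img (k + k') (s + s') = K.img k s + K.img k' s' := by
  simp only [img, map_add]
  rw [Finsupp.sum_add_index' (fun _ => zero_zsmul _) fun _ _ _ => add_zsmul _ _ _]
  abel

omit [NumberField F] [Fintype κ] in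
theorem img_single (x : X) (z : ℤ) : K.img (Finsupp.single x z) 0 = z • K.e x := by
  simp [img]

omit [Fintype κ] in
theorem moved_congr {c : FinPt F n → (ι → ℝ) → ℂ} (hc : K.Respects c) {k k' : X →₀ ℤ}
    {s s' : κ → ℝ} (h : K.img k s = K.img k' s') (v : FinPt F n) (ξ : ι → ℝ) :
    K.moved c v ξ k s = K.moved c v ξ k' s' := by
  obtain ⟨d, rfl⟩ : ∃ d, k = d + k' := ⟨k - k', (sub_add_cancel k k').symm⟩
  obtain ⟨t, rfl⟩ : ∃ t, s = t + s' := ⟨s - s', (sub_add_cancel s s').symm⟩
  rw [K.img_add] at h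
  have h0 := hc d t (add_eq_right.mp h) (diagUnit (K.piPow k') • v) (ξ + K.L s')
  simp only [moved, K.scale_add, K.piPow_add, FLTAgent.LanglandsTunnell.diagUnit_mul, ← smul_smul]
  simp only [moved] at h0
  rw [map_add, mul_comm (K.scale d t), mul_assoc, add_comm (K.L t), ← add_assoc, h0]

/-- The function on the quotient. -/
def psi (c : FinPt F n → (ι → ℝ) → ℂ) (v : FinPt F n) (ξ : ι → ℝ) (q : Q) : ℂ := by
  classical
  exact if h : ∃ p : (X →₀ ℤ) × (κ → ℝ), K.img p.1 p.2 = q then
    K.moved c v ξ h.choose.1 h.choose.2 else 0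

omit [Fintype κ] in
theorem psi_img {c : FinPt F n → (ι → ℝ) → ℂ} (hc : K.Respects c) (v : FinPt F n) (ξ : ι → ℝ)
    (k : X →₀ ℤ) (s : κ → ℝ) : K.psi c v ξ (K.img k s) = K.moved c v ξ k s := by
  have h : ∃ p : (X →₀ ℤ) × (κ → ℝ), K.img p.1 p.2 = K.img k s := ⟨(k, s), rfl⟩
  rw [psi, dif_pos h]
  exact K.moved_congr hc h.choose_spec v ξ

/-- The product of the normalising square roots of a word. -/
def wordScale (l : List X) : ℂ :=
  (l.map fun x => (Real.sqrt (Ideal.absNorm (K.prime x)) : ℂ)).prod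

omit [Fintype κ] in
theorem wordScale_ne_zero (l : List X) : K.wordScale l ≠ 0 :=
  List.prod_ne_zero (by
    simp only [List.mem_map, not_exists, not_and]
    exact fun x _ h => (K.sqrt_absNorm_pos x).ne' (Complex.ofReal_eq_zero.mp h))

omit [Fintype κ] in
theorem wordScale_perm {l l' : List X} (h : l.Perm l') : K.wordScale l = K.wordScale l' :=
  (h.map _).prod_eq

omit [Fintype κ] in
theorem word_moved (hn : n ≠ ⊥) {c : FinPt F n → (ι → ℝ) → ℂ}
    (hcu : ∀ (b : AF F) v ξ, c (upperUnip b • v) ξ = c v ξ) (hc : K.Respects c) (v : FinPt F n)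
    (ξ : ι → ℝ) (s : κ → ℝ) (l : List X) (k : X →₀ ℤ) :
    K.scale k s * wordSum n (l.map K.prime) (diagUnit (K.piPow k) • v) (fun u => c u (ξ + K.L s))
      = K.wordScale l * signSum K.e (K.psi c v ξ) l (K.img k s) := by
  induction l generalizing k with
  | nil =>
    rw [List.map_nil, wordSum_nil, signSum, K.psi_img hc, wordScale]
    simp [moved]
  | cons x l ih =>
    have hok : ∀ w ∈ l.map K.prime, OKPrime n w := fun w hw => by
      obtain ⟨y, -, rfl⟩ := List.mem_map.mp hw; exact K.ok y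
    rw [List.map_cons, wordSum_cons hn (K.ok x) hok,
      finsum_nbrs_of_unip (K.ok x).1 (K.ok x).2.1 (K.ok x).2.2 (K.isUnif x)
        (fun b u => wordSum_unip _ (fun b u => hcu b u _) b u),
      smul_smul, smul_smul, ← FLTAgent.LanglandsTunnell.diagUnit_mul,
      ← FLTAgent.LanglandsTunnell.diagUnit_mul]
    set q : ℝ := Real.sqrt (Ideal.absNorm (K.prime x)) with hq
    have hq0 : q ≠ 0 := (K.sqrt_absNorm_pos x).ne'
    have hqq : (Ideal.absNorm (K.prime x) : ℂ) = (q : ℂ) * q := by
      rw [← Complex.ofReal_mul, hq, Real.mul_self_sqrt (Nat.cast_nonneg _), Complex.ofReal_natCast]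
    have hp : ∀ z : ℤ, K.piPow (Finsupp.single x z + k) = K.unif x ^ z * K.piPow k := fun z => by
      rw [K.piPow_add, piPow, Finsupp.prod_single_index (zpow_zero _)]
    have hs : ∀ z : ℤ, K.scale (Finsupp.single x z + k) s =
        ((q ^ z : ℝ) : ℂ) * K.scale k s := fun z => by
      conv_lhs => rw [← zero_add s, K.scale_add]
      congr 1
      simp [scale, Finsupp.prod_single_index, hq]
    have hi : ∀ z : ℤ, K.img (Finsupp.single x z + k) s = z • K.e x + K.img k s := fun z => by
      conv_lhs => rw [← zero_add s, K.img_add, K.img_single]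
    have h1 := ih (Finsupp.single x 1 + k)
    have h2 := ih (Finsupp.single x (-1) + k)
    rw [hp, hs, hi, zpow_one, zpow_one, one_zsmul] at h1
    rw [hp, hs, hi, _root_.zpow_neg_one, _root_.zpow_neg_one, neg_one_zsmul] at h2
    rw [signSum, sub_eq_add_neg, add_comm (K.img k s), add_comm (K.img k s), mul_add,
      show K.wordScale (x :: l) = (q : ℂ) * K.wordScale l by simp [wordScale, hq],
      mul_assoc (q : ℂ), mul_add (K.wordScale l), ← h1, ← h2, hqq]
    have : (q : ℂ) ≠ 0 := Complex.ofReal_ne_zero.mpr hq0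
    push_cast
    field_simp

omit [Fintype κ] in
theorem word_zero (hn : n ≠ ⊥) {c : FinPt F n → (ι → ℝ) → ℂ}
    (hcu : ∀ (b : AF F) v ξ, c (upperUnip b • v) ξ = c v ξ) (hc : K.Respects c) (v : FinPt F n)
    (ξ : ι → ℝ) (s : κ → ℝ) (l : List X) :
    (Real.exp (-∑ i, K.L s i) : ℂ) * wordSum n (l.map K.prime) v (fun u => c u (ξ + K.L s))
      = K.wordScale l * signSum K.e (K.psi c v ξ) l (K.S s) := by
  have h := K.word_moved hn hcu hc v ξ s l 0
  simp only [scale, piPow, img, Finsupp.prod_zero_index, Finsupp.sum_zero_index, zero_add,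
    Complex.ofReal_one, one_mul] at h
  have h1 : diagUnit (1 : (AF F)ˣ) = 1 := by
    apply Units.ext; ext i j
    fin_cases i <;> fin_cases j <;> simp [diagUnit]
  rwa [h1, one_smul] at h

/-- The terms of a formal combination. -/
def termsOf [DecidableEq κ] (A : Formal X κ) (G : (X →₀ ℕ) × (κ → ℝ) → ι → ℝ → ℂ)
    (w : (X →₀ ℕ) × (κ → ℝ) → List X) : Comb F ι :=
  A.coeff.support.toList.map fun m => ⟨A.coeff m * (K.wordScale (w m))⁻¹, (w m).map K.prime, G m⟩

omit [Fintype κ] in
theorem fine_termsOf [DecidableEq κ] (A : Formal X κ) {G : (X →₀ ℕ) × (κ → ℝ) → ι → ℝ → ℂ}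
    (hG : ∀ m, WeightsOK (G m)) (w : (X →₀ ℕ) × (κ → ℝ) → List X) : Fine n (K.termsOf A G w) := by
  intro T hT
  obtain ⟨m, -, rfl⟩ := List.mem_map.mp hT
  refine ⟨hG m, fun p hp => ?_⟩
  obtain ⟨x, -, rfl⟩ := List.mem_map.mp hp
  exact K.ok x

/-- The vanishing of the constant term. -/
theorem ctLog_termsOf [DecidableEq κ] (hn : n ≠ ⊥) {Φ : PlaceChoice F ι} {f : Pt F ι n → ℂ}
    (hf : InvCts Φ f) (hres : K.Respects (ctLog Φ f)) {A : Formal X κ}
    (himg : image K.e K.S A = 0) (hflip : ∀ ε, flipAlg ε A = A) {G₀ : ℝ → ℝ} (hG₀ : Continuous G₀)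
    (hG₀s : HasCompactSupport G₀) {G : (X →₀ ℕ) × (κ → ℝ) → ι → ℝ → ℂ}
    (hG : ∀ m, WeightsOK (G m))
    (hrad : ∀ m, Radial (G m) (avgShift G₀ m.2) K.L) (w : (X →₀ ℕ) × (κ → ℝ) → List X)
    (hw : ∀ m, (w m).Perm (wordOf m.1)) (v : FinPt F n) (ξ : ι → ℝ) :
    ctLog Φ (Kernel.op ((K.termsOf A G w).kernel n) f) v ξ = 0 := by
  classical
  rw [ctLog_op hn hf (K.fine_termsOf A hG w), termsOf, List.map_map, Finset.sum_map_toList]
  set c := ctLog Φ f with hc
  have hcc : ∀ u, Continuous (c u) := continuous_ctLog hf hn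
  have hok : ∀ m, ∀ p ∈ (w m).map K.prime, OKPrime n p := fun m p hp => by
    obtain ⟨x, -, rfl⟩ := List.mem_map.mp hp; exact K.ok x
  set h : (X →₀ ℕ) × (κ → ℝ) → (κ → ℝ) → ℂ := fun m s =>
    signSum K.e (K.psi c v ξ) (wordOf m.1) (K.S s) with hh
  have hheq : ∀ m s, h m s = (K.wordScale (w m))⁻¹ * ((Real.exp (-∑ i, K.L s i) : ℂ) *
      wordSum n ((w m).map K.prime) v (fun u => c u (ξ + K.L s))) := fun m s => by
    rw [K.word_zero hn (fun b u η => ctLog_unip hf hn b u η) hres, ← mul_assoc,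
      inv_mul_cancel₀ (K.wordScale_ne_zero _), one_mul, signSum_perm _ _ (hw m)]
  have hhc : ∀ m, Continuous (h m) := fun m => by
    rw [funext (hheq m)]
    simp only [wordSum_eq_sum (s := (finite_wordKernel hn (hok m) v).toFinset)
      (fun u hu => by simpa using hu)]
    exact continuous_const.mul ((Complex.continuous_ofReal.comp (Real.continuous_exp.comp
      (continuous_finsetSum _ fun i _ => (continuous_apply i).comp K.L.continuous).neg)).mul
      (continuous_finsetSum _ fun u _ => continuous_const.mul ((hcc u).comp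
        (continuous_const.add K.L.continuous))))
  set B : (κ → ℝ) → ℂ := fun s => ∏ j, (G₀ (s j) : ℂ) with hB
  have hBc : Continuous B := continuous_finsetProd _ fun j _ =>
    Complex.continuous_ofReal.comp (hG₀.comp (continuous_apply j))
  have hBs : HasCompactSupport B := by
    refine HasCompactSupport.intro (K := Set.univ.pi fun _ => tsupport G₀)
      (isCompact_univ_pi fun _ => hG₀s) fun s hs => ?_
    rw [Set.mem_univ_pi, not_forall] at hs
    obtain ⟨j, hj⟩ := hs
    exact Finset.prod_eq_zero (Finset.mem_univ j) (by simp [image_eq_zero_of_notMem_tsupport hj])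
  have hint : ∀ (m : (X →₀ ℕ) × (κ → ℝ)) (a : κ → ℝ),
      Integrable fun s => B s * h m (s + a) := fun m a =>
    (hBc.mul ((hhc m).comp (continuous_id.add continuous_const))).integrable_of_hasCompactSupport
      hBs.mul_right
  have hint' : ∀ (m : (X →₀ ℕ) × (κ → ℝ)) (a : κ → ℝ),
      Integrable fun s => B (s - a) * h m s := fun m a => by
    have := (hint m a).comp_sub_right a
    simpa using this
  have hterm : ∀ m, A.coeff m * (K.wordScale (w m))⁻¹ * wordSum n ((w m).map K.prime) v (fun u =>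
      infOp (G m) (fun Q => c u fun i => Real.log (Q i).t) (axisPts ξ))
      = ((1 / 2 : ℂ) ^ Fintype.card κ) * ∑ ε : κ → Bool,
          ∫ s : κ → ℝ, B s * (A.coeff m * h m (s + flipVec ε m.2)) := by
    intro m
    have hR : ∀ u, infOp (G m) (fun Q => c u fun i => Real.log (Q i).t) (axisPts ξ)
        = ∫ s : κ → ℝ, avgShift G₀ m.2 s * (Real.exp (-∑ i, K.L s i) : ℂ) * c u (ξ + K.L s) :=
      fun u => hrad m (c u) (hcc u) ξ
    have hsupp : HasCompactSupport (avgShift G₀ m.2) := by
      simp only [funext (avgShift_eq G₀ m.2)]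
      refine HasCompactSupport.mul_left ?_
      refine HasCompactSupport.intro
        (K := ⋃ ε : κ → Bool, (fun s => s + flipVec ε m.2) '' tsupport B)
        (isCompact_iUnion fun ε => hBs.image (continuous_id.add continuous_const)) fun s hs => ?_
      refine Finset.sum_eq_zero fun ε _ => image_eq_zero_of_notMem_tsupport (f := B)
        (x := s - flipVec ε m.2) fun hmem => hs ?_
      exact Set.mem_iUnion.mpr ⟨ε, _, hmem, sub_add_cancel _ _⟩
    have hac : Continuous (avgShift G₀ m.2) := continuous_finsetProd _ fun j _ =>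
      Complex.continuous_ofReal.comp (((hG₀.comp ((continuous_apply j).sub continuous_const)).add
        (hG₀.comp ((continuous_apply j).add continuous_const))).div_const _)
    set S₀ := (finite_wordKernel hn (hok m) v).toFinset
    have hS₀ : Function.support (wordKernel n ((w m).map K.prime) v) ⊆ S₀ := fun u hu => by
      simpa [S₀] using hu
    have e1 : A.coeff m * (K.wordScale (w m))⁻¹ * wordSum n ((w m).map K.prime) v (fun u =>
        infOp (G m) (fun Q => c u fun i => Real.log (Q i).t) (axisPts ξ))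
        = ∫ s : κ → ℝ, avgShift G₀ m.2 s * (A.coeff m * h m s) := by
      simp only [hR, hheq, wordSum_eq_sum hS₀, ← integral_const_mul, Finset.mul_sum]
      rw [← integral_finsetSum]
      · exact integral_congr_ae (Eventually.of_forall fun s => by
          exact Finset.sum_congr rfl fun u _ => by ring)
      · intro u _
        exact ((((hac.mul (Complex.continuous_ofReal.comp (Real.continuous_exp.comp
          (continuous_finsetSum _ fun i _ => (continuous_apply i).comp K.L.continuous).neg))).mul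
          ((hcc u).comp (continuous_const.add K.L.continuous))).integrable_of_hasCompactSupport
            hsupp.mul_right.mul_right).const_mul _).const_mul _
    rw [e1]
    have e2 : ∀ s, avgShift G₀ m.2 s * (A.coeff m * h m s) = ((1 / 2 : ℂ) ^ Fintype.card κ) *
        ∑ ε : κ → Bool, A.coeff m * (B (s - flipVec ε m.2) * h m s) := fun s => by
      rw [avgShift_eq, mul_assoc, Finset.sum_mul]
      congr 1
      exact Finset.sum_congr rfl fun ε _ => by simp only [hB, Pi.sub_apply]; ring
    simp only [e2]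
    rw [integral_const_mul, integral_finsetSum _ fun ε _ => (hint' m _).const_mul _]
    congr 1
    refine Finset.sum_congr rfl fun ε _ => ?_
    rw [← integral_add_right_eq_self _ (flipVec ε m.2)]
    exact integral_congr_ae (Eventually.of_forall fun s => by simp; ring)
  simp only [Function.comp_def]
  rw [Finset.sum_congr rfl fun m _ => hterm m, ← Finset.mul_sum, Finset.sum_comm]
  refine mul_eq_zero_of_right _ (Finset.sum_eq_zero fun ε _ => ?_)
  rw [← integral_finsetSum _ fun m _ => by
    simpa [mul_left_comm] using (hint m (flipVec ε m.2)).const_mul (A.coeff m)]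
  refine integral_eq_zero_of_ae (Eventually.of_forall fun s => ?_)
  simp only [Pi.zero_apply, ← Finset.mul_sum]
  refine mul_eq_zero_of_right _ ?_
  rw [sum_flip_eq (hflip ε) (fun m => h (m.1, 0) (s + m.2))]
  have := sum_signSum_eq_zero K.e K.S himg (K.psi c v ξ) (K.S s)
  simp only [← map_add] at this
  simpa [hh, add_comm s] using this

/-- The combination makes invariant functions cuspidal. -/
theorem isCuspidal_termsOf [DecidableEq κ] (hn : n ≠ ⊥) {Φ : PlaceChoice F ι} {f : Pt F ι n → ℂ}
    (hf : InvCts Φ f) (hres : K.Respects (ctLog Φ f)) {A : Formal X κ}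
    (himg : image K.e K.S A = 0) (hflip : ∀ ε, flipAlg ε A = A) {G₀ : ℝ → ℝ} (hG₀ : Continuous G₀)
    (hG₀s : HasCompactSupport G₀) {G : (X →₀ ℕ) × (κ → ℝ) → ι → ℝ → ℂ}
    (hG : ∀ m, WeightsOK (G m))
    (hrad : ∀ m, Radial (G m) (avgShift G₀ m.2) K.L) (w : (X →₀ ℕ) × (κ → ℝ) → List X)
    (hw : ∀ m, (w m).Perm (wordOf m.1)) :
    IsCuspidal Φ (Kernel.op ((K.termsOf A G w).kernel n) f) := by
  rw [isCuspidal_iff]
  intro v P m hm hfix
  have hC := K.fine_termsOf A hG w
  rw [ctMean_eq_ctLog ⟨op_invariant Φ hn _ hf.invariant,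
      continuous_op hn hC (LocI.of_continuous hf.continuous)⟩ hm hfix,
    K.ctLog_termsOf hn hf hres himg hflip hG₀ hG₀s hG hrad w hw]

end KillData

end FLTAgent.LanglandsTunnell.Killing
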